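import Fermat.Agent.LevelLowering.RatFun
import Fermat.Agent.BadRed.Toric.Eval

/-!
# Cusp sections, constants and the pair of glued points
-/

set_option autoImplicit false

noncomputable section

open AlgebraicCurve FLTA.BadRed

namespace FLTA.LevelLowering

variable {K : Type*} [Field K] {A : ValuationSubring K}
  {k : Type*} [Field k] {π : A →+* k} {q : ℕ} [NeZero q]
  {F : Type*} [Field F] [Algebra K F] {F' : Type*} [Field F'] [Algebra K F']
  {Fk : Type*} [Field Fk] [Algebra k Fk] {g gF : ℕ} (B : BadFibre A π q F F' Fk g gF)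

/-- The functions with poles only at the two cusps. -/
def secRing : Subring F where
  carrier := {x | ∃ m : ℕ, x ∈ riemannRochSpace (B.cuspDiv m)}
  mul_mem' := fun {x y} ⟨m, hx⟩ ⟨l, hy⟩ => ⟨m + l, by
    rw [mem_riemannRochSpace_iff] at hx hy ⊢
    intro v
    rcases eq_or_ne x 0 with rfl | hx0
    · exact Or.inl (zero_mul y)
    rcases eq_or_ne y 0 with rfl | hy0
    · exact Or.inl (mul_zero x)
    refine Or.inr ?_
    rw [v.ord_mul hx0 hy0, BadFibre.cuspDiv_add, Finsupp.add_apply]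
    have h1 := (hx v).resolve_left hx0
    have h2 := (hy v).resolve_left hy0
    omega⟩
  one_mem' := ⟨0, by
    rw [mem_riemannRochSpace_iff]
    exact fun v => Or.inr (by simp [BadFibre.cuspDiv])⟩
  add_mem' := fun {x y} ⟨m, hx⟩ ⟨l, hy⟩ => ⟨max m l, by
    have h : ∀ a b : ℕ, a ≤ b → ∀ z ∈ riemannRochSpace (B.cuspDiv a),
        z ∈ riemannRochSpace (B.cuspDiv b) := fun a b hab z hz => by
      rw [mem_riemannRochSpace_iff] at hz ⊢
      intro v
      have h1 : B.cuspDiv a v ≤ B.cuspDiv b v := BadFibre.cuspDiv_mono B hab v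
      exact (hz v).imp id fun h => by omega
    exact add_mem (h _ _ (le_max_left _ _) x hx) (h _ _ (le_max_right _ _) y hy)⟩
  zero_mem' := ⟨0, zero_mem _⟩
  neg_mem' := fun {x} ⟨m, hx⟩ => ⟨m, neg_mem hx⟩

theorem mem_secRing_iff {x : F} :
    x ∈ secRing B ↔ ∃ m : ℕ, x ∈ riemannRochSpace (B.cuspDiv m) := Iff.rfl

theorem mem_riemannRochSpace_mono {a b : ℕ} (hab : a ≤ b) {z : F}
    (hz : z ∈ riemannRochSpace (B.cuspDiv a)) : z ∈ riemannRochSpace (B.cuspDiv b) := by
  rw [mem_riemannRochSpace_iff] at hz ⊢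
  intro v
  have h1 : B.cuspDiv a v ≤ B.cuspDiv b v := BadFibre.cuspDiv_mono B hab v
  exact (hz v).imp id fun h => by omega

theorem algebraMap_mem_secRing (c : K) : algebraMap K F c ∈ secRing B :=
  ⟨0, by
    rw [mem_riemannRochSpace_iff]
    exact fun v => Or.inr (by rw [FLTA.Curves.ord_algebraMap]; simp [BadFibre.cuspDiv])⟩

theorem w_mem_secRing {x : F} (hx : x ∈ secRing B) : B.w x ∈ secRing B :=
  hx.imp fun _ h => BadFibre.w_mem_riemannRochSpace B h

/-- The point of the component `i` over the glued place `Q`. -/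
def pt (Q : Place k Fk) (i : Fin 2) : Place k Fk := ![Q, B.frobq • Q] i

@[simp] theorem pt_zero (Q : Place k Fk) : pt B Q 0 = Q := rfl

@[simp] theorem pt_one (Q : Place k Fk) : pt B Q 1 = B.frobq • Q := rfl

variable {B}

theorem ord_pt_of_fixed {x : Fk} (hx : B.frobq • x = x) (Q : Place k Fk) (i : Fin 2) :
    (pt B Q i).ord x = Q.ord x := by
  fin_cases i
  · rfl
  · show (B.frobq • Q).ord x = _
    conv_lhs => rw [← hx]
    exact SemilinearAut.ord_smul B.frobq Q x

namespace RatFrame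

variable (R : RatFrame B)

theorem mem_BL_w {x : F} (hx : x ∈ R.BL) : B.w x ∈ R.BL :=
  ⟨R.w_mem hx.1, fun i => by
    fin_cases i
    · exact hx.2 1
    · simpa [B.w_w] using hx.2 0⟩

theorem vs_w (x : F) : R.vs 0 (B.w x) = R.vs 1 x ∧ R.vs 1 (B.w x) = R.vs 0 x := by
  refine ⟨rfl, ?_⟩
  simp [vs, B.w_w]

theorem mem_BL_of_secRing {x : F} (hx : x ∈ R.FL) (hs : x ∈ secRing B) : x ∈ R.BL := by
  obtain ⟨m, hm⟩ := hs
  exact R.mem_BL_of_section hx hm

theorem e_algebraMap (i : Fin 2) (c : K) : B.e i (algebraMap K F c) = HahnSeries.C c := by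
  rw [AlgHom.commutes, ModularCurve.algebraMap_laurentSeries_eq_single]
  rfl

theorem isVal_algebraMap (i : Fin 2) (n : ℤ) (u : A) (hu : π u ≠ 0) :
    R.toFrame.IsVal (B.e i (algebraMap K F (R.ϖ ^ n * u))) n ∧
      R.toFrame.lead (B.e i (algebraMap K F (R.ϖ ^ n * u))) = HahnSeries.C (π u) := by
  obtain ⟨h1, l1⟩ := R.toFrame.isVal_zpow n
  obtain ⟨h2, l2⟩ := R.toFrame.isVal_C_unit u hu
  obtain ⟨h, hr⟩ := h1.mul R.toFrame h2
  rw [e_algebraMap, map_mul]
  rw [add_zero] at h hr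
  refine ⟨h, ?_⟩
  rw [h.lead_eq R.toFrame, hr, ← h1.lead_eq R.toFrame, ← h2.lead_eq R.toFrame, l1, l2, one_mul]

theorem vs_algebraMap (i : Fin 2) (n : ℤ) (u : A) (hu : π u ≠ 0) :
    R.vs i (algebraMap K F (R.ϖ ^ n * u)) = n :=
  (R.isVal_algebraMap i n u hu).1.val_eq R.toFrame

section Lead

variable [IsAlgClosed K] [CharZero K] [IsAlgClosed k] [Fact q.Prime] [CharP k q]

theorem ld_w {x : F} (hx : x ∈ R.BL) (hx0 : x ≠ 0) :
    R.ld 0 (B.w x) = R.ld 1 x ∧ R.ld 1 (B.w x) = R.ld 0 x := by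
  refine ⟨rfl, ?_⟩
  classical
  have h : B.e 1 (B.w x) = B.e 0 x := congrArg B.ex (B.w_w x)
  exact congrArg (fun y => if h : ∃ p : Fk, B.exk p = R.toFrame.lead y then h.choose else 0) h

theorem ld_algebraMap (i : Fin 2) (n : ℤ) {u : A} (huL : (u : K) ∈ R.L) (hu : π u ≠ 0) :
    R.ld i (algebraMap K F (R.ϖ ^ n * u)) = algebraMap k Fk (π u) := by
  have hu0 : (u : K) ≠ 0 := fun h => hu (by rw [show u = 0 from Subtype.ext h, map_zero])
  apply B.exk.toRingHom.injective
  show B.exk _ = B.exk _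
  rw [R.exk_ld i (R.algebraMap_mem_BL (mul_mem (zpow_mem R.ϖ_mem n) huL))
      ((map_ne_zero (algebraMap K F)).mpr (mul_ne_zero (zpow_ne_zero n R.ϖ_ne_zero) hu0)),
    (R.isVal_algebraMap i n u hu).2, AlgHom.commutes,
    ModularCurve.algebraMap_laurentSeries_eq_single]
  rfl

theorem ord_ld_algebraMap_zpow (i : Fin 2) (n : ℤ) (Q : Place k Fk) :
    Q.ord (R.ld i (algebraMap K F (R.ϖ ^ n))) = 0 := by
  rw [R.ld_algebraMap_zpow i n, Place.ord_one]

/-- A section integral on both sides whose `j`-side vanishes has a zero at the glued points. -/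
theorem ord_pos_of_glue {S : Finset (Place k Fk)} {m₀ : ℕ} (hS : B.IsGluing S m₀) {z : F}
    (hz : z ∈ R.BL) (hz0 : z ≠ 0) (hsec : z ∈ secRing B) {i j : Fin 2} (hij : i ≠ j)
    (hi : R.vs i z = 0) (hj : 0 < R.vs j z) {Q : Place k Fk} (hQ : Q ∈ S) :
    0 < (pt B Q i).ord (R.ld i z) := by
  obtain ⟨m, hm⟩ := hsec
  have hnn : ∀ l, 0 ≤ R.vs l z := fun l => by
    fin_cases l <;> fin_cases i <;> fin_cases j <;> simp_all <;> omega
  have hred := R.isRed_of_vs_nonneg hz hz0 hnn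
  set p : Fin 2 → Fk := fun l => if R.vs l z = 0 then R.ld l z else 0 with hp
  have hmem : p ∈ B.fibreSections (max m m₀) :=
    ⟨z, mem_riemannRochSpace_mono B (le_max_left _ _) hm, hred⟩
  obtain ⟨hL, hglue⟩ := (hS.mem_iff _ (le_max_right _ _) p).mp hmem
  have hpi : p i = R.ld i z := by simp [hp, hi]
  have hpj : p j = 0 := by simp [hp, hj.ne']
  have hne : ∀ l, pt B Q l ≠ B.infk := fun l => by
    fin_cases l
    · exact fun h => hS.infk_notMem (h ▸ hQ)
    · exact hS.smul_ne Q hQ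
  have h0 : BadFibre.placeVal (pt B Q i) (p i) = 0 := by
    have h := hglue Q hQ
    fin_cases i <;> fin_cases j
    · exact absurd rfl hij
    · show BadFibre.placeVal Q (p 0) = 0
      rw [h, show p 1 = 0 from hpj, BadFibre.placeVal_zero (B.rrk.deg_eq_one _)]
    · show BadFibre.placeVal (B.frobq • Q) (p 1) = 0
      rw [← h, show p 0 = 0 from hpj, BadFibre.placeVal_zero (B.rrk.deg_eq_one _)]
    · exact absurd rfl hij
  rw [BadFibre.placeVal_eq_zero_iff (B.rrk.deg_eq_one _)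
    (BadFibre.mem_of_mem_single (hL i) (hne i)), hpi] at h0
  exact h0.resolve_left (R.ld_ne_zero i hz hz0)

end Lead

end RatFrame

end FLTA.LevelLowering

end
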