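import Fermat.Agent.LevelLowering.HeckeSeries
import Fermat.Agent.LevelLowering.Sections

/-!
# `T_l` on the two components of the bad fibre

`HeckeData B l`: multiplicative operators `T` on `F` and `Tk` on `Fk` given on expansions by the
series form of `T_l`, with `T` commuting with `w`.  Then `T` commutes with the symmetries, keeps
reductions, and on rational bounded functions multiplies valuations by `l + 1` and acts by `Tk` on
leading parts.
-/

set_option autoImplicit false

noncomputable section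

open AlgebraicCurve ModularCurve FLTA.BadRed FLTA.Congruence

namespace FLTA.LevelLowering

variable {K : Type*} [Field K] {A : ValuationSubring K}
  {k : Type*} [Field k] {π : A →+* k} {q : ℕ} [NeZero q]
  {F : Type*} [Field F] [Algebra K F] {F' : Type*} [Field F'] [Algebra K F']
  {Fk : Type*} [Field Fk] [Algebra k Fk] {g gF : ℕ}

/-- `T_l` on a bad fibre. -/
structure HeckeData (B : BadFibre A π q F F' Fk g gF) (l : ℕ) [NeZero l] where
  /-- an `l`-th root of unity -/
  ζ : Aˣ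
  primitive : IsPrimitiveRoot (Units.map (A.subtype : A →* K) ζ) l
  /-- the operator -/
  T : F →* F
  /-- the reduced operator -/
  Tk : Fk →* Fk
  T_w : ∀ x, B.w (T x) = T (B.w x)
  ex_T : ∀ x, IsHeckeImage l (Units.map (A.subtype : A →* K) ζ) (B.ex x) (B.ex (T x))
  exk_Tk : ∀ x, IsHeckeImage l (Units.map (π : A →* k) ζ) (B.exk x) (B.exk (Tk x))

namespace HeckeData

variable {B : BadFibre A π q F F' Fk g gF} {l : ℕ} [NeZero l] (H : HeckeData B l)

theorem e_T (i : Fin 2) (x : F) :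
    IsHeckeImage l (Units.map (A.subtype : A →* K) H.ζ) (B.e i x) (B.e i (H.T x)) := by
  fin_cases i
  · exact H.ex_T x
  · show IsHeckeImage l _ (B.ex (B.w x)) (B.ex (B.w (H.T x)))
    rw [H.T_w]
    exact H.ex_T _

theorem Tk_eq {x y : Fk} (h : IsHeckeImage l (Units.map (π : A →* k) H.ζ) (B.exk x) (B.exk y)) :
    H.Tk x = y :=
  B.exk.toRingHom.injective ((H.exk_Tk x).eq h)

theorem T_eq {x y : F}
    (h : IsHeckeImage l (Units.map (A.subtype : A →* K) H.ζ) (B.ex x) (B.ex y)) : H.T x = y :=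
  B.ex.toRingHom.injective ((H.ex_T x).eq h)

theorem T_ne_zero {x : F} (hx : x ≠ 0) : H.T x ≠ 0 := fun h0 =>
  (H.ex_T x).ne_zero ((map_ne_zero B.ex).mpr hx) (by rw [h0, map_zero])

theorem Tk_ne_zero {x : Fk} (hx : x ≠ 0) : H.Tk x ≠ 0 := fun h0 =>
  (H.exk_Tk x).ne_zero ((map_ne_zero B.exk).mpr hx) (by rw [h0, map_zero])

theorem T_algebraMap (c : K) : H.T (algebraMap K F c) = algebraMap K F (c ^ (l + 1)) := by
  refine H.T_eq ?_
  rw [AlgHom.commutes, AlgHom.commutes, ModularCurve.algebraMap_laurentSeries_eq_single,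
    ModularCurve.algebraMap_laurentSeries_eq_single]
  exact isHeckeImage_C c

theorem Tk_algebraMap (c : k) : H.Tk (algebraMap k Fk c) = algebraMap k Fk (c ^ (l + 1)) := by
  refine H.Tk_eq ?_
  rw [AlgHom.commutes, AlgHom.commutes, ModularCurve.algebraMap_laurentSeries_eq_single,
    ModularCurve.algebraMap_laurentSeries_eq_single]
  exact isHeckeImage_C c

/-- Reductions go to reductions. -/
theorem hasRed_T {i : Fin 2} {x : F} {p : Fk} (h : B.HasRed i x p) :
    B.HasRed i (H.T x) (H.Tk p) := by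
  obtain ⟨a, b, ha, hb, hb0, hxb, hred⟩ := h
  obtain ⟨haT, hra⟩ := (H.e_T i a).red (π := π) ha
  obtain ⟨hbT, hrb⟩ := (H.e_T i b).red (π := π) hb
  refine ⟨H.T a, H.T b, haT, hbT, hrb.ne_zero hb0, by rw [← map_mul, hxb], ?_⟩
  exact ((H.exk_Tk p).mul hrb).eq (hred.symm ▸ hra)

/-- `T` commutes with the symmetries. -/
theorem smul_T (s : B.Sym) (x : F) : s.σ • H.T x = H.T (s.σ • x) := by
  refine (H.T_eq ?_).symm
  set b : K →+* K := (SemilinearAut.baseAut s.σ : K ≃+* K).toRingHom with hb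
  have hco : ∀ y : F, B.ex (s.σ • y) = ModularCurve.coeffMap b (B.ex y) := fun y => by
    ext i
    rw [s.ex_σ]
    rfl
  have h := (H.ex_T x).coeffMap b
  rw [← hco, ← hco] at h
  set u : Kˣ := Units.map (A.subtype : A →* K) H.ζ with hu
  have hu' : IsPrimitiveRoot (Units.map (b : K →* K) u) l :=
    H.primitive.map_of_injective (Units.map_injective b.injective)
  unfold IsHeckeImage at h ⊢
  rw [h, conjProd_eq_of_isPrimitiveRoot H.primitive hu']

variable (R : RatFrame B)

theorem T_mem_FL {x : F} (hx : x ∈ R.FL) : H.T x ∈ R.FL := fun s hs => by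
  rw [H.smul_T, hx s hs]

theorem T_mem_BL {x : F} (hx : x ∈ R.BL) : H.T x ∈ R.BL := by
  refine ⟨H.T_mem_FL R hx.1, fun i => ?_⟩
  obtain ⟨c, hc, hint⟩ := hx.2 i
  refine ⟨c ^ (l + 1), by rw [SubmonoidClass.coe_pow]; exact pow_ne_zero _ hc, ?_⟩
  rw [smul_eq_C_mul] at hint ⊢
  rw [SubmonoidClass.coe_pow]
  exact (((isHeckeImage_C (c : K)).mul (H.e_T i x)).red (π := π) hint).1

theorem isVal_T (i : Fin 2) {x : F} (hx : x ∈ R.BL) (hx0 : x ≠ 0) :
    R.toFrame.IsVal (B.e i (H.T x)) ((l + 1) * R.vs i x) ∧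
      IsHeckeImage l (Units.map (π : A →* k) H.ζ) (R.toFrame.lead (B.e i x))
        (R.toFrame.lead (B.e i (H.T x))) :=
  R.toFrame.isVal_heckeImage (R.isVal_vs i hx hx0) (H.e_T i x)

theorem vs_T (i : Fin 2) {x : F} (hx : x ∈ R.BL) (hx0 : x ≠ 0) :
    R.vs i (H.T x) = (l + 1) * R.vs i x :=
  (H.isVal_T R i hx hx0).1.val_eq R.toFrame

variable [IsAlgClosed K] [CharZero K] [IsAlgClosed k] [Fact q.Prime] [CharP k q]

/-- `T` acts by `Tk` on leading parts. -/
theorem ld_T (i : Fin 2) {x : F} (hx : x ∈ R.BL) (hx0 : x ≠ 0) :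
    R.ld i (H.T x) = H.Tk (R.ld i x) := by
  refine (H.Tk_eq ?_).symm
  rw [R.exk_ld i hx hx0, R.exk_ld i (H.T_mem_BL R hx) (H.T_ne_zero hx0)]
  exact (H.isVal_T R i hx hx0).2

end HeckeData

end FLTA.LevelLowering

end
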