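import Fermat.Agent.LevelLowering.LocalFreyPlace
import Fermat.Agent.EllReducible.Line
import Fermat.Agent.EllTorsion.WeilDet
import Fermat.Agent.Wiring.FreyModel

/-!
# The inertia line in `E[p]` of the Frey curve at a place over `p ∣ abc`
-/

set_option autoImplicit false

open WeierstrassCurve WeierstrassCurve.Affine.Point

open scoped WeierstrassCurve.Affine

namespace FLTA.LevelLowering

open FLTA.EllReducible (Tors)

theorem freyCurve_Δ_ne_zero (P : FreyPackage) : P.freyCurve.Δ ≠ 0 := by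
  rw [← FLTA.Wiring.freyCurveInt_map_rat, WeierstrassCurve.map_Δ]
  simpa using FLTA.Wiring.freyCurveInt_Δ_ne_zero P

/-- An endomorphism of a plane preserving a line, trivial on the quotient: its determinant is its
eigenvalue on the line. -/
theorem eq_det_smul_of_line {p : ℕ} [Fact p.Prime] {V : Type*} [AddCommGroup V] [Module (ZMod p) V]
    (hV : Module.finrank (ZMod p) V = 2) {N : Submodule (ZMod p) V} (hN : N ≠ ⊤)
    (f : Module.End (ZMod p) V) (hf : ∀ v, f v - v ∈ N) {x : V} (hx : x ∈ N) :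
    f x = LinearMap.det f • x := by
  rcases eq_or_ne x 0 with rfl | hx0
  · simp
  have : Module.Finite (ZMod p) V := Module.finite_of_finrank_eq_succ hV
  have hspan := FLTA.EllReducible.span_singleton_eq hV hN hx hx0
  obtain ⟨u, hu⟩ : ∃ u, u ∉ N := by
    by_contra h
    push Not at h
    exact hN (Submodule.eq_top_iff'.mpr h)
  have hli : LinearIndependent (ZMod p) ![x, u] := by
    rw [LinearIndependent.pair_iff' hx0]
    intro a ha
    exact hu (ha ▸ N.smul_mem a hx)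
  let B : Module.Basis (Fin 2) (ZMod p) V :=
    basisOfLinearIndependentOfCardEqFinrank hli (by simp [hV])
  have hB : ∀ i, B i = ![x, u] i := fun i => by simp [B]
  obtain ⟨a, ha⟩ : ∃ a : ZMod p, f x = a • x := by
    have hfx : f x ∈ N := by simpa using N.add_mem (hf x) hx
    obtain ⟨a, ha⟩ := Submodule.mem_span_singleton.mp (hspan.symm ▸ hfx)
    exact ⟨a, ha.symm⟩
  obtain ⟨c, hc⟩ : ∃ c : ZMod p, f u = c • x + u := by
    obtain ⟨c, hc⟩ := Submodule.mem_span_singleton.mp (hspan.symm ▸ hf u)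
    exact ⟨c, by rw [hc, sub_add_cancel]⟩
  have h0 : f (B 0) = a • B 0 + (0 : ZMod p) • B 1 := by
    rw [hB, hB]; simpa using ha
  have h1 : f (B 1) = c • B 0 + (1 : ZMod p) • B 1 := by
    rw [hB, hB]; simpa using hc
  rw [← LinearMap.det_toMatrix B, Matrix.det_fin_two, LinearMap.toMatrix_apply,
    LinearMap.toMatrix_apply, LinearMap.toMatrix_apply, LinearMap.toMatrix_apply, h0, h1]
  simp [ha]

namespace FreyPlace

variable {P : FreyPackage} {A : ValuationSubring (AlgebraicClosure ℚ)} (D : FreyPlace P A)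

include D

/-- The line: `p`-torsion in the kernel of reduction. -/
noncomputable def line [Fact P.p.Prime] : Submodule (ZMod P.p) (Tors P.freyCurve P.p) :=
  AddSubgroup.toZModSubmodule P.p
    ((FLTA.EllReduction.E1 D.integralAt).comap (Tors P.freyCurve P.p).subtype.toAddMonoidHom)

variable [Fact P.p.Prime]

theorem mem_line {T : Tors P.freyCurve P.p} :
    T ∈ D.line ↔ (T : FreyPt P) ∈ FLTA.EllReduction.E1 D.integralAt := Iff.rfl

omit D [Fact P.p.Prime] in
theorem nsmul_tors (T : Tors P.freyCurve P.p) : P.p • (T : FreyPt P) = 0 := by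
  have := (Submodule.mem_torsionBy_iff _ _).mp T.2
  rwa [← natCast_zsmul]

theorem line_ne : D.line ≠ ⊥ ∧ D.line ≠ ⊤ := by
  obtain ⟨⟨T, hT, hpT, hneg⟩, ⟨T', hT', hpT', hpos⟩, -⟩ := D.torsion_shape
  have mk : ∀ U : FreyPt P, P.p • U = 0 → U ∈ Tors P.freyCurve P.p := fun U hU =>
    (Submodule.mem_torsionBy_iff _ _).mpr (by rwa [natCast_zsmul])
  constructor
  · intro h
    have : (⟨T, mk T hpT⟩ : Tors P.freyCurve P.p) ∈ (⊥ : Submodule (ZMod P.p) _) :=
      h ▸ D.mem_line.mpr ((D.mem_kernel_iff hT hpT).mpr hneg)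
    exact hT (congrArg Subtype.val ((Submodule.mem_bot _).mp this))
  · intro h
    have : (⟨T', mk T' hpT'⟩ : Tors P.freyCurve P.p) ∈ D.line := h ▸ Submodule.mem_top
    exact absurd ((D.mem_kernel_iff hT' hpT').mp (D.mem_line.mp this)) (not_lt.mpr hpos)

theorem intMult {T : Tors P.freyCurve P.p} (hT : T ∉ D.line) :
    IntMult D.C P.p D.w (T : FreyPt P) := by
  have hT0 : (T : FreyPt P) ≠ 0 := fun h => hT (D.mem_line.mpr (by rw [h]; exact zero_mem _))
  intro k h1 h2
  by_contra hneg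
  rw [not_le] at hneg
  have hk0 : k • (T : FreyPt P) ≠ 0 := D.S.nsmul_ne (nsmul_tors T) hT0 h1 h2
  have hmem : (k : ZMod P.p) • T ∈ D.line := by
    rw [Nat.cast_smul_eq_nsmul, D.mem_line]
    exact (D.mem_kernel_iff hk0 (D.S.torsion_smul (nsmul_tors T) k)).mpr hneg
  have hk : (k : ZMod P.p) ≠ 0 := by
    rw [Ne, CharP.cast_eq_zero_iff (ZMod P.p) P.p]
    exact fun h => absurd (Nat.le_of_dvd h1 h) (not_le.mpr h2)
  exact hT (by simpa [smul_smul, inv_mul_cancel₀ hk] using D.line.smul_mem (k : ZMod P.p)⁻¹ hmem)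

theorem move_tors {σ : AlgebraicClosure ℚ ≃ₐ[ℚ] AlgebraicClosure ℚ}
    (hσ : σ ∈ A.inertiaSubgroupIn ℚ) {T : Tors P.freyCurve P.p} (hT : T ∉ D.line)
    (hne : σ • T ≠ T) :
    σ • T - T ∈ D.line ∧ ∃ i : ℤ, D.w (D.C.X T) = i ∧
      σ (D.C.X T) - D.C.X T ≠ 0 ∧
      (D.w (σ (D.C.X T) - D.C.X T) - i) * ((P.p : ℚ) - 1) ≤ 1 := by
  have hT0 : (T : FreyPt P) ≠ 0 := fun h => hT (D.mem_line.mpr (by rw [h]; exact zero_mem _))
  obtain ⟨i, hi, hd, hR0, hRneg, hR⟩ := D.move hσ (nsmul_tors T) hT0 (D.intMult hT)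
    (nsmul_tors (σ • T)) (fun h => hne (Subtype.ext h))
  have hpR : P.p • (σ • (T : FreyPt P) - T) = 0 := nsmul_tors (σ • T - T)
  have hsX := (D.coord_smul σ hT0).1
  rw [hsX] at hd hR
  refine ⟨D.mem_line.mpr ((D.mem_kernel_iff hR0 hpR).mpr hRneg), i, hi, hd, ?_⟩
  have := D.torsion_shape.2.2 _ hR0 hpR hRneg
  rw [hR] at this
  linarith

theorem sub_mem_line {σ : AlgebraicClosure ℚ ≃ₐ[ℚ] AlgebraicClosure ℚ}
    (hσ : σ ∈ A.inertiaSubgroupIn ℚ) (T : Tors P.freyCurve P.p) : σ • T - T ∈ D.line := by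
  by_cases hT : T ∈ D.line
  · refine D.line.sub_mem ?_ hT
    rw [D.mem_line] at hT ⊢
    rcases eq_or_ne (T : FreyPt P) 0 with h | h
    · show σ • (T : FreyPt P) ∈ _
      rw [h]
      exact (FLTA.EllReduction.E1 D.integralAt).zero_mem
    · have hs : σ • (T : FreyPt P) ≠ 0 := fun e =>
        h (Affine.Point.map_injective (f := σ.toAlgHom) (e.trans (_root_.map_zero _).symm))
      have hX := (D.S.X_ne (nsmul_tors T) h).1
      refine (D.mem_kernel_iff hs (nsmul_tors (σ • T))).mpr ?_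
      have hX' : D.C.X (σ • (T : FreyPt P)) ≠ 0 := (D.S.X_ne (nsmul_tors (σ • T)) hs).1
      rw [← not_le, ← D.S.hw.mem_iff hX',
        (D.coord_smul σ h).1]
      intro hA
      have hneg := (D.mem_kernel_iff h (nsmul_tors T)).mp hT
      rw [← not_le, ← D.S.hw.mem_iff hX] at hneg
      apply hneg
      have hσ' := FLTA.EllReduction.FreyAux.inertia_sub_mem A (inv_mem hσ) hA
      have := add_mem (A.nonunits_le hσ') hA
      rw [sub_add_cancel] at this
      rwa [show σ⁻¹ (σ (D.C.X T)) = D.C.X T from σ.symm_apply_apply _] at this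
  · by_cases hne : σ • T = T
    · rw [hne, sub_self]; exact D.line.zero_mem
    · exact (D.move_tors hσ hT hne).1

theorem smul_eq_cyclo_of_mem_line {σ : AlgebraicClosure ℚ ≃ₐ[ℚ] AlgebraicClosure ℚ}
    (hσ : σ ∈ A.inertiaSubgroupIn ℚ) {T : Tors P.freyCurve P.p} (hT : T ∈ D.line) :
    σ • T = ExtCitation.cycloExp P.p σ • T := by
  haveI : NeZero P.p := ⟨P.hp0⟩
  have hE := freyCurve_Δ_ne_zero P
  haveI : WeierstrassCurve.IsElliptic P.freyCurve := ⟨isUnit_iff_ne_zero.mpr hE⟩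
  haveI : (P.freyCurve⁄(AlgebraicClosure ℚ)).IsElliptic :=
    FLTA.Elliptic.Weil.isElliptic_baseChange P.freyCurve
  have h := eq_det_smul_of_line (FLTA.EllReducible.finrank_tors P.freyCurve hE) D.line_ne.2
    (galoisRepModuleEnd ℚ P.freyCurve P.p σ) (fun v => D.sub_mem_line hσ v) hT
  rw [galoisRepModuleEnd_apply, FLTA.Elliptic.Weil.det_galoisRepModuleEnd_of_card P.freyCurve P.p
    (ExtCitation.card_rootsOfUnity_eq_self P.p)
    (FLTA.EllReducible.natCard_tors P.freyCurve hE P.pp) σ] at h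
  rw [h, ← Nat.cast_smul_eq_nsmul (ZMod P.p), ExtCitation.cycloExp, ZMod.natCast_zmod_val]

/-- A unipotent inertia element moving something moves a point off the line. -/
theorem exists_moved_off_line {σ : AlgebraicClosure ℚ ≃ₐ[ℚ] AlgebraicClosure ℚ}
    (hσ : σ ∈ A.inertiaSubgroupIn ℚ)
    (huni : ∀ x : Tors P.freyCurve P.p, σ • (σ • x - x) = σ • x - x)
    (hne : ∃ x : Tors P.freyCurve P.p, σ • x ≠ x) :
    ∃ T : Tors P.freyCurve P.p, T ∉ D.line ∧ σ • T ≠ T := by
  obtain ⟨x, hx⟩ := hne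
  refine ⟨x, fun hxL => hx ?_, hx⟩
  have hR0 : σ • x - x ≠ 0 := sub_ne_zero.mpr hx
  have hspan := FLTA.EllReducible.span_singleton_eq
    (FLTA.EllReducible.finrank_tors P.freyCurve (freyCurve_Δ_ne_zero P)) D.line_ne.2
    (D.sub_mem_line hσ x) hR0
  obtain ⟨c, hc⟩ := Submodule.mem_span_singleton.mp (hspan.symm ▸ hxL)
  have := (galoisRepModuleEnd ℚ P.freyCurve P.p σ).map_smul c (σ • x - x)
  rw [galoisRepModuleEnd_apply, galoisRepModuleEnd_apply, huni, hc] at this
  exact this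

end FreyPlace

end FLTA.LevelLowering
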