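import Fermat.Agent.LevelLowering.LocalCurveRoots
import Fermat.Agent.LevelLowering.LocalFreyLine
import Fermat.Agent.EllReducible.Local
import Fermat.Agent.EllTorsion.GaloisDet

/-!
# The inertia line in `E[p]` at an ordinary or multiplicative place over `p`
-/

set_option autoImplicit false

open WeierstrassCurve WeierstrassCurve.Affine.Point

open scoped WeierstrassCurve.Affine

namespace FLTA.LevelLowering

open FLTA.EllReducible (Tors)

open FLTA.EllReduction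

/-- Geometric points, as the type underlying `Tors`. -/
abbrev CurvePt (W : WeierstrassCurve ℤ) : Type :=
  ((W.map (Int.castRingHom ℚ))⁄(AlgebraicClosure ℚ)).Point

/-- `p`-torsion in the kernel of reduction. -/
noncomputable def curveLine (W : WeierstrassCurve ℤ) (p : ℕ)
    (A : ValuationSubring (AlgebraicClosure ℚ)) :
    Submodule (ZMod p) (Tors (W.map (Int.castRingHom ℚ)) p) :=
  AddSubgroup.toZModSubmodule p
    ((E1Z W A).comap (Tors (W.map (Int.castRingHom ℚ)) p).subtype.toAddMonoidHom)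

variable {W : WeierstrassCurve ℤ} {p : ℕ} [Fact p.Prime]
  {A : ValuationSubring (AlgebraicClosure ℚ)}

omit [Fact p.Prime] in
theorem mem_curveLine {T : Tors (W.map (Int.castRingHom ℚ)) p} :
    T ∈ curveLine W p A ↔ (T : CurvePt W) ∈ E1Z W A := Iff.rfl

section

variable (hΔ : W.Δ ≠ 0) (hp2 : p ≠ 2)
  (hloc : (¬ (p : ℤ) ∣ W.Δ ∧ ¬ (p : ℤ) ∣ W.apOfModel p) ∨ ((p : ℤ) ∣ W.Δ ∧ ¬ (p : ℤ) ∣ W.c₄))
  (hA : A.LiesOverPrime p)

include hA

theorem exists_ratVal : ∃ w, FreyAux.IsRatVal A p w := by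
  have : Algebra.IsAlgebraic ℚ (AlgebraicClosure ℚ) := by
    convert! AlgebraicClosure.isAlgebraic ℚ
  exact FreyAux.exists_isRatVal A (Fact.out : p.Prime) hA

include hΔ hp2 hloc

theorem curveLine_ne : curveLine W p A ≠ ⊥ ∧ curveLine W p A ≠ ⊤ := by
  obtain ⟨w, hw⟩ := exists_ratVal hA
  obtain ⟨⟨T, hT, hpT, hmem⟩, ⟨T', hpT', hmem'⟩, -⟩ := torsion_shape_curve W hΔ hp2 hloc hw
  have mk : ∀ U : CurvePt W, p • U = 0 → U ∈ Tors (W.map (Int.castRingHom ℚ)) p := fun U hU =>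
    (Submodule.mem_torsionBy_iff _ _).mpr (by rwa [natCast_zsmul])
  constructor
  · intro h
    have : (⟨T, mk T hpT⟩ : Tors (W.map (Int.castRingHom ℚ)) p) ∈ (⊥ : Submodule (ZMod p) _) :=
      h ▸ mem_curveLine.mpr hmem
    exact hT (congrArg Subtype.val ((Submodule.mem_bot _).mp this))
  · intro h
    have : (⟨T', mk T' hpT'⟩ : Tors (W.map (Int.castRingHom ℚ)) p) ∈ curveLine W p A :=
      h ▸ Submodule.mem_top
    exact hmem' (mem_curveLine.mp this)

omit hp2 in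
theorem sub_mem_curveLine {σ : AlgebraicClosure ℚ ≃ₐ[ℚ] AlgebraicClosure ℚ}
    (hσ : σ ∈ A.inertiaSubgroupIn ℚ) (T : Tors (W.map (Int.castRingHom ℚ)) p) :
    σ • T - T ∈ curveLine W p A := by
  have hp : p.Prime := Fact.out
  show σ • (T : CurvePt W) - T ∈ E1Z W A
  rcases hloc with ⟨hgood, -⟩ | ⟨hΔp, hc₄⟩
  · exact smul_sub_mem_E1Z hp hA hσ (mem_E0Z_of_good hp hA hgood _)
  · refine mem_E1Z_of_mult hp hA hΔ hΔp hc₄ (smul_sub_mem_E0Z hp hA (Or.inr hc₄) hΔ hσ _) ?_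
    have h0 : p • (σ • (T : CurvePt W) - T) = 0 := FLTA.EllReducible.nsmul_coe_eq_zero (σ • T - T)
    exact h0 ▸ (E1Z W A).zero_mem

theorem smul_eq_cyclo_of_mem_curveLine {σ : AlgebraicClosure ℚ ≃ₐ[ℚ] AlgebraicClosure ℚ}
    (hσ : σ ∈ A.inertiaSubgroupIn ℚ) {T : Tors (W.map (Int.castRingHom ℚ)) p}
    (hT : T ∈ curveLine W p A) :
    σ • T = ExtCitation.cycloExp p σ • T := by
  haveI : NeZero p := ⟨(Fact.out : p.Prime).ne_zero⟩
  have hE : (W.map (Int.castRingHom ℚ)).Δ ≠ 0 := by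
    rw [WeierstrassCurve.map_Δ]; simpa using hΔ
  haveI : (W.map (Int.castRingHom ℚ)).IsElliptic := ⟨isUnit_iff_ne_zero.mpr hE⟩
  have h := eq_det_smul_of_line (FLTA.EllReducible.finrank_tors _ hE)
    (curveLine_ne hΔ hp2 hloc hA).2
    (galoisRepModuleEnd ℚ (W.map (Int.castRingHom ℚ)) p σ)
    (fun v => sub_mem_curveLine hΔ hloc hA hσ v) hT
  rw [galoisRepModuleEnd_apply, FLTA.EllTorsion.det_galoisRepModuleEnd_eq_cyclotomic _ p
    (ExtCitation.card_rootsOfUnity_eq_self p) σ] at h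
  rw [h, ← Nat.cast_smul_eq_nsmul (ZMod p), ExtCitation.cycloExp, ZMod.natCast_zmod_val]

/-- A unipotent inertia element moving something moves a point off the line. -/
theorem exists_moved_off_curveLine {σ : AlgebraicClosure ℚ ≃ₐ[ℚ] AlgebraicClosure ℚ}
    (hσ : σ ∈ A.inertiaSubgroupIn ℚ)
    (huni : ∀ x : Tors (W.map (Int.castRingHom ℚ)) p, σ • (σ • x - x) = σ • x - x)
    (hne : ∃ x : Tors (W.map (Int.castRingHom ℚ)) p, σ • x ≠ x) :
    ∃ T : Tors (W.map (Int.castRingHom ℚ)) p, T ∉ curveLine W p A ∧ σ • T ≠ T := by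
  have hE : (W.map (Int.castRingHom ℚ)).Δ ≠ 0 := by
    rw [WeierstrassCurve.map_Δ]; simpa using hΔ
  obtain ⟨x, hx⟩ := hne
  refine ⟨x, fun hxL => hx ?_, hx⟩
  have hR0 : σ • x - x ≠ 0 := sub_ne_zero.mpr hx
  have hspan := FLTA.EllReducible.span_singleton_eq
    (FLTA.EllReducible.finrank_tors _ hE) (curveLine_ne hΔ hp2 hloc hA).2
    (sub_mem_curveLine hΔ hloc hA hσ x) hR0
  obtain ⟨c, hc⟩ := Submodule.mem_span_singleton.mp (hspan.symm ▸ hxL)
  have := (galoisRepModuleEnd ℚ (W.map (Int.castRingHom ℚ)) p σ).map_smul c (σ • x - x)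
  rw [galoisRepModuleEnd_apply, galoisRepModuleEnd_apply, huni, hc] at this
  exact this

end

end FLTA.LevelLowering
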