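import Mathlib

/-!
# Algebra for the global step of level lowering

* `exists_eigenvector_mod`: a prime over `p` of a commutative algebra of integer matrices has an
  eigenvector mod `p`;
* `exists_equivariant_hom_of_quadratic`: a representation on which every `g` satisfies the
  quadratic of an absolutely irreducible plane contains that plane (Boston–Lenstra–Ribet);
* `eq_zero_of_kills_torsion`: an endomorphism of a divisible Galois module with finitely generated
  groups of invariants is zero if it kills the torsion.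
-/

set_option autoImplicit false

noncomputable section

open scoped Matrix IsMulCommutative

namespace FLTA.LevelLowering

section Eigenvector

/-- Elements vanishing mod `p` lie in every prime over `p`. -/
theorem mem_prime_of_map_eq_zero {T : Type*} [CommRing T] {r p : ℕ}
    (h : T →+* Matrix (Fin r) (Fin r) ℤ) (hinj : Function.Injective h) (hp : p ≠ 0)
    (m : Ideal T) [m.IsPrime] (hpm : (p : T) ∈ m) {t : T}
    (ht : (h t).map (Int.cast : ℤ → ZMod p) = 0) : t ∈ m := by
  have hdvd : ∀ i j, (p : ℤ) ∣ h t i j := fun i j =>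
    (ZMod.intCast_zmod_eq_zero_iff_dvd _ p).1 (by simpa using congrFun (congrFun ht i) j)
  choose A hA using hdvd
  set A' : Matrix (Fin r) (Fin r) ℤ := Matrix.of A with hA'
  have hpA : h t = (p : ℤ) • A' := by
    ext i j
    rw [Matrix.smul_apply, hA', Matrix.of_apply, smul_eq_mul, hA]
  have hcomm : ∀ s, Commute A' (h s) := fun s => by
    have e : (p : ℤ) • (A' * h s) = (p : ℤ) • (h s * A') := by
      rw [← smul_mul_assoc, ← mul_smul_comm, ← hpA, ← map_mul, ← map_mul, mul_comm]
    ext i j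
    have := congrFun (congrFun e i) j
    simp only [Matrix.smul_apply, smul_eq_mul] at this
    exact mul_left_cancel₀ (by exact_mod_cast hp) this
  let C : Subalgebra ℤ (Matrix (Fin r) (Fin r) ℤ) := Algebra.adjoin ℤ (insert A' (Set.range h))
  have hC : IsMulCommutative C := Algebra.isMulCommutative_adjoin ℤ (by
    rintro a (rfl | ⟨s, rfl⟩) b (rfl | ⟨s', rfl⟩)
    · exact Commute.refl _
    · exact hcomm s'
    · exact (hcomm s).symm
    · exact (by rw [← map_mul, ← map_mul, mul_comm] : h s * h s' = h s' * h s))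
  let h' : T →+* C := h.codRestrict C fun s => Algebra.subset_adjoin (Or.inr ⟨s, rfl⟩)
  let _ : Algebra T C := h'.toAlgebra
  have : Module.Finite ℤ C := Module.Finite.iff_fg.2 (IsNoetherian.noetherian C.toSubmodule)
  have : IsScalarTower ℤ T C := IsScalarTower.of_algebraMap_eq fun n => (map_intCast h' n).symm
  have : Algebra.IsIntegral T C :=
    ⟨fun x => (Algebra.IsIntegral.isIntegral (R := ℤ) x).tower_top⟩
  have hker : RingHom.ker h' ≤ m := fun x hx => by
    have h0 : h x = h 0 := by rw [map_zero]; exact congrArg Subtype.val hx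
    rw [hinj h0]
    exact m.zero_mem
  obtain ⟨Q, -, hQ, hQc⟩ :=
    Ideal.exists_ideal_over_prime_of_isIntegral m (⊥ : Ideal C) hker
  rw [← hQc] at hpm ⊢
  rw [Ideal.mem_comap] at hpm ⊢
  have : algebraMap T C t =
      algebraMap T C (p : T) * ⟨A', Algebra.subset_adjoin (Or.inl rfl)⟩ := by
    apply Subtype.ext
    rw [MulMemClass.coe_mul]
    show h t = h (p : T) * A'
    rw [map_natCast, ← nsmul_eq_mul, hpA, natCast_zsmul]
  rw [this]
  exact Q.mul_mem_right _ hpm

/-- A prime over `p` has an eigenvector mod `p`. -/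
theorem exists_eigenvector_mod {T : Type*} [CommRing T] {r p : ℕ} [Fact p.Prime]
    (h : T →+* Matrix (Fin r) (Fin r) ℤ) (hinj : Function.Injective h)
    (m : Ideal T) [m.IsPrime] (hpm : (p : T) ∈ m) :
    ∃ v : Fin r → ZMod p, v ≠ 0 ∧ ∀ t ∈ m, (h t).map (Int.cast : ℤ → ZMod p) *ᵥ v = 0 := by
  let R : T →+* Matrix (Fin r) (Fin r) (ZMod p) :=
    (Int.castRingHom (ZMod p)).mapMatrix.comp h
  let B : Subring (Matrix (Fin r) (Fin r) (ZMod p)) := R.range
  let π : T →+* B := R.rangeRestrict
  have hπ : Function.Surjective π := R.rangeRestrict_surjective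
  let _ : CommRing B :=
    { (inferInstance : Ring B) with
      mul_comm := fun x y => by
        obtain ⟨a, rfl⟩ := hπ x
        obtain ⟨b, rfl⟩ := hπ y
        rw [← map_mul, ← map_mul, mul_comm] }
  have hker : RingHom.ker π ≤ m := fun t ht =>
    mem_prime_of_map_eq_zero h hinj (Fact.out : p.Prime).ne_zero m hpm (congrArg Subtype.val ht)
  have hmb : (m.map π).IsPrime := Ideal.map_isPrime_of_surjective hπ hker
  have hass : m.map π ∈ associatedPrimes B B := by
    apply Module.associatedPrimes.minimalPrimes_annihilator_subset_associatedPrimes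
    rw [Module.annihilator_eq_bot.2 inferInstance]
    refine ⟨⟨hmb, bot_le⟩, fun q hq hle => ?_⟩
    have : q.IsPrime := hq.1
    exact ((Ideal.isMaximal_of_isPrime q).eq_of_le hmb.ne_top hle).ge
  obtain ⟨-, u, hu⟩ := isAssociatedPrime_iff.1 hass
  have hu0 : (u : Matrix (Fin r) (Fin r) (ZMod p)) ≠ 0 := fun h0 => by
    have : u = 0 := Subtype.ext h0
    subst this
    exact hmb.ne_top (hu.trans ((Ideal.eq_top_iff_one _).2 (by simp)))
  obtain ⟨w, hw⟩ : ∃ w : Fin r → ZMod p, (u : Matrix (Fin r) (Fin r) (ZMod p)) *ᵥ w ≠ 0 := by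
    by_contra hall
    simp only [not_exists, not_not] at hall
    exact hu0 (Matrix.ext_of_mulVec_single fun i => by rw [hall, Matrix.zero_mulVec])
  refine ⟨_, hw, fun t ht => ?_⟩
  have h1 : π t ∈ m.map π := Ideal.mem_map_of_mem _ ht
  rw [hu] at h1
  have h2 : π t * u = 0 := by simpa [Submodule.mem_colon_singleton] using h1
  have h3 : R t * (u : Matrix (Fin r) (Fin r) (ZMod p)) = 0 := congrArg Subtype.val h2
  show R t *ᵥ _ = 0
  rw [Matrix.mulVec_mulVec, h3, Matrix.zero_mulVec]

end Eigenvector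

section Quadratic

variable {G : Type*} [Group G] {k : Type*} [Field k]
variable {V W : Type*} [AddCommGroup V] [Module k V] [AddCommGroup W] [Module k W]

theorem quadratic_step {U : Type*} [AddCommGroup U] [Module k U] (φ : G →* Module.End k U)
    (d : G →* k) {g : G} {c : k} (hφ : φ g + d g • φ g⁻¹ = c • (1 : Module.End k U)) (n : ℕ) :
    φ (g ^ (n + 2)) + d (g ^ (n + 2)) • φ (g ^ (n + 2))⁻¹ =
      c • (φ (g ^ (n + 1)) + d (g ^ (n + 1)) • φ (g ^ (n + 1))⁻¹) -
        d g • (φ (g ^ n) + d (g ^ n) • φ (g ^ n)⁻¹) := by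
  have e : (φ g + d g • φ g⁻¹) * (φ (g ^ (n + 1)) + d (g ^ (n + 1)) • φ (g ^ (n + 1))⁻¹) =
      c • (φ (g ^ (n + 1)) + d (g ^ (n + 1)) • φ (g ^ (n + 1))⁻¹) := by
    rw [hφ, smul_mul_assoc, one_mul]
  rw [← e]
  simp only [add_mul, mul_add, smul_mul_assoc, mul_smul_comm, ← map_mul, smul_smul, smul_add]
  rw [show g * g ^ (n + 1) = g ^ (n + 2) by group, show g⁻¹ * g ^ (n + 1) = g ^ n by group,
    show g * (g ^ (n + 1))⁻¹ = (g ^ n)⁻¹ by group,
    show g⁻¹ * (g ^ (n + 1))⁻¹ = (g ^ (n + 2))⁻¹ by group,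
    show d (g * g ^ n) = d (g ^ (n + 1)) by rw [← pow_succ'],
    show d (g ^ (n + 1) * g) = d (g ^ (n + 2)) by rw [← pow_succ]]
  abel

/-- The quadratic relation for `g` gives it for the powers of `g`. -/
theorem quadratic_pow [Nontrivial V] (ρ : G →* Module.End k V) (ω : G →* Module.End k W)
    (d : G →* k) (τ : G → k) (hρ : ∀ g, ρ g + d g • ρ g⁻¹ = τ g • (1 : Module.End k V)) {g : G}
    (hg : ω g + d g • ω g⁻¹ = τ g • (1 : Module.End k W)) :
    ∀ n : ℕ, ω (g ^ n) + d (g ^ n) • ω (g ^ n)⁻¹ = τ (g ^ n) • (1 : Module.End k W) := by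
  have hτ0 : τ 1 = (2 : k) := by
    have h := hρ 1
    rw [inv_one, map_one, map_one, one_smul] at h
    have h' := smul_left_injective k (one_ne_zero : (1 : Module.End k V) ≠ 0)
      (show τ 1 • (1 : Module.End k V) = (2 : k) • (1 : Module.End k V) by
        rw [← h, two_smul])
    exact h'
  have hrec : ∀ n, τ (g ^ (n + 2)) = τ g * τ (g ^ (n + 1)) - d g * τ (g ^ n) := fun n => by
    refine smul_left_injective k (one_ne_zero : (1 : Module.End k V) ≠ 0) ?_
    show τ (g ^ (n + 2)) • (1 : Module.End k V) = _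
    rw [← hρ, quadratic_step ρ d (hρ g) n, hρ, hρ, smul_smul, smul_smul, ← sub_smul]
  intro n
  induction n using Nat.twoStepInduction with
  | zero => rw [pow_zero, inv_one, map_one, map_one, one_smul, hτ0, two_smul]
  | one => rwa [pow_one]
  | more n h0 h1 =>
    rw [quadratic_step ω d hg n, h0, h1, hrec, sub_smul, smul_smul, smul_smul]

/-- Boston–Lenstra–Ribet. -/
theorem exists_equivariant_hom_of_quadratic [FiniteDimensional k V] (ρ : G →* Module.End k V)
    (ω : G →* Module.End k W) (d : G →* k)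
    (hspan : Submodule.span k (Set.range ρ) = ⊤)
    (hρ : ∀ g, ρ g + d g • ρ g⁻¹ = LinearMap.trace k V (ρ g) • (1 : Module.End k V))
    (hω : ∀ g, ω g + d g • ω g⁻¹ = LinearMap.trace k V (ρ g) • (1 : Module.End k W))
    (hcomm : ∃ a b : G, LinearMap.trace k V (ρ (a * b * a⁻¹ * b⁻¹)) ≠ 2)
    (hW : Nontrivial W) :
    ∃ θ : V →ₗ[k] W, θ ≠ 0 ∧ ∀ g v, θ (ρ g v) = ω g (θ v) := by
  let Lρ : (G →₀ k) →ₗ[k] Module.End k V := Finsupp.linearCombination k ρ
  let Lω : (G →₀ k) →ₗ[k] Module.End k W := Finsupp.linearCombination k ω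
  let Ls : (G →₀ k) →ₗ[k] Module.End k W := Finsupp.linearCombination k fun g => d g • ω g⁻¹
  let Lt : (G →₀ k) →ₗ[k] k := Finsupp.linearCombination k fun g => LinearMap.trace k V (ρ g)
  let mr : G → (G →₀ k) →ₗ[k] (G →₀ k) := fun h => Finsupp.lmapDomain k k (· * h)
  have hsum : ∀ a, Lω a + Ls a = Lt a • (1 : Module.End k W) := fun a => by
    induction a using Finsupp.induction_linear with
    | zero => simp
    | add x y hx hy => rw [map_add, map_add, map_add, add_smul, ← hx, ← hy]; abel
    | single g c =>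
      simp only [Lω, Ls, Lt, Finsupp.linearCombination_single]
      rw [← smul_add, hω g, smul_smul, smul_eq_mul]
  have ht : ∀ a, Lt a = LinearMap.trace k V (Lρ a) := fun a => by
    induction a using Finsupp.induction_linear with
    | zero => simp
    | add x y hx hy => rw [map_add, map_add, map_add, hx, hy]
    | single g c => simp [Lt, Lρ]
  have hρr : ∀ a h, Lρ (mr h a) = Lρ a * ρ h := fun a h => by
    induction a using Finsupp.induction_linear with
    | zero => simp
    | add x y hx hy => rw [map_add, map_add, map_add, add_mul, hx, hy]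
    | single g c => simp [Lρ, mr, map_mul]
  have hωr : ∀ a h, Lω (mr h a) = Lω a * ω h := fun a h => by
    induction a using Finsupp.induction_linear with
    | zero => simp
    | add x y hx hy => rw [map_add, map_add, map_add, add_mul, hx, hy]
    | single g c => simp [Lω, mr, map_mul]
  have hsr : ∀ a h, Ls (mr h a) = d h • (ω h⁻¹ * Ls a) := fun a h => by
    induction a using Finsupp.induction_linear with
    | zero => simp
    | add x y hx hy => rw [map_add, map_add, map_add, mul_add, smul_add, hx, hy]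
    | single g c => simp [Ls, mr, map_mul, smul_smul, mul_comm, mul_assoc, mul_left_comm]
  have hker : ∀ a, Lρ a = 0 → Lω a = 0 := by
    intro a ha
    set u := Lω a with hu
    have hneg : ∀ b, Lρ b = 0 → Ls b = -Lω b := fun b hb => by
      have := hsum b
      rw [ht, hb, map_zero, zero_smul] at this
      exact eq_neg_of_add_eq_zero_right this
    have hstep : ∀ h, u * ω h = d h • (ω h⁻¹ * u) := fun h => by
      have h1 := hneg (mr h a) (by rw [hρr, ha, zero_mul])
      rw [hsr, hωr, hneg a ha, mul_neg, smul_neg, neg_inj] at h1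
      exact h1.symm
    have htwo : ∀ x y : G, d (x * y) • (ω (y⁻¹ * x⁻¹) * u) = d (x * y) • (ω (x⁻¹ * y⁻¹) * u) := by
      intro x y
      calc d (x * y) • (ω (y⁻¹ * x⁻¹) * u) = u * ω (x * y) := by
            rw [hstep, mul_inv_rev]
        _ = (u * ω x) * ω y := by rw [map_mul, mul_assoc]
        _ = d (x * y) • (ω (x⁻¹ * y⁻¹) * u) := by
            rw [hstep, smul_mul_assoc, mul_assoc, hstep, mul_smul_comm, smul_smul, map_mul,
              map_mul, mul_assoc]
    obtain ⟨x, y, hxy⟩ := hcomm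
    set c := x * y * x⁻¹ * y⁻¹ with hc
    have hd0 : ∀ g, d g ≠ 0 := fun g h0 => by
      have := map_mul d g g⁻¹
      rw [mul_inv_cancel, map_one, h0, zero_mul] at this
      exact one_ne_zero this
    have hfix : ω c * u = u := by
      have h1 := smul_right_injective _ (hd0 (x * y)) (htwo x y)
      have h2 := congrArg (fun z => ω (y⁻¹ * x⁻¹)⁻¹ * z) h1
      simp only [← mul_assoc, ← map_mul, inv_mul_cancel, map_one, one_mul] at h2
      have e : (y⁻¹ * x⁻¹)⁻¹ * x⁻¹ * y⁻¹ = c := by rw [hc]; group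
      rw [e, show (y⁻¹ * x⁻¹)⁻¹ * y⁻¹ * x⁻¹ = (1 : G) by group, map_one, one_mul] at h2
      exact h2.symm
    have hdc : d c = 1 := by
      simp only [hc, map_mul]
      rw [mul_comm (d x) (d y), mul_assoc, mul_assoc, ← mul_assoc (d x), ← map_mul, mul_inv_cancel,
        map_one, one_mul, ← map_mul, mul_inv_cancel, map_one]
    have hfix' : ω c⁻¹ * u = u := by
      conv_lhs => rw [← hfix]
      rw [← mul_assoc, ← map_mul, inv_mul_cancel, map_one, one_mul]
    have h := congrArg (· * u) (hω c)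
    rw [hdc, one_smul] at h
    simp only [add_mul, hfix, hfix', smul_mul_assoc, one_mul, ← two_smul k u] at h
    rw [← sub_eq_zero, ← sub_smul] at h
    exact (smul_eq_zero.1 h).resolve_left (sub_ne_zero.2 hxy.symm)
  have hsurj : Function.Surjective Lρ := LinearMap.range_eq_top.1 <| by
    rw [Finsupp.range_linearCombination, hspan]
  obtain ⟨s, hs⟩ := LinearMap.exists_rightInverse_of_surjective Lρ
    (LinearMap.range_eq_top.2 hsurj)
  let Φ : Module.End k V →ₗ[k] Module.End k W := Lω.comp s
  have hΦ : ∀ a, Φ (Lρ a) = Lω a := fun a => by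
    have h1 : Lρ (s (Lρ a) - a) = 0 := by
      rw [map_sub, show Lρ (s (Lρ a)) = Lρ a from LinearMap.congr_fun hs (Lρ a), sub_self]
    have := hker _ h1
    rwa [map_sub, sub_eq_zero] at this
  have hΦρ : ∀ g, Φ (ρ g) = ω g := fun g => by simpa [Lρ, Lω] using hΦ (Finsupp.single g 1)
  have hΦmul : ∀ g T, Φ (ρ g * T) = ω g * Φ T := fun g T => by
    have hT : T ∈ Submodule.span k (Set.range ρ) := hspan ▸ Submodule.mem_top
    induction hT using Submodule.span_induction with
    | mem x hx =>
      obtain ⟨h, rfl⟩ := hx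
      rw [← map_mul, hΦρ, hΦρ, map_mul]
    | zero => simp
    | add x y _ _ hx hy => rw [mul_add, map_add, map_add, mul_add, hx, hy]
    | smul c x _ hx => rw [mul_smul_comm, map_smul, map_smul, mul_smul_comm, hx]
  obtain ⟨w, hw⟩ := exists_ne (0 : W)
  let b := Module.finBasis k V
  have hone : (1 : Module.End k V) = ∑ i, (b.coord i).smulRight (b i) := by
    refine LinearMap.ext fun v => ?_
    simp [b.sum_repr]
  have h1 : Φ 1 = 1 := by rw [← map_one ρ, hΦρ, map_one]
  obtain ⟨i, hi⟩ : ∃ i, Φ ((b.coord i).smulRight (b i)) w ≠ 0 := by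
    by_contra hall
    simp only [not_exists, not_not] at hall
    refine hw ?_
    have := congrArg (fun T => Φ T w) hone
    simp only [map_sum, LinearMap.sum_apply, hall, Finset.sum_const_zero, h1] at this
    exact this
  let θ : V →ₗ[k] W :=
    (LinearMap.applyₗ w).comp (Φ.comp (LinearMap.smulRightₗ (b.coord i)))
  refine ⟨θ, fun h0 => hi (LinearMap.congr_fun h0 (b i)), fun g v => ?_⟩
  show Φ ((b.coord i).smulRight (ρ g v)) w = ω g (Φ ((b.coord i).smulRight v) w)
  rw [show (b.coord i).smulRight (ρ g v) = ρ g * (b.coord i).smulRight v by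
    ext z; simp, hΦmul, Module.End.mul_apply]

end Quadratic

section Kill

/-- An element divisible by every positive integer in a finitely generated abelian group is `0`. -/
theorem eq_zero_of_forall_exists_nsmul {A : Type*} [AddCommGroup A] [Module.Finite ℤ A] {z : A}
    (hz : ∀ n : ℕ, n ≠ 0 → ∃ y : A, n • y = z) : z = 0 := by
  let T : Submodule ℤ A := Submodule.torsion ℤ A
  have : Module.Free ℤ (A ⧸ T) := Module.free_of_finite_type_torsion_free'
  let b := Module.Free.chooseBasis ℤ (A ⧸ T)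
  have hzT : z ∈ T := by
    rw [← Submodule.Quotient.mk_eq_zero]
    refine b.ext_elem fun i => ?_
    rw [map_zero, Finsupp.zero_apply]
    by_contra hne
    obtain ⟨y, hy⟩ := hz ((b.repr (Submodule.Quotient.mk z) i).natAbs + 1) (by omega)
    have hdvd : ((((b.repr (Submodule.Quotient.mk z) i).natAbs + 1 : ℕ)) : ℤ) ∣
        b.repr (Submodule.Quotient.mk z) i := by
      refine ⟨b.repr (Submodule.Quotient.mk y) i, ?_⟩
      conv_lhs => rw [← hy]
      rw [← natCast_zsmul, Submodule.Quotient.mk_smul, map_smul, Finsupp.smul_apply, smul_eq_mul]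
    have hle := Nat.le_of_dvd (by omega) (Int.natCast_dvd.1 hdvd)
    omega
  have : Module.Finite ℤ T := Module.Finite.iff_fg.2 (IsNoetherian.noetherian T)
  have hft : Module.IsTorsion ℤ T := fun {x} => by
    obtain ⟨a, ha⟩ := x.2
    exact ⟨a, Subtype.ext ha⟩
  have : Finite T := Module.finite_of_fg_torsion T hft
  obtain ⟨y, hy⟩ := hz (Nat.card T) Nat.card_pos.ne'
  obtain ⟨a, ha⟩ := hzT
  have hyT : y ∈ T := ⟨a * ⟨(Nat.card T : ℤ), mem_nonZeroDivisors_of_ne_zero
    (by exact_mod_cast Nat.card_pos.ne')⟩, by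
      rw [Submonoid.smul_def, Submonoid.coe_mul, mul_smul, natCast_zsmul, hy]
      exact ha⟩
  rw [← hy]
  exact congrArg Subtype.val (card_nsmul_eq_zero' (G := T) (x := ⟨y, hyT⟩))

theorem eq_zero_of_kills_torsion {G J : Type*} [Group G] [AddCommGroup J] [DistribMulAction G J]
    (f : J →+ J) (hf : ∀ (σ : G) x, f (σ • x) = σ • f x)
    (htors : ∀ (x : J) (n : ℕ), n ≠ 0 → n • x = 0 → f x = 0)
    (hdiv : ∀ (x : J) (n : ℕ), n ≠ 0 → ∃ y, n • y = x)
    (hfix : ∀ x : J, ∃ A : AddSubgroup J, A.FG ∧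
      ∀ y : J, (∀ σ : G, σ • x = x → σ • y = y) → y ∈ A) : f = 0 := by
  refine AddMonoidHom.ext fun x => ?_
  obtain ⟨A, hA, hmem⟩ := hfix x
  have key : ∀ n : ℕ, n ≠ 0 → ∃ a ∈ A, n • a = f x := fun n hn => by
    obtain ⟨y, hy⟩ := hdiv x n hn
    refine ⟨f y, hmem _ fun σ hσ => ?_, by rw [← map_nsmul, hy]⟩
    rw [← hf, ← sub_eq_zero, ← map_sub]
    refine htors _ n hn ?_
    have hns : n • (σ • y) = σ • (n • y) :=
      (map_nsmul (DistribSMul.toAddMonoidHom J σ) n y).symm
    rw [nsmul_sub, hns, hy, hσ, sub_self]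
  obtain ⟨a, ha, hax⟩ := key 1 one_ne_zero
  rw [one_smul] at hax
  subst hax
  have : Module.Finite ℤ A := Module.Finite.iff_addGroup_fg.2 ((AddGroup.fg_iff_addSubgroup_fg A).2 hA)
  exact congrArg Subtype.val (eq_zero_of_forall_exists_nsmul (z := (⟨f x, ha⟩ : A)) fun n hn => by
    obtain ⟨b, hb, hbx⟩ := key n hn
    exact ⟨⟨b, hb⟩, Subtype.ext hbx⟩)

end Kill

end FLTA.LevelLowering

end
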