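import Mathlib
import Fermat.Agent.EllTorsion.GaloisDet
import Fermat.Agent.EllTorsion.WeilDet
import Fermat.Agent.RepTheory.AbsIrr
import Fermat.Agent.RepTheory.Basic
import Fermat.Prelude.Def_GaloisRep_ComplexConjugation
import Fermat.Agent.Density.Frobenius
import Fermat.Agent.LevelLowering.GlobalAlg

/-!
# The plane `E[p]`: commutators, powers of Frobenius, non-Eisenstein
-/

set_option autoImplicit false

noncomputable section

open WeierstrassCurve WeierstrassCurve.Affine.Point Polynomial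

namespace FLTA.LevelLowering

local notation "Γℚ" => AlgebraicClosure ℚ ≃ₐ[ℚ] AlgebraicClosure ℚ

section Generic

variable {G : Type*} [Group G] {k : Type*} [Field k] {V : Type*} [AddCommGroup V] [Module k V]

/-- Cayley–Hamilton for a plane, as a relation between `ρ g` and `ρ g⁻¹`. -/
theorem quadratic_self [FiniteDimensional k V] (hV : Module.finrank k V = 2)
    (ρ : G →* Module.End k V) (g : G) :
    ρ g + LinearMap.det (ρ g) • ρ g⁻¹ = LinearMap.trace k V (ρ g) • (1 : Module.End k V) := by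
  have hCH := LinearMap.aeval_self_charpoly (ρ g)
  rw [FLTA.RepTheory.charpoly_of_finrank_two hV] at hCH
  simp only [map_add, map_sub, map_pow, map_mul, aeval_X, aeval_C] at hCH
  have h1 := congrArg (· * ρ g⁻¹) hCH
  have hinv : ρ g * ρ g⁻¹ = 1 := by rw [← map_mul, mul_inv_cancel, map_one]
  simp only [add_mul, sub_mul, zero_mul, Module.algebraMap_end_eq_smul_id, smul_mul_assoc,
    pow_two, mul_assoc, hinv, mul_one, ← Module.End.one_eq_id, one_mul] at h1
  rw [← sub_eq_zero, ← h1]
  abel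

/-- An involution of determinant `-1` and full span give an element with no zero entry off the
diagonal in an eigenbasis of the involution. -/
theorem exists_diagonal_basis [FiniteDimensional k V] (hV : Module.finrank k V = 2)
    (ρ : G →* Module.End k V) (hspan : Submodule.span k (Set.range ρ) = ⊤) (h2 : (2 : k) ≠ 0)
    {c : G} (hc : c * c = 1) (hdet : LinearMap.det (ρ c) = -1) :
    ∃ M : G →* Matrix (Fin 2) (Fin 2) k,
      (∀ g, (M g).trace = LinearMap.trace k V (ρ g) ∧ (M g).det = LinearMap.det (ρ g)) ∧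
      M c = !![1, 0; 0, -1] ∧ ∃ g, M g 0 1 ≠ 0 ∧ M g 1 0 ≠ 0 := by
  have hsq : ρ c * ρ c = 1 := by rw [← map_mul, hc, map_one]
  have hne : ∀ e : k, e * e = 1 → ρ c ≠ e • (1 : Module.End k V) := fun e he h => by
    rw [h, LinearMap.det_smul, hV, map_one, mul_one, pow_two, he] at hdet
    exact h2 (by linear_combination hdet)
  have hex : ∀ e : k, e * e = 1 → ∃ v : V, v ≠ 0 ∧ ρ c v = e • v := fun e he => by
    by_contra hall
    simp only [not_exists, not_and] at hall
    refine hne (-e) (by linear_combination he) (LinearMap.ext fun x => ?_)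
    have hz : ρ c x + e • x = 0 := by
      by_contra hx
      refine hall _ hx ?_
      rw [map_add, map_smul, ← Module.End.mul_apply, hsq, Module.End.one_apply, smul_add,
        smul_smul, he, one_smul, add_comm]
    rw [eq_neg_of_add_eq_zero_left hz, LinearMap.smul_apply, Module.End.one_apply, neg_smul]
  obtain ⟨v, hv, hcv⟩ := hex 1 (one_mul 1)
  obtain ⟨w, hw, hcw⟩ := hex (-1) (by ring)
  have hli : LinearIndependent k ![v, w] := by
    rw [LinearIndependent.pair_iff]
    intro s t hst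
    have h1 := congrArg (ρ c) hst
    rw [map_add, map_smul, map_smul, hcv, hcw, _root_.map_zero, one_smul, neg_smul, one_smul,
      smul_neg] at h1
    have hs : (2 : k) • s • v = 0 := by
      rw [two_smul]
      linear_combination (norm := abel) hst + h1
    have hs0 : s = 0 := (smul_eq_zero.1 ((smul_eq_zero.1 hs).resolve_left h2)).resolve_right hv
    rw [hs0, zero_smul, zero_add] at hst
    exact ⟨hs0, (smul_eq_zero.1 hst).resolve_right hw⟩
  let b := basisOfLinearIndependentOfCardEqFinrank hli (by simpa using hV.symm)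
  have hb : ⇑b = ![v, w] := coe_basisOfLinearIndependentOfCardEqFinrank hli _
  let M : G →* Matrix (Fin 2) (Fin 2) k := FLTA.RepTheory.matHom b ρ
  have hM : ∀ g, M g = LinearMap.toMatrix b b (ρ g) := fun g =>
    FLTA.RepTheory.matHom_apply b ρ g
  refine ⟨M, fun g => ⟨FLTA.RepTheory.matHom_trace b ρ g, ?_⟩, ?_, ?_⟩
  · rw [hM, LinearMap.det_toMatrix]
  · rw [hM]
    have h0 : ρ c (b 0) = b 0 := by rw [hb]; simpa using hcv
    have h1 : ρ c (b 1) = -b 1 := by rw [hb]; simpa using hcw
    ext i j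
    fin_cases i <;> fin_cases j <;> simp [LinearMap.toMatrix_apply, h0, h1]
  have hoff : ∀ i j : Fin 2, ∃ g, M g i j ≠ 0 := fun i j => by
    by_contra hall
    simp only [not_exists, not_not] at hall
    have hzero : ∀ T : Module.End k V, LinearMap.toMatrix b b T i j = 0 := fun T => by
      have hT : T ∈ Submodule.span k (Set.range ρ) := hspan ▸ Submodule.mem_top
      induction hT using Submodule.span_induction with
      | mem x hx => obtain ⟨g, rfl⟩ := hx; rw [← hM]; exact hall g
      | zero => simp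
      | add x y _ _ hx hy => simp [hx, hy]
      | smul a x _ hx => simp [hx]
    have := hzero ((LinearMap.toMatrix b b).symm (Matrix.single i j 1))
    rw [LinearEquiv.apply_symm_apply, Matrix.single_apply_same] at this
    exact one_ne_zero this
  by_contra hall
  simp only [not_exists, not_and_or, not_not] at hall
  obtain ⟨g, hg⟩ := hoff 0 1
  obtain ⟨h, hh⟩ := hoff 1 0
  have hg' : M g 1 0 = 0 := (hall g).resolve_left hg
  have hh' : M h 0 1 = 0 := (hall h).resolve_right hh
  have hdg : (M g).det ≠ 0 := by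
    have : (M g).det * (M g⁻¹).det = 1 := by
      rw [← Matrix.det_mul, ← map_mul, mul_inv_cancel, map_one, Matrix.det_one]
    exact left_ne_zero_of_mul_eq_one this
  have hdh : (M h).det ≠ 0 := by
    have : (M h).det * (M h⁻¹).det = 1 := by
      rw [← Matrix.det_mul, ← map_mul, mul_inv_cancel, map_one, Matrix.det_one]
    exact left_ne_zero_of_mul_eq_one this
  rw [Matrix.det_fin_two, hg', mul_zero, sub_zero] at hdg
  rw [Matrix.det_fin_two, hh', zero_mul, sub_zero] at hdh
  rcases hall (g * h) with h0 | h0 <;>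
    simp [map_mul, Matrix.mul_apply, Fin.sum_univ_two, hg', hh', hg, hh,
      left_ne_zero_of_mul hdg, right_ne_zero_of_mul hdg, left_ne_zero_of_mul hdh,
      right_ne_zero_of_mul hdh] at h0

/-- Some commutator has trace different from `2`. -/
theorem exists_commutator_trace_ne_two [FiniteDimensional k V] (hV : Module.finrank k V = 2)
    (ρ : G →* Module.End k V) (hspan : Submodule.span k (Set.range ρ) = ⊤) (h2 : (2 : k) ≠ 0)
    {c : G} (hc : c * c = 1) (hdet : LinearMap.det (ρ c) = -1) :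
    ∃ a b : G, LinearMap.trace k V (ρ (a * b * a⁻¹ * b⁻¹)) ≠ 2 := by
  obtain ⟨M, hM, hMc, g, hb, hc'⟩ := exists_diagonal_basis hV ρ hspan h2 hc hdet
  refine ⟨c, g, fun h => ?_⟩
  have hci : c⁻¹ = c := inv_eq_of_mul_eq_one_right hc
  rw [← (hM _).1, hci, map_mul, map_mul, map_mul, hMc] at h
  have hinv : M g * M g⁻¹ = 1 := by rw [← map_mul, mul_inv_cancel, map_one]
  have hadj : M g⁻¹ * ((M g).det • (1 : Matrix (Fin 2) (Fin 2) k)) = (M g).adjugate := by
    rw [← Matrix.mul_adjugate, ← mul_assoc, ← map_mul, inv_mul_cancel, map_one, one_mul]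
  rw [Matrix.mul_smul, mul_one] at hadj
  have h4 := congrArg (· * (M g).det) h
  have hsm : Matrix.trace (!![1, 0; 0, -1] * M g * !![1, 0; 0, -1] * M g⁻¹) * (M g).det =
      Matrix.trace (!![1, 0; 0, -1] * M g * !![1, 0; 0, -1] * (M g).adjugate) := by
    rw [← hadj, Matrix.mul_smul, Matrix.trace_smul, smul_eq_mul, mul_comm]
  simp only [hsm] at h4
  rw [Matrix.eta_fin_two (M g), Matrix.adjugate_fin_two_of, Matrix.mul_fin_two, Matrix.mul_fin_two,
    Matrix.mul_fin_two, Matrix.det_fin_two_of, Matrix.trace_fin_two_of] at h4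
  have h5 : (2 : k) * (2 * (M g 0 1 * M g 1 0)) = 0 := by linear_combination h4
  simp [h2, hb, hc'] at h5

/-- The trace is not identically `1 + det`. -/
theorem exists_trace_ne [FiniteDimensional k V] (hV : Module.finrank k V = 2)
    (ρ : G →* Module.End k V) (hspan : Submodule.span k (Set.range ρ) = ⊤) (h2 : (2 : k) ≠ 0)
    {c : G} (hc : c * c = 1) (hdet : LinearMap.det (ρ c) = -1) :
    ∃ g : G, LinearMap.trace k V (ρ g) ≠ 1 + LinearMap.det (ρ g) := by
  obtain ⟨M, hM, hMc, g, hb, hc'⟩ := exists_diagonal_basis hV ρ hspan h2 hc hdet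
  by_contra hall
  simp only [not_exists, not_not] at hall
  have hall' : ∀ x, (M x).trace = 1 + (M x).det := fun x => by rw [(hM x).1, (hM x).2]; exact hall x
  have e1 := hall' g
  have e2 := hall' (c * g)
  rw [map_mul, hMc, Matrix.det_mul] at e2
  rw [Matrix.eta_fin_two (M g), Matrix.mul_fin_two, Matrix.det_fin_two_of, Matrix.det_fin_two_of,
    Matrix.trace_fin_two_of] at e2
  rw [Matrix.det_fin_two, Matrix.trace_fin_two] at e1
  have ha : (2 : k) * (M g 0 0 - 1) = 0 := by linear_combination e1 + e2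
  have ha' : M g 0 0 = 1 := sub_eq_zero.1 ((mul_eq_zero.1 ha).resolve_left h2)
  rw [ha'] at e1
  exact mul_ne_zero hb hc' (by linear_combination e1)

end Generic

section Curve

/-- Complex conjugation is not the identity. -/
theorem conjugation_ne_one : complexConjugation ≠ 1 := by
  intro h
  obtain ⟨x, hx⟩ := IsAlgClosed.exists_pow_nat_eq (-1 : AlgebraicClosure ℚ) (n := 2) two_pos
  have hfix := complexEmbedding_complexConjugation x
  rw [h, AlgEquiv.one_apply] at hfix
  obtain ⟨r, hr⟩ := (Complex.conj_eq_iff_real).mp hfix.symm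
  have h2 : (complexEmbedding x) ^ 2 = -1 := by rw [← map_pow, hx, map_neg, map_one]
  rw [hr] at h2
  have h3 : r ^ 2 = -1 := by exact_mod_cast h2
  nlinarith [sq_nonneg r]

theorem isElliptic_map_rat {W : WeierstrassCurve ℤ} (hΔ : W.Δ ≠ 0) :
    (W.map (Int.castRingHom ℚ)).IsElliptic := by
  refine ⟨isUnit_iff_ne_zero.mpr ?_⟩
  rw [WeierstrassCurve.map_Δ]
  simpa using hΔ

variable {W : WeierstrassCurve ℤ} (hΔ : W.Δ ≠ 0) {p : ℕ} [Fact p.Prime]

/-- `E[p]` as a residual representation. -/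
def planeRep : ResidualGaloisRep (ZMod p) :=
  (W.map (Int.castRingHom ℚ)).residualGaloisRepOf p
    (EllTorsion.natCard_torsionBy_intModel W hΔ (Fact.out : p.Prime).ne_zero)
    (EllTorsion.galoisFactorsThroughFiniteLevel_intModel W hΔ (Fact.out : p.Prime).ne_zero)

theorem planeRep_det_conjugation :
    LinearMap.det ((planeRep hΔ (p := p)).ρ complexConjugation) = -1 :=
  haveI := isElliptic_map_rat hΔ
  FLTA.Elliptic.Weil.residualGaloisRepOf_isOdd (W.map (Int.castRingHom ℚ)) p _ _
    complexConjugation complexConjugation_mul_self conjugation_ne_one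

/-- Frobenius on `E[p]`. -/
theorem planeRep_frobenius (hp2 : p ≠ 2) {ℓ : ℕ} (hℓ : ℓ.Prime) (hℓ2 : ℓ ≠ 2)
    (hgood : W.IsGoodPrimeFor ℓ) (hℓp : ℓ ≠ p) {A : ValuationSubring (AlgebraicClosure ℚ)}
    (hA : A.LiesOverPrime ℓ) {σ : Γℚ} (hσ : A.IsFrobeniusAt σ ℓ) :
    LinearMap.trace (ZMod p) _ ((planeRep hΔ).ρ σ) = (W.apOfModel ℓ : ZMod p) ∧
      LinearMap.det ((planeRep hΔ).ρ σ) = (ℓ : ZMod p) := by
  constructor
  · exact (galoisTrace_def _ _ _).symm.trans
      (EllTorsion.galoisTrace_frobenius W hΔ p hp2 ℓ hℓ hℓ2 hgood hℓp A hA σ hσ)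
  · exact EllTorsion.det_galoisRepModuleEnd_frobenius W hΔ p ℓ hℓ hgood hℓp A hA σ hσ

/-- The determinant character of `E[p]`. -/
def detChar : Γℚ →* ZMod p := (LinearMap.det).comp (planeRep hΔ (p := p)).ρ

theorem two_ne_zero_zmod (hp2 : p ≠ 2) : (2 : ZMod p) ≠ 0 := fun h => by
  have h' : ((2 : ℕ) : ZMod p) = 0 := by exact_mod_cast h
  rw [ZMod.natCast_eq_zero_iff] at h'
  exact hp2 ((Nat.prime_dvd_prime_iff_eq Fact.out Nat.prime_two).1 h')

theorem planeRep_spans (hp2 : p ≠ 2)
    (hirr : GaloisRepIsIrreducible (K := AlgebraicClosure ℚ) ℚ (W.map (Int.castRingHom ℚ)) p) :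
    Submodule.span (ZMod p) (Set.range (planeRep hΔ (p := p)).ρ) = ⊤ :=
  (FLTA.RepTheory.isAbsolutelyIrreducible_iff_spans _).1
    (FLTA.RepTheory.isAbsolutelyIrreducible_of_isOdd
      (fun U hU => hirr.2 U fun σ x hx => hU σ x hx) (two_ne_zero_zmod hp2)
      complexConjugation_mul_self
      (planeRep_det_conjugation hΔ))

include hΔ in
/-- Outside any finite set there is `ℓ` with `a_ℓ ≢ ℓ + 1 (mod p)`. -/
theorem exists_not_eisenstein (hp2 : p ≠ 2)
    (hirr : GaloisRepIsIrreducible (K := AlgebraicClosure ℚ) ℚ (W.map (Int.castRingHom ℚ)) p)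
    (S : Finset ℕ) (hpS : p ∈ S)
    (hbad : ∀ ℓ : ℕ, ℓ.Prime → ¬ W.IsGoodPrimeFor ℓ → ℓ ∈ S) :
    ∃ ℓ : ℕ, ℓ.Prime ∧ ℓ ∉ S ∧ ¬ (p : ℤ) ∣ W.apOfModel ℓ - (ℓ + 1) := by
  set ρ := (planeRep hΔ (p := p)).ρ with hρdef
  obtain ⟨g, hg⟩ := exists_trace_ne (planeRep hΔ (p := p)).finrank_eq ρ
    (planeRep_spans hΔ hp2 hirr) (two_ne_zero_zmod hp2) complexConjugation_mul_self
    (planeRep_det_conjugation hΔ)
  by_contra hall
  simp only [not_exists, not_and, not_not] at hall
  refine hg ?_
  obtain ⟨ℓ, hℓ, hℓS', A, hA, τ, hτ, k, hk⟩ := FLTA.Density.exists_frobenius_pow_map_eq ρ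
    (planeRep hΔ (p := p)).factorsThroughFiniteLevel (insert 2 S) g
  have hℓ2 : ℓ ≠ 2 := fun h => hℓS' (by simp [h])
  have hℓS : ℓ ∉ S := fun h => hℓS' (Finset.mem_insert_of_mem h)
  have hℓp : ℓ ≠ p := fun h => hℓS (h ▸ hpS)
  have hgood : W.IsGoodPrimeFor ℓ := by_contra fun h => hℓS (hbad ℓ hℓ h)
  obtain ⟨ht, hd⟩ := planeRep_frobenius hΔ hp2 hℓ hℓ2 hgood hℓp hA hτ
  have ha : (W.apOfModel ℓ : ZMod p) = 1 + (ℓ : ZMod p) := by
    have h0 := (ZMod.intCast_zmod_eq_zero_iff_dvd _ p).2 (hall ℓ hℓ hℓS)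
    push_cast at h0
    linear_combination h0
  rw [← hρdef] at ht hd
  rw [ha] at ht
  have hbase : (1 : Γℚ →* Module.End (ZMod p) (ZMod p)) τ +
      detChar hΔ (p := p) τ • (1 : Γℚ →* Module.End (ZMod p) (ZMod p)) τ⁻¹ =
      LinearMap.trace (ZMod p) _ (ρ τ) • (1 : Module.End (ZMod p) (ZMod p)) := by
    rw [ht, show detChar hΔ (p := p) τ = (ℓ : ZMod p) from hd, add_smul, one_smul, MonoidHom.one_apply,
      MonoidHom.one_apply]
  haveI : Nontrivial (planeRep hΔ (p := p)).V :=
    Module.nontrivial_of_finrank_eq_succ (planeRep hΔ (p := p)).finrank_eq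
  have hn := quadratic_pow ρ (1 : Γℚ →* Module.End (ZMod p) (ZMod p)) (detChar hΔ (p := p))
    (fun x => LinearMap.trace (ZMod p) _ (ρ x))
    (fun x => quadratic_self (planeRep hΔ (p := p)).finrank_eq ρ x) hbase k
  have h1 := LinearMap.congr_fun hn (1 : ZMod p)
  simp only [MonoidHom.one_apply, LinearMap.add_apply, LinearMap.smul_apply, Module.End.one_apply,
    smul_eq_mul, mul_one] at h1
  rw [← hk, ← map_pow, ← h1]
  rfl

end Curve

end FLTA.LevelLowering

end
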