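import Fermat.Agent.LevelLowering.LocalCurveLine

/-!
# An abscissa moved by at most `1 / (p - 1)`

If `T ∈ E[p]` differs from a point `U` with nonsingular non-two-torsion reduction by a point fixed
by inertia, then `x (U)` is moved by `σ` exactly half as much as `x (σ T - T)` is non-integral.
-/

set_option autoImplicit false

open scoped Classical

open WeierstrassCurve WeierstrassCurve.Affine FLTA.EllReduction FLTA.EllReduction.FreyAux

open scoped WeierstrassCurve.Affine

namespace FLTA.LevelLowering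

section Red

variable {L : Type*} [Field L] {A : ValuationSubring L} {W : WeierstrassCurve.Affine L}

/-- An integral point with nonsingular reduction doubles into the kernel of reduction iff its
tangent is vertical modulo the maximal ideal. -/
theorem inE1_two_iff [DecidableEq L] (hW : IntegralAt A W) {x y : L} (h : W.Nonsingular x y)
    (hP : InE0 A W (.some x y h)) (hx : x ∈ A) :
    InE1 A W (.some x y h + .some x y h) ↔ A.valuation (2 * y + W.a₁ * x + W.a₃) < 1 := by
  have hy := y_mem_of_x_mem hW h.1 hx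
  have hny : W.negY x y ∈ A := negY_mem hW hx hy
  have hns := (inE0_some_iff hW h hx hy).mp hP
  have hns' := (inE0_some_iff hW _ hx hny).mp ((inE0_neg hW).mpr hP)
  have key : y - W.negY x y = 2 * y + W.a₁ * x + W.a₃ := by rw [negY]; ring
  rw [← key, ← res_eq_res_iff hy hny]
  constructor
  · intro h1
    obtain ⟨-, hadd⟩ := inE0_add_and_redPoint_add hW hP hP
    rw [redPoint_of_inE1 hW h1, eq_comm, add_eq_zero_iff_eq_neg, ← redPoint_neg hW hP,
      Point.neg_some, redPoint_some hW hx hy hns, redPoint_some hW hx hny hns',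
      Point.some.injEq] at hadd
    exact hadd.2
  · intro he
    have := sub_inE1_of_redPoint_eq hW hP ((inE0_neg hW).mpr hP) (by
      rw [Point.neg_some, redPoint_some hW hx hy hns, redPoint_some hW hx hny hns', Point.some.injEq]
      exact ⟨rfl, he⟩)
    rwa [sub_neg_eq_add] at this

end Red

local notation "Qbar" => AlgebraicClosure ℚ

-- use the algebra structure of the prelude definitions
attribute [local instance 10000] AlgebraicClosure.instAlgebra

variable {W : WeierstrassCurve ℤ} {p : ℕ} [Fact p.Prime] {A : ValuationSubring Qbar} {w : Qbar → ℚ}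

omit [Fact p.Prime] in
theorem exists_smul_some (τ : Qbar ≃ₐ[ℚ] Qbar) {x y : Qbar} (h : (geomCurve W).Nonsingular x y) :
    ∃ h' : (geomCurve W).Nonsingular (τ x) (τ y),
      τ • (Point.some x y h : GeomPoint W) = Point.some (τ x) (τ y) h' :=
  ⟨_, Point.map_some (f := τ.toAlgHom) h⟩

/-- The core estimate. -/
theorem exists_moved_abscissa (hw : IsRatVal A p w) (hA : A.LiesOverPrime p)
    (hbound : ∀ (x y : Qbar) (h : (geomCurve W).Nonsingular x y),
      p • (Point.some x y h : GeomPoint W) = 0 → x ∉ A → -w x * ((p : ℚ) - 1) ≤ 2)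
    {T U : GeomPoint W} (hpT : p • T = 0) (hU : U ∈ E0Z W A) (hU2 : 2 • U ∉ E1Z W A)
    (hfix : ∀ τ ∈ A.inertiaSubgroupIn ℚ, τ • (T - U) = T - U)
    {σ : Qbar ≃ₐ[ℚ] Qbar} (hσ : σ ∈ A.inertiaSubgroupIn ℚ) (hne : σ • T ≠ T) :
    ∃ b ∈ A, (∀ τ ∈ A.inertiaSubgroupIn ℚ, τ • T = T → τ b = b) ∧ σ b - b ≠ 0 ∧
      ((p : ℕ) : Qbar) / (σ b - b) ^ (p - 1) ∈ A := by
  have hp : p.Prime := Fact.out
  have hWg := geomCurve_integralAt W A
  have hsub : ∀ (τ : Qbar ≃ₐ[ℚ] Qbar) (P Q : GeomPoint W), τ • (P - Q) = τ • P - τ • Q :=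
    fun τ P Q => (Point.map (W' := W.map (Int.castRingHom ℚ)) τ.toAlgHom).map_sub P Q
  have hR : σ • T - T = σ • U - U := by
    have h1 := hfix σ hσ
    rw [hsub] at h1
    exact sub_eq_sub_iff_sub_eq_sub.mp h1
  have hR1 : σ • U - U ∈ E1Z W A := smul_sub_mem_E1Z hp hA hσ hU
  have hpR : p • (σ • U - U) = 0 := hR ▸ nsmul_smul_sub_eq_zero σ hpT
  have hR0 : σ • U - U ≠ 0 := hR ▸ sub_ne_zero.mpr hne
  have hact := actsTriviallyMod_of_mem_inertiaSubgroupIn hσ
  obtain _ | ⟨x, y, h⟩ := U
  · exact absurd ((E1Z W A).nsmul_mem (E1Z W A).zero_mem 2) hU2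
  have hx : x ∈ A := by
    by_contra hx
    exact hU2 ((E1Z W A).nsmul_mem (show (Point.some x y h : GeomPoint W) ∈ E1Z W A from hx) 2)
  have hy := y_mem_of_x_mem hWg h.1 hx
  set e := 2 * y + (geomCurve W).a₁ * x + (geomCurve W).a₃ with he
  have heA : e ∈ A :=
    add_mem (add_mem (mul_mem (natCast_mem A 2) hy) (mul_mem hWg.a₁ hx)) hWg.a₃
  have he1 : A.valuation e = 1 := by
    refine le_antisymm (valuation_le_one_of_mem heA) (not_lt.mp fun hlt => hU2 ?_)
    rw [two_nsmul]
    exact (inE1_two_iff hWg h ((inZeroComponentAt_iff W A _).mp hU) hx).mpr hlt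
  obtain ⟨hσx, hdx⟩ := hact x hx
  obtain ⟨hσy, hdy⟩ := hact y hy
  obtain ⟨hns', hσU⟩ := exists_smul_some σ h
  set num := σ y - (geomCurve W).negY x y with hnum
  have hnum1 : A.valuation num = 1 := by
    rw [hnum, show σ y - (geomCurve W).negY x y = (σ y - y) + e by rw [he, negY]; ring,
      A.valuation.map_add_eq_of_lt_right (by rw [he1]; exact hdy), he1]
  have hxne : σ x ≠ x := by
    intro hxx
    have heq : (geomCurve W).Equation (σ x) (σ y) := hns'.1
    rcases Affine.Y_eq_of_X_eq heq h.1 hxx with hyy | hyy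
    · apply hR0
      rw [sub_eq_zero, hσU]
      simp only [Point.some.injEq]
      exact ⟨hxx, hyy⟩
    · rw [hnum, hyy, sub_self, map_zero] at hnum1
      exact zero_ne_one hnum1
  have hd : σ x - x ≠ 0 := sub_ne_zero.mpr hxne
  have hwd : 0 < w (σ x - x) := (hw.mem_nonunits_iff.mp hdx).resolve_left hd
  have hnum0 : num ≠ 0 := fun h0 => by rw [h0, map_zero] at hnum1; exact zero_ne_one hnum1
  have hwnum : w num = 0 := by
    have h1 : num ∈ A := (A.valuation_le_one_iff _).mp hnum1.le
    have h2 : num⁻¹ ∈ A := (A.valuation_le_one_iff _).mp (by rw [map_inv₀, hnum1, inv_one])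
    have h3 := (hw.mem_iff (inv_ne_zero hnum0)).mp h2
    rw [hw.map_inv hnum0] at h3
    linarith [(hw.mem_iff hnum0).mp h1]
  -- the secant through `σ U` and `-U`
  set lam := num / (σ x - x) with hlam
  have hlam0 : lam ≠ 0 := div_ne_zero hnum0 hd
  have hwlam : w lam = -w (σ x - x) := by
    rw [hlam, hw.map_div hnum0 hd, hwnum, zero_sub]
  have hwl2 : w (lam ^ 2) = -(2 * w (σ x - x)) := by
    rw [hw.map_pow hlam0, hwlam]; push_cast; ring
  set X := lam ^ 2 + ((geomCurve W).a₁ * lam + (-(geomCurve W).a₂ - σ x - x)) with hX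
  have htail : (geomCurve W).a₁ * lam + (-(geomCurve W).a₂ - σ x - x) = 0 ∨
      -w (σ x - x) ≤ w ((geomCurve W).a₁ * lam + (-(geomCurve W).a₂ - σ x - x)) := by
    refine or_iff_not_imp_left.mpr fun h0 => hw.le_add h0 ?_ ?_
    · refine or_iff_not_imp_left.mpr fun h1 => ?_
      rw [hw.map_mul (left_ne_zero_of_mul h1) hlam0, hwlam]
      linarith [(hw.mem_iff (left_ne_zero_of_mul h1)).mp hWg.a₁]
    · refine or_iff_not_imp_left.mpr fun h1 => ?_
      linarith [(hw.mem_iff h1).mp (sub_mem (sub_mem (neg_mem hWg.a₂) hσx) hx)]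
  obtain ⟨hX0, hwX⟩ := hw.add_eq_left (pow_ne_zero 2 hlam0)
    (htail.imp_right fun h1 => lt_of_lt_of_le (by rw [hwl2]; linarith) h1)
  rw [← hX] at hX0 hwX
  have hXA : X ∉ A := fun hm => by
    have := (hw.mem_iff hX0).mp hm
    rw [hwX, hwl2] at this
    linarith
  -- `X` is the abscissa of `σ U - U`
  have hXR : ∃ (Y : Qbar) (hXY : (geomCurve W).Nonsingular X Y),
      σ • (Point.some x y h : GeomPoint W) - Point.some x y h = Point.some X Y hXY := by
    have key : (geomCurve W).addX (σ x) x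
        ((geomCurve W).slope (σ x) x (σ y) ((geomCurve W).negY x y)) = X := by
      rw [Affine.slope_of_X_ne hxne, hX, hlam, hnum, Affine.addX]
      ring
    rw [hσU, sub_eq_add_neg, Point.neg_some]
    rw [← key]
    exact ⟨_, _, Point.add_of_X_ne hxne⟩
  obtain ⟨Y, hXY, hXYeq⟩ := hXR
  have hb := hbound X Y hXY (hXYeq ▸ hpR) hXA
  rw [hwX, hwl2] at hb
  refine ⟨x, hx, fun τ hτ hτT => ?_, hd, ?_⟩
  · have h1 := hfix τ hτ
    rw [hsub, hτT] at h1
    have h2 : τ • (Point.some x y h : GeomPoint W) = Point.some x y h := sub_right_injective h1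
    obtain ⟨h', e⟩ := exists_smul_some τ h
    rw [e] at h2
    exact (Point.some.inj h2).1
  · refine (hw.mem_iff (div_ne_zero hw.q_ne (pow_ne_zero _ hd))).mpr ?_
    rw [hw.map_div hw.q_ne (pow_ne_zero _ hd), hw.map_q, hw.map_pow hd,
      Nat.cast_sub hp.one_le, Nat.cast_one]
    linarith

/-- At a multiplicative place with `p ∣ n`, a `p`-torsion point is congruent modulo the identity
component to a point fixed by inertia. -/
theorem exists_fixed_component (hA : A.LiesOverPrime p) (D : MultData W A) {n : ℕ}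
    (hn : A.valuation D.a = A.valuation (p : Qbar) ^ n) (hp2 : p ≠ 2) (hpn : p ∣ n)
    {T : GeomPoint W} (hpT : p • T = 0) :
    ∃ R : GeomPoint W, (∀ τ ∈ A.inertiaSubgroupIn ℚ, τ • R = R) ∧ T - R ∈ E0Z W A := by
  have hp : p.Prime := Fact.out
  obtain ⟨Q, rfl⟩ := D.equiv.surjective T
  have hpQ : p • Q = 0 := D.equiv.injective (by rw [map_nsmul, map_zero]; exact hpT)
  have hdiv : ∀ x : Qbar, x ≠ 0 → ∃ N : ℕ, 0 < N ∧ ∃ M : ℤ,
      A.valuation x ^ N = A.valuation (p : Qbar) ^ M := fun x hx => by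
    have : @Algebra.IsAlgebraic ℚ Qbar _ _ DivisionRing.toRatAlgebra := AlgebraicClosure.isAlgebraic ℚ
    obtain ⟨d, i, hd, hdi⟩ := FreyAux.exists_zpow_eq A hp hA hx
    exact ⟨d, hd, i, hdi⟩
  rcases node_exists_fixed D.lt D.ne (π := (p : Qbar)) hA hn hp hp2 hpn hdiv Q
    (by rw [hpQ]; exact inE0_zero _) with h0 | ⟨i, y, hns, hy, hcase⟩
  · refine ⟨0, fun τ _ => map_zero (Point.map (W' := W.map (Int.castRingHom ℚ)) τ.toAlgHom), ?_⟩
    rw [sub_zero]
    exact (inZeroComponentAt_iff W A _).mpr ((D.inE0_iff Q).mpr h0)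
  · set c : Qbar := (p : Qbar) ^ i with hc
    have hR : ∀ τ ∈ A.inertiaSubgroupIn ℚ,
        τ • (D.equiv (.some c y hns) : GeomPoint W) = D.equiv (.some c y hns) := by
      intro τ hτ
      have hσ := actsTriviallyMod_of_mem_inertiaSubgroupIn hτ
      have hσc : τ c = c := by rw [hc, map_pow, map_natCast]
      have hσy : τ y = y := by
        have he := nodeCurve_equation.mp hns.1
        have he' := congrArg τ he
        simp only [map_add, map_mul, map_pow, hσc, (D.fix τ hσ).2.2.2.2] at he'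
        have : (τ y - y) * (τ y + y + c) = 0 := by linear_combination he' - he
        rcases mul_eq_zero.mp this with h' | h'
        · exact sub_eq_zero.mp h'
        · exfalso
          have hv := hσ.valuation_eq hp hA y
          rw [show τ y = -(y + c) by linear_combination h', Valuation.map_neg,
            A.valuation.map_add_eq_of_lt_right hy] at hv
          exact hy.ne hv.symm
      refine (D.smul_equiv hσ hns).trans ?_
      congr 1
      simp only [Point.some.injEq]
      exact ⟨hσc, hσy⟩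
    rcases hcase with h | h
    · refine ⟨_, hR, (inZeroComponentAt_iff W A _).mpr ?_⟩
      rw [← map_sub, D.inE0_iff]
      exact h
    · refine ⟨-D.equiv (.some c y hns), fun τ hτ => ?_, (inZeroComponentAt_iff W A _).mpr ?_⟩
      · exact (map_neg (Point.map (W' := W.map (Int.castRingHom ℚ)) τ.toAlgHom) _).trans
          (congrArg Neg.neg (hR τ hτ))
      · rw [sub_neg_eq_add, ← map_add, D.inE0_iff]
        exact h

/-- At a multiplicative place, an inertia-fixed point on the identity component whose double is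
not in the kernel of reduction. -/
theorem exists_fixed_unit (hA : A.LiesOverPrime p) (D : MultData W A) (hp2 : p ≠ 2) :
    ∃ Z : GeomPoint W, (∀ τ ∈ A.inertiaSubgroupIn ℚ, τ • Z = Z) ∧ Z ∈ E0Z W A ∧
      2 • Z ∉ E1Z W A := by
  have hp : p.Prime := Fact.out
  have hnd : ∀ k : ℕ, 1 ≤ k → k ≤ 9 → k ≠ p → ¬ (k = 9 ∧ p = 3) → k ≠ 4 → k ≠ 6 → k ≠ 8 →
      ¬ p ∣ k := by
    intro k h1 h9 hkp h93 h4 h6 h8 hd
    have := Nat.le_of_dvd (by omega) hd
    have := hp.two_le
    obtain ⟨c, hc⟩ := hd
    have : c ≤ 4 := by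
      by_contra hc'
      have : 2 * 5 ≤ p * c := Nat.mul_le_mul (by omega) (by omega)
      omega
    interval_cases c <;> omega
  obtain ⟨k, hk, hk4⟩ : ∃ k : ℕ, ¬ p ∣ k ∧ ¬ p ∣ 1 + 4 * k := by
    have := hp.two_le
    rcases eq_or_ne p 5 with rfl | h5
    · exact ⟨2, by norm_num, by norm_num⟩
    · exact ⟨1, hp.not_dvd_one, hnd 5 (by omega) (by omega) (by omega) (by omega) (by omega)
        (by omega) (by omega)⟩
  obtain ⟨s, hs⟩ := IsAlgClosed.exists_pow_nat_eq
    ((k : Qbar) ^ 2 + 4 * ((k : Qbar) ^ 3 + D.a)) (n := 2) two_pos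
  set y : Qbar := (s - k) / 2 with hy
  have hk1 : A.valuation (k : Qbar) = 1 := valuation_natCast_of_not_dvd hp hA hk
  have hk41 : A.valuation ((1 + 4 * k : ℕ) : Qbar) = 1 := valuation_natCast_of_not_dvd hp hA hk4
  push_cast at hk41
  have hs1 : A.valuation s = 1 := by
    refine (pow_left_inj₀ zero_le zero_le two_ne_zero).mp ?_
    rw [one_pow, ← map_pow, hs, show (k : Qbar) ^ 2 + 4 * ((k : Qbar) ^ 3 + D.a) =
      (k : Qbar) ^ 2 * (1 + 4 * k) + D.a * 4 by ring,
      A.valuation.map_add_eq_of_lt_left, map_mul, map_pow, hk1, hk41, one_pow, one_mul]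
    rw [map_mul, map_mul, map_pow, hk1, hk41, one_pow, one_mul]
    rw [← map_mul]
    exact valuation_mul_lt_one D.lt ((show ((4 : ℕ) : Qbar) = 4 from rfl) ▸ natCast_mem A 4)
  have hns : (nodeCurve D.a).toAffine.Nonsingular (k : Qbar) y := by
    refine (equation_iff_nonsingular_of_Δ_ne_zero (nodeCurve_Δ_ne_zero D.lt D.ne)).mp ?_
    refine nodeCurve_equation.mpr ?_
    rw [hy]
    field_simp
    linear_combination hs
  have h0 : InE0 A (nodeCurve D.a).toAffine (.some (k : Qbar) y hns) :=
    (node_inE0_iff D.lt).mpr hk1.ge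
  refine ⟨D.equiv (.some (k : Qbar) y hns), fun τ hτ => ?_,
    (inZeroComponentAt_iff W A _).mpr ((D.inE0_iff _).mpr h0), ?_⟩
  · have hσ := actsTriviallyMod_of_mem_inertiaSubgroupIn hτ
    have hyA : y ∈ A := y_mem_of_x_mem D.nodeInt hns.1 (natCast_mem A k)
    have hσy : τ y = y := by
      have he := nodeCurve_equation.mp hns.1
      have he' := congrArg τ he
      simp only [map_add, map_mul, map_pow, map_natCast, (D.fix τ hσ).2.2.2.2] at he'
      have : (τ y - y) * (τ y + y + k) = 0 := by linear_combination he' - he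
      rcases mul_eq_zero.mp this with h' | h'
      · exact sub_eq_zero.mp h'
      · exfalso
        have hlt := (hσ y hyA).2
        rw [show τ y - y = -s by rw [hy] at h' ⊢; linear_combination h', Valuation.map_neg,
          hs1] at hlt
        exact lt_irrefl _ hlt
    refine (D.smul_equiv hσ hns).trans ?_
    congr 1
    simp only [Point.some.injEq]
    exact ⟨map_natCast τ k, hσy⟩
  · rw [two_nsmul]
    intro h1
    have h2 : InE1 A (geomCurve W)
        (D.equiv (.some (k : Qbar) y hns) + D.equiv (.some (k : Qbar) y hns)) := h1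
    rw [← map_add, D.inE1_iff, inE1_two_iff D.nodeInt hns h0 (natCast_mem A k)] at h2
    rw [show (2 : Qbar) * y + (nodeCurve D.a).a₁ * k + (nodeCurve D.a).a₃ = s by
      simp only [nodeCurve, hy]; ring, hs1] at h2
    exact lt_irrefl _ h2

end FLTA.LevelLowering
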