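import Fermat.Agent.LevelLowering.LocalCurveDefs
import Fermat.Agent.EllReduction.Api
import Fermat.Agent.EllReducible.Line
import Fermat.Agent.LevelLowering.LocalCurveMove
import Fermat.Prelude.Def_ExtCitation_AdmissibleExtension

/-!
# The mod `p` representation of an integral curve at an ordinary or peu ramifié place over `p`

`exists_inertiaLine_curve` : inertia preserves a line, acts on it by the cyclotomic character and
trivially on the quotient. `wild_bound_curve` : a unipotent non-trivial inertia element moves some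
integral element of the field cut out by the representation by valuation at most `1 / (p - 1)`.
-/

set_option autoImplicit false

open WeierstrassCurve WeierstrassCurve.Affine.Point

open scoped WeierstrassCurve.Affine

namespace FLTA.LevelLowering

open FLTA.EllReducible (Tors)

open FLTA.EllReduction

/-- At an ordinary or multiplicative place over `p`, inertia preserves a line of `E[p]`, acts
trivially on the quotient and through the cyclotomic character on the line. -/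
theorem exists_inertiaLine_curve (W : WeierstrassCurve ℤ) (hΔ : W.Δ ≠ 0) (p : ℕ) [Fact p.Prime]
    (hp2 : p ≠ 2)
    (hloc : (¬ (p : ℤ) ∣ W.Δ ∧ ¬ (p : ℤ) ∣ W.apOfModel p) ∨ ((p : ℤ) ∣ W.Δ ∧ ¬ (p : ℤ) ∣ W.c₄))
    (A : ValuationSubring (AlgebraicClosure ℚ)) (hA : A.LiesOverPrime p) :
    ∃ L₀ : Submodule (ZMod p) (Tors (W.map (Int.castRingHom ℚ)) p), L₀ ≠ ⊥ ∧ L₀ ≠ ⊤ ∧
      (∀ σ ∈ A.inertiaSubgroupIn ℚ, ∀ x : Tors (W.map (Int.castRingHom ℚ)) p, σ • x - x ∈ L₀) ∧
      (∀ σ ∈ A.inertiaSubgroupIn ℚ, ∀ x ∈ L₀, σ • x = ExtCitation.cycloExp p σ • x) :=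
  ⟨curveLine W p A, (curveLine_ne hΔ hp2 hloc hA).1, (curveLine_ne hΔ hp2 hloc hA).2,
    fun _ hσ x => sub_mem_curveLine hΔ hloc hA hσ x,
    fun _ hσ _ hx => smul_eq_cyclo_of_mem_curveLine hΔ hp2 hloc hA hσ hx⟩

/-- A point with nonsingular non-two-torsion reduction differing from a `p`-torsion point off the
line by a point fixed by inertia. -/
theorem exists_companion_point (W : WeierstrassCurve ℤ) (hΔ : W.Δ ≠ 0) {p : ℕ} [Fact p.Prime]
    (hp2 : p ≠ 2) (hloc : IsOrdinaryOrPeuMult W p)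
    {A : ValuationSubring (AlgebraicClosure ℚ)} (hA : A.LiesOverPrime p)
    {T : GeomPoint W} (hpT : p • T = 0) (hT : T ∉ E1Z W A) :
    ∃ U : GeomPoint W, U ∈ E0Z W A ∧ 2 • U ∉ E1Z W A ∧
      ∀ τ ∈ A.inertiaSubgroupIn ℚ, τ • (T - U) = T - U := by
  have hp : p.Prime := Fact.out
  rcases hloc with ⟨hgood, -⟩ | ⟨hΔp, hc₄, hpn⟩
  · refine ⟨T, mem_E0Z_of_good hp hA hgood T, fun h2 => hT ?_, fun τ _ => ?_⟩
    · obtain ⟨k, hk⟩ := hp.odd_of_ne_two hp2
      have h3 := (E1Z W A).nsmul_mem h2 (k + 1)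
      rwa [← mul_nsmul', show (k + 1) * 2 = p + 1 by omega, succ_nsmul, hpT, zero_add] at h3
    · rw [sub_self]
      exact (Affine.Point.map (W' := W.map (Int.castRingHom ℚ)) τ.toAlgHom).map_zero
  · obtain ⟨D⟩ := exists_multData hp hA hΔ hΔp hc₄
    obtain ⟨R, hR, hR0⟩ := exists_fixed_component hA D
      (by rw [D.val, valuation_Δ_eq W hp hA hΔ]) hp2 hpn hpT
    by_cases h2 : 2 • (T - R) ∈ E1Z W A
    · obtain ⟨Z, hZ, hZ0, hZ2⟩ := exists_fixed_unit hA D hp2
      refine ⟨T - R - Z, (E0Z W A).sub_mem hR0 hZ0, fun h => hZ2 ?_, fun τ hτ => ?_⟩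
      · have h' := (E1Z W A).sub_mem h2 h
        rwa [← nsmul_sub, sub_sub_cancel] at h'
      · rw [show T - (T - R - Z) = R + Z by abel]
        exact ((Affine.Point.map (W' := W.map (Int.castRingHom ℚ)) τ.toAlgHom).map_add R Z).trans
          (congrArg₂ (· + ·) (hR τ hτ) (hZ τ hτ))
    · exact ⟨T - R, hR0, h2, fun τ hτ => by rw [sub_sub_cancel]; exact hR τ hτ⟩

/-- Bound on the wild ramification jump of the field cut out by `E[p]`:
`v (σ b - b) ≤ 1 / (p - 1)` for an integral `b` fixed by the inertia elements fixing `E[p]`. -/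
theorem wild_bound_curve (W : WeierstrassCurve ℤ) (hΔ : W.Δ ≠ 0) (p : ℕ) [Fact p.Prime]
    (hp2 : p ≠ 2) (hloc : IsOrdinaryOrPeuMult W p)
    (A : ValuationSubring (AlgebraicClosure ℚ)) (hA : A.LiesOverPrime p)
    {σ : AlgebraicClosure ℚ ≃ₐ[ℚ] AlgebraicClosure ℚ} (hσ : σ ∈ A.inertiaSubgroupIn ℚ)
    (huni : ∀ x : Tors (W.map (Int.castRingHom ℚ)) p, σ • (σ • x - x) = σ • x - x)
    (hne : ∃ x : Tors (W.map (Int.castRingHom ℚ)) p, σ • x ≠ x) :
    ∃ b ∈ A, (∀ τ ∈ A.inertiaSubgroupIn ℚ,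
        (∀ x : Tors (W.map (Int.castRingHom ℚ)) p, τ • x = x) → τ b = b) ∧
      σ b - b ≠ 0 ∧
      ((p : ℕ) : AlgebraicClosure ℚ) / (σ b - b) ^ (p - 1) ∈ A := by
  have hloc' := hloc.imp id fun h => And.intro h.1 h.2.1
  obtain ⟨w, hw⟩ := exists_ratVal hA
  obtain ⟨-, -, hb⟩ := torsion_shape_curve W hΔ hp2 hloc' hw
  obtain ⟨T, hT, hmv⟩ := exists_moved_off_curveLine hΔ hp2 hloc' hA hσ huni hne
  have hpT : p • ((T : CurvePt W) : GeomPoint W) = 0 := FLTA.EllReducible.nsmul_coe_eq_zero T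
  obtain ⟨U, hU0, hU2, hfix⟩ :=
    exists_companion_point W hΔ hp2 hloc hA hpT (fun h => hT (mem_curveLine.mpr h))
  obtain ⟨b, hbA, hbfix, hb0, hbp⟩ :=
    exists_moved_abscissa hw hA hb hpT hU0 hU2 hfix hσ (fun h => hmv (Subtype.ext h))
  exact ⟨b, hbA, fun τ hτ hall => hbfix τ hτ (congrArg Subtype.val (hall T)), hb0, hbp⟩

end FLTA.LevelLowering
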