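import Fermat.Agent.LevelLowering.LocalFreyLine

/-!
# The mod `p` representation of the Frey curve at a place over `p` (multiplicative case)

`exists_inertiaLine` : inertia preserves a line `L₀`, acts on it by the cyclotomic character and
trivially on the quotient.  `wild_bound` : a unipotent non-trivial inertia element moves some
integral element of the field cut out by the representation by valuation at most `1 / (p - 1)`.
-/

set_option autoImplicit false

open WeierstrassCurve WeierstrassCurve.Affine.Point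

open scoped WeierstrassCurve.Affine

namespace FLTA.LevelLowering

open FLTA.EllReducible (Tors)

/-- At a place over `p ∣ abc`, inertia preserves a line of `E[p]`, acts trivially on the quotient
and through the cyclotomic character on the line. -/
theorem exists_inertiaLine (P : FreyPackage) (hdvd : (P.p : ℤ) ∣ P.a * P.b * P.c)
    [Fact P.p.Prime]
    (A : ValuationSubring (AlgebraicClosure ℚ)) (hA : A.LiesOverPrime P.p) :
    ∃ L₀ : Submodule (ZMod P.p) (Tors P.freyCurve P.p), L₀ ≠ ⊥ ∧ L₀ ≠ ⊤ ∧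
      (∀ σ ∈ A.inertiaSubgroupIn ℚ, ∀ x : Tors P.freyCurve P.p, σ • x - x ∈ L₀) ∧
      (∀ σ ∈ A.inertiaSubgroupIn ℚ, ∀ x ∈ L₀, σ • x = ExtCitation.cycloExp P.p σ • x) := by
  obtain ⟨D⟩ := exists_freyPlace P hdvd A hA
  exact ⟨D.line, D.line_ne.1, D.line_ne.2, fun σ hσ x => D.sub_mem_line hσ x,
    fun σ hσ x hx => D.smul_eq_cyclo_of_mem_line hσ hx⟩

/-- Bound on the wild ramification jump of the field cut out by `E[p]` at a place over `p ∣ abc`:
`v (σ b - b) ≤ 1 / (p - 1)` for an integral `b` fixed by the inertia elements fixing `E[p]`. -/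
theorem wild_bound (P : FreyPackage) (hdvd : (P.p : ℤ) ∣ P.a * P.b * P.c)
    (A : ValuationSubring (AlgebraicClosure ℚ)) (hA : A.LiesOverPrime P.p)
    {σ : AlgebraicClosure ℚ ≃ₐ[ℚ] AlgebraicClosure ℚ} (hσ : σ ∈ A.inertiaSubgroupIn ℚ)
    (huni : ∀ x : Tors P.freyCurve P.p, σ • (σ • x - x) = σ • x - x)
    (hne : ∃ x : Tors P.freyCurve P.p, σ • x ≠ x) :
    ∃ b ∈ A, (∀ τ ∈ A.inertiaSubgroupIn ℚ, (∀ x : Tors P.freyCurve P.p, τ • x = x) → τ b = b) ∧
      σ b - b ≠ 0 ∧
      ((P.p : ℕ) : AlgebraicClosure ℚ) / (σ b - b) ^ (P.p - 1) ∈ A := by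
  haveI : Fact P.p.Prime := ⟨P.pp⟩
  obtain ⟨D⟩ := exists_freyPlace P hdvd A hA
  obtain ⟨T, hT, hmv⟩ := D.exists_moved_off_line hσ huni hne
  obtain ⟨-, i, hi, hd, hbound⟩ := D.move_tors hσ hT hmv
  have hw := D.S.hw
  have hT0 : (T : FreyPt P) ≠ 0 := fun h => hT (D.mem_line.mpr (by rw [h]; exact zero_mem _))
  have hX := (D.S.X_ne (FreyPlace.nsmul_tors T) hT0).1
  set π : AlgebraicClosure ℚ := (P.p : AlgebraicClosure ℚ) ^ i with hπ
  have hπ0 : π ≠ 0 := zpow_ne_zero _ hw.q_ne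
  have hwπ : D.w π = i := by rw [hπ, hw.map_zpow hw.q_ne, hw.map_q, mul_one]
  have hfix : ∀ τ : AlgebraicClosure ℚ ≃ₐ[ℚ] AlgebraicClosure ℚ, τ π = π := fun τ => by
    rw [hπ, map_zpow₀, map_natCast]
  refine ⟨D.C.X T / π, (hw.mem_iff (div_ne_zero hX hπ0)).mpr (by
    rw [hw.map_div hX hπ0, hi, hwπ, sub_self]), fun τ _ hτ => ?_, ?_, ?_⟩
  · rw [map_div₀, hfix, ← (D.coord_smul τ hT0).1]
    congr 2
    exact congrArg Subtype.val (hτ T)
  · rw [map_div₀, hfix, ← sub_div]
    exact div_ne_zero hd hπ0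
  · rw [map_div₀, hfix, ← sub_div]
    have hb := div_ne_zero hd hπ0
    refine (hw.mem_iff (div_ne_zero hw.q_ne (pow_ne_zero _ hb))).mpr ?_
    rw [hw.map_div hw.q_ne (pow_ne_zero _ hb), hw.map_q, hw.map_pow hb, hw.map_div hd hπ0, hwπ,
      Nat.cast_sub P.pp.one_le, Nat.cast_one]
    linarith

end FLTA.LevelLowering
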