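import Fermat.Agent.LevelLowering.EtaInstance
import Fermat.Agent.BadRed.ModularFibre

/-!
# The standard modular fibre is modular
-/

set_option autoImplicit false
set_option synthInstance.maxHeartbeats 400000

noncomputable section

open AlgebraicCurve ModularCurve FLTA.BadRed

namespace FLTA.LevelLowering

local notation "Qb" => AlgebraicClosure ℚ

variable (N q : ℕ) [NeZero N] [NeZero q] [Fact q.Prime] (A : ValuationSubring Qb)
  (hA : A.LiesOverPrime q) (hqN : ¬ q ∣ N)

theorem isModularFibre_badFibre [CharP (IsLocalRing.ResidueField A) q]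
    [PerfectRing (IsLocalRing.ResidueField A) q] :
    IsModularFibre (badFibre N q A hA hqN) :=
  ⟨fun _ => rfl, fun x => coe_heckeAlphaBar (L := Qb) N q x, fun _ => rfl⟩

end FLTA.LevelLowering

end
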