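import Fermat.Agent.LevelLowering.Jump
import Fermat.Agent.LevelLowering.HeckeFibre

/-!
# The Hecke operator kills the residue vector

The residue vector is `κ` times the weights; the weights have eigenvalue `l + 1` and the datum has
eigenvalue `a ≢ l + 1`, so all residues vanish.
-/

set_option autoImplicit false

noncomputable section

open AlgebraicCurve FLTA.BadRed

namespace FLTA.LevelLowering

variable {K : Type*} [Field K] [IsAlgClosed K] [CharZero K] {A : ValuationSubring K}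
  {k : Type*} [Field k] [IsAlgClosed k] {π : A →+* k}
  {q : ℕ} [NeZero q] [Fact q.Prime] [CharP k q]
  {F : Type*} [Field F] [Algebra K F] {F' : Type*} [Field F'] [Algebra K F']
  {Fk : Type*} [Field Fk] [Algebra k Fk] {g gF : ℕ} {B : BadFibre A π q F F' Fk g gF}
  {R : RatFrame B} {S : Finset (Place k Fk)} {m₀ : ℕ}

namespace EtaData

/-- The eta quotient is a unit at finite places outside the glued points. -/
theorem d_eq_zero (E : EtaData R S) (hS : B.IsGluing S m₀) {Q : Place k Fk} (hQ : E.IsFin Q)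
    (hQk : Q ≠ B.infk) (hoff : Q ∉ S) : E.d Q = 0 := by
  obtain ⟨φ, hφ, hφ0, -, hord, -, hG0, hG1⟩ := E.clear Q hQ
  have hj : ∀ Q' ∈ S, pt B Q' 0 ≠ Q := fun Q' hQ' h => hoff (h ▸ hQ')
  have hGs : ∀ l : Fin 2, φ * E.Gs l ∈ secRing B := fun l => by
    rcases (by decide : ∀ l : Fin 2, l = 0 ∨ l = 1) l with rfl | rfl
    · exact hG0
    · exact hG1
  have key : ∀ l : Fin 2, 0 ≤ Q.ord (R.ld 0 φ) + Q.ord (R.ld 0 (E.Gs l)) := fun l => by
    have h := R.ord_nonneg_off hS (mul_mem hφ (E.Gs_mem l)) (mul_ne_zero hφ0 (E.Gs_ne_zero l))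
      (hGs l) 0 hQk hj
    rwa [R.ld_mul 0 hφ hφ0 (E.Gs_mem l) (E.Gs_ne_zero l), Place.ord_mul _ (R.ld_ne_zero 0 hφ hφ0)
      (R.ld_ne_zero 0 (E.Gs_mem l) (E.Gs_ne_zero l))] at h
  obtain ⟨h1, h2⟩ := E.ord_ld_Gs (i := 0) (j := 1) (by decide) Q
  rw [pt_zero] at h1 h2
  have k0 := key 0
  have k1 := key 1
  have hφQ : Q.ord (R.ld 0 φ) = 0 := hord 0
  rw [hφQ, h1, zero_add] at k0
  rw [hφQ, h2, zero_add] at k1
  omega

end EtaData

namespace Datum

variable (X : Datum R)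

/-- **All residues vanish.** -/
theorem dvd_of_hecke (hS : B.IsGluing S m₀) (E : EtaData R S) (hne : S.Nonempty) (Wt : E.Weights)
    (hfix : ∀ v, E.IsFin (B.frobq • v) ↔ E.IsFin v) (hinf : ¬ E.IsFin B.infk) {κ : ℤ}
    (hκ : ∀ Q ∈ S, (q : ℤ) ∣ X.o 0 Q + κ * Wt.n Q ∧
      (q : ℤ) ∣ X.o 1 (B.frobq • Q) - κ * Wt.n Q)
    (Tk : Fk →* Fk) (hTk : ∀ x, x ≠ 0 → Tk x ≠ 0) (N : ℤ)
    (hfin : ∀ (m : ℤ) (x : Fk), x ≠ 0 → (∀ v, E.IsFin v → m ∣ v.ord x) →
      ∀ v, E.IsFin v → m ∣ v.ord (Tk x))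
    (hg : ∀ v, E.IsFin v → v.ord (Tk (R.ld 0 E.G)) = N * v.ord (R.ld 0 E.G))
    (a : ℤ) (heig : ∀ i v, (q : ℤ) ∣ v.ord (Tk (X.fb i)) - a * X.o i v)
    (hneq : ¬ (q : ℤ) ∣ N - a) :
    ∀ i v, (q : ℤ) ∣ X.o i v := by
  classical
  have hpz : Prime (q : ℤ) := Nat.prime_iff_prime_int.mp Fact.out
  set G := R.ld 0 E.G with hG
  have hG0 : G ≠ 0 := R.ld_ne_zero 0 E.G_mem E.G_ne_zero
  -- the weights, as a function of the place on each component
  set sgn : Fin 2 → ℤ := ![-1, 1] with hsgn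
  have hd : ∀ (i : Fin 2) (v : Place k Fk), E.IsFin v → (∀ Q ∈ S, pt B Q i ≠ v) → v.ord G = 0 := by
    intro i v hv hoff
    have hvk : v ≠ B.infk := fun h => hinf (h ▸ hv)
    rcases (by decide : ∀ l : Fin 2, l = 0 ∨ l = 1) i with rfl | rfl
    · exact E.d_eq_zero hS hv hvk fun h => hoff v h rfl
    · have hu : B.frobq • (B.frobq⁻¹ • v) = v := smul_inv_smul _ _
      have hfin' : E.IsFin (B.frobq⁻¹ • v) := by rw [← hfix, hu]; exact hv
      have h := E.d_eq_zero hS hfin' (fun h => hinf (h ▸ hfin'))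
        (fun h => hoff _ h (by rw [pt_one, hu]))
      rw [EtaData.d, ← ord_pt_of_fixed E.g_fixed (B.frobq⁻¹ • v) 1, pt_one, hu] at h
      exact h
  have hmain : ∀ i v, E.IsFin v →
      12 * (q : ℤ) ∣ 12 * X.o i v - sgn i * κ * Wt.t * v.ord G := by
    intro i v hv
    by_cases h : ∃ Q ∈ S, pt B Q i = v
    · obtain ⟨Q, hQ, rfl⟩ := h
      have e : (pt B Q i).ord G = E.d Q := ord_pt_of_fixed E.g_fixed Q i
      have hw := Wt.eq Q hQ
      rw [e]
      rw [show sgn i * κ * Wt.t * E.d Q = 12 * (sgn i * κ * Wt.n Q) by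
        linear_combination (sgn i * κ) * hw, ← mul_sub]
      refine mul_dvd_mul_left 12 ?_
      rcases (by decide : ∀ l : Fin 2, l = 0 ∨ l = 1) i with rfl | rfl
      · simp only [hsgn, Matrix.cons_val_zero, pt_zero, neg_mul, one_mul, sub_neg_eq_add]
        exact (hκ Q hQ).1
      · simp only [hsgn, Matrix.cons_val_one, Matrix.cons_val_fin_one, pt_one, one_mul]
        exact (hκ Q hQ).2
    · push Not at h
      rw [hd i v hv h, mul_zero, sub_zero]
      refine mul_dvd_mul_left 12 ?_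
      exact Int.dvd_of_emod_eq_zero
        (X.res_eq_zero_of_notMem hS E hne fun Q hQ => h Q (X.mem_bad.mp hQ).1)
  have hfinal : ∀ i v, E.IsFin v → (q : ℤ) ∣ X.o i v := by
    intro i v hv
    set z := X.fb i ^ (12 : ℤ) * G ^ (-(sgn i * κ * Wt.t)) with hz
    have hz0 : z ≠ 0 := mul_ne_zero (zpow_ne_zero _ (X.fb_ne_zero i)) (zpow_ne_zero _ hG0)
    have hzord : ∀ u : Place k Fk, u.ord z = 12 * X.o i u - sgn i * κ * Wt.t * u.ord G := fun u => by
      rw [hz, Place.ord_mul _ (zpow_ne_zero _ (X.fb_ne_zero i)) (zpow_ne_zero _ hG0),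
        Place.ord_zpow, Place.ord_zpow, o]
      ring
    have h1 := hfin (12 * (q : ℤ)) z hz0 (fun u hu => by rw [hzord]; exact hmain i u hu) v hv
    have hT : ∀ (x : Fk) (m : ℤ), x ≠ 0 → v.ord (Tk (x ^ m)) = m * v.ord (Tk x) := by
      intro x m hx
      have hnat : ∀ n : ℕ, v.ord (Tk (x ^ n)) = n * v.ord (Tk x) := fun n => by
        rw [map_pow, FLTA.Curves.ord_pow]
      rcases Int.eq_nat_or_neg m with ⟨n, rfl | rfl⟩
      · rw [zpow_natCast, hnat]
      · have h := congrArg (fun y => v.ord (Tk y)) (inv_mul_cancel₀ (pow_ne_zero n hx))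
        simp only [map_mul, map_one, Place.ord_one] at h
        rw [Place.ord_mul _ (hTk _ (inv_ne_zero (pow_ne_zero n hx))) (hTk _ (pow_ne_zero n hx)),
          hnat] at h
        rw [zpow_neg, zpow_natCast]
        linarith
    rw [hz, map_mul, Place.ord_mul _ (hTk _ (zpow_ne_zero _ (X.fb_ne_zero i)))
      (hTk _ (zpow_ne_zero _ hG0)), hT _ _ (X.fb_ne_zero i), hT _ _ hG0, hg v hv] at h1
    obtain ⟨c, hc⟩ := heig i v
    have h2 := dvd_mul_of_dvd_left (hmain i v hv) N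
    have h3 : 12 * (q : ℤ) ∣ 12 * ((N - a) * X.o i v) := by
      have h4 := h2.sub h1
      have h5 : (12 * X.o i v - sgn i * κ * Wt.t * v.ord G) * N -
          (12 * v.ord (Tk (X.fb i)) + -(sgn i * κ * Wt.t) * (N * v.ord G)) =
          12 * ((N - a) * X.o i v) - 12 * (q : ℤ) * c := by linear_combination -12 * hc
      rw [h5] at h4
      exact (Int.dvd_iff_dvd_of_dvd_sub h4).mpr (dvd_mul_right _ _)
    have h6 : (q : ℤ) ∣ (N - a) * X.o i v :=
      (mul_dvd_mul_iff_left (by norm_num : (12 : ℤ) ≠ 0)).mp h3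
    exact (hpz.dvd_or_dvd h6).resolve_left hneq
  intro i v
  by_cases hv : E.IsFin v
  · exact hfinal i v hv
  · refine Int.dvd_of_emod_eq_zero (X.res_eq_zero_of_notMem hS E hne fun Q hQ h => hv ?_)
    subst h
    have hQ' := E.isFin_of_mem Q (X.mem_bad.mp hQ).1
    rcases (by decide : ∀ l : Fin 2, l = 0 ∨ l = 1) i with rfl | rfl
    · exact hQ'
    · exact (hfix Q).mpr hQ'

end Datum

end FLTA.LevelLowering

end
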