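import Fermat.Prelude.Def_ModularCurve_HeckeModule
import Fermat.Prelude.Def_ModularCurve_ArithmeticGalois
import Fermat.Prelude.Def_FLTPrelim_ModularRep
import Fermat.Agent.EllReducible.Basic

/-!
# Output of the global step of level lowering at `p`

`GlobalData P N M`: a Galois-equivariant copy of `E[p]` inside the Hecke eigenspace of `J₀(N)`
together with a Hecke polynomial `t` which kills `J₀(M)` and has eigenvalue `1`.
-/

set_option autoImplicit false

noncomputable section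

open ModularCurve

namespace FLTA.LevelLowering

open FLTA.EllReducible (Tors)

/-- Evaluation at level `M` of a polynomial in the good Hecke operators. -/
def heckeLiftBar (M : ℕ) [NeZero M] (S : Finset ℕ) :
    FreeAlgebra ℤ {ℓ : Nat.Primes // (ℓ : ℕ) ∉ S} →ₐ[ℤ] Module.End ℤ (JZero M) :=
  FreeAlgebra.lift ℤ fun ℓ => heckeOperatorBar M ℓ.1

/-- Evaluation of a polynomial in the good Hecke operators at an eigenvalue system mod `p`. -/
def heckeLiftMod (p : ℕ) (a : ℕ → ℤ) (S : Finset ℕ) :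
    FreeAlgebra ℤ {ℓ : Nat.Primes // (ℓ : ℕ) ∉ S} →ₐ[ℤ] ZMod p :=
  FreeAlgebra.lift ℤ fun ℓ => (a (ℓ.1 : ℕ) : ZMod p)

/-- The global input of level lowering at `p`: `N = p * M`. -/
structure GlobalData (P : FreyPackage) (N M : ℕ) [NeZero N] [NeZero M] where
  /-- the excluded primes -/
  S : Finset ℕ
  /-- the eigenvalues, `a_ℓ` of the integral Frey curve -/
  a : ℕ → ℤ
  a_eq : ∀ ℓ : ℕ, a ℓ = P.freyCurveInt.apOfModel ℓ
  p_mem : P.p ∈ S
  two_mem : 2 ∈ S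
  level_mem : ∀ ℓ : ℕ, ℓ.Prime → ℓ ∣ N → ℓ ∈ S
  bad_mem : ∀ ℓ : ℕ, ℓ.Prime → ¬ P.freyCurveInt.IsGoodPrimeFor ℓ → ℓ ∈ S
  /-- the copy of `E[p]` -/
  iota : Tors P.freyCurve P.p →+ JZero N
  iota_injective : Function.Injective iota
  iota_smul : ∀ (σ : AlgebraicClosure ℚ ≃ₐ[ℚ] AlgebraicClosure ℚ) (x : Tors P.freyCurve P.p),
    iota (σ • x) = σ • iota x
  hecke_iota : ∀ ℓ : Nat.Primes, (ℓ : ℕ) ∉ S → ∀ x : Tors P.freyCurve P.p,
    heckeOperatorBar N ℓ (iota x) = a ℓ • iota x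
  /-- a Hecke polynomial separating the system from level `M` -/
  t : FreeAlgebra ℤ {ℓ : Nat.Primes // (ℓ : ℕ) ∉ S}
  t_eval : heckeLiftMod P.p a S t = 1
  t_old : heckeLiftBar M S t = 0
  exists_not_eisenstein : ∃ ℓ : ℕ, ℓ.Prime ∧ ℓ ∉ S ∧ ¬ (P.p : ℤ) ∣ a ℓ - (ℓ + 1)

end FLTA.LevelLowering

end
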