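import Fermat.Agent.LevelLowering.HeckeNorm
import Fermat.Agent.LevelLowering.GlobalDefs
import Fermat.Agent.PlaceRed.GaussModular

/-!
# The reduced Hecke norm, the `RedOp` of `T_l`, and old polynomials kill divisor classes
-/

set_option autoImplicit false
set_option synthInstance.maxHeartbeats 400000

noncomputable section

open AlgebraicCurve ModularCurve FLTA.BadRed FLTA.PlaceRed

namespace FLTA.LevelLowering

local notation "Qb" => AlgebraicClosure ℚ

variable {A : ValuationSubring Qb} {k : Type} [Field k] {π : A →+* k} (hπ : Function.Surjective π)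
  (M l : ℕ) [NeZero M] [NeZero l]

/-- The reduced root of unity. -/
def zetaBar (π : A →+* k) : kˣ := Units.map (π : A →* k) (zetaA l A)

/-- An integral function has an integral Hecke norm, with reduction the series image. -/
theorem exists_integral_image (hl : l.Prime) (hlM : ¬ l ∣ M) (a : LaurentSeries A)
    (ha : coeffMap A.subtype a ∈ modularFunctionFieldBar M) :
    ∃ z : LaurentSeries A,
      coeffMap A.subtype z = ((heckeNormHom M l ⟨_, ha⟩ : modularFunctionFieldBar M) :
        LaurentSeries Qb) ∧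
      IsHeckeImage l (zetaBar l π) (coeffMap π a) (coeffMap π z) := by
  have h := isHeckeImage_heckeNormHom M l hl hlM (zetaA_primitive l A) ⟨_, ha⟩
  obtain ⟨hint, hred⟩ := h.red (π := π) (intSeries_coeffMap a)
  obtain ⟨z, hz⟩ := exists_coeffMap_eq hint
  refine ⟨z, hz, ?_⟩
  rw [← hz, redSeries_coeffMap, redSeries_coeffMap] at hred
  exact hred

include hπ in
/-- A representation by integral series gives one of the Hecke norm. -/
theorem exists_gaussRep_image (hl : l.Prime) (hlM : ¬ l ∣ M)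
    {u : modularFunctionFieldBar M} {a b : LaurentSeries A}
    (h : GaussRep A π (modularFunctionFieldBar M) u a b) :
    ∃ za zb : LaurentSeries A,
      GaussRep A π (modularFunctionFieldBar M) (heckeNormHom M l u) za zb ∧
      IsHeckeImage l (zetaBar l π) (coeffMap π a) (coeffMap π za) ∧
      IsHeckeImage l (zetaBar l π) (coeffMap π b) (coeffMap π zb) := by
  have := hπ
  obtain ⟨za, hza, hia⟩ := exists_integral_image (π := π) M l hl hlM a h.num_mem
  obtain ⟨zb, hzb, hib⟩ := exists_integral_image (π := π) M l hl hlM b h.den_mem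
  refine ⟨za, zb, ⟨hza ▸ SetLike.coe_mem _, hzb ▸ SetLike.coe_mem _, hib.ne_zero h.den_ne, ?_⟩,
    hia, hib⟩
  have hmul : u * ⟨_, h.den_mem⟩ = ⟨_, h.num_mem⟩ := Subtype.ext h.mul_eq
  rw [hza, hzb, ← MulMemClass.coe_mul, ← map_mul, hmul]

variable (hM : (M : k) ≠ 0)

include hπ hM in
theorem exists_isHeckeImage_fullC (hl : l.Prime) (hlM : ¬ l ∣ M)
    (y : modularFunctionFieldFullC k M) :
    ∃ z : modularFunctionFieldFullC k M,
      IsHeckeImage l (zetaBar l π) (y : LaurentSeries k) (z : LaurentSeries k) := by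
  obtain ⟨u, rfl⟩ := (gaussRed M hπ hM).red_surjective y
  obtain ⟨a, b, h⟩ := u.2
  obtain ⟨za, zb, hrep, hia, hib⟩ := exists_gaussRep_image hπ M l hl hlM h
  refine ⟨(gaussRed M hπ hM).red ⟨_, za, zb, hrep⟩, ?_⟩
  rw [coe_gaussRed_red_eq M hπ hM u h, coe_gaussRed_red_eq M hπ hM ⟨_, za, zb, hrep⟩ hrep]
  unfold IsHeckeImage at hia hib ⊢
  have h1 : FLTA.LevelLowering.conjProd l (zetaBar l π) (coeffMap π a / coeffMap π b) *
      FLTA.LevelLowering.conjProd l (zetaBar l π) (coeffMap π b) =
      FLTA.LevelLowering.conjProd l (zetaBar l π) (coeffMap π a) := by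
    rw [← map_mul, div_mul_cancel₀ _ h.den_ne]
  rw [map_div₀, hia, hib, ← h1,
    mul_div_cancel_right₀ _ (conjProd_ne_zero h.den_ne)]

/-- The reduced operator of `T_l`. -/
def heckeFullHom (hl : l.Prime) (hlM : ¬ l ∣ M) :
    modularFunctionFieldFullC k M →* modularFunctionFieldFullC k M where
  toFun y := (exists_isHeckeImage_fullC hπ M l hM hl hlM y).choose
  map_one' := Subtype.ext <| (exists_isHeckeImage_fullC hπ M l hM hl hlM 1).choose_spec.eq
    (by
      show IsHeckeImage l (zetaBar l π) 1 1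
      unfold IsHeckeImage
      rw [map_one, map_one])
  map_mul' x y := Subtype.ext <| (exists_isHeckeImage_fullC hπ M l hM hl hlM (x * y)).choose_spec.eq
    ((exists_isHeckeImage_fullC hπ M l hM hl hlM x).choose_spec.mul
      (exists_isHeckeImage_fullC hπ M l hM hl hlM y).choose_spec)

theorem isHeckeImage_heckeFullHom (hl : l.Prime) (hlM : ¬ l ∣ M)
    (y : modularFunctionFieldFullC k M) :
    IsHeckeImage l (zetaBar l π) (y : LaurentSeries k)
      ((heckeFullHom hπ M l hM hl hlM y : modularFunctionFieldFullC k M) : LaurentSeries k) :=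
  (exists_isHeckeImage_fullC hπ M l hM hl hlM y).choose_spec

theorem heckeFullHom_ne_zero (hl : l.Prime) (hlM : ¬ l ∣ M) {y : modularFunctionFieldFullC k M}
    (hy : y ≠ 0) : heckeFullHom hπ M l hM hl hlM y ≠ 0 := fun h0 =>
  (isHeckeImage_heckeFullHom hπ M l hM hl hlM y).ne_zero
    (fun h => hy (Subtype.ext h)) (congrArg Subtype.val h0)

/-- `T_l` is compatible with the Gauss reduction. -/
def heckeRedOp (hl : l.Prime) (hlM : ¬ l ∣ M) : RedOp (gaussRed M hπ hM) where
  T := heckeNormHom M l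
  Tk := heckeFullHom hπ M l hM hl hlM
  div := heckeDiv M l
  deg := finrankAlong Qb (heckeBetaBar Qb M l)
  degree_div := degree_heckeDiv M l
  div_nonneg := heckeDiv_nonneg M l
  T_ne_zero _ := heckeNormHom_ne_zero M l
  Tk_ne_zero _ := heckeFullHom_ne_zero hπ M l hM hl hlM
  div_T _ hf D hD := heckeDiv_ord M l hf D hD
  red_T u _ := by
    obtain ⟨a, b, h⟩ := u.2
    obtain ⟨za, zb, hrep, hia, hib⟩ := exists_gaussRep_image hπ M l hl hlM h
    refine ⟨⟨za, zb, hrep⟩, Subtype.ext ?_⟩
    refine IsHeckeImage.eq ?_ (isHeckeImage_heckeFullHom hπ M l hM hl hlM _)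
    rw [coe_gaussRed_red_eq M hπ hM u h, coe_gaussRed_red_eq M hπ hM ⟨_, za, zb, hrep⟩ hrep]
    unfold IsHeckeImage at hia hib ⊢
    have h1 : conjProd l (zetaBar l π) (coeffMap π a / coeffMap π b) *
        conjProd l (zetaBar l π) (coeffMap π b) = conjProd l (zetaBar l π) (coeffMap π a) := by
      rw [← map_mul, div_mul_cancel₀ _ h.den_ne]
    rw [map_div₀, hia, hib, ← h1, mul_div_cancel_right₀ _ (conjProd_ne_zero h.den_ne)]

section Family

variable {S : Finset ℕ} (hS : ∀ ℓ : ℕ, ℓ.Prime → ℓ ∣ M → ℓ ∈ S)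

include hS in
theorem not_dvd_of_notMem (i : {ℓ : Nat.Primes // (ℓ : ℕ) ∉ S}) : ¬ (i.1 : ℕ) ∣ M :=
  fun h => i.2 (hS _ i.1.2 h)

/-- The good Hecke operators as reduction-compatible operators. -/
def heckeFamily (i : {ℓ : Nat.Primes // (ℓ : ℕ) ∉ S}) : RedOp (gaussRed M hπ hM) :=
  haveI : NeZero (i.1 : ℕ) := ⟨i.1.2.ne_zero⟩
  heckeRedOp hπ M (i.1 : ℕ) hM i.1.2 (not_dvd_of_notMem M hS i)

/-- A polynomial evaluating to `0` on `J₀(M)` sends degree-zero divisors to principal ones. -/
theorem isPrincipal_divEval (t : FreeAlgebra ℤ {ℓ : Nat.Primes // (ℓ : ℕ) ∉ S})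
    (ht : heckeLiftBar M S t = 0) (D : Divisor Qb (modularFunctionFieldBar M))
    (hD : Divisor.degree D = 0) :
    Divisor.IsPrincipal (divEval (heckeFamily hπ M hM hS) t D) := by
  have key : ∀ (u : FreeAlgebra ℤ {ℓ : Nat.Primes // (ℓ : ℕ) ∉ S})
      (D : Divisor.degZero (K := Qb) (F := modularFunctionFieldBar M)),
      ∃ h : divEval (heckeFamily hπ M hM hS) u (D : Divisor Qb (modularFunctionFieldBar M)) ∈
          Divisor.degZero (K := Qb) (F := modularFunctionFieldBar M),
        heckeLiftBar M S u (Pic0.mk D) = Pic0.mk ⟨_, h⟩ := by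
    intro u
    induction u using FreeAlgebra.induction with
    | grade0 n =>
      intro D
      simp only [AlgHom.commutes, Module.algebraMap_end_apply]
      exact ⟨AddSubgroup.zsmul_mem _ D.2 n, rfl⟩
    | grade1 i =>
      intro D
      haveI : NeZero (i.1 : ℕ) := ⟨i.1.2.ne_zero⟩
      simp only [divEval, heckeLiftBar, FreeAlgebra.lift_ι_apply, AddMonoidHom.coe_toIntLinearMap,
        heckeOperatorBar_apply]
      exact heckeOperatorAlong_mk M (i.1 : ℕ) D
    | mul u v hu hv =>
      intro D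
      obtain ⟨h, hh⟩ := hv D
      obtain ⟨h', hh'⟩ := hu ⟨_, h⟩
      simp only [map_mul, Module.End.mul_apply, hh]
      exact ⟨h', hh'⟩
    | add u v hu hv =>
      intro D
      obtain ⟨h, hh⟩ := hu D
      obtain ⟨h', hh'⟩ := hv D
      simp only [map_add, LinearMap.add_apply, hh, hh']
      exact ⟨AddSubgroup.add_mem _ h h', rfl⟩
  obtain ⟨h, hh⟩ := key t ⟨D, hD⟩
  rw [ht, LinearMap.zero_apply] at hh
  exact (QuotientAddGroup.eq_zero_iff _).mp hh.symm

end Family

end FLTA.LevelLowering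

end
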