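import Fermat.Agent.LevelLowering.HeckeFibre
import Fermat.Agent.LevelLowering.HeckeReduced
import Fermat.Agent.BadRed.ModularFibre

/-!
# `T_l` on the modular bad fibre
-/

set_option autoImplicit false
set_option synthInstance.maxHeartbeats 400000

noncomputable section

open AlgebraicCurve ModularCurve

namespace FLTA.LevelLowering

local notation "Qb" => AlgebraicClosure ℚ

variable (M p : ℕ) [NeZero M] [NeZero p] [Fact p.Prime]
variable (A : ValuationSubring (AlgebraicClosure ℚ)) (hA : A.LiesOverPrime p) (hpM : ¬ p ∣ M)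
variable (l : ℕ) [NeZero l] (hl : l.Prime) (hlp : l ≠ p) (hlM : ¬ l ∣ M)

local notation "k" => IsLocalRing.ResidueField A

variable [CharP (IsLocalRing.ResidueField A) p] [PerfectRing (IsLocalRing.ResidueField A) p]

/-- `T_l` on the modular bad fibre at `p`. -/
def heckeData : HeckeData (FLTA.BadRed.badFibre M p A hA hpM) l where
  ζ := zetaA l A
  primitive := zetaA_primitive l A
  T := heckeNormHom (M * p) l
  Tk := heckeFullHom IsLocalRing.residue_surjective M l
    (FLTA.PlaceRed.natCast_residue_ne_zero M hpM A hA) hl hlM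
  T_w x := heckeNormHom_swap l M p hl hlp hpM (FLTA.BadRed.swapBar M p hpM)
    (FLTA.BadRed.swapBar_alpha M p hpM) (FLTA.BadRed.swapBar_beta M p hpM) x
  ex_T x := isHeckeImage_heckeNormHom (M * p) l hl
    (fun h => (hl.dvd_mul.mp h).elim hlM
      fun h => hlp ((Nat.prime_dvd_prime_iff_eq hl Fact.out).mp h))
    (zetaA_primitive l A) x
  exk_Tk x := isHeckeImage_heckeFullHom IsLocalRing.residue_surjective M l
    (FLTA.PlaceRed.natCast_residue_ne_zero M hpM A hA) hl hlM x

/-- The reduced operator is the one of the `RedOp`. -/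
theorem heckeData_Tk
    (y : modularFunctionFieldFullC k M) :
    (heckeData M p A hA hpM l hl hlp hlM).Tk y =
      (heckeRedOp IsLocalRing.residue_surjective M l
        (FLTA.PlaceRed.natCast_residue_ne_zero M hpM A hA) hl hlM).Tk y := by
  rfl

end FLTA.LevelLowering

end
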