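import Fermat.Agent.PlaceRed.Deuring
import Fermat.Agent.Congruence.Bounded
import Fermat.Agent.Curves.BasicOrd
import Mathlib.Algebra.FreeAlgebra

/-!
# Operators compatible with a constant reduction act on reduced divisors

`RedOp R` is a multiplicative operator on functions (think of a Hecke norm) acting on divisors by a
positive map multiplying degrees by a constant, whose reduction is `Tk`.  The induced map on
divisors commutes with the reduction of places, by the bounded-map trick.
-/

set_option autoImplicit false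

noncomputable section

open AlgebraicCurve FLTA.PlaceRed

namespace FLTA.LevelLowering

variable {K : Type*} [Field K] {A : ValuationSubring K} {k : Type*} [Field k] {π : A →+* k}
  {F : Type*} [Field F] [Algebra K F] {Fk : Type*} [Field Fk] [Algebra k Fk]

/-- A multiplicative operator compatible with the reduction. -/
structure RedOp (R : ConstRed A π F Fk) where
  /-- the operator on functions -/
  T : F →* F
  /-- its reduction -/
  Tk : Fk →* Fk
  /-- the operator on divisors -/
  div : Divisor K F →+ Divisor K F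
  /-- the factor on degrees -/
  deg : ℕ
  degree_div : ∀ D, Divisor.degree (div D) = deg * Divisor.degree D
  div_nonneg : ∀ D, 0 ≤ D → 0 ≤ div D
  T_ne_zero : ∀ f, f ≠ 0 → T f ≠ 0
  Tk_ne_zero : ∀ x, x ≠ 0 → Tk x ≠ 0
  div_T : ∀ f : F, f ≠ 0 → ∀ D : Divisor K F, (∀ v, D v = v.ord f) → ∀ v, div D v = v.ord (T f)
  red_T : ∀ u : R.O, R.red u ≠ 0 → ∃ h : T (u : F) ∈ R.O, R.red ⟨T (u : F), h⟩ = Tk (R.red u)

theorem eq_algebraMap_of_forall_ord [IsAlgClosed K] {g : ℕ} (hF : RRCurve K F g) {f : F}
    (h : ∀ v : Place K F, v.ord f = 0) : ∃ c : K, f = algebraMap K F c := by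
  rcases eq_or_ne f 0 with rfl | hf
  · exact ⟨0, (map_zero _).symm⟩
  haveI := hF.finiteDimensional 0
  have hint : IsIntegral K f := by
    by_contra hcon
    have hli : LinearIndependent K fun n : ℕ => f ^ n := by
      by_contra hdep
      rw [linearIndependent_iff] at hdep
      push Not at hdep
      obtain ⟨l, hl, hl0⟩ := hdep
      refine hcon (IsAlgebraic.isIntegral ⟨Polynomial.ofFinsupp ⟨l⟩, ?_, ?_⟩)
      · simpa using hl0
      · rw [Polynomial.aeval_eq_sum_range' (Nat.lt_succ_self _)]
        rw [Finsupp.linearCombination_apply, Finsupp.sum] at hl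
        rw [← hl]
        refine (Finset.sum_subset ?_ fun n _ hn => ?_).symm
        · intro n hn
          exact Finset.mem_range.mpr (Nat.lt_succ_of_le (Polynomial.le_natDegree_of_ne_zero
            (Finsupp.mem_support_iff.mp hn)))
        · simp [Finsupp.notMem_support_iff.mp hn]
    have hmem : ∀ n : ℕ, f ^ n ∈ riemannRochSpace (0 : Divisor K F) := fun n =>
      (RRCurve.mem_iff (pow_ne_zero n hf)).mpr fun v => by
        rw [← zpow_natCast, v.ord_zpow, h, mul_zero]
        simp
    have hli' : LinearIndependent K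
        fun n : ℕ => (⟨f ^ n, hmem n⟩ : riemannRochSpace (0 : Divisor K F)) :=
      LinearIndependent.of_comp (riemannRochSpace (0 : Divisor K F)).subtype hli
    exact not_finite_iff_infinite.mpr inferInstance hli'.finite
  have h1 := IsAlgClosed.degree_eq_one_of_irreducible K (minpoly.irreducible hint)
  obtain ⟨c, hc⟩ := minpoly.mem_range_of_degree_eq_one K f h1
  exact ⟨c, hc.symm⟩

namespace RedOp

variable [IsAlgClosed K] [IsAlgClosed k] {R : ConstRed A π F Fk} (O : RedOp R) {g : ℕ}
  (hF : RRCurve K F g) (hk : RRCurve k Fk g) {r : Place K F → Place k Fk}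

include hF hk in
/-- The bounded-map trick: `r ∘ div` factors through `r`. -/
theorem mapDomain_div_eq_zero (hr : R.IsPlaceMap r) {D : Divisor K F}
    (hD : Finsupp.mapDomain r D = 0) : Finsupp.mapDomain r (O.div D) = 0 := by
  classical
  obtain ⟨P₀⟩ := hF.nonempty
  set G₀ : Divisor K F := Finsupp.single P₀ (2 * (g : ℤ)) with hG₀
  have hG₀deg : Divisor.degree G₀ = 2 * (g : ℤ) := hF.degree_single_eq P₀ _
  have hDdeg : Divisor.degree D = 0 := by
    rw [← degree_mapDomain_eq hF hk r, hD, map_zero]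
  set M : ℤ := (O.deg : ℤ) * (2 * (g : ℤ)) with hM
  have hbound : ∀ (E : Divisor K F), 0 ≤ E → Divisor.degree E = 2 * (g : ℤ) →
      ∀ Q, |Finsupp.mapDomain r (O.div E) Q| ≤ M := by
    intro E hE hEdeg Q
    refine (Congruence.abs_apply_le_degree hk.deg_eq_one
      (fun Q => Finsupp.le_def.mp (mapDomain_nonneg r (O.div_nonneg E hE)) Q) Q).trans (le_of_eq ?_)
    rw [degree_mapDomain_eq hF hk, O.degree_div, hEdeg]
  have key : ∀ (n : ℕ) Q, |(n : ℤ) * Finsupp.mapDomain r (O.div D) Q| ≤ 2 * M := by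
    intro n Q
    set G : Divisor K F := n • D + G₀ with hG
    have hGdeg : Divisor.degree G = 2 * (g : ℤ) := by
      rw [hG, map_add, map_nsmul, hDdeg, hG₀deg, nsmul_zero, zero_add]
    obtain ⟨f, hfG, hf0⟩ := (riemannRochSpace G).exists_mem_ne_zero_of_ne_bot (by
      intro hbot
      have h1 := hF.finrank_eq G (by omega)
      rw [hbot, finrank_bot] at h1
      push_cast at h1
      omega)
    obtain ⟨a, u, ha, huf, hu⟩ := R.exists_normalise hf0
    have hu0 := R.coe_ne_zero hu
    have huG : (u : F) ∈ riemannRochSpace G := huf ▸ Submodule.smul_mem _ a hfG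
    set E : Divisor K F := hF.divisorOf (u : F) + G with hE
    have hE0 : 0 ≤ E := Finsupp.le_def.mpr fun P => by
      have := (RRCurve.mem_iff hu0).mp huG P
      rw [hE, Finsupp.add_apply, RRCurve.divisorOf_apply, Finsupp.zero_apply]
      omega
    have hEdeg : Divisor.degree E = 2 * (g : ℤ) := by
      rw [hE, map_add, hF.degree_divisorOf, hGdeg, zero_add]
    -- a second lift with poles only at `P₀`
    have hub : R.red u ∈ riemannRochSpace (Finsupp.mapDomain r G₀) := by
      refine (RRCurve.mem_iff hu).mpr fun Q => ?_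
      have := Finsupp.le_def.mp (mapDomain_nonneg r hE0) Q
      rw [hE, hG, Finsupp.mapDomain_add, Finsupp.mapDomain_add, Finsupp.mapDomain_smul, hD,
        nsmul_zero, zero_add, Finsupp.add_apply, hr u hu _ (fun P => hF.divisorOf_apply (u : F) P) Q,
        Finsupp.zero_apply] at this
      omega
    obtain ⟨u', hu'mem, hu'⟩ : R.red u ∈ R.redSpace (riemannRochSpace G₀) := by
      rw [R.redSpace_eq_of_isPlaceMap hF hk hr (by omega)]
      exact hub
    have hu'0 := R.coe_ne_zero (hu' ▸ hu : R.red u' ≠ 0)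
    set E' : Divisor K F := hF.divisorOf (u' : F) + G₀ with hE'
    have hE'0 : 0 ≤ E' := Finsupp.le_def.mpr fun P => by
      have := (RRCurve.mem_iff hu'0).mp hu'mem P
      rw [hE', Finsupp.add_apply, RRCurve.divisorOf_apply, Finsupp.zero_apply]
      omega
    have hE'deg : Divisor.degree E' = 2 * (g : ℤ) := by
      rw [hE', map_add, hF.degree_divisorOf, hG₀deg, zero_add]
    have hkey : ∀ (v : R.O), R.red v ≠ 0 → ∀ Q,
        Finsupp.mapDomain r (O.div (hF.divisorOf (v : F))) Q = Q.ord (O.Tk (R.red v)) := by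
      intro v hv Q
      obtain ⟨h, hT⟩ := O.red_T v hv
      rw [← hT]
      refine hr ⟨_, h⟩ (by rw [hT]; exact O.Tk_ne_zero _ hv) _
        (O.div_T _ (R.coe_ne_zero hv) _ (fun P => hF.divisorOf_apply (v : F) P)) Q
    have e1 : Finsupp.mapDomain r (O.div (hF.divisorOf (u : F))) Q =
        Finsupp.mapDomain r (O.div (hF.divisorOf (u' : F))) Q := by
      rw [hkey u hu, hkey u' (hu' ▸ hu), hu']
    have e2 : (n : ℤ) * Finsupp.mapDomain r (O.div D) Q =
        Finsupp.mapDomain r (O.div E) Q - Finsupp.mapDomain r (O.div E') Q := by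
      rw [hE, hG, hE']
      simp only [map_add, map_nsmul, Finsupp.mapDomain_add, Finsupp.mapDomain_smul,
        Finsupp.add_apply, Finsupp.smul_apply, nsmul_eq_mul]
      rw [e1]
      ring
    rw [e2]
    calc |Finsupp.mapDomain r (O.div E) Q - Finsupp.mapDomain r (O.div E') Q| ≤ M + M :=
          (abs_sub _ _).trans (add_le_add (hbound E hE0 hEdeg Q) (hbound E' hE'0 hE'deg Q))
      _ = 2 * M := (two_mul M).symm
  ext Q
  rw [Finsupp.zero_apply]
  by_contra hne
  have h := key ((2 * M).toNat + 1) Q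
  rw [abs_mul, Nat.abs_cast] at h
  have h1 : (1 : ℤ) ≤ |Finsupp.mapDomain r (O.div D) Q| := Int.one_le_abs hne
  have h2 := (le_mul_of_one_le_right (Int.natCast_nonneg ((2 * M).toNat + 1)) h1).trans h
  have h4 := Int.self_le_toNat (2 * M)
  push_cast at h2
  omega

omit [IsAlgClosed K] [IsAlgClosed k] in
include hF in
/-- A map of places for a constant reduction is surjective. -/
theorem surjective_of_isPlaceMap (hr : R.IsPlaceMap r) : Function.Surjective r := by
  classical
  intro Q
  obtain ⟨x, hx0, hx⟩ := Curves.exists_ord_eq_one Q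
  obtain ⟨u, rfl⟩ := R.red_surjective x
  have h := hr u hx0 _ (fun P => hF.divisorOf_apply (u : F) P) Q
  rw [hx] at h
  have hmem : Q ∈ (Finsupp.mapDomain r (hF.divisorOf (u : F))).support := by
    rw [Finsupp.mem_support_iff, h]; exact one_ne_zero
  obtain ⟨P, -, hP⟩ := Finset.mem_image.mp (Finsupp.mapDomain_support hmem)
  exact ⟨P, hP⟩

/-- The induced operator on reduced divisors, computed with a section of `r`. -/
def divk (r : Place K F → Place k Fk) (s : Place k Fk → Place K F) :
    Divisor k Fk →+ Divisor k Fk :=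
  ((Finsupp.mapDomain.addMonoidHom r).comp O.div).comp (Finsupp.mapDomain.addMonoidHom s)

variable {s : Place k Fk → Place K F}

omit [IsAlgClosed K] [IsAlgClosed k] in
theorem mapDomain_mapDomain_section (hs : ∀ Q, r (s Q) = Q) (E : Divisor k Fk) :
    Finsupp.mapDomain r (Finsupp.mapDomain s E) = E := by
  rw [← Finsupp.mapDomain_comp, show r ∘ s = id from funext hs, Finsupp.mapDomain_id]

include hF hk in
/-- `r ∘ div = divk ∘ r`. -/
theorem mapDomain_div (hr : R.IsPlaceMap r) (hs : ∀ Q, r (s Q) = Q) (D : Divisor K F) :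
    Finsupp.mapDomain r (O.div D) = O.divk r s (Finsupp.mapDomain r D) := by
  rw [← sub_eq_zero]
  show Finsupp.mapDomain r (O.div D) -
    Finsupp.mapDomain r (O.div (Finsupp.mapDomain s (Finsupp.mapDomain r D))) = 0
  rw [← Finsupp.mapDomain_sub, ← map_sub]
  refine O.mapDomain_div_eq_zero hF hk hr ?_
  rw [Finsupp.mapDomain_sub, mapDomain_mapDomain_section hs, sub_self]

include hF hk in
/-- The induced operator computes the divisor of the reduced operator. -/
theorem divk_apply_of_ord (hr : R.IsPlaceMap r) (hs : ∀ Q, r (s Q) = Q) {x : Fk} (hx : x ≠ 0)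
    {E : Divisor k Fk} (hE : ∀ Q, E Q = Q.ord x) (Q : Place k Fk) :
    O.divk r s E Q = Q.ord (O.Tk x) := by
  obtain ⟨u, rfl⟩ := R.red_surjective x
  have hEu : E = Finsupp.mapDomain r (hF.divisorOf (u : F)) :=
    Finsupp.ext fun Q => (hE Q).trans (hr u hx _ (fun P => hF.divisorOf_apply (u : F) P) Q).symm
  obtain ⟨h, hT⟩ := O.red_T u hx
  rw [hEu, ← O.mapDomain_div hF hk hr hs, ← hT]
  exact hr ⟨_, h⟩ (by rw [hT]; exact O.Tk_ne_zero _ hx) _
    (O.div_T _ (R.coe_ne_zero hx) _ (fun P => hF.divisorOf_apply (u : F) P)) Q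

end RedOp

section Family

variable [IsAlgClosed K] [IsAlgClosed k] {R : ConstRed A π F Fk} {g : ℕ} {ι : Type*}

/-- Polynomials in the operators, on divisors. -/
def divEval (O : ι → RedOp R) : FreeAlgebra ℤ ι →ₐ[ℤ] Module.End ℤ (Divisor K F) :=
  FreeAlgebra.lift ℤ fun i => (O i).div.toIntLinearMap

/-- If a polynomial `t` in the operators kills all classes and takes the value `1` at the
eigenvalues, an eigen-function modulo `p`-th powers whose divisor is divisible by `p` is a
`p`-th power. -/
theorem exists_pow_eq_of_eigen (hF : RRCurve K F g) (hk : RRCurve k Fk g)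
    {r : Place K F → Place k Fk} (hr : R.IsPlaceMap r) (O : ι → RedOp R) {p : ℕ} (hp : p ≠ 0)
    (a : ι → ℤ) (t : FreeAlgebra ℤ ι)
    (ht1 : FreeAlgebra.lift ℤ (fun i => (a i : ZMod p)) t = 1)
    (ht : ∀ D : Divisor K F, Divisor.degree D = 0 → Divisor.IsPrincipal (divEval O t D))
    {y : Fk} (hy : y ≠ 0) {E : Divisor k Fk} (hE : ∀ Q, (p : ℤ) * E Q = Q.ord y)
    (heig : ∀ i, ∃ (c : k) (h : Fk), (O i).Tk y = algebraMap k Fk c * y ^ a i * h ^ p) :
    ∃ η : Fk, η ^ p = y := by
  classical
  obtain ⟨s, hs⟩ := (RedOp.surjective_of_isPlaceMap hF hr).hasRightInverse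
  set Lk : FreeAlgebra ℤ ι →ₐ[ℤ] Module.End ℤ (Divisor k Fk) :=
    FreeAlgebra.lift ℤ fun i => ((O i).divk r s).toIntLinearMap with hLk
  let Pk : AddSubgroup (Divisor k Fk) := Divisor.principal (K := k) (F := Fk)
  have hpE : (p : ℤ) • E ∈ Pk := ⟨y, hy, fun Q => by
    rw [Finsupp.smul_apply, smul_eq_mul, hE]⟩
  have hinter : ∀ (u : FreeAlgebra ℤ ι) (D : Divisor K F),
      Finsupp.mapDomain r (divEval O u D) = Lk u (Finsupp.mapDomain r D) := by
    intro u
    induction u using FreeAlgebra.induction with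
    | grade0 n =>
      intro D
      simp only [AlgHom.commutes, Module.algebraMap_end_apply, Finsupp.mapDomain_smul]
    | grade1 i =>
      intro D
      simp only [divEval, hLk, FreeAlgebra.lift_ι_apply, AddMonoidHom.coe_toIntLinearMap]
      exact (O i).mapDomain_div hF hk hr hs D
    | mul u v hu hv => intro D; rw [map_mul, map_mul, Module.End.mul_apply, hu, hv]; rfl
    | add u v hu hv =>
      intro D
      rw [map_add, map_add, LinearMap.add_apply, Finsupp.mapDomain_add, hu, hv]; rfl
  have hprin : ∀ (u : FreeAlgebra ℤ ι) (G : Divisor k Fk), G ∈ Pk → Lk u G ∈ Pk := by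
    intro u
    induction u using FreeAlgebra.induction with
    | grade0 n =>
      intro G hG
      simp only [AlgHom.commutes, Module.algebraMap_end_apply]
      exact AddSubgroup.zsmul_mem _ hG _
    | grade1 i =>
      rintro G ⟨x, hx, hG⟩
      simp only [hLk, FreeAlgebra.lift_ι_apply, AddMonoidHom.coe_toIntLinearMap]
      exact ⟨(O i).Tk x, (O i).Tk_ne_zero x hx, (O i).divk_apply_of_ord hF hk hr hs hx hG⟩
    | mul u v hu hv => intro G hG; rw [map_mul, Module.End.mul_apply]; exact hu _ (hv G hG)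
    | add u v hu hv =>
      intro G hG
      rw [map_add, LinearMap.add_apply]; exact AddSubgroup.add_mem _ (hu G hG) (hv G hG)
  have hmain : ∀ (u : FreeAlgebra ℤ ι) (m : ℤ),
      (m : ZMod p) = FreeAlgebra.lift ℤ (fun i => (a i : ZMod p)) u →
        Lk u E - m • E ∈ Pk := by
    intro u
    induction u using FreeAlgebra.induction with
    | grade0 n =>
      intro m hm
      simp only [AlgHom.commutes, Module.algebraMap_end_apply]
      rw [AlgHom.commutes, eq_intCast, ZMod.intCast_eq_intCast_iff_dvd_sub] at hm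
      obtain ⟨d, hd⟩ := hm
      rw [← sub_smul, hd, mul_comm, ← smul_smul]
      exact AddSubgroup.zsmul_mem _ hpE d
    | grade1 i =>
      intro m hm
      rw [FreeAlgebra.lift_ι_apply, ZMod.intCast_eq_intCast_iff_dvd_sub] at hm
      obtain ⟨d, hd⟩ := hm
      simp only [hLk, FreeAlgebra.lift_ι_apply, AddMonoidHom.coe_toIntLinearMap]
      obtain ⟨c, h, hch⟩ := heig i
      have hT0 : (O i).Tk y ≠ 0 := (O i).Tk_ne_zero y hy
      rw [hch] at hT0
      have hh0 : h ≠ 0 := by
        rintro rfl
        exact hT0 (by rw [zero_pow hp, mul_zero])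
      have hc0 : algebraMap k Fk c ≠ 0 := fun h0 => hT0 (by rw [h0, zero_mul, zero_mul])
      have hpy : ∀ Q, ((p : ℤ) • E) Q = Q.ord y := fun Q => by
        rw [Finsupp.smul_apply, smul_eq_mul, hE]
      have hdiv : (O i).divk r s E = a i • E + hk.divisorOf h := by
        ext Q
        have e := (O i).divk_apply_of_ord hF hk hr hs hy hpy Q
        rw [map_zsmul, Finsupp.smul_apply, smul_eq_mul, hch,
          Q.ord_mul (mul_ne_zero hc0 (zpow_ne_zero _ hy)) (pow_ne_zero _ hh0),
          Q.ord_mul hc0 (zpow_ne_zero _ hy), Curves.ord_algebraMap, zero_add, Q.ord_zpow, ← hE,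
          ← zpow_natCast, Q.ord_zpow] at e
        rw [Finsupp.add_apply, Finsupp.smul_apply, smul_eq_mul, RRCurve.divisorOf_apply]
        apply mul_left_cancel₀ (Int.natCast_ne_zero.mpr hp)
        rw [e]; ring
      rw [hdiv, add_sub_right_comm, ← sub_smul, hd, mul_comm, ← smul_smul]
      exact AddSubgroup.add_mem _ (AddSubgroup.zsmul_mem _ hpE d)
        ⟨h, hh0, fun Q => hk.divisorOf_apply h Q⟩
    | mul u v hu hv =>
      intro m hm
      obtain ⟨mu, hmu⟩ := ZMod.intCast_surjective (FreeAlgebra.lift ℤ (fun i => (a i : ZMod p)) u)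
      obtain ⟨mv, hmv⟩ := ZMod.intCast_surjective (FreeAlgebra.lift ℤ (fun i => (a i : ZMod p)) v)
      rw [map_mul, ← hmu, ← hmv, ← Int.cast_mul, ZMod.intCast_eq_intCast_iff_dvd_sub] at hm
      obtain ⟨d, hd⟩ := hm
      have e : Lk (u * v) E - m • E = Lk u (Lk v E - mv • E) + mv • (Lk u E - mu • E) +
          d • ((p : ℤ) • E) := by
        rw [map_mul, Module.End.mul_apply, map_sub, map_smul, smul_sub, smul_smul, smul_smul,
          mul_comm d, ← hd, sub_smul, mul_comm mv mu]
        abel
      rw [e]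
      exact AddSubgroup.add_mem _ (AddSubgroup.add_mem _ (hprin u _ (hv mv hmv))
        (AddSubgroup.zsmul_mem _ (hu mu hmu) _)) (AddSubgroup.zsmul_mem _ hpE d)
    | add u v hu hv =>
      intro m hm
      obtain ⟨mu, hmu⟩ := ZMod.intCast_surjective (FreeAlgebra.lift ℤ (fun i => (a i : ZMod p)) u)
      have hv' := hv (m - mu) (by rw [Int.cast_sub, hm, hmu, map_add]; ring)
      have e : Lk (u + v) E - m • E = (Lk u E - mu • E) + (Lk v E - (m - mu) • E) := by
        rw [map_add, LinearMap.add_apply, sub_smul]; abel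
      rw [e]
      exact AddSubgroup.add_mem _ (hu mu hmu) hv'
  have hEdeg : Divisor.degree E = 0 := by
    have h1 : (p : ℤ) • E = hk.divisorOf y := Finsupp.ext fun Q => by
      rw [Finsupp.smul_apply, smul_eq_mul, hE, RRCurve.divisorOf_apply]
    have h2 := hk.degree_divisorOf y
    rw [← h1, map_zsmul, smul_eq_mul] at h2
    exact (mul_eq_zero.mp h2).resolve_left (Int.natCast_ne_zero.mpr hp)
  have hLkE : Lk t E ∈ Pk := by
    obtain ⟨f, hf, hfD⟩ := ht (Finsupp.mapDomain s E)
      (by rw [degree_mapDomain_eq hk hF]; exact hEdeg)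
    obtain ⟨c, u, hc, huf, hu⟩ := R.exists_normalise hf
    refine ⟨R.red u, hu, fun Q => ?_⟩
    have hLkE : Lk t E = Finsupp.mapDomain r (divEval O t (Finsupp.mapDomain s E)) := by
      rw [hinter, RedOp.mapDomain_mapDomain_section hs]
    rw [hLkE]
    refine hr u hu _ (fun P => ?_) Q
    rw [hfD P, huf, Algebra.smul_def, P.ord_mul ((map_ne_zero _).mpr hc) hf,
      Curves.ord_algebraMap, zero_add]
  obtain ⟨η, hη, hEη⟩ : E ∈ Pk := by
    have := AddSubgroup.sub_mem _ hLkE (hmain t 1 (by rw [Int.cast_one, ht1]))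
    rwa [one_smul, sub_sub_cancel] at this
  obtain ⟨c, hc⟩ := eq_algebraMap_of_forall_ord hk (f := y * (η ^ p)⁻¹) (fun Q => by
    rw [Q.ord_mul hy (inv_ne_zero (pow_ne_zero _ hη)), Q.ord_inv, ← zpow_natCast, Q.ord_zpow,
      ← hEη, hE, add_neg_cancel])
  obtain ⟨d, hd⟩ := IsAlgClosed.exists_pow_nat_eq c (Nat.pos_of_ne_zero hp)
  refine ⟨algebraMap k Fk d * η, ?_⟩
  rw [mul_pow, ← map_pow, hd, ← hc, inv_mul_cancel_right₀ (pow_ne_zero _ hη)]

end Family

end FLTA.LevelLowering

end
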