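import Fermat.Agent.LevelLowering.LocalIneq

/-!
# Weights of the glued pairs and jumps of a frame
-/

set_option autoImplicit false

noncomputable section

open AlgebraicCurve FLTA.BadRed

namespace FLTA.LevelLowering

variable {K : Type*} [Field K] {A : ValuationSubring K}
  {k : Type*} [Field k] {π : A →+* k} {q : ℕ} [NeZero q]
  {F : Type*} [Field F] [Algebra K F] {F' : Type*} [Field F'] [Algebra K F']
  {Fk : Type*} [Field Fk] [Algebra k Fk] {g gF : ℕ} {B : BadFibre A π q F F' Fk g gF}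

/-- `t d_Q = 12 n_Q` with `q ∤ t`. -/
structure EtaData.Weights {R : RatFrame B} {S : Finset (Place k Fk)} (E : EtaData R S) where
  /-- the common factor -/
  t : ℕ
  /-- the weights -/
  n : Place k Fk → ℤ
  not_dvd : ¬ q ∣ t
  eq : ∀ Q ∈ S, (t : ℤ) * E.d Q = 12 * n Q

/-- A symmetry moving the uniformizer at level `i < q`. -/
structure Jumping (R : RatFrame B) where
  /-- the symmetry -/
  s : B.Sym
  isInertia : s.IsInertia
  smul_mem : ∀ x ∈ R.BL, s.σ • x ∈ R.BL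
  /-- the level -/
  i : ℕ
  i_pos : 1 ≤ i
  i_lt : i < q
  /-- the speed -/
  τ : A
  τ_red : π τ ≠ 0
  move : ∀ c ∈ R.L, c ∈ A → (SemilinearAut.baseAut s.σ c - c) / R.ϖ ^ (i + 1) ∈ A
  zpow : ∀ c : ℤ, (SemilinearAut.baseAut s.σ (R.ϖ ^ c) / R.ϖ ^ c - 1 - c * τ * R.ϖ ^ i) /
    R.ϖ ^ (i + 1) ∈ A

end FLTA.LevelLowering

end
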