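import Fermat.Agent.LevelLowering.RedSpace

/-!
# Residues modulo `q` of the reductions of a Kummer datum

Riemann-Roch for the reduced twisted spaces of a datum and of its dual shows: the orders of `f̄_i`
are divisible by `q` outside the glued points, at every glued pair both residues vanish or neither
does, the residues add up to `q` times the number of pairs where they do not, and the reduced
twisted space is as large as the conditions allow.
-/

set_option autoImplicit false

noncomputable section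

open AlgebraicCurve FLTA.BadRed

namespace FLTA.LevelLowering

variable {K : Type*} [Field K] [IsAlgClosed K] [CharZero K] {A : ValuationSubring K}
  {k : Type*} [Field k] [IsAlgClosed k] {π : A →+* k}
  {q : ℕ} [NeZero q] [Fact q.Prime] [CharP k q]
  {F : Type*} [Field F] [Algebra K F] {F' : Type*} [Field F'] [Algebra K F']
  {Fk : Type*} [Field Fk] [Algebra k Fk] {g gF : ℕ} {B : BadFibre A π q F F' Fk g gF}

theorem eq_zero_or_add_emod (q : ℤ) (hq : 0 < q) {a b : ℤ} (h : q ∣ a + b) :
    (b % q = 0 → a % q = 0) ∧ a % q + b % q = if b % q = 0 then 0 else q := by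
  have h1 := Int.emod_nonneg a hq.ne'
  have h2 := Int.emod_lt_of_pos a hq
  have h3 := Int.emod_nonneg b hq.ne'
  have h4 := Int.emod_lt_of_pos b hq
  have h5 : (a % q + b % q) % q = 0 := by
    rw [← Int.add_emod]; exact Int.emod_eq_zero_of_dvd h
  obtain ⟨c, hc⟩ := Int.dvd_of_emod_eq_zero h5
  have hc0 : 0 ≤ c := by nlinarith
  have hc2 : c < 2 := by nlinarith
  interval_cases c
  · refine ⟨fun _ => by omega, ?_⟩
    rw [if_pos (by omega)]; omega
  · refine ⟨fun hb => by omega, ?_⟩
    rw [if_neg (by omega)]; omega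

/-- `q a + o ≥ 0` bounds `a` below. -/
theorem neg_ediv_le {q a o : ℤ} (hq : 0 < q) (h : 0 ≤ q * a + o) : -(o / q) ≤ a := by
  have : -a ≤ o / q := (Int.le_ediv_iff_mul_le hq).mpr (by nlinarith)
  omega

theorem neg_ediv_lt {q a o : ℤ} (hq : 0 < q) (h : 0 < q * a + o) (ho : o % q = 0) :
    -(o / q) + 1 ≤ a := by
  have h1 := Int.emod_add_mul_ediv o q
  rw [ho, zero_add] at h1
  have h2 : 0 < q * (a + o / q) := by rw [mul_add, h1]; exact h
  have := pos_of_mul_pos_right h2 hq.le
  omega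

namespace Datum

variable {R : RatFrame B} (X : Datum R)

/-- The order of `f̄_i`. -/
def o (i : Fin 2) (Q : Place k Fk) : ℤ := Q.ord (X.fb i)

/-- Its residue modulo `q`. -/
def res (i : Fin 2) (Q : Place k Fk) : ℤ := X.o i Q % q

/-- The divisor of `f̄_i`. -/
def dvf (i : Fin 2) : Divisor k Fk := (B.rrk.principal.exists_divisor _ (X.fb_ne_zero i)).choose

theorem dvf_apply (i : Fin 2) (Q : Place k Fk) : X.dvf i Q = X.o i Q :=
  (B.rrk.principal.exists_divisor _ (X.fb_ne_zero i)).choose_spec.1 Q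

/-- The quotient divisor. -/
def flr (i : Fin 2) : Divisor k Fk :=
  Finsupp.mapRange (fun z : ℤ => z / q) (Int.zero_ediv _) (X.dvf i)

theorem flr_apply (i : Fin 2) (Q : Place k Fk) : X.flr i Q = X.o i Q / q := by
  rw [flr, Finsupp.mapRange_apply, dvf_apply]

/-- The places of nonzero residue. -/
def ram (i : Fin 2) : Finset (Place k Fk) :=
  (X.dvf i).support.filter fun Q => X.res i Q ≠ 0

theorem mem_ram {i : Fin 2} {Q : Place k Fk} : Q ∈ X.ram i ↔ X.res i Q ≠ 0 := by
  rw [ram, Finset.mem_filter, Finsupp.mem_support_iff, dvf_apply]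
  exact ⟨fun h => h.2, fun h => ⟨fun h0 => h (by rw [res, h0, Int.zero_emod]), h⟩⟩

/-- The sum of the residues on one component. -/
def resSum (i : Fin 2) : ℤ := ∑ Q ∈ X.ram i, X.res i Q

theorem degree_flr (i : Fin 2) : (q : ℤ) * Divisor.degree (X.flr i) + X.resSum i = 0 := by
  classical
  have hdeg := (B.rrk.principal.exists_divisor _ (X.fb_ne_zero i)).choose_spec.2
  rw [← Datum.dvf, degree_eq_finsuppSum B.rrk, Finsupp.sum] at hdeg
  rw [degree_eq_finsuppSum B.rrk, flr, Finsupp.sum_mapRange_index (fun _ => rfl), Finsupp.sum,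
    resSum, ram, Finset.sum_filter_ne_zero, Finset.mul_sum, ← Finset.sum_add_distrib]
  refine Eq.trans (Finset.sum_congr rfl fun Q _ => ?_) hdeg
  rw [res, dvf_apply, add_comm]
  exact Int.emod_add_mul_ediv _ _

variable {S : Finset (Place k Fk)}

open Classical in
/-- The pairs where some residue vanishes. -/
def tame (S : Finset (Place k Fk)) : Finset (Place k Fk) :=
  S.filter fun Q => X.res 0 Q = 0 ∨ X.res 1 (B.frobq • Q) = 0

open Classical in
/-- The pairs where both residues are non-zero. -/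
def bad (S : Finset (Place k Fk)) : Finset (Place k Fk) :=
  S.filter fun Q => X.res 0 Q ≠ 0 ∧ X.res 1 (B.frobq • Q) ≠ 0

theorem mem_bad {Q : Place k Fk} :
    Q ∈ X.bad S ↔ Q ∈ S ∧ X.res 0 Q ≠ 0 ∧ X.res 1 (B.frobq • Q) ≠ 0 := Finset.mem_filter

theorem card_tame_add_bad (S : Finset (Place k Fk)) :
    (X.tame S).card + (X.bad S).card = S.card := by
  classical
  rw [tame, bad, Finset.filter_congr (s := S)
    (p := fun Q => X.res 0 Q ≠ 0 ∧ X.res 1 (B.frobq • Q) ≠ 0)
    (q := fun Q => ¬(X.res 0 Q = 0 ∨ X.res 1 (B.frobq • Q) = 0)) (fun Q _ => by rw [not_or])]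
  exact Finset.card_filter_add_card_filter_not _

variable {m₀ : ℕ} (hS : B.IsGluing S m₀)

include hS in
/-- The bound on a component of an element of `img m`. -/
theorem ord_img {m : ℕ} (hm : m₀ ≤ q * m) {a : Fin 2 → Fk} (ha : a ∈ X.img m) (i : Fin 2)
    (hai : a i ≠ 0) (Q : Place k Fk) :
    -(X.flr i Q + Finsupp.single B.infk (m : ℤ) Q) ≤ Q.ord (a i) ∧
      (Q ≠ B.infk → X.res i Q = 0 → BadFibre.placeVal Q ((a ^ q * X.fb) i) = 0 →
        -X.flr i Q + 1 ≤ Q.ord (a i)) := by
  classical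
  have hL := ((hS.mem_iff _ hm _).mp (X.pow_mul_mem ha)).1 i
  have hq : (0 : ℤ) < q := Int.natCast_pos.mpr (NeZero.pos q)
  have hne : (a ^ q * X.fb) i ≠ 0 := mul_ne_zero (pow_ne_zero _ hai) (X.fb_ne_zero i)
  have hord : Q.ord ((a ^ q * X.fb) i) = q * Q.ord (a i) + X.o i Q := by
    rw [Pi.mul_apply, Pi.pow_apply, Place.ord_mul _ (pow_ne_zero _ hai) (X.fb_ne_zero i),
      FLTA.Curves.ord_pow]
    rfl
  have h := (mem_riemannRochSpace_iff.mp hL Q).resolve_left hne
  rw [hord, Finsupp.single_apply] at h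
  rw [flr_apply, Finsupp.single_apply]
  refine ⟨?_, fun hQ hres hval => ?_⟩
  · split_ifs at h ⊢ with hQ
    · have h' := neg_ediv_le hq (a := Q.ord (a i) + m) (o := X.o i Q)
        (by push_cast at h; linarith)
      omega
    · have h' := neg_ediv_le hq (a := Q.ord (a i)) (o := X.o i Q) (by linarith)
      omega
  · rw [BadFibre.placeVal_eq_zero_iff (B.rrk.deg_eq_one _)
      (BadFibre.mem_of_mem_single hL hQ), hord] at hval
    exact neg_ediv_lt hq (hval.resolve_left hne) hres

open Classical in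
/-- Pairs where the left component of an element of `img m` vanishes. -/
def cut (S : Finset (Place k Fk)) (i : Fin 2) : Finset (Place k Fk) :=
  if i = 0 then (X.tame S).filter fun Q => X.res 1 (B.frobq • Q) ≠ 0
  else (X.tame S).filter fun Q => ¬ X.res 1 (B.frobq • Q) ≠ 0

/-- The divisor bounding the component `i`. -/
def compDiv (S : Finset (Place k Fk)) (m : ℕ) (i : Fin 2) : Divisor k Fk :=
  X.flr i + Finsupp.single B.infk (m : ℤ) - ∑ Q ∈ X.cut S i, Finsupp.single (pt B Q i) 1

theorem cut_subset (i : Fin 2) : X.cut S i ⊆ S := by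
  classical
  intro Q hQ
  rw [cut] at hQ
  split_ifs at hQ <;> exact (Finset.mem_filter.mp (Finset.mem_filter.mp hQ).1).1

theorem card_cut_add : (X.cut S 0).card + (X.cut S 1).card = (X.tame S).card := by
  classical
  rw [cut, cut, if_pos rfl, if_neg (by decide)]
  exact Finset.card_filter_add_card_filter_not _

theorem pt_injective (i : Fin 2) : Function.Injective fun Q => pt B Q i := by
  fin_cases i
  · exact fun Q Q' h => h
  · exact MulAction.injective B.frobq

theorem degree_compDiv (m : ℕ) (i : Fin 2) :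
    Divisor.degree (X.compDiv S m i) = Divisor.degree (X.flr i) + m - (X.cut S i).card := by
  simp [compDiv, map_sub, B.rrk.deg_eq_one]

include hS in
theorem compDiv_apply (m : ℕ) (i : Fin 2) (v : Place k Fk) :
    (∀ Q ∈ X.cut S i, pt B Q i ≠ v) ∧ X.compDiv S m i v =
        X.flr i v + Finsupp.single B.infk (m : ℤ) v ∨
      ∃ Q ∈ X.cut S i, pt B Q i = v ∧ v ≠ B.infk ∧ X.compDiv S m i v = X.flr i v - 1 := by
  classical
  have hsum : (∑ Q ∈ X.cut S i, Finsupp.single (pt B Q i) (1 : ℤ)) v =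
      if v ∈ (X.cut S i).image (fun Q => pt B Q i) then 1 else 0 := by
    rw [← Finset.sum_image (f := fun P => Finsupp.single P (1 : ℤ))
      fun a _ b _ h => pt_injective i h, Finsupp.finsetSum_apply,
      Finset.sum_congr rfl fun P _ => Finsupp.single_apply, Finset.sum_ite_eq']
  by_cases hv : v ∈ (X.cut S i).image (fun Q => pt B Q i)
  · obtain ⟨Q, hQ, rfl⟩ := Finset.mem_image.mp hv
    have hne : pt B Q i ≠ B.infk := by
      have hQS := X.cut_subset i hQ
      fin_cases i
      · exact fun h => hS.infk_notMem (h ▸ hQS)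
      · exact hS.smul_ne Q hQS
    refine Or.inr ⟨Q, hQ, rfl, hne, ?_⟩
    rw [compDiv, Finsupp.sub_apply, Finsupp.add_apply, hsum, if_pos hv,
      Finsupp.single_eq_of_ne hne, add_zero]
  · refine Or.inl ⟨fun Q hQ h => hv (Finset.mem_image.mpr ⟨Q, hQ, h⟩), ?_⟩
    rw [compDiv, Finsupp.sub_apply, Finsupp.add_apply, hsum, if_neg hv, sub_zero]

include hS in
theorem mem_compDiv {m : ℕ} (hm : m₀ ≤ q * m) {a : Fin 2 → Fk} (ha : a ∈ X.img m) (i : Fin 2)
    (hi : i = 0 ∨ a 0 = 0) : a i ∈ riemannRochSpace (X.compDiv S m i) := by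
  classical
  rw [mem_riemannRochSpace_iff]
  intro v
  by_cases hai : a i = 0
  · exact Or.inl hai
  refine Or.inr ?_
  obtain ⟨hlow, hstrict⟩ := X.ord_img hS hm ha i hai v
  rcases X.compDiv_apply hS m i v with ⟨-, h⟩ | ⟨Q, hQ, hQv, hv, h⟩ <;> rw [h]
  · exact hlow
  have hglue := ((hS.mem_iff _ hm _).mp (X.pow_mul_mem ha)).2 Q (X.cut_subset i hQ)
  subst hQv
  have hvalid : X.res i (pt B Q i) = 0 ∧
      BadFibre.placeVal (pt B Q i) ((a ^ q * X.fb) i) = 0 := by
    rw [cut] at hQ
    rcases (by decide : ∀ l : Fin 2, l = 0 ∨ l = 1) i with rfl | rfl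
    · rw [if_pos rfl] at hQ
      obtain ⟨ht, h1⟩ := Finset.mem_filter.mp hQ
      have h0 : X.res 0 Q = 0 := (Finset.mem_filter.mp ht).2.resolve_right h1
      refine ⟨h0, ?_⟩
      show BadFibre.placeVal Q _ = 0
      rw [hglue, BadFibre.placeVal_eq_zero_iff (B.rrk.deg_eq_one _) (BadFibre.mem_of_mem_single
        (((hS.mem_iff _ hm _).mp (X.pow_mul_mem ha)).1 1)
        (hS.smul_ne Q (Finset.mem_filter.mp ht).1))]
      by_cases h1z : a 1 = 0
      · exact Or.inl (by rw [Pi.mul_apply, Pi.pow_apply, h1z, zero_pow (NeZero.ne q), zero_mul])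
      · refine Or.inr (lt_of_le_of_ne ?_ ?_)
        · exact FLTA.Curves.ord_nonneg_of_mem _ (BadFibre.mem_of_mem_single
            (((hS.mem_iff _ hm _).mp (X.pow_mul_mem ha)).1 1)
            (hS.smul_ne Q (Finset.mem_filter.mp ht).1))
        · intro h0'
          apply h1
          rw [Pi.mul_apply, Pi.pow_apply, Place.ord_mul _ (pow_ne_zero _ h1z) (X.fb_ne_zero 1),
            FLTA.Curves.ord_pow] at h0'
          rw [res, o, show (B.frobq • Q).ord (X.fb 1) = -((B.frobq • Q).ord (a 1)) * q by linarith,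
            Int.mul_emod_left]
    · rw [if_neg (by decide)] at hQ
      obtain ⟨ht, h1⟩ := Finset.mem_filter.mp hQ
      refine ⟨not_not.mp h1, ?_⟩
      show BadFibre.placeVal (B.frobq • Q) _ = 0
      have h0 : (a ^ q * X.fb) 0 = 0 := by
        rw [Pi.mul_apply, Pi.pow_apply, hi.resolve_left (by decide), zero_pow (NeZero.ne q),
          zero_mul]
      rw [← hglue, h0, BadFibre.placeVal_zero (B.rrk.deg_eq_one _)]
  have := hstrict hv hvalid.1 hvalid.2
  omega

/-- The projection to the first component. -/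
def fstImg (m : ℕ) : X.img m →ₗ[k] Fk := (LinearMap.proj 0).comp (X.img m).subtype

theorem fstImg_apply (m : ℕ) (a : X.img m) : X.fstImg m a = (a : Fin 2 → Fk) 0 := rfl

include hS in
theorem range_ker_le {m : ℕ} (hm : m₀ ≤ q * m) :
    LinearMap.range (X.fstImg m) ≤ riemannRochSpace (X.compDiv S m 0) ∧
      (((X.fstImg m).ker.map (X.img m).subtype).map (LinearMap.proj 1 : (Fin 2 → Fk) →ₗ[k] Fk)) ≤
        riemannRochSpace (X.compDiv S m 1) := by
  refine ⟨?_, ?_⟩
  · rintro _ ⟨a, rfl⟩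
    exact X.mem_compDiv hS hm a.2 0 (Or.inl rfl)
  · rintro _ ⟨_, ⟨a, ha, rfl⟩, rfl⟩
    exact X.mem_compDiv hS hm a.2 1 (Or.inr ha)

theorem finrank_ker_map (m : ℕ) :
    Module.finrank k
      (((X.fstImg m).ker.map (X.img m).subtype).map (LinearMap.proj 1 : (Fin 2 → Fk) →ₗ[k] Fk)) =
      Module.finrank k (X.fstImg m).ker := by
  rw [← Submodule.map_comp]
  have hinj : Function.Injective
      (((LinearMap.proj 1 : (Fin 2 → Fk) →ₗ[k] Fk).comp (X.img m).subtype).comp
        (X.fstImg m).ker.subtype) := by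
    intro a b h
    refine Subtype.ext (Subtype.ext (funext (Fin.forall_fin_two.mpr ⟨?_, h⟩)))
    exact (show X.fstImg m a.1 = 0 from a.2).trans (show X.fstImg m b.1 = 0 from b.2).symm
  rw [← LinearMap.finrank_range_of_inj hinj, LinearMap.range_comp, Submodule.range_subtype]

include hS in
theorem count {m : ℕ} (hm : m₀ ≤ q * m) (hmg : gF ≤ m)
    (hdeg : ∀ i, 2 * (g : ℤ) - 1 ≤ Divisor.degree (X.compDiv S m i)) :
    X.resSum 0 + X.resSum 1 ≤ q * (X.bad S).card ∧
      (X.resSum 0 + X.resSum 1 = q * (X.bad S).card →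
        LinearMap.range (X.fstImg m) = riemannRochSpace (X.compDiv S m 0) ∧
          ((X.fstImg m).ker.map (X.img m).subtype).map (LinearMap.proj 1 : (Fin 2 → Fk) →ₗ[k] Fk) =
            riemannRochSpace (X.compDiv S m 1)) := by
  obtain ⟨hfin, hrk⟩ := X.finrank_img hmg
  haveI := hfin
  obtain ⟨h0, h1⟩ := X.range_ker_le hS hm
  haveI := B.rrk.finiteDimensional (X.compDiv S m 0)
  haveI := B.rrk.finiteDimensional (X.compDiv S m 1)
  have hsum := LinearMap.finrank_range_add_finrank_ker (X.fstImg m)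
  rw [← X.finrank_ker_map m] at hsum
  have hle0 := Submodule.finrank_mono h0
  have hle1 := Submodule.finrank_mono h1
  have e0 := B.rrk.finrank_eq _ (hdeg 0)
  have e1 := B.rrk.finrank_eq _ (hdeg 1)
  rw [X.degree_compDiv] at e0 e1
  have hcard := hS.card_eq
  have ht := X.card_tame_add_bad S
  have hc := X.card_cut_add (S := S)
  have hE0 := X.degree_flr 0
  have hE1 := X.degree_flr 1
  have hq : (0 : ℤ) < q := Int.natCast_pos.mpr (NeZero.pos q)
  have key : 0 ≤ ((X.bad S).card : ℤ) + Divisor.degree (X.flr 0) + Divisor.degree (X.flr 1) := by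
    omega
  have key' := mul_nonneg hq.le key
  refine ⟨by linarith, fun heq => ?_⟩
  have hz : ((X.bad S).card : ℤ) + Divisor.degree (X.flr 0) + Divisor.degree (X.flr 1) = 0 := by
    have : (q : ℤ) * (((X.bad S).card : ℤ) + Divisor.degree (X.flr 0) + Divisor.degree (X.flr 1))
        = 0 := by linarith
    exact (mul_eq_zero.mp this).resolve_left hq.ne'
  exact ⟨Submodule.eq_of_le_of_finrank_le h0 (by omega),
    Submodule.eq_of_le_of_finrank_le h1 (by omega)⟩

theorem exists_big (S : Finset (Place k Fk)) (b : ℕ) :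
    ∃ M : ℕ, ∀ m, M ≤ m → ∀ i, (b : ℤ) ≤ Divisor.degree (X.compDiv S m i) := by
  refine ⟨(b : ℤ).toNat + (Divisor.degree (X.flr 0)).natAbs + (Divisor.degree (X.flr 1)).natAbs +
    S.card, fun m hm i => ?_⟩
  rw [X.degree_compDiv]
  have := Finset.card_le_card (X.cut_subset (S := S) i)
  rcases (by decide : ∀ l : Fin 2, l = 0 ∨ l = 1) i with rfl | rfl <;> omega

include hS in
theorem resSum_le : X.resSum 0 + X.resSum 1 ≤ q * (X.bad S).card := by
  obtain ⟨M, hM⟩ := X.exists_big S (2 * g)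
  refine (X.count hS (m := M + m₀ + gF) ?_ (by omega) fun i => ?_).1
  · exact le_trans (by omega) (Nat.le_mul_of_pos_left _ (NeZero.pos q))
  · have := hM (M + m₀ + gF) (by omega) i
    push_cast at this
    omega

variable (E : EtaData R S) (hne : S.Nonempty)

include hS E hne in
open Classical in
/-- **No residues outside the bad pairs, and their sum.** -/
theorem ram_eq :
    (∀ i, X.ram i = (X.bad S).image fun Q => pt B Q i) ∧
      X.resSum 0 + X.resSum 1 = q * (X.bad S).card := by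
  classical
  obtain ⟨Y, hY⟩ := X.exists_dual E hne
  have hq : (0 : ℤ) < q := Int.natCast_pos.mpr (NeZero.pos q)
  have hpair : ∀ i Q, (X.res i Q = 0 → Y.res i Q = 0) ∧
      Y.res i Q + X.res i Q = if X.res i Q = 0 then 0 else (q : ℤ) := fun i Q =>
    eq_zero_or_add_emod _ hq (hY i Q)
  have hiff : ∀ i Q, Y.res i Q = 0 ↔ X.res i Q = 0 := fun i Q => by
    refine ⟨fun h => ?_, (hpair i Q).1⟩
    have h2 := (hpair i Q).2
    by_contra hne'
    rw [h, if_neg hne', zero_add, res] at h2
    exact absurd h2 (Int.emod_lt_of_pos _ hq).ne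
  have hram : ∀ i, Y.ram i = X.ram i := fun i => by
    ext Q; rw [Y.mem_ram, X.mem_ram, not_iff_not]; exact hiff i Q
  have hbad : Y.bad S = X.bad S := by
    ext Q; simp only [mem_bad, ne_eq, hiff]
  have hsum : ∀ i, Y.resSum i + X.resSum i = q * (X.ram i).card := fun i => by
    rw [resSum, resSum, hram, ← Finset.sum_add_distrib, Finset.sum_congr rfl fun Q hQ =>
      ((hpair i Q).2.trans (if_neg (X.mem_ram.mp hQ))), Finset.sum_const, nsmul_eq_mul]
    ring
  have h1 := X.resSum_le hS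
  have h2 := Y.resSum_le hS
  rw [hbad] at h2
  have hsub : ∀ i, ((X.bad S).image fun Q => pt B Q i) ⊆ X.ram i := fun i Q hQ => by
    obtain ⟨Q', hQ', rfl⟩ := Finset.mem_image.mp hQ
    obtain ⟨-, h0, h1'⟩ := X.mem_bad.mp hQ'
    rw [mem_ram]
    fin_cases i
    · exact h0
    · exact h1'
  have hcard : ∀ i, (X.bad S).card ≤ (X.ram i).card := fun i => by
    have := Finset.card_le_card (hsub i)
    rwa [Finset.card_image_of_injective _ (pt_injective i)] at this
  have h3 := hcard 0
  have h4 := hcard 1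
  have h5 := hsum 0
  have h6 := hsum 1
  have key : (q : ℤ) * ((X.ram 0).card + (X.ram 1).card) ≤ q * (2 * (X.bad S).card) := by
    linarith
  have key' := le_of_mul_le_mul_left key hq
  refine ⟨fun i => ?_, ?_⟩
  · refine (Finset.eq_of_subset_of_card_le (hsub i) ?_).symm
    rw [Finset.card_image_of_injective _ (pt_injective i)]
    rcases (by decide : ∀ l : Fin 2, l = 0 ∨ l = 1) i with rfl | rfl <;> omega
  · have e0 : ((X.ram 0).card : ℤ) = (X.bad S).card := by omega
    have e1 : ((X.ram 1).card : ℤ) = (X.bad S).card := by omega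
    rw [e0] at h5
    rw [e1] at h6
    linarith

include hS E hne in
theorem res_eq_zero_of_notMem {i : Fin 2} {v : Place k Fk}
    (h : ∀ Q ∈ X.bad S, pt B Q i ≠ v) : X.res i v = 0 := by
  classical
  by_contra hv
  have hv' := X.mem_ram.mpr hv
  rw [(X.ram_eq hS E hne).1 i, Finset.mem_image] at hv'
  obtain ⟨Q, hQ, rfl⟩ := hv'
  exact h Q hQ rfl

include hS E hne in
theorem mem_tame_iff {Q : Place k Fk} :
    Q ∈ X.tame S ↔ Q ∈ S ∧ X.res 0 Q = 0 ∧ X.res 1 (B.frobq • Q) = 0 := by
  classical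
  rw [tame, Finset.mem_filter]
  refine ⟨fun ⟨hQ, h⟩ => ⟨hQ, ?_, ?_⟩, fun h => ⟨h.1, Or.inl h.2.1⟩⟩
  all_goals
    rcases h with h | h
    · first
        | exact h
        | exact X.res_eq_zero_of_notMem hS E hne fun Q' hQ' he =>
            (X.mem_bad.mp hQ').2.1 (by rw [pt_injective 1 he]; exact h)
    · first
        | exact h
        | exact X.res_eq_zero_of_notMem hS E hne fun Q' hQ' he =>
            (X.mem_bad.mp hQ').2.2 (by rw [pt_injective 0 he]; exact h)

include hS E hne in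
/-- **The reduced twisted space is the whole space of conditions.** -/
theorem full {m : ℕ} (hm : m₀ ≤ q * m) (hmg : gF ≤ m)
    (hdeg : ∀ i, 2 * (g : ℤ) - 1 ≤ Divisor.degree (X.compDiv S m i)) :
    (∀ a₀ ∈ riemannRochSpace (X.flr 0 + Finsupp.single B.infk (m : ℤ)),
        ∃ a ∈ X.img m, a 0 = a₀) ∧
      ∀ a₁ ∈ riemannRochSpace (X.compDiv S m 1), ∃ a ∈ X.img m, a 0 = 0 ∧ a 1 = a₁ := by
  classical
  obtain ⟨hr, hk⟩ := (X.count hS hm hmg hdeg).2 (X.ram_eq hS E hne).2
  have h0 : X.cut S 0 = ∅ := by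
    rw [cut, if_pos rfl, Finset.filter_eq_empty_iff]
    exact fun Q hQ h => h ((X.mem_tame_iff hS E hne).mp hQ).2.2
  have e0 : X.compDiv S m 0 = X.flr 0 + Finsupp.single B.infk (m : ℤ) := by
    rw [compDiv, h0, Finset.sum_empty, sub_zero]
  refine ⟨fun a₀ ha => ?_, fun a₁ ha => ?_⟩
  · rw [← e0, ← hr] at ha
    obtain ⟨a, rfl⟩ := ha
    exact ⟨a, a.2, rfl⟩
  · rw [← hk] at ha
    obtain ⟨_, ⟨a, ha, rfl⟩, rfl⟩ := ha
    exact ⟨_, a.2, ha, rfl⟩

end Datum

end FLTA.LevelLowering

end
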