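import Fermat.Agent.LevelLowering.HeckeFibre
import Fermat.Agent.LevelLowering.HeckeRed
import Fermat.Agent.LevelLowering.Residues
import Fermat.Agent.LevelLowering.JumpDefs

/-!
# The Hecke step: residues vanish and leading parts are `q`-th powers

For a rational Kummer function `f` with `T f = c f ^ a h ^ q`:
* `dvd_vs_sub`: `q ∣ vs 1 f - vs 0 f` when `q ∤ l + 1 - a`;
* `Datum.dvd_o`: residues proportional to the weights vanish modulo `q` when `q ∤ l + 1 - a`;
* `Datum.reducesToPow`: then a polynomial killing the classes of the good curve makes both leading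
  parts `q`-th powers.
-/

set_option autoImplicit false

noncomputable section

open AlgebraicCurve FLTA.BadRed

namespace FLTA.LevelLowering

variable {K : Type*} [Field K] [IsAlgClosed K] [CharZero K] {A : ValuationSubring K}
  {k : Type*} [Field k] [IsAlgClosed k] {π : A →+* k}
  {q : ℕ} [NeZero q] [Fact q.Prime] [CharP k q]
  {F : Type*} [Field F] [Algebra K F] {F' : Type*} [Field F'] [Algebra K F']
  {Fk : Type*} [Field Fk] [Algebra k Fk] {g gF : ℕ} {B : BadFibre A π q F F' Fk g gF}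

theorem hasEffectiveBound_of_rrCurve {L E : Type*} [Field L] [Field E] [Algebra L E] {γ : ℕ}
    (rr : FLTA.PlaceRed.RRCurve L E γ) : FLTA.Congruence.HasEffectiveBound L E := by
  refine ⟨2 * γ, fun D hD => ?_⟩
  obtain ⟨f, hfD, hf0⟩ := (riemannRochSpace D).exists_mem_ne_zero_of_ne_bot (by
    intro hbot
    have h1 := rr.finrank_eq D (by omega)
    rw [hbot, finrank_bot] at h1
    push_cast at h1
    omega)
  refine ⟨D + rr.divisorOf f, fun P => ?_, ?_⟩
  · have := (mem_riemannRochSpace_iff.mp hfD P).resolve_left hf0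
    rw [Finsupp.add_apply, FLTA.PlaceRed.RRCurve.divisorOf_apply]
    omega
  · rw [sub_add_cancel_left]
    exact AddSubgroup.neg_mem _ ⟨f, hf0, fun v => rr.divisorOf_apply f v⟩

/-- A positive operator of degree `m` multiplying the orders at `v` by `m` fixes `v`. -/
theorem map_single_eq_of_ord {L E : Type*} [Field L] [Field E] [Algebra L E] {γ : ℕ}
    (rr : FLTA.PlaceRed.RRCurve L E γ) (div : Divisor L E →+ Divisor L E) (m : ℕ)
    (hdeg : ∀ D, Divisor.degree (div D) = (m : ℤ) * Divisor.degree D)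
    (hpos : ∀ D, 0 ≤ D → 0 ≤ div D) (v : Place L E)
    (hv : ∀ f : E, f ≠ 0 → ∀ D : Divisor L E, (∀ w, D w = w.ord f) → div D v = m * v.ord f) :
    div (Finsupp.single v 1) = Finsupp.single v (m : ℤ) := by
  classical
  haveI := rr.principal
  have hone : ∀ P : Place L E, (0 : Divisor L E) ≤ Finsupp.single P 1 := fun P =>
    Finsupp.single_nonneg.mpr zero_le_one
  have hdeg1 : ∀ P : Place L E, Divisor.degree (div (Finsupp.single P 1)) = m := fun P => by
    rw [hdeg, Divisor.degree_single, rr.deg_eq_one]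
    push_cast
    ring
  have hbd : ∀ P Q : Place L E, 0 ≤ div (Finsupp.single P 1) Q ∧ div (Finsupp.single P 1) Q ≤ m :=
    fun P Q => by
      have h := Finsupp.le_def.mp (hpos _ (hone P))
      have h1 := FLTA.Congruence.abs_apply_le_degree rr.deg_eq_one (fun R => h R) Q
      rw [hdeg1, abs_le] at h1
      exact ⟨h Q, h1.2⟩
  set ψ : Divisor L E →+ ℤ := (Finsupp.applyAddHom v).comp div - (m : ℤ) • Finsupp.applyAddHom v
    with hψ
  have hψa : ∀ D, ψ D = div D v - m * D v := fun D => rfl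
  obtain ⟨P, hPv⟩ : ∃ P : Place L E, P ≠ v := by
    by_contra hcon
    push Not at hcon
    obtain ⟨f, hf, hf1⟩ := FLTA.Curves.exists_ord_eq_one v
    have h := rr.degree_divisorOf f
    rw [show rr.divisorOf f = Finsupp.single v 1 from Finsupp.ext fun w => by
      rw [rr.divisorOf_apply, hcon w, hf1, Finsupp.single_eq_same], Divisor.degree_single,
      rr.deg_eq_one] at h
    omega
  have hzero := FLTA.Congruence.eq_zero_of_bounded rr.deg_eq_one (hasEffectiveBound_of_rrCurve rr)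
    ψ (M := 2 * m) (fun Q => by
      have := hbd Q v
      rw [hψa, Finsupp.single_apply, abs_le]
      split_ifs <;> omega)
    (fun D hD => by
      obtain ⟨f, hf, hfD⟩ := hD
      rw [hψa, hv f hf D hfD, hfD]
      ring)
    (D := Finsupp.single v 1 - Finsupp.single P 1) (by
      rw [map_sub, Divisor.degree_single, Divisor.degree_single, rr.deg_eq_one, rr.deg_eq_one,
        sub_self])
  rw [hψa, map_sub, Finsupp.sub_apply, Finsupp.sub_apply, Finsupp.single_eq_same,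
    Finsupp.single_eq_of_ne (Ne.symm hPv)] at hzero
  have h1 := hbd P v
  have h2 := hbd v v
  have hnn : ∀ Q, 0 ≤ (div (Finsupp.single v 1) - Finsupp.single v (m : ℤ)) Q := fun Q => by
    rcases eq_or_ne Q v with rfl | hQ
    · rw [Finsupp.sub_apply, Finsupp.single_eq_same]
      omega
    · rw [Finsupp.sub_apply, Finsupp.single_eq_of_ne hQ, sub_zero]
      exact (hbd v Q).1
  refine sub_eq_zero.mp (Finsupp.ext fun Q => ?_)
  have h := FLTA.Congruence.abs_apply_le_degree rr.deg_eq_one hnn Q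
  rw [map_sub, hdeg1, Divisor.degree_single, rr.deg_eq_one] at h
  rw [Finsupp.zero_apply]
  have := abs_eq_zero.mp (le_antisymm (h.trans (by push_cast; omega)) (abs_nonneg _))
  exact this

theorem order_scaleHom {R : Type*} [CommRing R] (u : Rˣ) (y : LaurentSeries R) :
    (FLTA.Congruence.scaleHom u y).order = y.order := by
  rcases eq_or_ne y 0 with rfl | hy
  · rw [map_zero]
  have key : ∀ i, (FLTA.Congruence.scaleHom u y).coeff i = 0 ↔ y.coeff i = 0 := fun i => by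
    rw [FLTA.Congruence.scaleHom_coeff, Units.mul_right_eq_zero]
  have hne : FLTA.Congruence.scaleHom u y ≠ 0 := fun h =>
    hy (HahnSeries.ext (funext fun i => (key i).mp (by rw [h]; rfl)))
  exact le_antisymm
    (HahnSeries.order_le_of_coeff_ne_zero fun h =>
      mt HahnSeries.coeff_order_eq_zero.mp hy ((key _).mp h))
    (HahnSeries.order_le_of_coeff_ne_zero fun h =>
      mt HahnSeries.coeff_order_eq_zero.mp hne ((key _).mpr h))

/-- The order of the image is `l + 1` times the order. -/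
theorem IsHeckeImage.order_eq {R : Type*} [CommRing R] [IsDomain R] {l : ℕ} [NeZero l] {ζ : Rˣ}
    {y z : LaurentSeries R} (h : IsHeckeImage l ζ y z) (hy : y ≠ 0) :
    z.order = ((l : ℤ) + 1) * y.order := by
  have hsc : ∀ n, (∏ i ∈ Finset.range n, FLTA.Congruence.scaleHom (ζ ^ i) y) ≠ 0 ∧
      (∏ i ∈ Finset.range n, FLTA.Congruence.scaleHom (ζ ^ i) y).order = n * y.order := by
    intro n
    induction n with
    | zero => simp
    | succ n ih =>
      have hne : FLTA.Congruence.scaleHom (ζ ^ n) y ≠ 0 := fun h0 => by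
        apply mt HahnSeries.coeff_order_eq_zero.mp hy
        have := congrArg (fun s : LaurentSeries R => s.coeff y.order) h0
        simpa [FLTA.Congruence.scaleHom_coeff] using this
      rw [Finset.prod_range_succ]
      refine ⟨mul_ne_zero ih.1 hne, ?_⟩
      rw [HahnSeries.order_mul ih.1 hne, ih.2, order_scaleHom]
      push_cast
      ring
  have hq : ModularCurve.qExpand R (l * l) y ≠ 0 := fun h0 =>
    hy (ModularCurve.qExpand_injective _ (h0.trans (map_zero _).symm))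
  have hz := congrArg HahnSeries.order h
  rw [conjProd_apply, BadFibre.order_qExpand_eq, HahnSeries.order_mul hq (hsc l).1, (hsc l).2,
    BadFibre.order_qExpand_eq] at hz
  refine mul_left_cancel₀ (Nat.cast_ne_zero.mpr (NeZero.ne l) : (l : ℤ) ≠ 0) ?_
  rw [hz]
  push_cast
  ring

/-- Away from the glued points the reduced eta quotient has no zero or pole over finite `j`. -/
theorem EtaData.ord_g_eq_zero {R : RatFrame B} {S : Finset (Place k Fk)} (E : EtaData R S)
    {m₀ : ℕ} (hS : B.IsGluing S m₀) {v : Place k Fk} (hv : E.IsFin v) (hvinf : v ≠ B.infk)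
    (hvS : v ∉ S) : v.ord (R.ld 0 E.G) = 0 := by
  obtain ⟨φ, hφ, hφ0, -, hord, -, hG0, hG1⟩ := E.clear v hv
  have hne : ∀ Q' ∈ S, pt B Q' 0 ≠ v := fun Q' hQ' h => hvS (by rwa [← show Q' = v from h])
  have h1 := R.ord_nonneg_off hS (mul_mem hφ (E.Gs_mem 0)) (mul_ne_zero hφ0 (E.Gs_ne_zero 0)) hG0 0
    hvinf hne
  have h2 := R.ord_nonneg_off hS (mul_mem hφ (E.Gs_mem 1)) (mul_ne_zero hφ0 (E.Gs_ne_zero 1)) hG1 0
    hvinf hne
  have h3 := E.ord_ld_Gs (i := 0) (j := 1) (by decide) v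
  have h4 := hord 0
  rw [pt_zero] at h3 h4
  rw [R.ld_mul 0 hφ hφ0 (E.Gs_mem _) (E.Gs_ne_zero _),
    Place.ord_mul _ (R.ld_ne_zero 0 hφ hφ0) (R.ld_ne_zero 0 (E.Gs_mem _) (E.Gs_ne_zero _)),
    h4, zero_add] at h1 h2
  rw [h3.1] at h1
  rw [h3.2] at h2
  show E.d v = 0
  omega

/-- A positive operator on divisors multiplying the order at a cusp by its degree fixes the cusp. -/
theorem HeckeData.T_mem_secRing {l : ℕ} [NeZero l] (H : HeckeData B l)
    (div : Divisor K F →+ Divisor K F)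
    (hdeg : ∀ D, Divisor.degree (div D) = (l + 1 : ℕ) * Divisor.degree D)
    (hpos : ∀ D, 0 ≤ D → 0 ≤ div D)
    (hdiv : ∀ f : F, f ≠ 0 → ∀ D : Divisor K F, (∀ v, D v = v.ord f) →
      ∀ v, div D v = v.ord (H.T f))
    {x : F} (hx : x ∈ secRing B) : H.T x ∈ secRing B := by
  obtain ⟨m, hm⟩ := hx
  rcases eq_or_ne x 0 with rfl | hx0
  · rw [show H.T 0 = 0 from H.T_eq (by simp [IsHeckeImage, conjProd_apply])]
    exact (secRing B).zero_mem
  have hfix : ∀ i, div (Finsupp.single (B.P i) 1) = Finsupp.single (B.P i) ((l + 1 : ℕ) : ℤ) :=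
    fun i => map_single_eq_of_ord B.rrF div (l + 1) hdeg hpos (B.P i) fun f hf D hD => by
      rw [hdiv f hf D hD, B.ord_P i (H.T_ne_zero hf), B.ord_P i hf,
        (H.e_T i f).order_eq ((map_ne_zero (B.e i)).mpr hf)]
      push_cast
      rfl
  have hcusp : div (B.cuspDiv m) = B.cuspDiv ((l + 1) * m) := by
    have e : ∀ i, div (Finsupp.single (B.P i) (m : ℤ)) =
        Finsupp.single (B.P i) ((((l + 1) * m : ℕ)) : ℤ) := fun i => by
      rw [← mul_one (m : ℤ), ← smul_eq_mul, ← Finsupp.smul_single, map_zsmul, hfix,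
        Finsupp.smul_single, smul_eq_mul]
      congr 1
      push_cast
      ring
    rw [BadFibre.cuspDiv, map_add, e, e]
    rfl
  refine ⟨(l + 1) * m, mem_riemannRochSpace_iff.mpr fun v => Or.inr ?_⟩
  have h0 : (0 : Divisor K F) ≤ B.rrF.divisorOf x + B.cuspDiv m := Finsupp.le_def.mpr fun w => by
    have := (mem_riemannRochSpace_iff.mp hm w).resolve_left hx0
    rw [Finsupp.zero_apply, Finsupp.add_apply, FLTA.PlaceRed.RRCurve.divisorOf_apply]
    omega
  have h1 := Finsupp.le_def.mp (hpos _ h0) v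
  rw [map_add, hcusp, Finsupp.zero_apply, Finsupp.add_apply,
    hdiv x hx0 _ (fun w => B.rrF.divisorOf_apply x w) v] at h1
  omega

omit [IsAlgClosed K] [CharZero K] [IsAlgClosed k] [Fact q.Prime] [CharP k q] in
theorem mem_secRing_of_kummer {D : Divisor K F} {f : F} (hK : BadFibre.KummerFn q D f)
    (hD : ∃ m : ℕ, -(B.cuspDiv m) ≤ D) : f ∈ secRing B := by
  obtain ⟨m, hm⟩ := hD
  refine ⟨q * m, mem_riemannRochSpace_iff.mpr fun v => Or.inr ?_⟩
  have h1 := Finsupp.le_def.mp hm v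
  rw [Finsupp.neg_apply] at h1
  rw [← BadFibre.natCast_smul_cuspDiv, Finsupp.smul_apply, smul_eq_mul, ← hK.ord_eq]
  have h2 := mul_le_mul_of_nonneg_left h1 (Int.natCast_nonneg q)
  rw [mul_neg] at h2
  exact h2

/-- The Hecke relation as a relation between rational sections. -/
theorem exists_section_rel {R : RatFrame B} {l : ℕ} [NeZero l] (H : HeckeData B l)
    (hTsec : ∀ x ∈ secRing B, H.T x ∈ secRing B) {D : Divisor K F} {f : F} (hf : f ∈ R.BL)
    (hK : BadFibre.KummerFn q D f) (hD : ∃ m : ℕ, -(B.cuspDiv m) ≤ D) {a : ℤ} {c : K} {h : F}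
    (hrel : H.T f = algebraMap K F c * f ^ a * h ^ q) :
    ∃ (n : ℕ) (c' : K) (y : F), c' ∈ R.L ∧ c' ≠ 0 ∧ y ∈ R.BL ∧ y ≠ 0 ∧ (q : ℤ) ∣ n + a ∧
      algebraMap K F c' * y ^ q = H.T f * f ^ n := by
  have hf0 := hK.ne_zero
  have hT0 := H.T_ne_zero hf0
  have hh0 : h ≠ 0 := by
    rintro rfl
    rw [zero_pow (NeZero.ne q), mul_zero] at hrel
    exact hT0 hrel
  have hc0 : c ≠ 0 := by
    rintro rfl
    rw [map_zero, zero_mul, zero_mul] at hrel
    exact hT0 hrel
  obtain ⟨N, n, hn⟩ : ∃ N n : ℕ, (n : ℤ) = q * N - a := by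
    refine ⟨a.natAbs, ((q : ℤ) * a.natAbs - a).toNat, Int.toNat_of_nonneg ?_⟩
    have h1 : (1 : ℤ) ≤ q := by exact_mod_cast NeZero.pos q
    have h2 : (a.natAbs : ℤ) ≤ q * a.natAbs := le_mul_of_one_le_left (Int.natCast_nonneg _) h1
    have h3 : a ≤ (a.natAbs : ℤ) := Int.le_natAbs
    omega
  set z := H.T f * f ^ n with hz
  have hzB : z ∈ R.BL := mul_mem (H.T_mem_BL R hf) (pow_mem hf n)
  have hz0 : z ≠ 0 := mul_ne_zero hT0 (pow_ne_zero n hf0)
  have hzsec : z ∈ secRing B := mul_mem (hTsec f (mem_secRing_of_kummer hK hD))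
    (pow_mem (mem_secRing_of_kummer hK hD) n)
  set y₀ := h * f ^ N with hy₀
  have hy₀0 : y₀ ≠ 0 := mul_ne_zero hh0 (pow_ne_zero N hf0)
  have hrel₀ : algebraMap K F c * y₀ ^ q = z := by
    have e : f ^ a * f ^ n = f ^ (N * q) := by
      rw [← zpow_natCast f n, ← zpow_natCast f (N * q), ← zpow_add₀ hf0, hn]
      congr 1
      push_cast
      ring
    rw [hz, hrel, hy₀, mul_pow, ← pow_mul, ← e]
    ring
  set b := (B.ex y₀).coeff (B.ex y₀).order with hb
  have hb0 : b ≠ 0 := mt HahnSeries.coeff_order_eq_zero.mp ((map_ne_zero B.ex).mpr hy₀0)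
  set y := algebraMap K F b⁻¹ * y₀ with hy
  have hy0 : y ≠ 0 := mul_ne_zero ((map_ne_zero _).mpr (inv_ne_zero hb0)) hy₀0
  set c' := c * b ^ q with hc'
  have hc'0 : c' ≠ 0 := mul_ne_zero hc0 (pow_ne_zero q hb0)
  have hrel' : algebraMap K F c' * y ^ q = z := by
    rw [← hrel₀, hc', hy, mul_pow, ← map_pow, ← mul_assoc, ← map_mul, inv_pow,
      mul_inv_cancel_right₀ (pow_ne_zero q hb0)]
  have hex : ∀ d : K, ∀ x : F, B.ex (algebraMap K F d * x) = HahnSeries.C d * B.ex x := fun d x => by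
    rw [map_mul, AlgHom.commutes, ModularCurve.algebraMap_laurentSeries_eq_single]
    rfl
  have hymonic : (B.ex y).leadingCoeff = 1 := by
    rw [hy, hex, HahnSeries.leadingCoeff_mul, HahnSeries.leadingCoeff_eq,
      HahnSeries.leadingCoeff_eq, HahnSeries.order_C, ← hb, HahnSeries.C_apply,
      HahnSeries.coeff_single_same, inv_mul_cancel₀ hb0]
  have hlead : ∀ n : ℕ, (B.ex y ^ n).leadingCoeff = 1 := fun n => by
    induction n with
    | zero => rw [pow_zero, HahnSeries.leadingCoeff_one]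
    | succ n ih => rw [pow_succ, HahnSeries.leadingCoeff_mul, ih, hymonic, one_mul]
  have hc'L : c' ∈ R.L := by
    have h := congrArg (fun x => (B.ex x).leadingCoeff) hrel'
    simp only [hex, map_pow, HahnSeries.leadingCoeff_mul, hlead, mul_one] at h
    rw [HahnSeries.leadingCoeff_eq, HahnSeries.order_C, HahnSeries.C_apply,
      HahnSeries.coeff_single_same] at h
    rw [h, HahnSeries.leadingCoeff_eq]
    exact R.inL_e 0 (R.BL_le hzB) _
  have hyFL : y ∈ R.FL := fun s hs => by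
    have hσy : s.σ • y ≠ 0 := (smul_ne_zero_iff_ne _).mpr hy0
    have e := R.BL_le hzB s hs
    rw [← hrel', smul_mul', smul_pow', SemilinearAut.smul_algebraMap,
      (R.mem_L_iff c').mp hc'L s hs] at e
    have e' := mul_left_cancel₀ ((map_ne_zero _).mpr hc'0) e
    obtain ⟨u, hu⟩ := eq_algebraMap_of_forall_ord B.rrF (f := s.σ • y * y⁻¹) fun v => by
      have h1 := congrArg v.ord e'
      rw [FLTA.Curves.ord_pow, FLTA.Curves.ord_pow] at h1
      rw [v.ord_mul hσy (inv_ne_zero hy0), v.ord_inv,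
        mul_left_cancel₀ (Int.natCast_ne_zero.mpr (NeZero.ne q)) h1, add_neg_cancel]
    have hsy : s.σ • y = algebraMap K F u * y := by rw [← hu, inv_mul_cancel_right₀ hy0]
    have h1 := congrArg (fun x => (B.ex x).coeff (B.ex y).order) hsy
    simp only [s.ex_σ, hex, HahnSeries.C_mul_eq_smul, HahnSeries.coeff_smul, smul_eq_mul] at h1
    rw [← HahnSeries.leadingCoeff_eq, hymonic, map_one, mul_one] at h1
    rw [hsy, ← h1, map_one, one_mul]
  have hysec : y ∈ secRing B := by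
    obtain ⟨M, hM⟩ := hzsec
    refine ⟨M, mem_riemannRochSpace_iff.mpr fun v => Or.inr ?_⟩
    have h1 := (mem_riemannRochSpace_iff.mp hM v).resolve_left hz0
    have h2 := congrArg v.ord hrel'
    rw [v.ord_mul ((map_ne_zero _).mpr hc'0) (pow_ne_zero _ hy0), FLTA.Curves.ord_algebraMap,
      FLTA.Curves.ord_pow, zero_add] at h2
    have h3 : (0 : ℤ) ≤ B.cuspDiv M v :=
      Finsupp.le_def.mp (add_nonneg (Finsupp.single_nonneg.mpr (Int.natCast_nonneg M))
        (Finsupp.single_nonneg.mpr (Int.natCast_nonneg M))) v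
    have h4 : (1 : ℤ) ≤ q := by exact_mod_cast NeZero.pos q
    rcases le_or_gt 0 (v.ord y) with h5 | h5
    · omega
    · have : (q : ℤ) * v.ord y ≤ v.ord y := by nlinarith
      omega
  exact ⟨n, c', y, hc'L, hc'0, R.mem_BL_of_secRing hyFL hysec, hy0, ⟨N, by rw [hn]; ring⟩, hrel'⟩

/-- (1) The valuations on the two components agree modulo `q`. -/
theorem dvd_vs_sub {R : RatFrame B} {l : ℕ} [NeZero l] (H : HeckeData B l)
    (hTsec : ∀ x ∈ secRing B, H.T x ∈ secRing B) {D : Divisor K F} {f : F} (hf : f ∈ R.BL)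
    (hK : BadFibre.KummerFn q D f) (hD : ∃ m : ℕ, -(B.cuspDiv m) ≤ D) {a : ℤ} {c : K} {h : F}
    (hrel : H.T f = algebraMap K F c * f ^ a * h ^ q) (hne : ¬ (q : ℤ) ∣ (l : ℤ) + 1 - a) :
    (q : ℤ) ∣ R.vs 1 f - R.vs 0 f := by
  obtain ⟨n, c', y, hc'L, hc'0, hy, hy0, hna, hrel'⟩ := exists_section_rel H hTsec hf hK hD hrel
  have hf0 := hK.ne_zero
  obtain ⟨e, u, huL, hu, rfl⟩ := R.exists_unit c' hc'L hc'0
  have hcB := R.algebraMap_mem_BL hc'L
  have hc0' := (map_ne_zero (algebraMap K F)).mpr hc'0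
  have key : ∀ i, e + q * R.vs i y = ((l : ℤ) + 1) * R.vs i f + n * R.vs i f := fun i => by
    have h := congrArg (R.vs i) hrel'
    rwa [R.vs_mul i hcB hc0' (pow_mem hy q) (pow_ne_zero q hy0), R.vs_pow i hy hy0,
      R.vs_algebraMap i e u hu, R.vs_mul i (H.T_mem_BL R hf) (H.T_ne_zero hf0) (pow_mem hf n)
        (pow_ne_zero n hf0), H.vs_T R i hf hf0, R.vs_pow i hf hf0] at h
  obtain ⟨j, hj⟩ := hna
  have hdvd : (q : ℤ) ∣ ((l : ℤ) + 1 - a) * (R.vs 1 f - R.vs 0 f) :=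
    ⟨R.vs 1 y - R.vs 0 y - j * (R.vs 1 f - R.vs 0 f), by
      linear_combination key 0 - key 1 - (R.vs 1 f - R.vs 0 f) * hj⟩
  exact ((Nat.prime_iff_prime_int.mp Fact.out).dvd_or_dvd hdvd).resolve_left hne

namespace Datum

variable {R : RatFrame B} (X : Datum R)

/-- The Hecke relation on a leading part. -/
theorem exists_Tk_fb {l : ℕ} [NeZero l] (H : HeckeData B l)
    (hTsec : ∀ x ∈ secRing B, H.T x ∈ secRing B) {a : ℤ} {c : K} {h : F}
    (hrel : H.T X.f = algebraMap K F c * X.f ^ a * h ^ q) (i : Fin 2) :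
    ∃ (u : k) (r : Fk), u ≠ 0 ∧ r ≠ 0 ∧
      H.Tk (X.fb i) = algebraMap k Fk u * X.fb i ^ a * r ^ q := by
  obtain ⟨n, c', y, hc'L, hc'0, hy, hy0, hna, hrel'⟩ :=
    exists_section_rel H hTsec X.mem X.kummer X.bound hrel
  obtain ⟨e, u, huL, hu, rfl⟩ := R.exists_unit c' hc'L hc'0
  have hcB := R.algebraMap_mem_BL hc'L
  have hc0' := (map_ne_zero (algebraMap K F)).mpr hc'0
  have h := congrArg (R.ld i) hrel'
  rw [R.ld_mul i hcB hc0' (pow_mem hy q) (pow_ne_zero q hy0), R.ld_pow i hy hy0,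
    R.ld_algebraMap i e huL hu, R.ld_mul i (H.T_mem_BL R X.mem) (H.T_ne_zero X.f_ne_zero)
      (pow_mem X.mem n) (pow_ne_zero n X.f_ne_zero), H.ld_T R i X.mem X.f_ne_zero,
    R.ld_pow i X.mem X.f_ne_zero] at h
  obtain ⟨j, hj⟩ := hna
  have hfb := X.fb_ne_zero i
  refine ⟨π u, R.ld i y * X.fb i ^ (-j), hu, mul_ne_zero (R.ld_ne_zero i hy hy0)
    (zpow_ne_zero _ hfb), ?_⟩
  have e1 : X.fb i ^ a * (X.fb i ^ (-j)) ^ q = (X.fb i ^ n)⁻¹ := by
    rw [← zpow_natCast (X.fb i ^ (-j)), ← zpow_mul, ← zpow_add₀ hfb, ← zpow_natCast (X.fb i) n,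
      ← zpow_neg]
    congr 1
    linear_combination hj
  rw [mul_pow, mul_mul_mul_comm, e1, h]
  exact (mul_inv_cancel_right₀ (pow_ne_zero n hfb) _).symm

/-- (2) Residues proportional to the weights vanish. -/
theorem dvd_o {S : Finset (Place k Fk)} {m₀ : ℕ} (hS : B.IsGluing S m₀) (E : EtaData R S)
    (hne : S.Nonempty) (Wt : E.Weights) {κ : ℤ}
    (hκ : ∀ Q ∈ S, (q : ℤ) ∣ X.o 0 Q + κ * Wt.n Q ∧
      (q : ℤ) ∣ X.o 1 (B.frobq • Q) - κ * Wt.n Q)
    (hinf : ¬ E.IsFin B.infk)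
    {l : ℕ} [NeZero l] (H : HeckeData B l) (hTsec : ∀ x ∈ secRing B, H.T x ∈ secRing B)
    (δ : Divisor k Fk →+ Divisor k Fk)
    (hδ : ∀ x : Fk, x ≠ 0 → ∀ D : Divisor k Fk, (∀ v, D v = v.ord x) →
      ∀ v, δ D v = v.ord (H.Tk x))
    (hδfin : ∀ D : Divisor k Fk, (∀ v, E.IsFin v → D v = 0) → ∀ v, E.IsFin v → δ D v = 0)
    (hg : ∀ v : Place k Fk, v.ord (H.Tk (R.ld 0 E.G)) = ((l : ℤ) + 1) * v.ord (R.ld 0 E.G))
    {a : ℤ} {c : K} {h : F} (hrel : H.T X.f = algebraMap K F c * X.f ^ a * h ^ q)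
    (hne' : ¬ (q : ℤ) ∣ (l : ℤ) + 1 - a) (i : Fin 2) (v : Place k Fk) :
    (q : ℤ) ∣ X.o i v := by
  classical
  have hp : Prime (q : ℤ) := Nat.prime_iff_prime_int.mp Fact.out
  set D₀ := X.dvf 0 with hD₀
  set N : Divisor k Fk := ∑ Q ∈ S, Finsupp.single Q (Wt.n Q) with hN
  have hNapp : ∀ w, N w = if w ∈ S then Wt.n w else 0 := fun w => by
    rw [hN, Finsupp.finsetSum_apply, Finset.sum_congr rfl fun Q _ => Finsupp.single_apply,
      Finset.sum_ite_eq']
  have hoff : ∀ (s : Fin 2) (w : Place k Fk), (∀ Q ∈ S, pt B Q s ≠ w) → (q : ℤ) ∣ X.o s w :=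
    fun s w hw => Int.dvd_of_emod_eq_zero
      (X.res_eq_zero_of_notMem hS E hne fun Q hQ => hw Q (X.mem_bad.mp hQ).1)
  have hdiv : ∀ w, (q : ℤ) ∣ (D₀ + κ • N) w := fun w => by
    rw [Finsupp.add_apply, Finsupp.smul_apply, smul_eq_mul, hNapp, hD₀, X.dvf_apply]
    split_ifs with hw
    · exact (hκ w hw).1
    · rw [mul_zero, add_zero]
      exact hoff 0 w fun Q hQ h => hw (by rwa [← show Q = w from h])
  set M : Divisor k Fk := Finsupp.mapRange (fun z : ℤ => z / q) (Int.zero_ediv _) (D₀ + κ • N)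
    with hM
  have hD : D₀ = (q : ℤ) • M - κ • N := Finsupp.ext fun w => by
    rw [Finsupp.sub_apply, Finsupp.smul_apply, smul_eq_mul, hM, Finsupp.mapRange_apply,
      Int.mul_ediv_cancel' (hdiv w), Finsupp.add_apply, add_sub_cancel_right]
  have hgne : R.ld 0 E.G ≠ 0 := R.ld_ne_zero 0 E.G_mem E.G_ne_zero
  have hδN : ∀ Q ∈ S, δ N Q = ((l : ℤ) + 1) * Wt.n Q := fun Q hQ => by
    have hQfin := E.isFin_of_mem Q hQ
    set Dg := B.rrk.divisorOf (R.ld 0 E.G) with hDg
    have hout : ∀ w, E.IsFin w → ((Wt.t : ℤ) • Dg - (12 : ℤ) • N) w = 0 := fun w hw => by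
      rw [Finsupp.sub_apply, Finsupp.smul_apply, Finsupp.smul_apply, smul_eq_mul, smul_eq_mul,
        hNapp, hDg, B.rrk.divisorOf_apply]
      split_ifs with hwS
      · exact sub_eq_zero.mpr (Wt.eq w hwS)
      · rw [E.ord_g_eq_zero hS hw (fun h => hinf (h ▸ hw)) hwS]
        ring
    have h := hδfin _ hout Q hQfin
    rw [map_sub, map_zsmul, map_zsmul, Finsupp.sub_apply, Finsupp.smul_apply, Finsupp.smul_apply,
      smul_eq_mul, smul_eq_mul, hδ _ hgne _ (fun w => B.rrk.divisorOf_apply _ w) Q, hg] at h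
    have h2 := Wt.eq Q hQ
    unfold EtaData.d at h2
    refine mul_left_cancel₀ (show (12 : ℤ) ≠ 0 by norm_num) ?_
    linear_combination ((l : ℤ) + 1) * h2 - h
  have hkey : ∀ Q ∈ S, (q : ℤ) ∣ κ * Wt.n Q := fun Q hQ => by
    obtain ⟨u, r, hu, hr, hTk⟩ := X.exists_Tk_fb H hTsec hrel 0
    have h := hδ _ (X.fb_ne_zero 0) D₀ (fun w => X.dvf_apply 0 w) Q
    rw [hTk, Place.ord_mul _ (mul_ne_zero ((map_ne_zero _).mpr hu) (zpow_ne_zero _ (X.fb_ne_zero 0)))
        (pow_ne_zero _ hr),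
      Place.ord_mul _ ((map_ne_zero _).mpr hu) (zpow_ne_zero _ (X.fb_ne_zero 0)),
      FLTA.Curves.ord_algebraMap, Place.ord_zpow, FLTA.Curves.ord_pow, zero_add, hD, map_sub,
      map_zsmul, map_zsmul, Finsupp.sub_apply, Finsupp.smul_apply, Finsupp.smul_apply, smul_eq_mul,
      smul_eq_mul, hδN Q hQ] at h
    obtain ⟨j, hj⟩ : (q : ℤ) ∣ Q.ord (X.fb 0) + κ * Wt.n Q := (hκ Q hQ).1
    have hdvd : (q : ℤ) ∣ ((l : ℤ) + 1 - a) * (κ * Wt.n Q) :=
      ⟨δ M Q - a * j - Q.ord r, by linear_combination -h - a * hj⟩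
    exact (hp.dvd_or_dvd hdvd).resolve_left hne'
  by_cases hv : ∃ Q ∈ S, pt B Q i = v
  · obtain ⟨Q, hQ, rfl⟩ := hv
    obtain ⟨j, hj⟩ := hkey Q hQ
    fin_cases i
    · obtain ⟨j', hj'⟩ := (hκ Q hQ).1
      show (q : ℤ) ∣ X.o 0 Q
      exact ⟨j' - j, by linear_combination hj' - hj⟩
    · obtain ⟨j', hj'⟩ := (hκ Q hQ).2
      show (q : ℤ) ∣ X.o 1 (B.frobq • Q)
      exact ⟨j' + j, by linear_combination hj' + hj⟩
  · exact hoff i v fun Q hQ h => hv ⟨Q, hQ, h⟩

/-- (3) The leading parts are `q`-th powers. -/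
theorem reducesToPow {ι : Type*} (l : ι → ℕ) [∀ j, NeZero (l j)]
    (H : ∀ j, HeckeData B (l j)) (hTsec : ∀ j, ∀ x ∈ secRing B, (H j).T x ∈ secRing B)
    {r : Place K F' → Place k Fk} (hr : B.R.IsPlaceMap r) (O : ι → RedOp B.R)
    (hO : ∀ j x, (O j).Tk x = (H j).Tk x) (a : ι → ℤ) (t : FreeAlgebra ℤ ι)
    (ht1 : FreeAlgebra.lift ℤ (fun j => (a j : ZMod q)) t = 1)
    (ht : ∀ D : Divisor K F', Divisor.degree D = 0 → Divisor.IsPrincipal (divEval O t D))
    (heig : ∀ j, ∃ (c : K) (h : F), (H j).T X.f = algebraMap K F c * X.f ^ a j * h ^ q)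
    (hdvd : ∀ i v, (q : ℤ) ∣ X.o i v) : B.ReducesToPow q X.f := by
  intro i
  have heig' : ∀ j, ∃ (u : k) (r : Fk), (O j).Tk (X.fb i) =
      algebraMap k Fk u * X.fb i ^ a j * r ^ q := fun j => by
    obtain ⟨c, h, hrel⟩ := heig j
    obtain ⟨u, r, -, -, hTk⟩ := X.exists_Tk_fb (H j) (hTsec j) hrel i
    exact ⟨u, r, by rw [hO, hTk]⟩
  obtain ⟨η, hη⟩ := exists_pow_eq_of_eigen B.rr' B.rrk hr O (NeZero.ne q) a t ht1 ht
    (X.fb_ne_zero i) (E := X.flr i) (fun Q => by
      rw [X.flr_apply, Int.mul_ediv_cancel' (hdvd i Q)]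
      rfl) heig'
  have hη0 : η ≠ 0 := fun h0 => X.fb_ne_zero i (by rw [← hη, h0, zero_pow (NeZero.ne q)])
  refine ⟨1, η, one_ne_zero, hη0, X.f, 1, ?_, ?_, ?_, by rw [one_smul, mul_one], ?_⟩
  · have h := (R.isVal_vs i X.mem X.f_ne_zero).1
    rw [X.vs_f] at h
    exact (R.toFrame.ge_zero_iff _).mp h
  · rw [map_one]; exact IntSeries.one
  · rw [map_one, redSeries_one]; exact one_ne_zero
  · rw [map_one, redSeries_one, mul_one, hη]
    show B.exk (R.ld i X.f) = _
    rw [R.exk_ld i X.mem X.f_ne_zero, (R.isVal_vs i X.mem X.f_ne_zero).lead_eq R.toFrame, X.vs_f,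
      neg_zero, zpow_zero, one_smul]

end Datum

end FLTA.LevelLowering

end
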