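import Fermat.Agent.LevelLowering.EtaUnit

/-!
# The order of the eta quotient over `j = ∞`

Over `j = ∞` both `G` and `1 / G` have pole order at most `p - 1` times the pole order of `j`.
-/

set_option autoImplicit false

noncomputable section

open scoped MatrixGroups
open UpperHalfPlane hiding I
open CongruenceSubgroup ModularCurve AlgebraicCurve FLTA.Congruence FLTA.Bridge

namespace FLTA.LevelLowering

variable (p : ℕ) [NeZero p]

theorem coeff_qexpAt_eq_zero_of_bounded (M : ℕ) [NeZero M] (g : SL(2, ℤ)) (F : ModHol M) {n : ℕ}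
    (hn : IsBoundedAtImInfty
      (fun τ : ℍ => Function.Periodic.qParam 1 (τ : ℂ) ^ n * (F : ℍ → ℂ) (g • τ)))
    {j : ℤ} (hj : j < -(n * M : ℕ)) : (qexpAt M g F).coeff j = 0 := by
  show (expansionFun M (fun τ : ℍ => (F : ℍ → ℂ) (g • τ))).coeff j = 0
  rw [expansionFun_eq M (F := fun τ : ℍ => (F : ℍ → ℂ) (g • τ)) (modHolToHolInfty M g F).2 hn,
    HahnSeries.coeff_single_mul, one_mul]
  exact ofPowerSeries_coeff_of_neg _ (by omega)

theorem ordCusp_etaUnit_bounds (M : ℕ) [NeZero M] (hM : p ∣ M) (g : SL(2, ℤ)) :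
    |ordCusp M complexEmbedding.toRingHom g (etaUnit p M hM)| ≤ ((p : ℤ) - 1) * M := by
  have h : evFrac M complexEmbedding.toRingHom (etaUnit p M hM) =
      algebraMap (ModHol M) (ModFrac M) (etaHol p M hM) := by
    apply qexpFrac_injective M
    rw [qexpFrac_evFrac, qexpFrac_algebraMap, coe_etaUnit, coeffMap_etaSeries, qexp_etaHol]
  rw [ordCusp, h, qexpFracAt, IsFractionRing.lift_algebraMap]
  have hprod : etaHol p M hM * etaHolInv p M hM = 1 :=
    Subtype.ext (funext fun τ => etaFun_mul_inv p τ)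
  have h1 := congrArg (fun x => (qexpAt M g x).order) hprod
  simp only [map_mul, map_one] at h1
  have hx : qexpAt M g (etaHol p M hM) ≠ 0 := fun h0 => by
    simpa [h0] using congrArg (qexpAt M g) hprod
  have hy : qexpAt M g (etaHolInv p M hM) ≠ 0 := fun h0 => by
    simpa [h0] using congrArg (qexpAt M g) hprod
  rw [HahnSeries.order_mul hx hy, HahnSeries.order_one] at h1
  have e : (((p - 1) * M : ℕ) : ℤ) = ((p : ℤ) - 1) * M := by
    rw [Nat.cast_mul, Nat.cast_sub (NeZero.pos p), Nat.cast_one]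
  have b1 : -(((p - 1) * M : ℕ) : ℤ) ≤ (qexpAt M g (etaHol p M hM)).order :=
    (HahnSeries.le_order_iff_forall hx).2 fun j hj =>
      coeff_qexpAt_eq_zero_of_bounded M g _ (exists_bounded_etaFun_smul p g).1 hj
  have b2 : -(((p - 1) * M : ℕ) : ℤ) ≤ (qexpAt M g (etaHolInv p M hM)).order :=
    (HahnSeries.le_order_iff_forall hy).2 fun j hj =>
      coeff_qexpAt_eq_zero_of_bounded M g _ (exists_bounded_etaFun_smul p g).2 hj
  rw [e] at b1 b2
  show |(qexpAt M g (etaHol p M hM)).order| ≤ _
  rw [abs_le]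
  constructor <;> linarith

/-- Over `j = ∞` the order of `G` is at most `p - 1` times that of `j`. -/
theorem abs_ord_etaUnit_le (M : ℕ) [NeZero M] (hM : p ∣ M)
    (P : Place (AlgebraicClosure ℚ) (modularFunctionFieldBar M)) :
    |P.ord (etaUnit p M hM)| ≤ ((p : ℤ) - 1) * max (-P.ord (jGenBar M 1 (one_dvd M))) 0 := by
  rcases le_or_gt 0 (P.ord (jGenBar M 1 (one_dvd M))) with hP | hP
  · rw [ord_etaUnit_eq_zero p M hM P hP, abs_zero]
    have := NeZero.pos p
    exact mul_nonneg (by omega) (le_max_right _ _)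
  rcases exists_eq_placeAt_or_cuspPlace M complexEmbedding.toRingHom P with ⟨τ, hτ, rfl⟩ | ⟨g, rfl⟩
  · exfalso
    have h1 := ordF_eq_mul_ord_placeAt M complexEmbedding.toRingHom τ hτ
      (jGenBar M 1 (one_dvd M))
    have h2 : 0 ≤ ordF M complexEmbedding.toRingHom τ (jGenBar M 1 (one_dvd M)) := by
      rw [ordF, jGenBar_eq_jElt, evMero_jElt, ← div_one (algebraMap Hol Mero _),
        ← map_one (algebraMap Hol Mero)]
      rcases eq_or_ne (modHolToHol M (jAt M 1 (one_dvd M))) 0 with h0 | h0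
      · rw [h0, map_zero, zero_div]
        simp [meroOrd]
      rw [meroOrd_div τ h0 one_ne_zero,
        (ordAt_eq_zero_iff (1 : Hol).2 (fun h => one_ne_zero (congrFun h τ)) τ).mpr one_ne_zero]
      simp
    rw [h1] at h2
    have := ellipticIndex_pos M τ
    nlinarith
  · have h1 := ordCusp_eq_mul_ord_cuspPlace M complexEmbedding.toRingHom g (etaUnit p M hM)
    have h2 := ordCusp_eq_mul_ord_cuspPlace M complexEmbedding.toRingHom g
      (jGenBar M 1 (one_dvd M))
    rw [ordCusp_jGenBar] at h2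
    have h3 := ordCusp_etaUnit_bounds p M hM g
    rw [h1, abs_mul, Nat.abs_cast, show (M : ℤ) = cuspDiv M g *
      -(cuspPlace M complexEmbedding.toRingHom g).ord (jGenBar M 1 (one_dvd M)) by linarith] at h3
    rw [max_eq_left (by omega)]
    have h4 : (0 : ℤ) < cuspDiv M g := by
      rcases (Nat.eq_zero_or_pos (cuspDiv M g)) with h | h
      · rw [h] at h2
        have := NeZero.pos M
        omega
      · exact_mod_cast h
    nlinarith

end FLTA.LevelLowering

end
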