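import Fermat.Agent.LevelLowering.EtaModular
import Fermat.Agent.LevelLowering.Sections
import Fermat.Agent.LevelLowering.EtaUnitCusp

/-!
# The eta quotient on a modular `BadFibre`: valuations, reduction, orders
-/

set_option autoImplicit false
set_option synthInstance.maxHeartbeats 400000
set_option linter.unusedSectionVars false

noncomputable section

open AlgebraicCurve ModularCurve FLTA.BadRed

namespace FLTA.LevelLowering

local notation "Qb" => AlgebraicClosure ℚ

/-- A monic polynomial at a pole. -/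
theorem ord_eval₂_intCast_of_pole {L E : Type*} [Field L] [Field E] [Algebra L E] (v : Place L E)
    {P : Polynomial ℤ} (hP : P.Monic) {x : E} (hx : v.ord x < 0) :
    v.ord (P.eval₂ (Int.castRingHom E) x) = P.natDegree * v.ord x := by
  have hx0 : x ≠ 0 := fun h => by simp [h] at hx
  have htop : (Int.castRingHom E) (P.coeff P.natDegree) * x ^ P.natDegree = x ^ P.natDegree := by
    rw [hP.coeff_natDegree, map_one, one_mul]
  rw [Polynomial.eval₂_eq_sum_range]
  obtain ⟨-, h⟩ := FLTA.Curves.sum_ne_zero_and_ord_sum_eq v (Finset.range (P.natDegree + 1))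
    (fun i => (Int.castRingHom E) (P.coeff i) * x ^ i) (i₀ := P.natDegree)
    (Finset.mem_range.mpr (Nat.lt_succ_self _)) (by rw [htop]; exact pow_ne_zero _ hx0)
    (fun i hi hne => by
      rcases eq_or_ne ((Int.castRingHom E) (P.coeff i)) 0 with h0 | h0
      · exact Or.inl (by rw [h0, zero_mul])
      refine Or.inr ?_
      have hlt : i < P.natDegree := by
        have := Finset.mem_range.mp hi
        omega
      rw [htop, v.ord_mul h0 (pow_ne_zero _ hx0), FLTA.Curves.ord_pow, FLTA.Curves.ord_pow,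
        show (Int.castRingHom E) (P.coeff i) = algebraMap L E (P.coeff i : L) by simp,
        FLTA.Curves.ord_algebraMap, zero_add]
      have : (i : ℤ) < P.natDegree := by exact_mod_cast hlt
      nlinarith)
  rw [h, htop, FLTA.Curves.ord_pow]

variable {A : ValuationSubring Qb} {k : Type} [Field k] [IsAlgClosed k] {π : A →+* k} {q : ℕ}
  [NeZero q] [Fact q.Prime] [CharP k q] {N : ℕ} [NeZero N] {g gF : ℕ}
  {B : BadFibre A π q (modularFunctionFieldBar (N * q)) (modularFunctionFieldBar N)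
      (modularFunctionFieldFullC k N) g gF}

namespace IsModularFibre

variable (hB : IsModularFibre B)
include hB

local notation "GG" => etaUnit q (N * q) (dvd_mul_left q N)

theorem w_G_mul : B.w GG * GG = algebraMap Qb _ ((q : Qb) ^ 12) :=
  w_etaUnit_mul q N B.w B.w_w fun x => by
    rw [show heckeAlphaBar Qb N q x = B.a x from Subtype.ext (by rw [coe_heckeAlphaBar, hB.a_eq]),
      ← hB.ex_eq, B.ex_w_a, hB.ex_a]

theorem e_zero_G : B.e 0 GG = etaSeries Qb q := by rw [B.e_zero, hB.ex_eq, coe_etaUnit]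

theorem e_one_G : B.e 1 GG = ((q : Qb) ^ 12) • etaSeriesInv Qb q := by
  have h := congrArg B.ex hB.w_G_mul
  rw [map_mul, hB.ex_eq GG, coe_etaUnit, AlgHom.commutes] at h
  rw [B.e_one_apply, ← HahnSeries.C_mul_eq_smul, HahnSeries.C_apply,
    ← algebraMap_laurentSeries_eq_single, ← h, mul_assoc, etaSeries_mul_inv,
    mul_one]

theorem intSeries_e_G (i : Fin 2) : IntSeries A (B.e i GG) := by
  revert i
  refine Fin.forall_fin_two.mpr ⟨?_, ?_⟩
  · rw [hB.e_zero_G]; exact intSeries_etaSeries q A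
  · rw [hB.e_one_G]
    exact IntSeries.smul (pow_mem (natCast_mem A q) _) (intSeries_etaSeriesInv q A)

theorem G_mem_BL (R : RatFrame B) : GG ∈ R.BL := by
  refine ⟨fun s _ => sym_smul_eq_self_of_intCast s fun i => ?_, fun i => ⟨1, one_ne_zero, ?_⟩⟩
  · rw [hB.ex_eq, coe_etaUnit]
    exact ⟨_, coeff_etaSeries_eq_intCast q i⟩
  · exact IntSeries.smul A.one_mem (hB.intSeries_e_G i)

theorem isVal_zero_G (R : RatFrame B) :
    R.toFrame.IsVal (B.e 0 GG) 0 ∧ R.toFrame.lead (B.e 0 GG) = etaSeries k q := by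
  have e : R.ϖ ^ (-(0 : ℤ)) • B.e 0 GG = etaSeries Qb q := by
    rw [neg_zero, zpow_zero, one_smul, hB.e_zero_G]
  have hred : redSeries A π (R.ϖ ^ (-(0 : ℤ)) • B.e 0 GG) = etaSeries k q := by
    rw [e, redSeries_etaSeries]
  have h : R.toFrame.IsVal (B.e 0 GG) 0 :=
    ⟨(R.toFrame.ge_zero_iff _).mpr (hB.intSeries_e_G 0), by
      rw [hred]; exact etaSeries_ne_zero q⟩
  exact ⟨h, by rw [h.lead_eq R.toFrame, hred]⟩

theorem vs_zero_G (R : RatFrame B) : R.vs 0 GG = 0 := (hB.isVal_zero_G R).1.val_eq R.toFrame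

theorem coe_ld_zero_G (R : RatFrame B) :
    (R.ld 0 GG : LaurentSeries k) = etaSeries k q := by
  rw [← hB.exk_eq, R.exk_ld 0 (hB.G_mem_BL R) (etaUnit_ne_zero q _ _), (hB.isVal_zero_G R).2]

theorem frobq_ld_zero_G (R : RatFrame B) : B.frobq • R.ld 0 GG = R.ld 0 GG :=
  frobq_smul_eq_self_of_intCast fun i => by
    rw [hB.exk_eq, hB.coe_ld_zero_G]
    exact ⟨_, coeff_etaSeries_eq_intCast q i⟩

theorem exists_poly_ld_zero_G (R : RatFrame B) :
    ∃ P : Polynomial ℤ, P.Monic ∧ P.natDegree = q - 1 ∧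
      R.ld 0 GG = P.eval₂ (Int.castRingHom _) (jK k N) := by
  obtain ⟨P, hm, hd, hP⟩ := exists_poly_etaSeries_modP q (Fact.out : q.Prime)
  refine ⟨P, hm, hd, Subtype.ext ?_⟩
  rw [hB.coe_ld_zero_G, hP k]
  have h := Polynomial.hom_eval₂ P (Int.castRingHom _) (modularFunctionFieldFullC k N).val.toRingHom
    (jK k N)
  rw [RingHom.ext_int (((modularFunctionFieldFullC k N).val.toRingHom).comp
    (Int.castRingHom _)) (Int.castRingHom (LaurentSeries k))] at h
  exact h.symm

theorem ord_ld_zero_G_nonneg (R : RatFrame B) {Q : Place k (modularFunctionFieldFullC k N)}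
    (hQ : JFin Q) : 0 ≤ Q.ord (R.ld 0 GG) := by
  obtain ⟨P, -, -, hP⟩ := hB.exists_poly_ld_zero_G R
  have hj : jK k N ∈ Q.toValuationSubring :=
    (FLTA.Curves.mem_iff_ord_nonneg _ fun h => jqModC_ne_zero_of_nontrivial k
      (congrArg Subtype.val h)).mpr hQ
  refine FLTA.Curves.ord_nonneg_of_mem _ ?_
  rw [hP, Polynomial.eval₂_eq_sum_range]
  exact sum_mem fun i _ => mul_mem (by simp) (pow_mem hj i)

theorem ord_ld_zero_G_of_pole (R : RatFrame B) {Q : Place k (modularFunctionFieldFullC k N)}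
    (hQ : ¬ JFin Q) : Q.ord (R.ld 0 GG) = ((q : ℤ) - 1) * Q.ord (jK k N) := by
  obtain ⟨P, hm, hd, hP⟩ := hB.exists_poly_ld_zero_G R
  rw [hP, ord_eval₂_intCast_of_pole Q hm (not_le.mp hQ), hd,
    Nat.cast_sub (NeZero.pos q), Nat.cast_one]

theorem vs_one_G (R : RatFrame B) {e : ℕ} {u : A} (hu : π u ≠ 0) (hqe : (q : Qb) = R.ϖ ^ e * u) :
    R.vs 1 GG = 12 * e := by
  have h := R.vs_mul 0 (R.mem_BL_w (hB.G_mem_BL R))
    ((map_ne_zero B.w).mpr (etaUnit_ne_zero q _ _)) (hB.G_mem_BL R) (etaUnit_ne_zero q _ _)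
  rw [hB.w_G_mul, hB.vs_zero_G, (R.vs_w _).1, add_zero] at h
  have hq : algebraMap Qb (modularFunctionFieldBar (N * q)) ((q : Qb) ^ 12) =
      algebraMap Qb _ (R.ϖ ^ ((12 * e : ℕ) : ℤ) * ((u ^ 12 : A) : Qb)) := by
    rw [hqe, SubmonoidClass.coe_pow, mul_pow, ← pow_mul, zpow_natCast, mul_comm e 12]
  rw [hq, R.vs_algebraMap 0 _ _ (by rw [map_pow]; exact pow_ne_zero 12 hu)] at h
  rw [← h]
  push_cast
  ring

/-- `G` and `w G` have poles at most `q - 1` times those of `j`. -/
theorem ord_G_bounds (v : Place Qb (modularFunctionFieldBar (N * q))) :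
    -(((q : ℤ) - 1) * max (-v.ord (jBar (N * q))) 0) ≤ v.ord GG ∧
      -(((q : ℤ) - 1) * max (-v.ord (jBar (N * q))) 0) ≤ v.ord (B.w GG) := by
  have h := abs_ord_etaUnit_le q (N * q) (dvd_mul_left q N) v
  rw [show FLTA.Congruence.jGenBar (N * q) 1 (one_dvd _) = jBar (N * q) from
    Subtype.ext (qExpand_one_apply _)] at h
  have hw := congrArg v.ord hB.w_G_mul
  rw [v.ord_mul ((map_ne_zero B.w).mpr (etaUnit_ne_zero q _ _)) (etaUnit_ne_zero q _ _),
    FLTA.Curves.ord_algebraMap] at hw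
  rw [abs_le] at h
  constructor <;> omega

end IsModularFibre

end FLTA.LevelLowering

end
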