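import Fermat.Agent.LevelLowering.HeckeStep
import Fermat.Agent.LevelLowering.HeckeModular
import Fermat.Agent.LevelLowering.EtaInstanceG

/-!
# Modular facts for the Hecke step: cusp sections are preserved, and `T_l G = G ^ (l + 1)`
-/

set_option autoImplicit false
set_option synthInstance.maxHeartbeats 400000
set_option linter.style.haveILetI false

noncomputable section

open AlgebraicCurve ModularCurve FLTA.BadRed

namespace FLTA.LevelLowering

local notation "Qb" => AlgebraicClosure ℚ

/-- Composing with an automorphism does not change the degree. -/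
theorem finrankAlong_eq_of_equiv {K F G : Type*} [Field K] [Field F] [Field G] [Algebra K F]
    [Algebra K G] (φ ψ : F →ₐ[K] G) (e : G ≃ₐ[K] G) (h : ∀ x, e (φ x) = ψ x) :
    finrankAlong K φ = finrankAlong K ψ := by
  exact @Algebra.finrank_eq_of_equiv_equiv F G _ _ (algebraAlong φ) F G _ _ (algebraAlong ψ)
    (RingEquiv.refl F) e.toRingEquiv (RingHom.ext fun x => (h x).symm)

theorem finrankAlong_heckeBetaBar (M l : ℕ) [NeZero M] [NeZero l] (hl : l.Prime)
    (hlM : ¬ l ∣ M) : finrankAlong Qb (heckeBetaBar Qb M l) = l + 1 := by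
  haveI : Fact l.Prime := ⟨hl⟩
  rw [← FLTA.Congruence.finrankAlong_heckeAlphaBar M l hl hlM]
  exact (finrankAlong_eq_of_equiv _ _
    (AlgEquiv.ofAlgHom (swapBar M l hlM) (swapBar M l hlM) (AlgHom.ext (swapBar_swapBar M l hlM))
      (AlgHom.ext (swapBar_swapBar M l hlM))) (swapBar_apply_alpha M l hlM)).symm

section Sec

variable {A : ValuationSubring Qb} {k : Type*} [Field k] [IsAlgClosed k] {π : A →+* k} {q : ℕ}
  [NeZero q] [Fact q.Prime] [CharP k q] {L : ℕ} [NeZero L] {F' : Type*} [Field F'] [Algebra Qb F']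
  {Fk : Type*} [Field Fk] [Algebra k Fk] {g gF : ℕ}
  {B : BadFibre A π q (modularFunctionFieldBar L) F' Fk g gF}

/-- The Hecke norm preserves the sections at the two cusps. -/
theorem T_mem_secRing_of_eq {l : ℕ} [NeZero l] (hl : l.Prime) (hlL : ¬ l ∣ L) (H : HeckeData B l)
    (hT : ∀ x, H.T x = heckeNormHom L l x) {x : modularFunctionFieldBar L} (hx : x ∈ secRing B) :
    H.T x ∈ secRing B :=
  H.T_mem_secRing (heckeDiv L l)
    (fun D => by rw [degree_heckeDiv, finrankAlong_heckeBetaBar L l hl hlL])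
    (heckeDiv_nonneg L l) (fun f hf D hD v => by rw [hT, heckeDiv_ord L l hf D hD v]) hx

end Sec

section Modular

variable (M p : ℕ) [NeZero M] [NeZero p] [Fact p.Prime]
variable (A : ValuationSubring (AlgebraicClosure ℚ)) (hA : A.LiesOverPrime p) (hpM : ¬ p ∣ M)
variable (l : ℕ) [NeZero l] (hl : l.Prime) (hlp : l ≠ p) (hlM : ¬ l ∣ M)
variable [CharP (IsLocalRing.ResidueField A) p] [PerfectRing (IsLocalRing.ResidueField A) p]

theorem heckeData_T_mem_secRing {x : modularFunctionFieldBar (M * p)}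
    (hx : x ∈ secRing (badFibre M p A hA hpM)) :
    (heckeData M p A hA hpM l hl hlp hlM).T x ∈ secRing (badFibre M p A hA hpM) :=
  haveI : IsAlgClosed (IsLocalRing.ResidueField A) := FLTA.Galois.isAlgClosed_residueField A
  T_mem_secRing_of_eq hl
    (fun h => (hl.dvd_mul.mp h).elim hlM
      fun h => hlp ((Nat.prime_dvd_prime_iff_eq hl Fact.out).mp h))
    (heckeData M p A hA hpM l hl hlp hlM) (fun _ => rfl) hx

end Modular

section Eta

variable {A : ValuationSubring Qb} {k : Type} [Field k] [IsAlgClosed k] {π : A →+* k} {q : ℕ}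
  [NeZero q] [Fact q.Prime] [CharP k q] {N : ℕ} [NeZero N] {g gF : ℕ}
  {B : BadFibre A π q (modularFunctionFieldBar (N * q)) (modularFunctionFieldBar N)
      (modularFunctionFieldFullC k N) g gF}

/-- `T_l g = g ^ (l + 1)` for the reduced eta quotient. -/
theorem IsModularFibre.Tk_ld_G (hB : IsModularFibre B) (R : RatFrame B) {l : ℕ} [NeZero l]
    (hl : l.Prime) (hlq : l ≠ q) (H : HeckeData B l) :
    H.Tk (R.ld 0 (etaUnit q (N * q) (dvd_mul_left q N))) =
      R.ld 0 (etaUnit q (N * q) (dvd_mul_left q N)) ^ (l + 1) := by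
  refine H.Tk_eq ?_
  rw [map_pow, hB.exk_eq, hB.coe_ld_zero_G]
  have h0 : IsHeckeImage l (Units.map (A.subtype : A →* Qb) H.ζ) (etaSeries Qb q)
      (etaSeries Qb q ^ (l + 1)) := by
    show qExpand Qb l (etaSeries Qb q ^ (l + 1)) = _
    rw [map_pow, conjProd_apply]
    exact (etaSeries_hecke q Fact.out hl hlq H.primitive).symm
  have h1 := (h0.red (π := π) (intSeries_etaSeries q A)).2
  rwa [redSeries_pow (intSeries_etaSeries q A), redSeries_etaSeries] at h1

theorem IsModularFibre.ord_Tk_ld_G (hB : IsModularFibre B) (R : RatFrame B)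
    {S : Finset (Place k (modularFunctionFieldFullC k N))} (E : EtaData R S)
    (hE : E.G = etaUnit q (N * q) (dvd_mul_left q N)) {l : ℕ} [NeZero l]
    (hl : l.Prime) (hlq : l ≠ q) (H : HeckeData B l)
    (v : Place k (modularFunctionFieldFullC k N)) :
    v.ord (H.Tk (R.ld 0 E.G)) = ((l : ℤ) + 1) * v.ord (R.ld 0 E.G) := by
  rw [hE, hB.Tk_ld_G R hl hlq H, FLTA.Curves.ord_pow]
  push_cast
  rfl

end Eta

end FLTA.LevelLowering

end
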