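import Fermat.Agent.BadRed.Modular
import Fermat.Agent.BadRed.Residue
import Fermat.Agent.BadRed.Fibre.Regular
import Fermat.Agent.BadRed.Fibre.Sections
import Fermat.Agent.PlaceRed.GenusEqAux
import Fermat.Agent.PlaceRed.Deuring
import Fermat.Agent.Igusa.Degree

/-!
# The modular instances of a `BadFibre`: `j` and its poles

`IsModularFibre B` says that the expansions of `B` are the tautological ones.
-/

set_option autoImplicit false
set_option linter.unusedSectionVars false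
set_option synthInstance.maxHeartbeats 400000

noncomputable section

open AlgebraicCurve ModularCurve FLTA.BadRed

namespace FLTA.LevelLowering

local notation "Qb" => AlgebraicClosure ℚ

variable {A : ValuationSubring Qb} {k : Type} [Field k] {π : A →+* k} {q : ℕ} [NeZero q]
  {N : ℕ} [NeZero N] {g gF : ℕ}

/-- The expansions are the tautological ones. -/
structure IsModularFibre
    (B : BadFibre A π q (modularFunctionFieldBar (N * q)) (modularFunctionFieldBar N)
      (modularFunctionFieldFullC k N) g gF) : Prop where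
  ex_eq : ∀ x, B.ex x = (x : LaurentSeries Qb)
  a_eq : ∀ x, ((B.a x : modularFunctionFieldBar (N * q)) : LaurentSeries Qb) = (x : LaurentSeries Qb)
  exk_eq : ∀ x, B.exk x = (x : LaurentSeries k)

/-- `j` in the reduced field. -/
def jK (k : Type) [Field k] (N : ℕ) [NeZero N] : modularFunctionFieldFullC k N :=
  ⟨jqModC k, jqModC_mem_full k N⟩

/-- A place over finite `j`. -/
def JFin (Q : Place k (modularFunctionFieldFullC k N)) : Prop := 0 ≤ Q.ord (jK k N)

section Generic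

variable {K : Type*} [Field K] {A : ValuationSubring K} {k : Type*} [Field k] {π : A →+* k} {q : ℕ}
  [NeZero q] {F : Type*} [Field F] [Algebra K F] {F' : Type*} [Field F'] [Algebra K F']
  {Fk : Type*} [Field Fk] [Algebra k Fk] {g gF : ℕ} {B : BadFibre A π q F F' Fk g gF}

/-- A function with integers as coefficients is fixed by every symmetry. -/
theorem sym_smul_eq_self_of_intCast (s : B.Sym) {x : F}
    (hx : ∀ i : ℤ, ∃ n : ℤ, (B.ex x).coeff i = n) : s.σ • x = x := by
  apply B.ex.toRingHom.injective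
  show B.ex _ = B.ex _
  refine HahnSeries.ext (funext fun i => ?_)
  obtain ⟨n, hn⟩ := hx i
  rw [s.ex_σ, hn]
  exact map_intCast _ n

/-- A function with integers as coefficients is fixed by the Frobenius. -/
theorem frobq_smul_eq_self_of_intCast [Fact q.Prime] [CharP k q] {x : Fk}
    (hx : ∀ i : ℤ, ∃ n : ℤ, (B.exk x).coeff i = n) : B.frobq • x = x := by
  apply B.exk.toRingHom.injective
  show B.exk _ = B.exk _
  refine HahnSeries.ext (funext fun i => ?_)
  obtain ⟨n, hn⟩ := hx i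
  rw [B.exk_frobq, hn, ← frobenius_def, map_intCast]

/-- Lifts along `a` of integral functions with poles at `inf` only. -/
theorem isRed_a_of_mem [CharZero K] [Fact q.Prime] {l : ℕ} (x : B.R.O)
    (hxL : (x : F') ∈ riemannRochSpace (Finsupp.single B.inf (l : ℤ))) (hb0 : B.R.red x ≠ 0) :
    B.IsRed (B.a (x : F')) ![B.R.red x, B.iota (B.R.red x)] := by
  have hq : 2 ≤ q := Nat.Prime.two_le Fact.out
  have hax : B.a (x : F') ∈ riemannRochSpace (B.cuspDiv (q * l)) :=
    B.a_mem_riemannRochSpace hq hxL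
  have hx0 : (x : F') ≠ 0 := fun h => hb0 (by rw [show x = 0 from Subtype.ext h, map_zero])
  obtain ⟨c, hc0, hcint, hcne⟩ := exists_primitive_multiple_one (π := π) B.discrete
    (B.e_ne_zero 0 ((map_ne_zero B.a).mpr hx0)) (B.bddSeries_e 0 hax) (B.fgSeries_e 0 _)
  rw [B.smul_e, ← map_smul] at hcint hcne
  obtain ⟨hmem, hred⟩ := B.red_of_int (c • (x : F')) hcint
  have hint : IntSeries A (B.ex (B.a (x : F'))) := by
    by_contra hnot
    have hcinv : c⁻¹ ∉ A := fun hci => hnot <| by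
      have := hcint.smul hci
      rw [B.smul_e, ← map_smul, inv_smul_smul₀ hc0] at this
      exact this
    have hcA : c ∈ A := (A.mem_or_inv_mem c).resolve_right hcinv
    apply hcne
    rw [B.e_zero, ← hred]
    have : (⟨c • (x : F'), hmem⟩ : B.R.O) =
        ⟨algebraMap K F' c, B.R.algebraMap_mem ⟨c, hcA⟩⟩ * x :=
      Subtype.ext (by simp [Algebra.smul_def])
    rw [this, map_mul, B.R.red_algebraMap ⟨c, hcA⟩,
      residue_eq_zero_of_inv_notMem B.R.π_surjective hcA hcinv, map_zero, zero_mul, map_zero]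
  obtain ⟨hmem', hred'⟩ := B.red_of_int (x : F') hint
  have hb' : B.exk (B.R.red x) = redSeries A π (B.ex (B.a (x : F'))) := hred'
  refine ⟨fun i => ?_, fun i => ?_⟩
  · show IntSeries A (B.e i (B.a (x : F')))
    revert i
    refine Fin.forall_fin_two.mpr ⟨hint, ?_⟩
    rw [B.e_one_apply, B.ex_w_a]
    exact hint.qExpand q
  · revert i
    refine Fin.forall_fin_two.mpr ⟨hb', ?_⟩
    show B.exk (B.iota (B.R.red x)) = redSeries A π (B.ex (B.w (B.a (x : F'))))
    rw [B.exk_iota, hb', B.ex_w_a, redSeries_qExpand q hint]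

/-- Deuring's map sends `inf` to `infk`. -/
theorem placeMap_inf [IsAlgClosed k] : B.R.placeMap B.rr' B.rrk B.inf = B.infk := by
  by_contra hne
  set D : Divisor K F' := Finsupp.single B.inf ((2 * g + 1 : ℕ) : ℤ) with hD
  have hdeg : 2 * (g : ℤ) ≤ Divisor.degree D := by rw [hD, B.rr'.degree_single_eq]; omega
  have hred := B.R.reduces_mapDomain_placeMap B.rr' B.rrk D hdeg
  obtain ⟨y, hy0, hymem, hyord⟩ := B.rrk.exists_ord_eq_neg
    (D := Finsupp.mapDomain (B.R.placeMap B.rr' B.rrk) D)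
    (by rw [hred.degree_eq]; exact hdeg) (B.R.placeMap B.rr' B.rrk B.inf)
  obtain ⟨f, hf, rfl⟩ := hred.surj y hymem
  have h1 := (FLTA.PlaceRed.RRCurve.mem_iff hy0).mp
    ((B.reduces_inf (2 * g + 1) (by omega)).map_mem f hf) (B.R.placeMap B.rr' B.rrk B.inf)
  rw [Finsupp.single_eq_of_ne hne] at h1
  rw [hD, Finsupp.mapDomain_single, Finsupp.single_eq_same] at hyord
  omega

/-- A combination with prescribed orders at two places. -/
theorem exists_ord_eq_two {L E : Type*} [Field L] [Field E] [Algebra L E]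
    (W : Submodule L E) (P₀ P₁ : Place L E) (n₀ n₁ : ℤ)
    (hW : ∀ x ∈ W, x ≠ 0 → n₀ ≤ P₀.ord x ∧ n₁ ≤ P₁.ord x)
    (h₀ : ∃ x ∈ W, x ≠ 0 ∧ P₀.ord x = n₀) (h₁ : ∃ x ∈ W, x ≠ 0 ∧ P₁.ord x = n₁) :
    ∃ x ∈ W, x ≠ 0 ∧ P₀.ord x = n₀ ∧ P₁.ord x = n₁ := by
  obtain ⟨a, ha, ha0, hao⟩ := h₀
  obtain ⟨b, hb, hb0, hbo⟩ := h₁
  by_cases h1 : P₁.ord a = n₁
  · exact ⟨a, ha, ha0, hao, h1⟩
  by_cases h2 : P₀.ord b = n₀
  · exact ⟨b, hb, hb0, h2, hbo⟩
  have la := (hW a ha ha0).2
  have lb := (hW b hb hb0).1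
  have hlt0 : P₀.ord a < P₀.ord b := by omega
  have hlt1 : P₁.ord b < P₁.ord a := by omega
  refine ⟨a + b, add_mem ha hb, fun h0 => ?_, ?_, ?_⟩
  · rw [eq_neg_of_add_eq_zero_left h0, FLTA.Curves.ord_neg] at hlt0
    omega
  · rw [FLTA.Curves.ord_add_eq_of_lt _ ha0 hb0 hlt0, hao]
  · rw [add_comm, FLTA.Curves.ord_add_eq_of_lt _ hb0 ha0 hlt1, hbo]

end Generic

section Modular

variable [IsAlgClosed k] [Fact q.Prime] [CharP k q]
  {B : BadFibre A π q (modularFunctionFieldBar (N * q)) (modularFunctionFieldBar N)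
      (modularFunctionFieldFullC k N) g gF}

theorem IsModularFibre.ex_a (hB : IsModularFibre B) (x : modularFunctionFieldBar N) :
    B.ex (B.a x) = (x : LaurentSeries Qb) := by rw [hB.ex_eq, hB.a_eq]

theorem IsModularFibre.a_jBar (hB : IsModularFibre B) : B.a (jBar N) = jBar (N * q) :=
  Subtype.ext (hB.a_eq _)

theorem intCast_coeff_jqModC (R : Type*) [CommRing R] (i : ℤ) :
    ∃ n : ℤ, (jqModC R).coeff i = n := ⟨_, coeff_jqModC_eq_intCast i⟩

theorem IsModularFibre.frobq_jK (hB : IsModularFibre B) : B.frobq • jK k N = jK k N :=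
  frobq_smul_eq_self_of_intCast fun i => by
    rw [hB.exk_eq]
    exact intCast_coeff_jqModC k i

theorem IsModularFibre.sym_smul_jBar (hB : IsModularFibre B) (s : B.Sym) :
    s.σ • jBar (N * q) = jBar (N * q) :=
  sym_smul_eq_self_of_intCast s fun i => by
    rw [hB.ex_eq]
    exact intCast_coeff_jqModC Qb i

theorem intSeries_jqModC (A : ValuationSubring Qb) : IntSeries A (jqModC Qb) := by
  rw [← coeffMap_jqModC (R := A) A.subtype]
  exact intSeries_coeffMap _

/-- `j` is integral and reduces to `j`. -/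
theorem IsModularFibre.exists_red_jBar (hB : IsModularFibre B) :
    ∃ J : B.R.O, (J : modularFunctionFieldBar N) = jBar N ∧ B.R.red J = jK k N := by
  obtain ⟨hmem, hred⟩ := B.red_of_int (jBar N) (by
    rw [hB.ex_a]
    exact intSeries_jqModC A)
  refine ⟨⟨jBar N, hmem⟩, rfl, Subtype.ext ?_⟩
  rw [← hB.exk_eq, hred, hB.ex_a]
  show redSeries A π (jqModC Qb) = jqModC k
  rw [← coeffMap_jqModC (R := A) A.subtype, redSeries_coeffMap, coeffMap_jqModC]

theorem natCast_ne_zero_of_not_dvd (hqN : ¬ q ∣ N) : (N : k) ≠ 0 := fun h =>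
  hqN ((CharP.cast_eq_zero_iff k q N).mp h)

/-- The poles of `j` reduce exactly to the poles of `j`. -/
theorem IsModularFibre.mapDomain_poleDiv (hB : IsModularFibre B) (hqN : ¬ q ∣ N) :
    Finsupp.mapDomain (B.R.placeMap B.rr' B.rrk) (B.rr'.poleDiv (jBar N)) =
      B.rrk.poleDiv (jK k N) := by
  set r := B.R.placeMap B.rr' B.rrk with hr
  obtain ⟨J, hJ, hJk⟩ := hB.exists_red_jBar
  have hne : B.R.red J ≠ 0 := by
    rw [hJk]
    exact fun h => jqModC_ne_zero_of_nontrivial k (congrArg Subtype.val h)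
  have hZ : ∀ P, B.rr'.poleDiv (jBar N)⁻¹ P - B.rr'.poleDiv (jBar N) P =
      P.ord (jBar N) := fun P => by
    rw [FLTA.PlaceRed.RRCurve.poleDiv_apply, FLTA.PlaceRed.RRCurve.poleDiv_apply, P.ord_inv]
    omega
  have hdiv := B.R.isPlaceMap_placeMap B.rr' B.rrk J hne
    (B.rr'.poleDiv (jBar N)⁻¹ - B.rr'.poleDiv (jBar N))
    (fun P => by rw [Finsupp.sub_apply, hJ, hZ])
  refine (B.rrk.eq_of_le_of_degree_le (Finsupp.le_def.mpr fun Q => ?_) ?_).symm
  · have h1 := hdiv Q
    rw [Finsupp.mapDomain_sub, Finsupp.sub_apply, hJk] at h1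
    have h2 := Finsupp.le_def.mp (FLTA.PlaceRed.mapDomain_nonneg r
      (B.rr'.poleDiv_nonneg (jBar N)⁻¹)) Q
    have h3 := Finsupp.le_def.mp (FLTA.PlaceRed.mapDomain_nonneg r
      (B.rr'.poleDiv_nonneg (jBar N))) Q
    rw [FLTA.PlaceRed.RRCurve.poleDiv_apply]
    rw [Finsupp.zero_apply] at h2 h3
    rw [← hr] at h1
    omega
  · rw [FLTA.PlaceRed.degree_mapDomain_eq B.rr' B.rrk,
      FLTA.PlaceRed.degree_polar_j (natCast_ne_zero_of_not_dvd (k := k) hqN) rfl B.rrk
        (x := jK k N) rfl (fun v => B.rrk.poleDiv_apply _ v),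
      FLTA.PlaceRed.degree_polar_j (K := Qb) (N := N) (Nat.cast_ne_zero.mpr (NeZero.ne N))
        (FLTA.Curves.laurentBaseChange_full_eq N Qb) B.rr'
        (x := jBar N) rfl (fun v => B.rr'.poleDiv_apply _ v)]

/-- Functions at level `N` whose reduction has prescribed orders at two finite places and which
vanish at the other poles of `j` to `q - 1` times their pole order. -/
theorem IsModularFibre.exists_lift_prescribed (hB : IsModularFibre B) (hqN : ¬ q ∣ N)
    {Q₀ Q₁ : Place k (modularFunctionFieldFullC k N)} (h₀ : Q₀ ≠ B.infk) (h₁ : Q₁ ≠ B.infk) :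
    ∃ (l : ℕ) (x : B.R.O),
      (x : modularFunctionFieldBar N) ∈ riemannRochSpace (Finsupp.single B.inf (l : ℤ)) ∧
      (∀ v : Place Qb (modularFunctionFieldBar N), v ≠ B.inf →
        ((q : ℤ) - 1) * max (-v.ord (jBar N)) 0 ≤ v.ord (x : modularFunctionFieldBar N)) ∧
      B.R.red x ≠ 0 ∧
      Q₀.ord (B.R.red x) = ((q : ℤ) - 1) * max (-Q₀.ord (jK k N)) 0 ∧
      Q₁.ord (B.R.red x) = ((q : ℤ) - 1) * max (-Q₁.ord (jK k N)) 0 := by
  classical
  set r := B.R.placeMap B.rr' B.rrk with hr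
  have hq1 : (1 : ℤ) ≤ q := by exact_mod_cast Nat.pos_of_ne_zero (NeZero.ne q)
  set P := B.rr'.poleDiv (jBar N)
  have hP : 0 ≤ P := B.rr'.poleDiv_nonneg _
  have hdP : 0 ≤ Divisor.degree P := B.rr'.degree_nonneg hP
  set l : ℕ := (2 * (g : ℤ) + ((q : ℤ) - 1) * Divisor.degree P).toNat with hl
  have hl' : (l : ℤ) = 2 * (g : ℤ) + ((q : ℤ) - 1) * Divisor.degree P :=
    Int.toNat_of_nonneg (add_nonneg (by omega) (mul_nonneg (by omega) hdP))
  set D : Divisor Qb (modularFunctionFieldBar N) :=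
    Finsupp.single B.inf (l : ℤ) - ((q : ℤ) - 1) • P with hD
  have hdeg : 2 * (g : ℤ) ≤ Divisor.degree D := by
    rw [hD, map_sub, map_zsmul, B.rr'.degree_single_eq, smul_eq_mul, hl']
    omega
  have hred := B.R.reduces_mapDomain_placeMap B.rr' B.rrk D hdeg
  set D' := Finsupp.mapDomain r D with hD'
  have hD'Q : ∀ Q, Q ≠ B.infk → D' Q = -(((q : ℤ) - 1) * max (-Q.ord (jK k N)) 0) := fun Q hQ => by
    rw [hD', hD, Finsupp.mapDomain_sub, Finsupp.mapDomain_single, Finsupp.mapDomain_smul,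
      hr, placeMap_inf, hB.mapDomain_poleDiv hqN, Finsupp.sub_apply, Finsupp.smul_apply,
      Finsupp.single_eq_of_ne hQ, FLTA.PlaceRed.RRCurve.poleDiv_apply, smul_eq_mul, zero_sub]
  have hex : ∀ Q, Q ≠ B.infk → ∃ x ∈ riemannRochSpace D', x ≠ 0 ∧
      Q.ord x = ((q : ℤ) - 1) * max (-Q.ord (jK k N)) 0 := fun Q hQ => by
    obtain ⟨y, hy0, hy, hyo⟩ := B.rrk.exists_ord_eq_neg (D := D')
      (by rw [hred.degree_eq]; exact hdeg) Q
    exact ⟨y, hy, hy0, by rw [hyo, hD'Q Q hQ, neg_neg]⟩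
  obtain ⟨y, hy, hy0, hyo₀, hyo₁⟩ := exists_ord_eq_two (riemannRochSpace D') Q₀ Q₁ _ _
    (fun x hx hx0 => by
      have h := (FLTA.PlaceRed.RRCurve.mem_iff hx0).mp hx
      constructor
      · have := h Q₀; rwa [hD'Q Q₀ h₀, neg_neg] at this
      · have := h Q₁; rwa [hD'Q Q₁ h₁, neg_neg] at this)
    (hex Q₀ h₀) (hex Q₁ h₁)
  obtain ⟨x, hx, rfl⟩ := hred.surj y hy
  have hx0 : (x : modularFunctionFieldBar N) ≠ 0 := B.R.coe_ne_zero hy0
  refine ⟨l, x, ?_, fun v hv => ?_, hy0, hyo₀, hyo₁⟩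
  · refine FLTA.PlaceRed.RRCurve.space_mono ?_ hx
    rw [hD, sub_le_self_iff]
    exact smul_nonneg (by omega) hP
  · have h := (FLTA.PlaceRed.RRCurve.mem_iff hx0).mp hx v
    rw [hD, Finsupp.sub_apply, Finsupp.smul_apply, Finsupp.single_eq_of_ne hv,
      FLTA.PlaceRed.RRCurve.poleDiv_apply, smul_eq_mul] at h
    omega

end Modular

end FLTA.LevelLowering

end
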