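import Fermat.Agent.LevelLowering.HeckeModular
import Fermat.Agent.LevelLowering.EtaModular
import Fermat.Agent.PlaceRed.GenusPoles
import Fermat.Agent.Curves.BasicModular

/-!
# `T_l` preserves divisibility of orders over finite `j`

`T_l` sends poles of `j` to poles of `j` only, as `j(q ^ l)` is integral over `ℤ[j]`.
-/

set_option autoImplicit false
set_option synthInstance.maxHeartbeats 400000
set_option linter.style.haveILetI false
set_option linter.unusedSectionVars false

noncomputable section

open AlgebraicCurve ModularCurve FLTA.BadRed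

namespace FLTA.LevelLowering

local notation "Qb" => AlgebraicClosure ℚ

section Poles

variable (M l : ℕ) [NeZero M] [NeZero l]

theorem isIntegral_beta_jBar :
    IsIntegral (Algebra.adjoin Qb
      ({heckeAlphaBar Qb M l (jBar M)} : Set (modularFunctionFieldBar (M * l))))
      (heckeBetaBar Qb M l (jBar M)) := by
  set x := heckeAlphaBar Qb M l (jBar M) with hxdef
  obtain ⟨P, hP, h0⟩ := FLTA.Curves.isIntegralElem_qExpand_jqModC l
  let g : Polynomial ℤ →+*
      Algebra.adjoin Qb ({x} : Set (modularFunctionFieldBar (M * l))) :=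
    Polynomial.eval₂RingHom (Int.castRingHom _) ⟨x, Algebra.self_mem_adjoin_singleton Qb x⟩
  refine ⟨P.map g, hP.map _, Subtype.ext ?_⟩
  show (modularFunctionFieldBar (M * l)).val.toRingHom _ = 0
  rw [Polynomial.eval₂_map, Polynomial.hom_eval₂]
  have hcomp : (modularFunctionFieldBar (M * l)).val.toRingHom.comp
      ((algebraMap (Algebra.adjoin Qb ({x} : Set (modularFunctionFieldBar (M * l))))
        (modularFunctionFieldBar (M * l))).comp g) =
      (coeffMap (Int.castRingHom Qb)).comp (Polynomial.aeval (R := ℤ) (jqModC ℤ)).toRingHom := by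
    refine Polynomial.ringHom_ext' (Subsingleton.elim _ _) ?_
    simp [g, coeffMap_jqModC, hxdef, jBar]
  have hy : (modularFunctionFieldBar (M * l)).val.toRingHom (heckeBetaBar Qb M l (jBar M)) =
      coeffMap (Int.castRingHom Qb) (qExpand ℤ l (jqModC ℤ)) := by
    rw [coeffMap_qExpand, coeffMap_jqModC]
    exact coe_heckeBetaBar (L := Qb) M l (jBar M)
  rw [hcomp, hy, ← Polynomial.hom_eval₂, h0, map_zero]

/-- The image under `T_l` of a divisor on the poles of `j` is supported on the poles of `j`. -/
theorem heckeDiv_eq_zero_of_poles {D : Divisor Qb (modularFunctionFieldBar M)}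
    (hD : ∀ P, D P ≠ 0 → P.ord (jBar M) < 0) {v : Place Qb (modularFunctionFieldBar M)}
    (hv : 0 ≤ v.ord (jBar M)) : heckeDiv M l D v = 0 := by
  classical
  haveI := hasPrincipalDivisors_mul M l
  have hα : (heckeAlphaBar Qb M l).toRingHom.IsIntegral :=
    (FLTA.Curves.heckeInputsAlong M Qb l).fst
  have hβ : (heckeBetaBar Qb M l).toRingHom.IsIntegral :=
    (FLTA.Curves.heckeInputsAlong M Qb l).snd.fst
  show Divisor.correspondence (heckeBetaBar Qb M l) (heckeAlphaBar Qb M l) hβ hα D v = 0
  rw [Divisor.correspondence_apply]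
  set E := Divisor.pullbackAlong (heckeBetaBar Qb M l) hβ D with hE
  rw [← Finsupp.sum_single E, map_finsuppSum, Finsupp.sum_apply]
  refine Finset.sum_eq_zero fun w hw => ?_
  show Divisor.pushforwardAlong (heckeAlphaBar Qb M l) hα (Finsupp.single w (E w)) v = 0
  rw [Divisor.pushforwardAlong_single, Finsupp.single_apply]
  split_ifs with h
  · exfalso
    have hwE : E w ≠ 0 := Finsupp.mem_support_iff.mp hw
    rw [hE, Divisor.pullbackAlong_apply] at hwE
    have hlt := hD _ (fun h0 => hwE (by rw [h0, mul_zero]))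
    have hy := Place.ord_restrictAlong (heckeBetaBar Qb M l) hβ w (jBar M)
    have hx := Place.ord_restrictAlong (heckeAlphaBar Qb M l) hα w (jBar M)
    rw [h] at hx
    have hx0 : 0 ≤ w.ord (heckeAlphaBar Qb M l (jBar M)) := by
      rw [hx]; exact mul_nonneg (Int.natCast_nonneg _) hv
    rcases FLTA.PlaceRed.ord_nonneg_of_isIntegral_adjoin w hx0 (isIntegral_beta_jBar M l) with
      h0 | h0
    · exact jBar_ne_zero M ((map_eq_zero (heckeBetaBar Qb M l)).mp h0)
    · rw [hy] at h0
      have he : (0 : ℤ) < (Place.ramificationIndexAlong (heckeBetaBar Qb M l) w : ℤ) := by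
        rcases Nat.eq_zero_or_pos (Place.ramificationIndexAlong (heckeBetaBar Qb M l) w)
          with he0 | hpos
        · exact absurd (by rw [he0]; simp) hwE
        · exact_mod_cast hpos
      exact absurd h0 (not_le.mpr (mul_neg_of_pos_of_neg he hlt))
  · rfl

end Poles

section Fibre

variable (M p : ℕ) [NeZero M] [NeZero p] [Fact p.Prime]
variable (A : ValuationSubring (AlgebraicClosure ℚ)) (hA : A.LiesOverPrime p) (hpM : ¬ p ∣ M)
variable (l : ℕ) [NeZero l] (hl : l.Prime) (hlp : l ≠ p) (hlM : ¬ l ∣ M)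
variable [CharP (IsLocalRing.ResidueField A) p] [PerfectRing (IsLocalRing.ResidueField A) p]

local notation "k" => IsLocalRing.ResidueField A

set_option maxHeartbeats 1600000 in
/-- `T_l` keeps "every order at a place over finite `j` is divisible by `m`". -/
theorem heckeData_dvd_ord_Tk (m : ℤ) (x : modularFunctionFieldFullC k M) (hx : x ≠ 0)
    (hdvd : ∀ w, JFin w → m ∣ w.ord x) (w₀ : Place k (modularFunctionFieldFullC k M))
    (hw₀ : JFin w₀) : m ∣ w₀.ord ((heckeData M p A hA hpM l hl hlp hlM).Tk x) := by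
  classical
  haveI : IsAlgClosed k := FLTA.Galois.isAlgClosed_residueField A
  set B := badFibre M p A hA hpM with hBdef
  have hmod : IsModularFibre B :=
    ⟨fun _ => rfl, fun y => coe_heckeAlphaBar (L := Qb) M p y, fun _ => rfl⟩
  let O : RedOp B.R := heckeRedOp IsLocalRing.residue_surjective M l
    (FLTA.PlaceRed.natCast_residue_ne_zero M hpM A hA) hl hlM
  set r := B.R.placeMap B.rr' B.rrk with hrdef
  have hr : B.R.IsPlaceMap r := B.R.isPlaceMap_placeMap B.rr' B.rrk
  obtain ⟨s, hs⟩ := (RedOp.surjective_of_isPlaceMap (R := B.R) B.rr' hr).hasRightInverse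
  have hTk : w₀.ord ((heckeData M p A hA hpM l hl hlp hlM).Tk x) =
      O.divk r s (B.rrk.divisorOf x) w₀ :=
    (O.divk_apply_of_ord B.rr' B.rrk hr hs hx (fun Q => B.rrk.divisorOf_apply x Q) w₀).symm
  rw [hTk]
  set Pk := B.rrk.poleDiv (jK k M) with hPk
  set Pu := B.rr'.poleDiv (jBar M) with hPu
  have hmap : Finsupp.mapDomain r Pu = Pk := hmod.mapDomain_poleDiv hpM
  have hdiv0 : 0 ≤ O.div Pu := O.div_nonneg _ (B.rr'.poleDiv_nonneg _)
  -- the image of the poles
  have hPk0 : O.divk r s Pk w₀ = 0 := by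
    rw [← hmap, ← O.mapDomain_div B.rr' B.rrk hr hs]
    by_contra hne
    obtain ⟨v, hv, hvw⟩ := Finset.mem_image.mp
      (Finsupp.mapDomain_support (Finsupp.mem_support_iff.mpr hne))
    have hvneg : v.ord (jBar M) < 0 := by
      by_contra hvn
      refine Finsupp.mem_support_iff.mp hv
        (heckeDiv_eq_zero_of_poles M l (fun P hP => ?_) (not_lt.mp hvn))
      rw [hPu, FLTA.PlaceRed.RRCurve.poleDiv_apply] at hP
      omega
    have h1 : 0 < Pk w₀ := by
      have h2 : Pu v ≤ Finsupp.mapDomain r Pu w₀ := by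
        have h3 : 0 ≤ Pu - Finsupp.single v (Pu v) := Finsupp.le_def.mpr fun P => by
          rw [Finsupp.zero_apply, Finsupp.sub_apply, Finsupp.single_apply]
          split_ifs with hP
          · rw [hP, sub_self]
          · rw [sub_zero]; exact Finsupp.le_def.mp (B.rr'.poleDiv_nonneg _) P
        have h4 := Finsupp.le_def.mp (FLTA.PlaceRed.mapDomain_nonneg r h3) w₀
        rw [Finsupp.mapDomain_sub, Finsupp.mapDomain_single, Finsupp.zero_apply,
          Finsupp.sub_apply, hvw, Finsupp.single_eq_same] at h4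
        omega
      rw [hmap] at h2
      rw [hPu, FLTA.PlaceRed.RRCurve.poleDiv_apply] at h2
      omega
    rw [hPk, FLTA.PlaceRed.RRCurve.poleDiv_apply] at h1
    unfold JFin at hw₀
    omega
  have hmono : ∀ E : Divisor k (modularFunctionFieldFullC k M), 0 ≤ E →
      0 ≤ O.divk r s E w₀ := fun E hE =>
    Finsupp.le_def.mp (FLTA.PlaceRed.mapDomain_nonneg r
      (O.div_nonneg _ (FLTA.PlaceRed.mapDomain_nonneg s hE))) w₀
  -- places over the poles contribute nothing
  have hinf : ∀ Q, ¬ JFin Q → O.divk r s (Finsupp.single Q 1) w₀ = 0 := by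
    intro Q hQ
    have hle : 0 ≤ Pk - Finsupp.single Q 1 := Finsupp.le_def.mpr fun P => by
      rw [Finsupp.zero_apply, Finsupp.sub_apply, Finsupp.single_apply]
      have h0 := Finsupp.le_def.mp (B.rrk.poleDiv_nonneg (jK k M)) P
      rw [Finsupp.zero_apply, ← hPk] at h0
      split_ifs with hP
      · subst hP
        rw [hPk, FLTA.PlaceRed.RRCurve.poleDiv_apply]
        unfold JFin at hQ
        omega
      · omega
    have h1 := hmono _ hle
    rw [map_sub, Finsupp.sub_apply, hPk0] at h1
    have h2 := hmono (Finsupp.single Q 1) (Finsupp.single_nonneg.mpr zero_le_one)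
    omega
  set E := B.rrk.divisorOf x with hE
  rw [← Finsupp.sum_single E, map_finsuppSum, Finsupp.sum_apply]
  refine Finset.dvd_sum fun Q _ => ?_
  show m ∣ O.divk r s (Finsupp.single Q (E Q)) w₀
  have hsingle : Finsupp.single Q (E Q) = E Q • Finsupp.single Q (1 : ℤ) := by
    rw [Finsupp.smul_single, smul_eq_mul, mul_one]
  rw [hsingle, map_zsmul, Finsupp.smul_apply, smul_eq_mul]
  by_cases hQ : JFin Q
  · refine Dvd.dvd.mul_right ?_ _
    rw [hE, FLTA.PlaceRed.RRCurve.divisorOf_apply]
    exact hdvd Q hQ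
  · rw [hinf Q hQ, mul_zero]
    exact dvd_zero m

end Fibre

end FLTA.LevelLowering

end
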