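import Fermat.Agent.LevelLowering.Residues

/-!
# The pairs with nonzero residues

At a glued pair with residues `r₀, r₁ ≠ 0` there is a section of the twisted space of valuations
`(c, 0)` with `d q c = 12 e r₁`, and `r₀ + r₁ = q`; in particular `q ∣ e`.
-/

set_option autoImplicit false

noncomputable section

open AlgebraicCurve FLTA.BadRed

namespace FLTA.LevelLowering

variable {K : Type*} [Field K] {A : ValuationSubring K}
  {k : Type*} [Field k] {π : A →+* k} {q : ℕ} [NeZero q]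
  {F : Type*} [Field F] [Algebra K F] {F' : Type*} [Field F'] [Algebra K F']
  {Fk : Type*} [Field Fk] [Algebra k Fk] {g gF : ℕ} {B : BadFibre A π q F F' Fk g gF}

variable [IsAlgClosed K] [CharZero K] [IsAlgClosed k] [Fact q.Prime] [CharP k q]

namespace RatFrame

variable (R : RatFrame B)

/-- Cancelling equal leading parts raises the valuation. -/
theorem lt_vs_sub (i : Fin 2) {x y : F} (hx : x ∈ R.BL) (hx0 : x ≠ 0) (hy : y ∈ R.BL)
    (hy0 : y ≠ 0) (hv : R.vs i x = R.vs i y) (hl : R.ld i x = R.ld i y) (hne : x - y ≠ 0) :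
    R.vs i x < R.vs i (x - y) := by
  have hx' := R.isVal_vs i hx hx0
  have hy' := R.isVal_vs i hy hy0
  rw [← hv] at hy'
  have hge : R.toFrame.Ge (B.e i (x - y)) (R.vs i x) := by
    rw [map_sub]; exact hx'.1.sub R.toFrame hy'.1
  have hle := (R.ge_iff_le_vs i (sub_mem hx hy) hne).mp hge
  refine lt_of_le_of_ne hle fun he => (R.isVal_vs i (sub_mem hx hy) hne).2 ?_
  rw [← he, map_sub, smul_sub, redSeries_sub hx'.1 hy'.1, sub_eq_zero,
    ← hx'.lead_eq R.toFrame, ← hy'.lead_eq R.toFrame, ← R.exk_ld i hx hx0, ← R.exk_ld i hy hy0, hl]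

/-- The leading part of a cusp section has bounded pole at the cusp. -/
theorem ord_infk_ld {m : ℕ} {x : F} (hxm : x ∈ riemannRochSpace (B.cuspDiv m)) (hx : x ∈ R.BL)
    (hx0 : x ≠ 0) (i : Fin 2) : -(m : ℤ) ≤ B.infk.ord (R.ld i x) := by
  have hne := R.ld_ne_zero i hx hx0
  have hv := R.isVal_vs i hx hx0
  rw [B.ord_infk _ hne, R.exk_ld i hx hx0, hv.lead_eq R.toFrame]
  refine le_trans ?_ (order_le_order_redSeries hv.2)
  have h := (mem_riemannRochSpace_iff.mp hxm (B.P i)).resolve_left hx0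
  rw [B.cuspDiv_apply (Fact.out : q.Prime).two_le, B.ord_P i hx0] at h
  rw [smul_eq_C_mul, HahnSeries.order_mul ((map_ne_zero HahnSeries.C).mpr (zpow_ne_zero _ R.ϖ_ne_zero))
    ((map_ne_zero (B.e i)).mpr hx0), HahnSeries.order_C, zero_add]
  exact h

/-- A section of valuation `(0, 0)` equal to `1`-ish at one pair and vanishing at the others. -/
theorem exists_cutoff {S : Finset (Place k Fk)} {m₀ : ℕ} (hS : B.IsGluing S m₀) {Q₀ : Place k Fk}
    (hQ₀ : Q₀ ∈ S) :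
    ∃ (m : ℕ), ∃ u ∈ riemannRochSpace (B.cuspDiv m), u ∈ R.BL ∧ u ≠ 0 ∧ (∀ i, R.vs i u = 0) ∧
      (∀ i, (pt B Q₀ i).ord (R.ld i u) = 0) ∧
      ∀ Q ∈ S, Q ≠ Q₀ → ∀ i, 1 ≤ (pt B Q i).ord (R.ld i u) := by
  classical
  have hne : ∀ Q ∈ S, ∀ l, pt B Q l ≠ B.infk := fun Q hQ l => by
    fin_cases l
    · exact fun h => hS.infk_notMem (h ▸ hQ)
    · exact hS.smul_ne Q hQ
  set m := max m₀ (2 * g + S.card) with hm
  have key : ∀ i : Fin 2, ∃ b ∈ riemannRochSpace (Finsupp.single B.infk (m : ℤ)), b ≠ 0 ∧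
      (pt B Q₀ i).ord b = 0 ∧ ∀ Q ∈ S, Q ≠ Q₀ → 1 ≤ (pt B Q i).ord b := by
    intro i
    set T := (S.erase Q₀).image fun Q => pt B Q i with hT
    set Db : Divisor k Fk := Finsupp.single B.infk (m : ℤ) - ∑ P ∈ T, Finsupp.single P 1 with hDb
    have hTc : T.card ≤ S.card := Finset.card_image_le.trans (Finset.card_le_card
      (Finset.erase_subset _ _))
    have hDbdeg : Divisor.degree Db = m - T.card := by
      simp [hDb, map_sum, B.rrk.deg_eq_one]
    have hTsum : ∀ v, (∑ P ∈ T, Finsupp.single P (1 : ℤ)) v = if v ∈ T then 1 else 0 := fun v => by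
      rw [Finsupp.finsetSum_apply, Finset.sum_congr rfl fun P _ => Finsupp.single_apply,
        Finset.sum_ite_eq']
    obtain ⟨b, hb, hb0, hbQ⟩ := FLTA.Curves.rrMult_exists_exact (g : ℤ) B.rrk.finiteDimensional
      B.rrk.finrank_eq B.rrk.deg_eq_one (D := Db) (by rw [hDbdeg]; omega) (pt B Q₀ i)
    refine ⟨b, FLTA.Curves.riemannRochSpace_mono (Finsupp.le_def.mpr fun v => ?_) hb, hb0, ?_,
      fun Q hQ hQne => ?_⟩
    · rw [hDb, Finsupp.sub_apply, hTsum]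
      split_ifs <;> omega
    · rw [hbQ, hDb, Finsupp.sub_apply, hTsum, Finsupp.single_eq_of_ne (hne Q₀ hQ₀ i), if_neg]
      · simp
      · rw [hT, Finset.mem_image]
        rintro ⟨Q, hQ, he⟩
        exact (Finset.mem_erase.mp hQ).1 (Datum.pt_injective i he)
    · have h := (mem_riemannRochSpace_iff.mp hb (pt B Q i)).resolve_left hb0
      rw [hDb, Finsupp.sub_apply, hTsum, Finsupp.single_eq_of_ne (hne Q hQ i),
        if_pos (Finset.mem_image_of_mem _ (Finset.mem_erase.mpr ⟨hQne, hQ⟩))] at h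
      omega
  choose b hb hb0 hbQ hbS using key
  have hmem : ∀ Q ∈ S, ∀ i, b i ∈ (pt B Q i).toValuationSubring := fun Q hQ i =>
    BadFibre.mem_of_mem_single (hb i) (hne Q hQ i)
  have hval : ∀ i, BadFibre.placeVal (pt B Q₀ i) (b i) ≠ 0 := fun i h => by
    rw [BadFibre.placeVal_eq_zero_iff (B.rrk.deg_eq_one _) (hmem Q₀ hQ₀ i)] at h
    rcases h with h | h
    · exact hb0 i h
    · exact h.ne' (hbQ i)
  set lam := BadFibre.placeVal (pt B Q₀ 0) (b 0) / BadFibre.placeVal (pt B Q₀ 1) (b 1)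
  have hlam : lam ≠ 0 := div_ne_zero (hval 0) (hval 1)
  set p : Fin 2 → Fk := ![b 0, lam • b 1] with hp
  have hp0 : ∀ i, p i ≠ 0 := Fin.forall_fin_two.mpr ⟨hb0 0, smul_ne_zero hlam (hb0 1)⟩
  have hord1 : ∀ v : Place k Fk, v.ord (lam • b 1) = v.ord (b 1) := fun v => by
    rw [Algebra.smul_def, Place.ord_mul _ ((map_ne_zero _).mpr hlam) (hb0 1),
      FLTA.Curves.ord_algebraMap, zero_add]
  have hpmem : p ∈ B.fibreSections m := by
    rw [hS.mem_iff m (le_max_left _ _)]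
    refine ⟨Fin.forall_fin_two.mpr ⟨hb 0, Submodule.smul_mem _ _ (hb 1)⟩, fun Q hQ => ?_⟩
    show BadFibre.placeVal (pt B Q 0) (b 0) = BadFibre.placeVal (pt B Q 1) (lam • b 1)
    rw [BadFibre.placeVal_smul (B.rrk.deg_eq_one _) lam (hmem Q hQ 1)]
    rcases eq_or_ne Q Q₀ with rfl | hne'
    · exact (div_mul_cancel₀ _ (hval 1)).symm
    · have hz : ∀ i, BadFibre.placeVal (pt B Q i) (b i) = 0 := fun i => by
        rw [BadFibre.placeVal_eq_zero_iff (B.rrk.deg_eq_one _) (hmem Q hQ i)]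
        exact Or.inr (lt_of_lt_of_le one_pos (hbS i Q hQ hne'))
      rw [hz 0, hz 1, mul_zero]
  obtain ⟨u, hum, huB, hured⟩ := R.exists_rat_section hpmem
  have hu0 : u ≠ 0 := fun h => hp0 0 <| B.exk.toRingHom.injective <| show B.exk _ = B.exk _ by
    rw [hured.2 0, h, map_zero, redSeries_zero, map_zero]
  have hspec := fun i => ((R.of_isRed huB hu0 hured i).1 (hp0 i))
  refine ⟨m, u, hum, huB, hu0, fun i => (hspec i).1, fun i => ?_, fun Q hQ hQne i => ?_⟩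
  · rw [(hspec i).2]
    rcases (by decide : ∀ l : Fin 2, l = 0 ∨ l = 1) i with rfl | rfl
    · exact hbQ 0
    · exact (hord1 _).trans (hbQ 1)
  · rw [(hspec i).2]
    rcases (by decide : ∀ l : Fin 2, l = 0 ∨ l = 1) i with rfl | rfl
    · exact hbS 0 Q hQ hQne
    · exact (hbS 1 Q hQ hQne).trans_eq (hord1 _).symm

end RatFrame

namespace Datum

variable {R : RatFrame B} (X : Datum R) {S : Finset (Place k Fk)} {m₀ : ℕ}

/-- The order at `v` of the reduction of `(z / f) ^ q f` on the component `i`. -/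
def twOrd (z : F) (i : Fin 2) (v : Place k Fk) : ℤ :=
  (q : ℤ) * (v.ord (R.ld i z) - X.o i v) + X.o i v

theorem twOrd_eq {z y : F} (hz : z ∈ R.BL) (hz0 : z ≠ 0) (hy : y ∈ R.BL) (hy0 : y ≠ 0) (i : Fin 2)
    (h : R.ld i y * X.fb i ^ (q - 1) = R.ld i z ^ q) (v : Place k Fk) :
    X.twOrd z i v = v.ord (R.ld i y) := by
  have h' := congrArg v.ord h
  rw [Place.ord_mul _ (R.ld_ne_zero i hy hy0) (pow_ne_zero _ (X.fb_ne_zero i)),
    FLTA.Curves.ord_pow, FLTA.Curves.ord_pow, Nat.cast_sub (NeZero.pos q)] at h'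
  rw [twOrd]
  push_cast at h'
  unfold o
  linarith

theorem twOrd_emod (z : F) (i : Fin 2) (v : Place k Fk) : X.twOrd z i v % q = X.res i v := by
  rw [twOrd, add_comm, Int.add_mul_emod_self_left]
  rfl

/-- An element of the twisted space which vanishes on the component `0` and is optimal at a pair. -/
structure NodeElt (E : EtaData R S) (Q : Place k Fk) where
  /-- the level -/
  M : ℕ
  /-- the element -/
  z : F
  mem_W : z ∈ X.W M
  mem : z ∈ R.BL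
  ne_zero : z ≠ 0
  /-- its valuation on the component `0` -/
  c : ℤ
  c_pos : 0 < c
  vs_zero : R.vs 0 z = c
  vs_one : R.vs 1 z = 0
  ord_one : X.twOrd z 1 (B.frobq • Q) = X.res 1 (B.frobq • Q)
  ord_zero : X.twOrd z 0 Q ≤ X.res 0 Q - q
  eq : E.d Q * q * c = 12 * E.e * X.res 1 (B.frobq • Q)

theorem W_mul_mem {m M : ℕ} {z u : F} (hz : z ∈ X.W m)
    (hu : u ∈ riemannRochSpace (B.cuspDiv M)) : z * u ∈ X.W (m + M) := by
  have h := FLTA.Curves.mul_mem_riemannRochSpace hz hu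
  have e : X.twDiv m + B.cuspDiv M = X.twDiv (m + M) := by
    rw [twDiv, twDiv, BadFibre.cuspDiv_add]; abel
  rwa [e] at h

theorem W_mono {m M : ℕ} (h : m ≤ M) : X.W m ≤ X.W M :=
  FLTA.Curves.riemannRochSpace_mono (Finsupp.le_def.mpr fun v => by
    have := Finsupp.le_def.mp (B.cuspDiv_mono h) v
    rw [twDiv, twDiv, Finsupp.sub_apply, Finsupp.sub_apply]; omega)

theorem pt_ne_infk {m₀ : ℕ} (hS : B.IsGluing S m₀) {Q : Place k Fk} (hQ : Q ∈ S) (i : Fin 2) :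
    pt B Q i ≠ B.infk := by
  fin_cases i
  · exact fun h => hS.infk_notMem (h ▸ hQ)
  · exact hS.smul_ne Q hQ

variable (hS : B.IsGluing S m₀) (E : EtaData R S) (hne : S.Nonempty)

include hS E hne in
/-- A start: an element vanishing on the component `0`, of exact order at the chosen point. -/
theorem exists_start {Q : Place k Fk} (hQ : Q ∈ X.bad S) :
    ∃ (M : ℕ) (z : F), z ∈ X.W M ∧ z ∈ R.BL ∧ z ≠ 0 ∧ R.vs 1 z = 0 ∧ 0 < R.vs 0 z ∧
      X.twOrd z 1 (B.frobq • Q) = X.res 1 (B.frobq • Q) := by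
  classical
  obtain ⟨hQS, -, hr1⟩ := X.mem_bad.mp hQ
  obtain ⟨M₀, hM⟩ := X.exists_big S (2 * g + 1)
  set m := M₀ + m₀ + gF with hm
  have hmq : m₀ ≤ q * m := le_trans (by omega) (Nat.le_mul_of_pos_left _ (NeZero.pos q))
  have hdeg : ∀ i, 2 * (g : ℤ) + 1 ≤ Divisor.degree (X.compDiv S m i) := fun i => by
    have := hM m (by omega) i; push_cast at this ⊢; omega
  obtain ⟨-, hker⟩ := X.full hS E hne hmq (by omega) fun i => by have := hdeg i; omega
  set v := B.frobq • Q with hv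
  have hvk : v ≠ B.infk := hS.smul_ne Q hQS
  have hval : X.compDiv S m 1 v = X.flr 1 v := by
    rcases X.compDiv_apply hS m 1 v with ⟨-, h⟩ | ⟨Q', hQ', he, -, -⟩
    · rw [h, Finsupp.single_eq_of_ne hvk, add_zero]
    · rw [cut, if_neg (by decide), Finset.mem_filter] at hQ'
      exact absurd hQ'.2 (not_not.mpr (by rw [show B.frobq • Q' = v from he]; exact hr1))
  obtain ⟨b, hb, hb0, hbo⟩ := FLTA.Curves.rrMult_exists_exact (g : ℤ) B.rrk.finiteDimensional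
    B.rrk.finrank_eq B.rrk.deg_eq_one (D := X.compDiv S m 1) (by have := hdeg 1; omega) v
  rw [hval, flr_apply] at hbo
  obtain ⟨a, ha, ha0, ha1⟩ := hker b hb
  obtain ⟨z₀, hz₀, hp₀⟩ := X.mem_img.mp ha
  obtain ⟨z, hzW, hzB, hp⟩ := X.exists_rat_W hz₀ hp₀
  have hp1 : (a * X.fb) 1 ≠ 0 := mul_ne_zero (by rw [ha1]; exact hb0) (X.fb_ne_zero 1)
  have hz0 : z ≠ 0 := fun h => hp1 <| B.exk.toRingHom.injective <| show B.exk _ = B.exk _ by
    rw [hp.2 1, h, map_zero, redSeries_zero, map_zero]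
  obtain ⟨hv1, hl1⟩ := (R.of_isRed hzB hz0 hp 1).1 hp1
  refine ⟨m, z, hzW, hzB, hz0, hv1,
    (R.of_isRed hzB hz0 hp 0).2 (by rw [Pi.mul_apply, ha0, zero_mul]), ?_⟩
  rw [twOrd, hl1, Pi.mul_apply, Place.ord_mul _ (by rw [ha1]; exact hb0) (X.fb_ne_zero 1), ha1, hbo]
  show (q : ℤ) * (-(X.o 1 v / q) + X.o 1 v - X.o 1 v) + X.o 1 v = X.res 1 v
  have := Int.emod_add_mul_ediv (X.o 1 v) q
  rw [res]
  linarith

include hS E hne in
/-- An element that cannot be improved has a pole on the component `0`. -/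
theorem exists_better {Q : Place k Fk} (hQ : Q ∈ X.bad S) {M : ℕ} {z : F} (hzW : z ∈ X.W M)
    (hzB : z ∈ R.BL) (hz0 : z ≠ 0) (hv1 : R.vs 1 z = 0) (hc : 0 < R.vs 0 z)
    (hone : X.twOrd z 1 (B.frobq • Q) = X.res 1 (B.frobq • Q)) (hzero : 0 ≤ X.twOrd z 0 Q) :
    ∃ (M' : ℕ) (z' : F), z' ∈ X.W M' ∧ z' ∈ R.BL ∧ z' ≠ 0 ∧ R.vs 1 z' = 0 ∧
      R.vs 0 z < R.vs 0 z' ∧ X.twOrd z' 1 (B.frobq • Q) = X.res 1 (B.frobq • Q) := by
  classical
  obtain ⟨hQS, -, -⟩ := X.mem_bad.mp hQ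
  have hq : (0 : ℤ) < q := Int.natCast_pos.mpr (NeZero.pos q)
  obtain ⟨mu, u, hum, huB, hu0, hvu, huQ, huS⟩ := R.exists_cutoff hS hQS
  obtain ⟨N, hN⟩ : ∃ N : ℕ, ∀ Q' ∈ S, -X.twOrd z 0 Q' ≤ N :=
    ⟨∑ Q' ∈ S, (X.twOrd z 0 Q').natAbs, fun Q' hQ' => by
      have := Finset.single_le_sum (f := fun v => (X.twOrd z 0 v).natAbs) (fun _ _ => zero_le) hQ'
      omega⟩
  have huNm : u ^ N ∈ riemannRochSpace (B.cuspDiv (N * mu)) := by
    rw [← BadFibre.natCast_smul_cuspDiv]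
    exact BadFibre.pow_mem_riemannRochSpace hum N
  set w := z * u ^ N with hw
  have huN := pow_mem huB N
  have huN0 : u ^ N ≠ 0 := pow_ne_zero _ hu0
  have hwB : w ∈ R.BL := mul_mem hzB huN
  have hw0 : w ≠ 0 := mul_ne_zero hz0 huN0
  have hvw : ∀ i, R.vs i w = R.vs i z := fun i => by
    rw [hw, R.vs_mul i hzB hz0 huN huN0, R.vs_pow i huB hu0, hvu, mul_zero, add_zero]
  have htw : ∀ i v, X.twOrd w i v = X.twOrd z i v + q * (N * v.ord (R.ld i u)) := fun i v => by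
    rw [twOrd, twOrd, hw, R.ld_mul i hzB hz0 huN huN0, R.ld_pow i huB hu0,
      Place.ord_mul _ (R.ld_ne_zero i hzB hz0) (pow_ne_zero _ (R.ld_ne_zero i huB hu0)),
      FLTA.Curves.ord_pow]
    ring
  set M₁ := M + N * mu
  have hwW : w ∈ X.W M₁ := X.W_mul_mem hzW huNm
  obtain ⟨Mb, hMb⟩ := X.exists_big S (2 * g + 1)
  set M' := M₁ + Mb + m₀ + gF
  have hwW' : w ∈ X.W M' := X.W_mono (by omega) hwW
  obtain ⟨y, hy0, -, hym, hyB, -, hly⟩ := X.powDiv_spec hwW' hwB hw0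
  set a₀ := R.ld 0 w / X.fb 0 with ha₀
  have ha₀0 : a₀ ≠ 0 := div_ne_zero (R.ld_ne_zero 0 hwB hw0) (X.fb_ne_zero 0)
  have hord : ∀ v : Place k Fk, v.ord a₀ = v.ord (R.ld 0 w) - X.o 0 v := fun v => by
    rw [ha₀, div_eq_mul_inv, Place.ord_mul _ (R.ld_ne_zero 0 hwB hw0)
      (inv_ne_zero (X.fb_ne_zero 0)), Place.ord_inv]
    exact (sub_eq_add_neg _ _).symm
  have ha₀L : a₀ ∈ riemannRochSpace (X.flr 0 + Finsupp.single B.infk (M' : ℤ)) := by
    rw [mem_riemannRochSpace_iff]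
    intro v
    refine Or.inr ?_
    rw [Finsupp.add_apply, Finsupp.single_apply, flr_apply, hord]
    have htv : X.twOrd w 0 v = (q : ℤ) * (v.ord (R.ld 0 w) - X.o 0 v) + X.o 0 v := rfl
    split_ifs with hvk
    · subst hvk
      have h1 := R.ord_infk_ld hym hyB hy0 0
      rw [← X.twOrd_eq hwB hw0 hyB hy0 0 (hly 0), htv] at h1
      have h2 := neg_ediv_le hq (a := B.infk.ord (R.ld 0 w) - X.o 0 B.infk + M')
        (o := X.o 0 B.infk) (by push_cast at h1; linarith)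
      omega
    · have h1 : 0 ≤ X.twOrd w 0 v := by
        by_cases hvS : v ∈ S
        · rw [htw]
          rcases eq_or_ne v Q with rfl | hvQ
          · have := huQ 0
            rw [pt_zero] at this
            rw [this, mul_zero, mul_zero, add_zero]
            exact hzero
          · have h2 : 1 ≤ v.ord (R.ld 0 u) := huS v hvS hvQ 0
            have h3 := hN v hvS
            have h4 : (N : ℤ) ≤ N * v.ord (R.ld 0 u) := le_mul_of_one_le_right (by positivity) h2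
            have h5 : (N : ℤ) * v.ord (R.ld 0 u) ≤ q * (N * v.ord (R.ld 0 u)) :=
              le_mul_of_one_le_left (le_trans (Int.natCast_nonneg N) h4) (by omega)
            omega
        · rw [X.twOrd_eq hwB hw0 hyB hy0 0 (hly 0)]
          exact R.ord_nonneg_off hS hyB hy0 ⟨_, hym⟩ 0 (Ne.symm hvk)
            fun Q' hQ' h => hvS (h ▸ hQ')
      rw [htv] at h1
      have h2 := neg_ediv_le hq (a := v.ord (R.ld 0 w) - X.o 0 v) (o := X.o 0 v) (by linarith)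
      omega
  obtain ⟨hsur, -⟩ := X.full hS E hne (m := M')
    (le_trans (by omega) (Nat.le_mul_of_pos_left _ (NeZero.pos q))) (by omega)
    (fun i => by have := hMb M' (by omega) i; push_cast at this; omega)
  obtain ⟨a, ha, ha0⟩ := hsur a₀ ha₀L
  obtain ⟨x₀, hx₀, hp₀⟩ := X.mem_img.mp ha
  obtain ⟨x, hxW, hxB, hp⟩ := X.exists_rat_W hx₀ hp₀
  have hp0 : (a * X.fb) 0 = R.ld 0 w := by
    rw [Pi.mul_apply, ha0, ha₀, div_mul_cancel₀ _ (X.fb_ne_zero 0)]
  have hx0 : x ≠ 0 := fun h => R.ld_ne_zero 0 hwB hw0 <| by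
    rw [← hp0]
    exact B.exk.toRingHom.injective <| show B.exk _ = B.exk _ by
      rw [hp.2 0, h, map_zero, redSeries_zero, map_zero]
  obtain ⟨hvx, hlx⟩ := (R.of_isRed hxB hx0 hp 0).1 (hp0 ▸ R.ld_ne_zero 0 hwB hw0)
  rw [hp0] at hlx
  set cst := algebraMap K F (R.ϖ ^ R.vs 0 z) with hcst
  have hcm : cst ∈ R.BL := R.algebraMap_mem_BL (zpow_mem R.ϖ_mem _)
  have hc0 : cst ≠ 0 := (map_ne_zero _).mpr (zpow_ne_zero _ R.ϖ_ne_zero)
  set x' := cst * x with hx'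
  have hx'B : x' ∈ R.BL := mul_mem hcm hxB
  have hx'0 : x' ≠ 0 := mul_ne_zero hc0 hx0
  have hvx' : ∀ i, R.vs i x' = R.vs 0 z + R.vs i x := fun i => by
    rw [hx', R.vs_mul i hcm hc0 hxB hx0, hcst, R.vs_algebraMap_zpow]
  have hlt : R.vs 1 w < R.vs 1 (-x') := by
    have hnn : 0 ≤ R.vs 1 x := (R.ge_iff_le_vs 1 hxB hx0).mp ((R.toFrame.ge_zero_iff _).mpr (hp.1 1))
    have hneg : R.vs 1 (-x') = R.vs 1 x' := by
      refine le_antisymm ?_ ?_
      · refine (R.ge_iff_le_vs 1 hx'B hx'0).mp ?_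
        have h := (R.isVal_vs 1 (neg_mem hx'B) (neg_ne_zero.mpr hx'0)).1
        have := (R.toFrame.ge_zero (R.vs 1 (-x'))).sub R.toFrame h
        rwa [zero_sub, ← map_neg, neg_neg] at this
      · refine (R.ge_iff_le_vs 1 (neg_mem hx'B) (neg_ne_zero.mpr hx'0)).mp ?_
        have := (R.toFrame.ge_zero (R.vs 1 x')).sub R.toFrame (R.isVal_vs 1 hx'B hx'0).1
        rwa [zero_sub, ← map_neg] at this
    rw [hneg, hvw, hv1, hvx']
    omega
  obtain ⟨hne', hv1'⟩ := R.vs_add_of_lt 1 hwB hw0 (neg_mem hx'B) (neg_ne_zero.mpr hx'0) hlt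
  rw [← sub_eq_add_neg] at hne' hv1'
  have hv0' : R.vs 0 z < R.vs 0 (w - x') := by
    rw [← hvw 0]
    refine R.lt_vs_sub 0 hwB hw0 hx'B hx'0 ?_ ?_ hne'
    · rw [hvw, hvx', hvx, add_zero]
    · rw [hx', R.ld_mul 0 hcm hc0 hxB hx0, hcst, R.ld_algebraMap_zpow, one_mul, hlx]
  refine ⟨M', w - x', sub_mem hwW' ?_, sub_mem hwB hx'B, hne', by rw [hv1', hvw, hv1], hv0', ?_⟩
  · rw [hx', hcst, ← Algebra.smul_def]
    exact Submodule.smul_mem _ _ hxW
  · have hl : R.ld 1 (w - x') = R.ld 1 w := by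
      apply B.exk.toRingHom.injective
      show B.exk _ = B.exk _
      rw [R.exk_ld 1 (sub_mem hwB hx'B) hne', R.exk_ld 1 hwB hw0,
        (R.isVal_vs 1 (sub_mem hwB hx'B) hne').lead_eq R.toFrame,
        (R.isVal_vs 1 hwB hw0).lead_eq R.toFrame, hv1', sub_eq_add_neg w x', map_add, smul_add,
        redSeries_add (R.isVal_vs 1 hwB hw0).1
          (((R.isVal_vs 1 (neg_mem hx'B) (neg_ne_zero.mpr hx'0)).1).mono R.toFrame hlt.le),
        R.toFrame.red_eq_zero_of_ge (R.isVal_vs 1 (neg_mem hx'B) (neg_ne_zero.mpr hx'0)).1 hlt,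
        add_zero]
    rw [show X.twOrd (w - x') 1 (B.frobq • Q) = X.twOrd w 1 (B.frobq • Q) by
      rw [twOrd, twOrd, hl], htw, show (B.frobq • Q).ord (R.ld 1 u) = 0 from huQ 1, hone]
    ring

include hS hne in
theorem exists_pre {Q : Place k Fk} (hQ : Q ∈ X.bad S) :
    ∃ (M : ℕ) (z : F), z ∈ X.W M ∧ z ∈ R.BL ∧ z ≠ 0 ∧ R.vs 1 z = 0 ∧ 0 < R.vs 0 z ∧
      X.twOrd z 1 (B.frobq • Q) = X.res 1 (B.frobq • Q) ∧ X.twOrd z 0 Q ≤ X.res 0 Q - q ∧
      E.d Q * (q * R.vs 0 z) ≤ 12 * E.e * X.res 1 (B.frobq • Q) ∧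
      12 * E.e * ((q : ℤ) - X.res 0 Q) ≤ E.d Q * (q * R.vs 0 z) := by
  classical
  obtain ⟨hQS, -, -⟩ := X.mem_bad.mp hQ
  have hq : (0 : ℤ) < q := Int.natCast_pos.mpr (NeZero.pos q)
  have hd := E.d_pos hS hQS
  have hineq : ∀ (M : ℕ) (z : F), z ∈ X.W M → z ∈ R.BL → z ≠ 0 → R.vs 1 z = 0 →
      E.d Q * (q * R.vs 0 z) ≤ 12 * E.e * X.twOrd z 1 (B.frobq • Q) ∧
        -(E.d Q * (q * R.vs 0 z)) ≤ 12 * E.e * X.twOrd z 0 Q := by
    intro M z hzW hzB hz0 hv1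
    obtain ⟨y, hy0, -, hym, hyB, hvy, hly⟩ := X.powDiv_spec hzW hzB hz0
    have h1 := E.localIneq hS hQS (i := 1) (j := 0) (by decide) hyB hy0 ⟨_, hym⟩
    have h2 := E.localIneq hS hQS (i := 0) (j := 1) (by decide) hyB hy0 ⟨_, hym⟩
    rw [hvy, hvy, hv1, ← X.twOrd_eq hzB hz0 hyB hy0 _ (hly _)] at h1 h2
    rw [mul_zero, sub_zero, pt_one] at h1
    rw [mul_zero, zero_sub, pt_zero, mul_neg] at h2
    exact ⟨h1, h2⟩
  obtain ⟨c, ⟨M, z, hzW, hzB, hz0, hv1, hc, hone, rfl⟩, hmax⟩ :=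
    Int.exists_greatest_of_bdd (P := fun c => ∃ (M : ℕ) (z : F), z ∈ X.W M ∧ z ∈ R.BL ∧ z ≠ 0 ∧
      R.vs 1 z = 0 ∧ 0 < R.vs 0 z ∧ X.twOrd z 1 (B.frobq • Q) = X.res 1 (B.frobq • Q) ∧
      R.vs 0 z = c) ⟨12 * E.e * X.res 1 (B.frobq • Q), by
        rintro c ⟨M, z, hzW, hzB, hz0, hv1, hc, hone, rfl⟩
        have h := (hineq M z hzW hzB hz0 hv1).1
        rw [hone] at h
        have h1 : R.vs 0 z ≤ E.d Q * (q * R.vs 0 z) := by
          rw [← mul_assoc]
          exact le_mul_of_one_le_left hc.le (one_le_mul_of_one_le_of_one_le (by omega) (by omega))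
        omega⟩
      (by
        obtain ⟨M, z, a, b, c, d, e, f⟩ := X.exists_start hS E hne hQ
        exact ⟨_, M, z, a, b, c, d, e, f, rfl⟩)
  have hneg : X.twOrd z 0 Q < 0 := by
    by_contra hcon
    obtain ⟨M', z', h1, h2, h3, h4, h5, h6⟩ :=
      X.exists_better hS E hne hQ hzW hzB hz0 hv1 hc hone (not_lt.mp hcon)
    have := hmax _ ⟨M', z', h1, h2, h3, h4, hc.trans h5, h6, rfl⟩
    omega
  obtain ⟨h1, h2⟩ := hineq M z hzW hzB hz0 hv1
  rw [hone] at h1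
  have hle : X.twOrd z 0 Q ≤ X.res 0 Q - q := by
    rw [← X.twOrd_emod z 0 Q]
    have ha := Int.emod_add_mul_ediv (X.twOrd z 0 Q) q
    have hb := Int.ediv_neg_of_neg_of_pos hneg hq
    have hc' := mul_le_mul_of_nonneg_left (show X.twOrd z 0 Q / (q : ℤ) ≤ -1 by omega) hq.le
    linarith
  refine ⟨M, z, hzW, hzB, hz0, hv1, hc, hone, hle, h1, ?_⟩
  have he : (0 : ℤ) ≤ 12 * E.e := by positivity
  have := mul_le_mul_of_nonneg_left hle he
  linarith

include hS E hne in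
/-- The residues at a bad pair add up to `q`. -/
theorem res_add {Q : Place k Fk} (hQ : Q ∈ X.bad S) :
    X.res 0 Q + X.res 1 (B.frobq • Q) = q := by
  classical
  have hge : ∀ P ∈ X.bad S, (q : ℤ) ≤ X.res 0 P + X.res 1 (B.frobq • P) := fun P hP => by
    obtain ⟨M, z, -, -, -, -, -, -, -, h1, h2⟩ := X.exists_pre hS E hne hP
    have he : (0 : ℤ) < 12 * E.e := by have := E.e_pos; positivity
    have := le_of_mul_le_mul_left (h2.trans h1) he
    omega
  obtain ⟨hram, hsum⟩ := X.ram_eq hS E hne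
  have hsum' : ∑ P ∈ X.bad S, (X.res 0 P + X.res 1 (B.frobq • P)) = ∑ P ∈ X.bad S, (q : ℤ) := by
    rw [Finset.sum_add_distrib, Finset.sum_const, nsmul_eq_mul]
    rw [resSum, resSum, hram, hram, Finset.sum_image fun a _ b _ h => pt_injective 0 h,
      Finset.sum_image fun a _ b _ h => pt_injective 1 h] at hsum
    rw [mul_comm] at hsum
    exact hsum
  exact ((Finset.sum_eq_sum_iff_of_le hge).mp hsum'.symm Q hQ).symm

include hS hne in
theorem nonempty_nodeElt {Q : Place k Fk} (hQ : Q ∈ X.bad S) : Nonempty (X.NodeElt E Q) := by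
  obtain ⟨M, z, hzW, hzB, hz0, hv1, hc, hone, hle, h1, h2⟩ := X.exists_pre hS E hne hQ
  have h := X.res_add hS E hne hQ
  rw [show (q : ℤ) - X.res 0 Q = X.res 1 (B.frobq • Q) by omega] at h2
  exact ⟨⟨M, z, hzW, hzB, hz0, R.vs 0 z, hc, rfl, hv1, hone, hle, by
    rw [mul_assoc]; exact le_antisymm h1 h2⟩⟩

end Datum

end FLTA.LevelLowering

end
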