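import Fermat.Agent.LevelLowering.JumpTriv
import Fermat.Agent.LevelLowering.BadNode

/-!
# One level of the congruence of a trivialisation

If `θ` is congruent to one scalar modulo `ϖ ^ β` then at level `β` it is one scalar on each
component, and the two differ by `c τ` at a pair of valuation `c` when `β` is the jump.
-/

set_option autoImplicit false

noncomputable section

open AlgebraicCurve FLTA.BadRed

namespace FLTA.LevelLowering

variable {K : Type*} [Field K] [IsAlgClosed K] [CharZero K] {A : ValuationSubring K}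
  {k : Type*} [Field k] [IsAlgClosed k] {π : A →+* k}
  {q : ℕ} [NeZero q] [Fact q.Prime] [CharP k q]
  {F : Type*} [Field F] [Algebra K F] {F' : Type*} [Field F'] [Algebra K F']
  {Fk : Type*} [Field Fk] [Algebra k Fk] {g gF : ℕ} {B : BadFibre A π q F F' Fk g gF}

/-- A function without poles is constant. -/
theorem eq_algebraMap_of_ord_nonneg (B : BadFibre A π q F F' Fk g gF) {x : Fk}
    (h : ∀ v : Place k Fk, 0 ≤ v.ord x) : ∃ c : k, x = algebraMap k Fk c := by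
  classical
  rcases eq_or_ne x 0 with rfl | hx
  · exact ⟨0, (map_zero _).symm⟩
  set P := B.infk
  have hdeg := B.rrk.deg_eq_one P
  have hmem : x ∈ P.toValuationSubring := (FLTA.Curves.mem_iff_ord_nonneg _ hx).mpr (h P)
  set c := BadFibre.placeVal P x with hc
  refine ⟨c, ?_⟩
  by_contra hne
  set y := x + (-c) • (1 : Fk) with hy
  have hy' : y = x - algebraMap k Fk c := by
    rw [hy, Algebra.smul_def, mul_one, map_neg, sub_eq_add_neg]
  have hy0 : y ≠ 0 := by rw [hy']; exact sub_ne_zero.mpr hne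
  have hcm : (-c) • (1 : Fk) ∈ P.toValuationSubring := by
    rw [Algebra.smul_def, mul_one]; exact P.algebraMap_mem' _
  have hv : BadFibre.placeVal P y = 0 := by
    rw [hy, BadFibre.placeVal_add hdeg hmem hcm, BadFibre.placeVal_smul hdeg _ (one_mem _),
      BadFibre.placeVal_one hdeg, ← hc]
    ring
  rw [BadFibre.placeVal_eq_zero_iff hdeg (add_mem hmem hcm)] at hv
  have hpos : 0 < P.ord y := hv.resolve_left hy0
  obtain ⟨E, hE, hdegE⟩ := B.rrk.principal.exists_divisor _ hy0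
  have hnn : ∀ v, 0 ≤ E v := fun v => by
    rw [hE, hy']
    exact FLTA.Curves.ord_nonneg_of_mem v
      (sub_mem ((FLTA.Curves.mem_iff_ord_nonneg _ hx).mpr (h v)) (v.algebraMap_mem' _))
  rw [degree_eq_finsuppSum B.rrk, Finsupp.sum] at hdegE
  have hle : E P ≤ ∑ v ∈ E.support, E v := Finset.single_le_sum (fun v _ => hnn v)
    (Finsupp.mem_support_iff.mpr (by rw [hE]; exact hpos.ne'))
  rw [hE P] at hle
  omega

namespace Datum

variable {R : RatFrame B} (X : Datum R) (J : Jumping R)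

/-- The context of the congruence of a trivialisation. -/
structure JumpCtx where
  /-- the level of the normalisation -/
  m : ℕ
  top : X.IsTop m
  /-- the Kummer function of the moved class -/
  fy : F
  /-- the trivialisation -/
  θ : F
  prod : fy * (J.s.σ • X.f) = X.f
  kummer : BadFibre.KummerFn q (X.D - J.s.σ • X.D) fy
  fy_mem : fy ∈ R.BL
  fy_int : ∀ l, IntSeries A (B.e l fy)
  fy_red : ∀ l, redSeries A π (B.e l fy) = 1
  triv : IsTrivialisation R (X.D - J.s.σ • X.D) θ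
  polar : ∀ l, ∀ j < (0 : ℤ), (B.e l θ).coeff j / R.ϖ ^ (J.i + 1) ∈ A

namespace JumpCtx

variable {X J} (C : X.JumpCtx J)

/-- `θ ≡ lam` modulo `ϖ ^ β` on both components. -/
def Cong (β : ℕ) (lam : A) : Prop :=
  (lam : K) ∈ R.L ∧ π lam = 1 ∧ ∀ l, R.GeL l β (C.θ - R.cst 0 lam)

theorem cong_one : C.Cong 1 1 := by
  refine ⟨one_mem _, map_one π, fun l => ?_⟩
  obtain ⟨h1, h2⟩ := R.geL_cst l 0 1
  have h3 : R.GeL l 0 C.θ := (R.geL_zero_iff l _).mpr (C.triv.int l)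
  have h4 : R.lev l 0 (C.θ - R.cst 0 1) = 0 := by
    rw [R.lev_sub h3 h1, h2, R.lev_zero, C.triv.red, map_one, map_one, sub_self]
  exact R.geL_succ (sub_mem (R.BL_le C.triv.mem) (R.BL_le (R.cst_mem (one_mem _)))) (h3.sub h1) h4

/-- The comparison of `θ σ z` with `lam z`. -/
def twist (lam : A) (z : F) : F := C.θ * C.fy * (J.s.σ • z) - R.cst 0 lam * z

theorem twist_mem {lam : A} (hlam : (lam : K) ∈ R.L) {z : F} (hz : z ∈ R.BL) :
    C.twist lam z ∈ R.BL :=
  sub_mem (mul_mem (mul_mem C.triv.mem C.fy_mem) (J.smul_mem _ hz)) (mul_mem (R.cst_mem hlam) hz)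

theorem twist_mem_W (lam : A) :
    ∃ m' : ℕ, ∀ (M : ℕ) (z : F), z ∈ X.W M → C.twist lam z ∈ X.W (M + m') := by
  obtain ⟨m', hm'⟩ := C.triv.exists_bound
  refine ⟨m', fun M z hz => sub_mem ?_ ?_⟩
  · have h := FLTA.Curves.mul_mem_riemannRochSpace
      (FLTA.Curves.mul_mem_riemannRochSpace hm' C.kummer.mem) (smul_mem_rr J.s.σ hz)
    have hsm : ∀ n : ℤ, J.s.σ • (n • X.D) = n • (J.s.σ • X.D) := fun n =>
      (DistribSMul.toAddMonoidHom (Divisor K F) J.s.σ).map_zsmul n X.D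
    have e : X.D - J.s.σ • X.D + B.cuspDiv m' + -((q : ℤ) • (X.D - J.s.σ • X.D)) +
        J.s.σ • X.twDiv M = X.twDiv (M + m') := by
      rw [twDiv, twDiv, smul_sub J.s.σ, RatFrame.smul_cuspDiv, hsm, BadFibre.cuspDiv_add,
        smul_sub (q : ℤ), sub_smul (q : ℤ) 1 X.D, sub_smul (q : ℤ) 1 (J.s.σ • X.D), one_smul,
        one_smul]
      abel
    rwa [e] at h
  · rw [RatFrame.cst, ← Algebra.smul_def]
    exact Submodule.smul_mem _ _ (X.W_mono (Nat.le_add_right M m') hz)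

include C in
/-- The Kummer function of the moved class is `1` to level `i + 1`. -/
theorem geL_fy (l : Fin 2) : R.GeL l (J.i + 1) (C.fy - 1) := by
  obtain ⟨v, hv, hve⟩ := C.top.exists_inverse l
  have hge : R.GeL l 0 X.f := (R.geL_zero_iff l _).mpr (C.top.int l)
  have hx : R.GeL l 0 (C.fy / X.f) := by
    rw [R.geL_zero_iff]
    have e : B.e l (C.fy / X.f) = B.e l C.fy * v := by
      rw [map_div₀, div_eq_iff ((map_ne_zero (B.e l)).mpr X.f_ne_zero), mul_assoc, mul_comm v, hve,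
        mul_one]
    rw [e]
    exact (C.fy_int l).mul hv
  have h := (R.geL_cst l 0 1).1
  have h1 : R.GeL l (J.i + 1) (X.f - J.s.σ • X.f) := by
    have h2 := ((R.geL_cst l ((J.i : ℤ) + 1) 1).1).sub ((R.geL_cst l ((J.i : ℤ) + 1) 1).1)
    have h3 := h2.sub (J.geL_move (R.BL_le X.mem) hge)
    rwa [sub_self, zero_sub, neg_sub] at h3
  have h4 := hx.mul h1
  rw [zero_add] at h4
  have e : C.fy / X.f * (X.f - J.s.σ • X.f) = C.fy - 1 := by
    rw [mul_sub, div_mul_cancel₀ _ X.f_ne_zero, div_mul_eq_mul_div, C.prod, div_self X.f_ne_zero]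
  rwa [e] at h4

open Classical in
/-- **The reduction of the comparison.** -/
theorem lev_twist {β : ℕ} {lam : A} (hC : C.Cong β lam) (hβ : β ≤ J.i) (l : Fin 2) {c : ℤ} {z : F}
    (hzB : z ∈ R.BL) (hz : R.GeL l c z) :
    R.GeL l (c + β) (C.twist lam z) ∧ R.lev l (c + β) (C.twist lam z) =
      (R.lev l β (C.θ - R.cst 0 lam) +
        HahnSeries.C (if β = J.i then (c : k) * π J.τ else 0)) * R.lev l c z := by
  obtain ⟨hlamL, hlam1, hd⟩ := hC
  obtain ⟨hσ, hmove, hlev⟩ := J.geL_smul_of_geL hzB hz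
  have hfy : R.GeL l 0 C.fy := (R.geL_zero_iff l _).mpr (C.fy_int l)
  have e : C.twist lam z = (C.θ - R.cst 0 lam) * (C.fy * (J.s.σ • z)) +
      R.cst 0 lam * ((C.fy - 1) * (J.s.σ • z) + (J.s.σ • z - z)) := by
    rw [twist]; ring
  have h1 := hfy.mul hσ
  rw [zero_add] at h1
  have hσlev : R.lev l c (J.s.σ • z) = R.lev l c z := by
    have h : R.lev l c (J.s.σ • z - z) = 0 :=
      R.lev_eq_zero hmove (by have := J.i_pos; omega)
    rwa [R.lev_sub hσ hz, sub_eq_zero] at h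
  have h1' : R.lev l c (C.fy * (J.s.σ • z)) = R.lev l c z := by
    have h := R.lev_mul hfy hσ
    rw [zero_add] at h
    rw [h, R.lev_zero, C.fy_red, one_mul, hσlev]
  have hA := (hd l).mul h1
  have hA' := R.lev_mul (hd l) h1
  have hB := (C.geL_fy l).mul hσ
  have hin := ((hB.mono (m := c + J.i) (by omega)).add hmove)
  have hlin : R.lev l (c + J.i) ((C.fy - 1) * (J.s.σ • z) + (J.s.σ • z - z)) =
      HahnSeries.C ((c : k) * π J.τ) * R.lev l c z := by
    rw [R.lev_add (hB.mono (by omega)) hmove, R.lev_eq_zero hB (by omega), zero_add, hlev]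
  obtain ⟨hc1, hc2⟩ := R.geL_cst l 0 lam
  have hBB := hc1.mul hin
  rw [zero_add] at hBB
  rw [add_comm (β : ℤ) c] at hA hA'
  have hBβ := hBB.mono (m := c + β) (by omega)
  refine ⟨e ▸ hA.add hBβ, ?_⟩
  rw [e, R.lev_add hA hBβ, hA', h1', add_mul]
  congr 1
  split_ifs with h
  · subst h
    have h' := R.lev_mul hc1 hin
    rw [zero_add] at h'
    rw [h', hc2, hlam1, map_one, one_mul, hlin]
  · rw [map_zero, zero_mul]
    exact R.lev_eq_zero hBB (by omega)

variable {S : Finset (Place k Fk)} {m₀ : ℕ} (hS : B.IsGluing S m₀) (E : EtaData R S)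
  (hne : S.Nonempty)

include hS E hne in
/-- An element of exact order at a place other than the cusp, on either component. -/
theorem exists_exact_img {v : Place k Fk} (hv : v ≠ B.infk) (l : Fin 2) :
    ∃ (M : ℕ) (a : Fin 2 → Fk), m₀ ≤ q * M ∧ a ∈ X.img M ∧ a l ≠ 0 ∧
      v.ord (a l) = -X.flr l v := by
  classical
  obtain ⟨M₀, hM⟩ := X.exists_big S (2 * g + 1)
  set M := M₀ + m₀ + gF
  have hMq : m₀ ≤ q * M := le_trans (by omega) (Nat.le_mul_of_pos_left _ (NeZero.pos q))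
  have hdeg : ∀ i, 2 * (g : ℤ) + 1 ≤ Divisor.degree (X.compDiv S M i) := fun i => by
    have := hM M (by omega) i; push_cast at this ⊢; omega
  obtain ⟨hsur, hker⟩ := X.full hS E hne hMq (by omega) fun i => by have := hdeg i; omega
  have hfst : ∀ u : Place k Fk, u ≠ B.infk → ∃ a ∈ X.img M, a 0 ≠ 0 ∧ u.ord (a 0) = -X.flr 0 u := by
    intro u hu
    have hd : 2 * (g : ℤ) ≤ Divisor.degree (X.flr 0 + Finsupp.single B.infk (M : ℤ)) := by
      have h0 := hdeg 0
      rw [X.degree_compDiv] at h0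
      rw [map_add, Divisor.degree_single, B.rrk.deg_eq_one]
      push_cast
      omega
    obtain ⟨b, hb, hb0, hbo⟩ := FLTA.Curves.rrMult_exists_exact (g : ℤ) B.rrk.finiteDimensional
      B.rrk.finrank_eq B.rrk.deg_eq_one hd u
    obtain ⟨a, ha, ha0⟩ := hsur b hb
    exact ⟨a, ha, ha0 ▸ hb0, by rw [ha0, hbo, Finsupp.add_apply, Finsupp.single_eq_of_ne hu, add_zero]⟩
  rcases (by decide : ∀ l : Fin 2, l = 0 ∨ l = 1) l with rfl | rfl
  · obtain ⟨a, ha, h1, h2⟩ := hfst v hv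
    exact ⟨M, a, hMq, ha, h1, h2⟩
  rcases X.compDiv_apply hS M 1 v with ⟨-, h⟩ | ⟨Q, hQ, hQv, -, -⟩
  · obtain ⟨b, hb, hb0, hbo⟩ := FLTA.Curves.rrMult_exists_exact (g : ℤ) B.rrk.finiteDimensional
      B.rrk.finrank_eq B.rrk.deg_eq_one (D := X.compDiv S M 1) (by have := hdeg 1; omega) v
    obtain ⟨a, ha, -, ha1⟩ := hker b hb
    exact ⟨M, a, hMq, ha, ha1 ▸ hb0,
      by rw [ha1, hbo, h, Finsupp.single_eq_of_ne hv, add_zero]⟩
  have ht : Q ∈ X.tame S := by
    rw [cut, if_neg (by decide), Finset.mem_filter] at hQ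
    exact hQ.1
  obtain ⟨hQS, hr0, hr1⟩ := (X.mem_tame_iff hS E hne).mp ht
  have hQk : Q ≠ B.infk := fun h => hS.infk_notMem (h ▸ hQS)
  obtain ⟨a, ha, ha0, hao⟩ := hfst Q hQk
  have hc := (hS.mem_iff _ hMq _).mp (X.pow_mul_mem ha)
  have hord : ∀ (i : Fin 2) (u : Place k Fk), a i ≠ 0 →
      u.ord ((a ^ q * X.fb) i) = q * u.ord (a i) + X.o i u := fun i u h => by
    rw [Pi.mul_apply, Pi.pow_apply, Place.ord_mul _ (pow_ne_zero _ h) (X.fb_ne_zero i),
      FLTA.Curves.ord_pow]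
    rfl
  have hz0 : Q.ord ((a ^ q * X.fb) 0) = 0 := by
    rw [hord 0 Q ha0, hao, flr_apply]
    have := Int.emod_add_mul_ediv (X.o 0 Q) q
    rw [show X.o 0 Q % (q : ℤ) = 0 from hr0] at this
    linarith
  have hval : BadFibre.placeVal Q ((a ^ q * X.fb) 0) ≠ 0 := fun h => by
    rw [BadFibre.placeVal_eq_zero_iff (B.rrk.deg_eq_one _)
      (BadFibre.mem_of_mem_single (hc.1 0) hQk)] at h
    rcases h with h | h
    · exact mul_ne_zero (pow_ne_zero _ ha0) (X.fb_ne_zero 0) h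
    · exact h.ne' hz0
  have hQv' : B.frobq • Q = v := hQv
  rw [hc.2 Q hQS, hQv', ne_eq, BadFibre.placeVal_eq_zero_iff (B.rrk.deg_eq_one _)
    (BadFibre.mem_of_mem_single (hc.1 1) hv), not_or, not_lt] at hval
  have ha1 : a 1 ≠ 0 := fun h => hval.1 (by
    rw [Pi.mul_apply, Pi.pow_apply, h, zero_pow (NeZero.ne q), zero_mul])
  have hnn : 0 ≤ v.ord ((a ^ q * X.fb) 1) :=
    FLTA.Curves.ord_nonneg_of_mem v (BadFibre.mem_of_mem_single (hc.1 1) hv)
  have he : v.ord ((a ^ q * X.fb) 1) = 0 := le_antisymm hval.2 hnn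
  rw [hord 1 v ha1] at he
  refine ⟨M, a, hMq, ha, ha1, ?_⟩
  rw [flr_apply, show X.o 1 v = (q : ℤ) * -v.ord (a 1) by linarith,
    Int.mul_ediv_cancel_left _ (by exact_mod_cast NeZero.ne q), neg_neg]

include hS E hne in
/-- At a level below the jump, `θ` is one scalar on each component. -/
theorem exists_scalars {β : ℕ} {lam : A} (hC : C.Cong β lam) (hβ : β ≤ J.i) :
    ∃ gs : Fin 2 → k, (∀ l, R.lev l β (C.θ - R.cst 0 lam) = HahnSeries.C (gs l)) ∧
      ((∃ Q, Q ∈ X.tame S) → gs 0 = gs 1) := by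
  classical
  have hd0 : (if β = J.i then ((0 : ℤ) : k) * π J.τ else 0) = 0 := by simp
  obtain ⟨m', hm'⟩ := C.twist_mem_W lam
  -- the scaled comparison of a twisted section
  have key : ∀ (M : ℕ) (z : F), z ∈ X.W M → z ∈ R.BL → ∀ p : Fin 2 → LaurentSeries k,
      (∀ l, R.GeL l 0 z ∧ R.lev l 0 z = p l) →
      ∃ r : Fin 2 → Fk, r ∈ redOf B (X.W (M + m')) ∧
        ∀ l, B.exk (r l) = R.lev l β (C.θ - R.cst 0 lam) * p l := by
    intro M z hzW hzB p hp
    set y := R.cst (-(β : ℤ)) 1 * C.twist lam z with hy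
    have h : ∀ l, R.GeL l 0 y ∧
        R.lev l 0 y = R.lev l β (C.θ - R.cst 0 lam) * p l := fun l => by
      obtain ⟨h1, h2⟩ := C.lev_twist hC hβ l hzB (hp l).1
      rw [hd0, map_zero, add_zero, zero_add] at h2
      rw [zero_add] at h1
      obtain ⟨h3, h4⟩ := R.geL_cst l (-(β : ℤ)) 1
      have h5 := h3.mul h1
      have h6 := R.lev_mul h3 h1
      rw [neg_add_cancel] at h5 h6
      exact ⟨h5, by rw [hy, h6, h4, map_one, map_one, one_mul, h2, (hp l).2]⟩
    obtain ⟨r, hr⟩ := B.exists_isRed (G := y) fun l => (R.geL_zero_iff l y).mp (h l).1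
    refine ⟨r, ⟨y, ?_, hr⟩, fun l => by rw [hr.2 l, ← R.lev_zero, (h l).2]⟩
    rw [hy, RatFrame.cst, ← Algebra.smul_def]
    exact Submodule.smul_mem _ _ (hm' M z hzW)
  obtain ⟨b, hb⟩ := X.bound
  have hfW : X.f ∈ X.W b := by
    show X.f ∈ riemannRochSpace (X.twDiv b)
    rw [mem_riemannRochSpace_iff]
    intro v
    refine Or.inr ?_
    have := Finsupp.le_def.mp hb v
    rw [Finsupp.neg_apply] at this
    rw [twDiv, Finsupp.sub_apply, Finsupp.smul_apply, smul_eq_mul, ← X.kummer.ord_eq, sub_mul]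
    omega
  have hf : ∀ l, R.GeL l 0 X.f ∧ R.lev l 0 X.f = B.exk (X.fb l) := fun l => by
    refine ⟨(R.geL_zero_iff l _).mpr (C.top.int l), ?_⟩
    rw [fb, R.exk_ld_eq_lev l X.mem X.f_ne_zero, X.vs_f]
  obtain ⟨r, -, hr⟩ := key b X.f hfW X.mem _ hf
  set γ : Fin 2 → Fk := fun l => r l / X.fb l with hγ
  have hδ : ∀ l, R.lev l β (C.θ - R.cst 0 lam) = B.exk (γ l) := fun l => by
    rw [hγ, map_div₀, hr, mul_div_assoc, div_self ((map_ne_zero B.exk).mpr (X.fb_ne_zero l)),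
      mul_one]
  have hmul : ∀ (M : ℕ) (a : Fin 2 → Fk), a ∈ X.img M → γ * a ∈ X.img (M + m') := by
    intro M a ha
    obtain ⟨z₀, hz₀, hp₀⟩ := X.mem_img.mp ha
    obtain ⟨z, hzW, hzB, hp⟩ := X.exists_rat_W hz₀ hp₀
    obtain ⟨r', hr', hr''⟩ := key M z hzW hzB (fun l => B.exk ((a * X.fb) l)) fun l =>
      ⟨(R.geL_zero_iff l z).mpr (hp.1 l), by rw [R.lev_zero, hp.2 l]⟩
    show γ * a * X.fb ∈ redOf B (X.W (M + m'))
    convert hr' using 1
    funext l
    apply B.exk.toRingHom.injective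
    show B.exk _ = B.exk _
    rw [hr'', hδ, ← map_mul, Pi.mul_apply, Pi.mul_apply, Pi.mul_apply, mul_assoc]
  have hreg : ∀ l (v : Place k Fk), 0 ≤ v.ord (γ l) := by
    intro l v
    by_cases hv : v = B.infk
    · subst hv
      rcases eq_or_ne (γ l) 0 with h | h
      · rw [h, Place.ord_zero]
      rw [B.ord_infk _ h, ← hδ]
      refine (HahnSeries.le_order_iff_forall (by rw [hδ]; exact (map_ne_zero B.exk).mpr h)).mpr
        fun j hj => ?_
      have hc : (B.e l (C.θ - R.cst 0 lam)).coeff j = (B.e l C.θ).coeff j := by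
        rw [map_sub, HahnSeries.coeff_sub, RatFrame.cst, RatFrame.e_algebraMap, HahnSeries.C_apply,
          HahnSeries.coeff_single_of_ne hj.ne, sub_zero]
      set α : A := ⟨_, C.polar l j hj⟩ with hα
      have e1 : (R.ϖ ^ (-(β : ℤ)) • B.e l (C.θ - R.cst 0 lam)).coeff j =
          ((⟨R.ϖ, R.ϖ_mem_A⟩ ^ (J.i + 1 - β) * α : A) : K) := by
        rw [HahnSeries.coeff_smul, hc, smul_eq_mul, MulMemClass.coe_mul, SubmonoidClass.coe_pow,
          hα]
        show R.ϖ ^ (-(β : ℤ)) * _ = R.ϖ ^ (J.i + 1 - β) * ((B.e l C.θ).coeff j / R.ϖ ^ (J.i + 1))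
        have hs : R.ϖ ^ (J.i + 1) = R.ϖ ^ (J.i + 1 - β) * R.ϖ ^ β := by
          rw [← pow_add]; congr 1; omega
        rw [zpow_neg, zpow_natCast, hs]
        field_simp [R.ϖ_ne_zero]
      rw [RatFrame.lev, redSeries_coeff, e1, redCoeff_coe, map_mul, map_pow, R.π_ϖ,
        zero_pow (by omega), zero_mul]
    · rcases eq_or_ne (γ l) 0 with h | h
      · rw [h, Place.ord_zero]
      obtain ⟨M, a, hMq, ha, hal, hao⟩ := exists_exact_img hS E hne (X := X) hv l
      have h1 := (X.ord_img hS (le_trans hMq (Nat.mul_le_mul le_rfl (Nat.le_add_right M m')))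
        (hmul M a ha) l (mul_ne_zero h hal) v).1
      rw [Pi.mul_apply, Place.ord_mul _ h hal, hao, Finsupp.single_eq_of_ne hv, add_zero] at h1
      omega
  choose gs hgs using fun l => eq_algebraMap_of_ord_nonneg B (hreg l)
  refine ⟨gs, fun l => ?_, fun ⟨Q, hQ⟩ => ?_⟩
  · rw [hδ, hgs, AlgHom.commutes, ModularCurve.algebraMap_laurentSeries_eq_single]
    rfl
  obtain ⟨hQS, hr0, -⟩ := (X.mem_tame_iff hS E hne).mp hQ
  have hQk : Q ≠ B.infk := fun h => hS.infk_notMem (h ▸ hQS)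
  obtain ⟨M, a, hMq, ha, ha0, hao⟩ := exists_exact_img hS E hne (X := X) hQk 0
  have hMq' : m₀ ≤ q * (M + m') := le_trans hMq (Nat.mul_le_mul le_rfl (Nat.le_add_right M m'))
  have hc := (hS.mem_iff _ hMq _).mp (X.pow_mul_mem ha)
  have hc' := ((hS.mem_iff _ hMq' _).mp (X.pow_mul_mem (hmul M a ha))).2 Q hQS
  have e : ∀ l, ((γ * a) ^ q * X.fb) l = (gs l) ^ q • ((a ^ q * X.fb) l) := fun l => by
    simp only [Pi.mul_apply, Pi.pow_apply, hgs, mul_pow, Algebra.smul_def, map_pow, mul_assoc]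
  have hQ1 : B.frobq • Q ≠ B.infk := hS.smul_ne Q hQS
  rw [e, e, BadFibre.placeVal_smul (B.rrk.deg_eq_one _) _ (BadFibre.mem_of_mem_single (hc.1 0) hQk),
    BadFibre.placeVal_smul (B.rrk.deg_eq_one _) _ (BadFibre.mem_of_mem_single (hc.1 1) hQ1),
    ← hc.2 Q hQS] at hc'
  refine frobenius_inj k q (mul_right_cancel₀ ?_ hc')
  rw [ne_eq, BadFibre.placeVal_eq_zero_iff (B.rrk.deg_eq_one _)
    (BadFibre.mem_of_mem_single (hc.1 0) hQk), not_or, not_lt]
  refine ⟨mul_ne_zero (pow_ne_zero _ ha0) (X.fb_ne_zero 0), le_of_eq ?_⟩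
  rw [Pi.mul_apply, Pi.pow_apply, Place.ord_mul _ (pow_ne_zero _ ha0) (X.fb_ne_zero 0),
    FLTA.Curves.ord_pow, hao, flr_apply]
  have h2 := Int.emod_add_mul_ediv (X.o 0 Q) q
  rw [show X.o 0 Q % (q : ℤ) = 0 from hr0] at h2
  show (q : ℤ) * _ + X.o 0 Q = 0
  linarith

include hS hne in
/-- **The relation at a bad pair.** -/
theorem scalar_rel {β : ℕ} {lam : A} (hC : C.Cong β lam) (hβ : β ≤ J.i) {gs : Fin 2 → k}
    (hgs : ∀ l, R.lev l β (C.θ - R.cst 0 lam) = HahnSeries.C (gs l)) {Q : Place k Fk}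
    (hQ : Q ∈ X.bad S) (N : X.NodeElt E Q) :
    gs 0 + (if β = J.i then (N.c : k) * π J.τ else 0) = gs 1 := by
  classical
  by_contra hκ
  obtain ⟨hQS, -, -⟩ := X.mem_bad.mp hQ
  obtain ⟨G1, hG1L, hG1⟩ := R.exists_lift (gs 1)
  obtain ⟨m', hm'⟩ := C.twist_mem_W lam
  have hz0 : R.GeL 0 N.c N.z := by
    have := R.geL_vs 0 N.mem N.ne_zero; rwa [N.vs_zero] at this
  have hz1 : R.GeL 1 0 N.z := by
    have := R.geL_vs 1 N.mem N.ne_zero; rwa [N.vs_one] at this
  set κ := gs 0 + (if β = J.i then (N.c : k) * π J.τ else 0) - gs 1 with hκdef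
  have hκ0 : κ ≠ 0 := sub_ne_zero.mpr hκ
  set w := C.twist lam N.z - R.cst β G1 * N.z with hw
  have hwB : w ∈ R.BL := sub_mem (C.twist_mem hC.1 N.mem) (mul_mem (R.cst_mem hG1L) N.mem)
  have hwW : w ∈ X.W (N.M + m') := sub_mem (hm' _ _ N.mem_W) (by
    rw [RatFrame.cst, ← Algebra.smul_def]
    exact Submodule.smul_mem _ _ (X.W_mono (Nat.le_add_right _ _) N.mem_W))
  obtain ⟨ha0, hb0⟩ := C.lev_twist hC hβ 0 N.mem hz0
  obtain ⟨hc0, hd0⟩ := R.geL_cst 0 β G1
  have he0 := hc0.mul hz0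
  have hf0 := R.lev_mul hc0 hz0
  rw [add_comm (β : ℤ) N.c] at he0 hf0
  have hlev0 : R.lev 0 (N.c + β) w = HahnSeries.C κ * R.lev 0 N.c N.z := by
    rw [hw, R.lev_sub ha0 he0, hb0, hf0, hd0, hgs, hG1, ← sub_mul, ← map_add, ← map_sub]
  have hzlev : R.lev 0 N.c N.z = B.exk (R.ld 0 N.z) := by
    rw [R.exk_ld_eq_lev 0 N.mem N.ne_zero, N.vs_zero]
  have hne0 : R.lev 0 (N.c + β) w ≠ 0 := by
    rw [hlev0, hzlev]
    exact mul_ne_zero ((map_ne_zero HahnSeries.C).mpr hκ0)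
      ((map_ne_zero B.exk).mpr (R.ld_ne_zero 0 N.mem N.ne_zero))
  obtain ⟨hw0, hvw, hlw⟩ := R.vs_of_lev hwB (ha0.sub he0) hne0
  have hld : R.ld 0 w = κ • R.ld 0 N.z := by
    apply B.exk.toRingHom.injective
    show B.exk _ = B.exk _
    rw [hlw, hlev0, hzlev, Algebra.smul_def, map_mul, AlgHom.commutes,
      ModularCurve.algebraMap_laurentSeries_eq_single]
    rfl
  obtain ⟨ha1, hb1⟩ := C.lev_twist hC hβ 1 N.mem hz1
  obtain ⟨hc1, hd1⟩ := R.geL_cst 1 β G1
  have he1 := hc1.mul hz1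
  have hf1 := R.lev_mul hc1 hz1
  rw [zero_add] at ha1 hb1
  rw [add_zero] at he1 hf1
  have hlev1 : R.lev 1 β w = 0 := by
    rw [hw, R.lev_sub ha1 he1, hb1, hf1, hd1, hgs, hG1, Int.cast_zero, zero_mul, ite_self, map_zero,
      add_zero, sub_self]
  have hv1 : (β : ℤ) + 1 ≤ R.vs 1 w :=
    (R.ge_iff_le_vs 1 hwB hw0).mp (R.geL_succ (R.BL_le hwB) (ha1.sub he1) hlev1)
  obtain ⟨y, hy0, -, hym, hyB, hvy, hly⟩ := X.powDiv_spec hwW hwB hw0
  have h := E.localIneq hS hQS (i := 0) (j := 1) (by decide) hyB hy0 ⟨_, hym⟩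
  rw [hvy, hvy, hvw, ← X.twOrd_eq hwB hw0 hyB hy0 0 (hly 0), pt_zero] at h
  have htw : X.twOrd w 0 Q = X.twOrd N.z 0 Q := by
    rw [twOrd, twOrd, hld, Algebra.smul_def, Place.ord_mul _ ((map_ne_zero _).mpr hκ0)
      (R.ld_ne_zero 0 N.mem N.ne_zero), FLTA.Curves.ord_algebraMap, zero_add]
  have hsum := X.res_add hS E hne hQ
  have hd := E.d_pos hS hQS
  have he : (0 : ℤ) ≤ 12 * E.e := by positivity
  have h3 := mul_le_mul_of_nonneg_left N.ord_zero he
  have h4 := N.eq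
  have hq : (0 : ℤ) < q := Int.natCast_pos.mpr (NeZero.pos q)
  have h5 : 0 < E.d Q * (q * (R.vs 1 w - β)) :=
    mul_pos hd (mul_pos hq (by omega))
  rw [htw] at h
  have h6 : X.res 0 Q - q = -X.res 1 (B.frobq • Q) := by omega
  rw [h6] at h3
  linarith

end JumpCtx

end Datum

end FLTA.LevelLowering

end
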