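import Fermat.Agent.LevelLowering.RemovalClear

/-!
# Removing polar parts of a trivialisation of a class killed by `q`

`fy` is a Kummer function of a class with series units reducing to `1`, `θ₀` a rational section of
the twisted space reducing to `1`.  If the jump `i` is smaller than `q` and `q` divides the
ramification index, then `θ₀` may be changed so that its polar parts at both cusps vanish modulo
`ϖ ^ (i + 1)`.
-/

set_option autoImplicit false

noncomputable section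

open AlgebraicCurve FLTA.BadRed

namespace FLTA.LevelLowering

variable {K : Type*} [Field K] [IsAlgClosed K] [CharZero K] {A : ValuationSubring K}
  {k : Type*} [Field k] [IsAlgClosed k] {π : A →+* k}
  {q : ℕ} [NeZero q] [Fact q.Prime] [CharP k q]
  {F : Type*} [Field F] [Algebra K F] {F' : Type*} [Field F'] [Algebra K F']
  {Fk : Type*} [Field Fk] [Algebra k Fk] {g gF : ℕ} {B : BadFibre A π q F F' Fk g gF}

/-- A section of the twisted space of `Dy` with integral expansions reducing to `1`. -/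
structure IsTrivialisation (R : RatFrame B) (Dy : Divisor K F) (θ : F) : Prop where
  exists_bound : ∃ m : ℕ, θ ∈ riemannRochSpace (Dy + B.cuspDiv m)
  mem : θ ∈ R.BL
  int : ∀ l, IntSeries A (B.e l θ)
  red : ∀ l, redSeries A π (B.e l θ) = 1

namespace Removal

omit [IsAlgClosed K] [CharZero K] [IsAlgClosed k] [Fact q.Prime] [CharP k q] in
theorem coefS_of_BL {R : RatFrame B} {x : F} (hx : x ∈ R.BL) {t : Ser A}
    (ht : emb A t = pairHom B x) : t ∈ coefS R.L := fun l i => by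
  have h := R.inL_e l (R.BL_le hx) i
  rwa [← pairHom_apply, ← ht, emb_coeff] at h

omit [IsAlgClosed K] [CharZero K] [IsAlgClosed k] [Fact q.Prime] [CharP k q] in
theorem exists_emb_eq {x : F} (hint : ∀ l, IntSeries A (B.e l x)) :
    ∃ t : Ser A, emb A t = pairHom B x := by
  choose t ht using fun l => exists_coeffMap_eq (hint l)
  exact ⟨t, funext ht⟩

omit [IsAlgClosed K] [CharZero K] [IsAlgClosed k] [Fact q.Prime] [CharP k q] in
theorem red2_eq_one {x : F} (hred : ∀ l, redSeries A π (B.e l x) = 1) {t : Ser A}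
    (ht : emb A t = pairHom B x) : red2 π t = 1 :=
  funext fun l => by rw [← redSeries_emb, ht, pairHom_apply]; exact hred l

/-- `θ` times a pair of power series is `1` modulo `ϖ ^ i`. -/
def IsFree (R : RatFrame B) (Dy : Divisor K F) (i : ℕ) (θ : F) : Prop :=
  IsTrivialisation R Dy θ ∧ ∃ t ρ : Ser A, emb A t = pairHom B θ ∧ ρ ∈ powS A ∧
    ρ ∈ coefS R.L ∧ red2 π ρ = 1 ∧ pw R.toFrame ^ i ∣ t * ρ - 1

omit [IsAlgClosed K] [CharZero K] [IsAlgClosed k] [Fact q.Prime] [CharP k q] in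
theorem isFree_one {R : RatFrame B} {Dy : Divisor K F} {θ : F} (hθ : IsTrivialisation R Dy θ) :
    IsFree R Dy 1 θ := by
  obtain ⟨t, ht⟩ := exists_emb_eq hθ.int
  refine ⟨hθ, t, 1, ht, one_mem _, one_mem _, map_one _, ?_⟩
  rw [mul_one, pow_one]
  exact pw_dvd_of_red2 R.toFrame (sub_mem (coefS_of_BL hθ.mem ht) (one_mem _))
    (by rw [map_sub, red2_eq_one hθ.red ht, map_one, sub_self])

omit [IsAlgClosed K] [CharZero K] [IsAlgClosed k] [Fact q.Prime] [CharP k q] in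
theorem polar_of_isFree {R : RatFrame B} {Dy : Divisor K F} {i : ℕ} {θ : F}
    (hθ : IsFree R Dy i θ) (l : Fin 2) {j : ℤ} (hj : j < 0) :
    (B.e l θ).coeff j / R.ϖ ^ i ∈ A := by
  obtain ⟨-, t, ρ, ht, hρ, hρL, hρ1, c, hc⟩ := hθ
  have hdvd : pw R.toFrame ^ i ∣ (1 - ρ) ^ i := pow_dvd_pow_of_dvd
    (pw_dvd_of_red2 R.toFrame (sub_mem (one_mem _) hρL) (by rw [map_sub, hρ1, map_one, sub_self])) i
  obtain ⟨d, hd⟩ := hdvd
  set G := ∑ n ∈ Finset.range i, (1 - ρ) ^ n with hG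
  have hGP : G ∈ powS A := sum_mem fun n _ => pow_mem (sub_mem (one_mem _) hρ) n
  have hgeom : ρ * G = 1 - (1 - ρ) ^ i := by
    rw [hG, ← mul_neg_geom_sum, sub_sub_cancel]
  have hteq : t = G + pw R.toFrame ^ i * (t * d + c * G) := by
    linear_combination G * hc - t * hgeom + t * hd
  rw [← pairHom_apply, ← ht, emb_coeff, hteq, Pi.add_apply, HahnSeries.coeff_add, hGP l j hj,
    zero_add, coeff_pw_pow_mul, mul_div_cancel_left₀ _ (pow_ne_zero i R.ϖ_ne_zero)]
  exact SetLike.coe_mem _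

omit [IsAlgClosed K] [IsAlgClosed k] [CharP k q] in
/-- One step. -/
theorem isFree_succ {R R₀ : RatFrame B} (hsub : ∀ s ∈ R.H, s ∈ R₀.H)
    (hpw₀ : pw R₀.toFrame = (q : Ser A)) {e : ℕ} {u : A} (hu : π u ≠ 0) (huL : (u : K) ∈ R.L)
    (hqe : (q : Ser A) = pw R.toFrame ^ e * cst u) (hdvd : q ∣ e)
    {S : Finset (Place k Fk)} {m₀ : ℕ} (hS : B.IsGluing S m₀) (hne : S.Nonempty)
    {Dy : Divisor K F} {fy : F} (hfy : BadFibre.KummerFn q Dy fy) (hfyR : fy ∈ R.BL)
    (hfyint : ∀ l, IntSeries A (B.e l fy)) (hfyneg : ∀ l, ∀ j < (0 : ℤ), (B.e l fy).coeff j = 0)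
    (hfyred : ∀ l, redSeries A π (B.e l fy) = 1) {i₀ : ℕ} (h1 : 1 ≤ i₀) (hi : i₀ < q) {θ : F}
    (hθ : IsFree R Dy i₀ θ) : ∃ θ', IsFree R Dy (i₀ + 1) θ' := by
  obtain ⟨hθ, t, ρ, ht, hρ, hρL, hρ1, ε, hε⟩ := hθ
  set P := pw R.toFrame with hP
  set M := e + i₀ + 1 with hM
  obtain ⟨f, hf⟩ := exists_emb_eq hfyint
  have hfP : f ∈ powS A := fun l j hj => Subtype.ext (by
    rw [← emb_coeff, hf, pairHom_apply, hfyneg l j hj]
    rfl)
  have hf1 : red2 π f = 1 := red2_eq_one hfyred hf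
  have htL := coefS_of_BL hθ.mem ht
  have ht1 := red2_eq_one hθ.red ht
  have hεL : ε ∈ coefS R.L := coefS_of_pw_mul R.toFrame (n := i₀)
    (hε ▸ sub_mem (mul_mem htL hρL) (one_mem _))
  obtain ⟨m, hm⟩ := hθ.exists_bound
  have hz₀ : t ^ q * f ∈ secS R := by
    refine mem_secS.mpr ⟨θ ^ q * fy,
      ⟨mul_mem (pow_mem (R.BL_le hθ.mem) q) (R.BL_le hfyR), q * m, ?_⟩,
      by rw [map_mul, map_mul, map_pow, map_pow, ht, hf]⟩
    have h := FLTA.Curves.mul_mem_riemannRochSpace (BadFibre.pow_mem_riemannRochSpace hm q) hfy.mem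
    rwa [smul_add, BadFibre.natCast_smul_cuspDiv, add_comm ((q : ℤ) • Dy), add_neg_cancel_right] at h
  obtain ⟨d, hd⟩ : P ^ M ∣ (1 - f) ^ M := pow_dvd_pow_of_dvd
    (pw_dvd_of_red2 R.toFrame (sub_mem (one_mem _) (coefS_of_BL hfyR hf))
      (by rw [map_sub, hf1, map_one, sub_self])) M
  set G := ∑ n ∈ Finset.range M, (1 - f) ^ n with hG
  have hgeom : f * G = 1 - (1 - f) ^ M := by
    rw [hG, ← mul_neg_geom_sum, sub_sub_cancel]
  have hsplit : IsSplit B (red2 π (cst u * ε)) := by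
    refine isSplit_of_pow hsub hpw₀ hqe hdvd hS hne h1 hi hεL hz₀
      (by rw [map_mul, map_pow, ht1, hf1, one_pow, one_mul])
      (v := ρ ^ q * G)
      (mul_mem (pow_mem hρ q) (sum_mem fun n _ => pow_mem (sub_mem (one_mem _) hfP) n))
      ⟨-((t * ρ) ^ q * d), ?_⟩
    rw [← hP, ← hM, show 1 + P ^ i₀ * ε = t * ρ by linear_combination -hε]
    linear_combination (t * ρ) ^ q * hgeom - (t * ρ) ^ q * hd
  obtain ⟨s, hs, p, hp, hpL, hsp⟩ := exists_split_lift R₀ hsplit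
  have hu0 : (u : K) ≠ 0 := fun h => hu (by rw [show u = 0 from Subtype.ext h, map_zero])
  set w : A := ⟨(u : K)⁻¹, residue_ne_zero_inv_mem R.π_surjective u.2 hu⟩ with hw
  have hwu : w * u = 1 := Subtype.ext (inv_mul_cancel₀ hu0)
  have hwL : (w : K) ∈ R.L := inv_mem huL
  have hsR : cst w * s ∈ secS R := mul_mem (cst_mem_secS hwL) (secS_mono hsub hs)
  have hpR : cst w * p ∈ coefS R.L :=
    mul_mem (cst_mem_coefS hwL) (coefS_mono (L_mono hsub) hpL)
  set y : Ser A := 1 - P ^ i₀ * (cst w * s) with hy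
  have hyS : y ∈ secS R := sub_mem (one_mem _) (mul_mem (pow_mem (pw_mem_secS R) i₀) hsR)
  obtain ⟨z, ⟨hzFL, hzsec⟩, hzy⟩ := mem_secS.mp hyS
  have ht' : emb A (t * y) = pairHom B (θ * z) := by rw [map_mul, map_mul, ht, hzy]
  have hy1 : red2 π y = 1 := by
    rw [hy, map_sub, map_one, map_mul, map_pow, hP, red2_pw, zero_pow (by omega), zero_mul,
      sub_zero]
  have htriv : IsTrivialisation R Dy (θ * z) := by
    refine ⟨?_, mul_mem hθ.mem (R.mem_BL_of_secRing hzFL hzsec), fun l j => ?_, fun l => ?_⟩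
    · obtain ⟨m', hm'⟩ := hzsec
      refine ⟨m + m', ?_⟩
      have h := FLTA.Curves.mul_mem_riemannRochSpace hm hm'
      rwa [add_assoc, ← BadFibre.cuspDiv_add] at h
    · rw [← pairHom_apply, ← ht', emb_coeff]
      exact SetLike.coe_mem _
    · rw [← pairHom_apply, ← ht', redSeries_emb, map_mul, ht1, hy1, one_mul]
      rfl
  refine ⟨θ * z, htriv, t * y, ρ * (1 - P ^ i₀ * (cst w * p)), ht',
    mul_mem hρ (sub_mem (one_mem _)
      (mul_mem (pow_mem (cst_mem_powS _) i₀) (mul_mem (cst_mem_powS w) hp))),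
    mul_mem hρL (sub_mem (one_mem _) (mul_mem (pow_mem (pw_mem_coefS R.toFrame) i₀) hpR)),
    by rw [map_mul, hρ1, one_mul, map_sub, map_one, map_mul, map_pow, hP, red2_pw,
      zero_pow (by omega), zero_mul, sub_zero], ?_⟩
  obtain ⟨x, hx⟩ := pw_dvd_of_red2 R.toFrame
    (sub_mem (sub_mem hεL (secS_le_coefS R hsR)) hpR) (by
      have hone : red2 π (cst w) * red2 π (cst u) = 1 := by
        rw [← map_mul, ← map_mul, hwu, map_one, map_one]
      rw [map_sub, map_sub, map_mul, map_mul, sub_sub, ← mul_add, hsp, map_mul, ← mul_assoc, hone,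
        one_mul, sub_self])
  have hPi : P ^ i₀ = P * P ^ (i₀ - 1) := by rw [← pow_succ']; congr 1; omega
  set X := cst w * s
  set Y := cst w * p
  refine ⟨x + P ^ (i₀ - 1) * (X * Y - ε * X - ε * Y + P ^ i₀ * (ε * X * Y)), ?_⟩
  rw [pow_succ]
  linear_combination (1 - P ^ i₀ * X) * (1 - P ^ i₀ * Y) * hε + P ^ i₀ * hx +
    P ^ i₀ * (X * Y - ε * X - ε * Y + P ^ i₀ * (ε * X * Y)) * hPi

end Removal

omit [IsAlgClosed K] [IsAlgClosed k] [CharP k q] in
/-- **Removal of polar parts.** -/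
theorem exists_polarFree {R R₀ : RatFrame B} (hsub : ∀ s ∈ R.H, s ∈ R₀.H)
    (hϖ₀ : R₀.ϖ = (q : K)) {e : ℕ} {u : A} (hu : π u ≠ 0) (huL : (u : K) ∈ R.L)
    (hqe : (q : K) = R.ϖ ^ e * u) (hdvd : q ∣ e)
    {S : Finset (Place k Fk)} {m₀ : ℕ} (hS : B.IsGluing S m₀) (hne : S.Nonempty)
    {Dy : Divisor K F} {fy : F} (hfy : BadFibre.KummerFn q Dy fy) (hfyR : fy ∈ R.BL)
    (hfyint : ∀ l, IntSeries A (B.e l fy)) (hfyneg : ∀ l, ∀ j < (0 : ℤ), (B.e l fy).coeff j = 0)
    (hfyred : ∀ l, redSeries A π (B.e l fy) = 1) {θ₀ : F} (hθ₀ : IsTrivialisation R Dy θ₀)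
    {i : ℕ} (hi : i < q) :
    ∃ θ : F, IsTrivialisation R Dy θ ∧
      ∀ l, ∀ j < (0 : ℤ), (B.e l θ).coeff j / R.ϖ ^ (i + 1) ∈ A := by
  have hcst : Removal.cst (q : A) = (q : Removal.Ser A) := map_natCast _ q
  have hpw₀ : Removal.pw R₀.toFrame = (q : Removal.Ser A) := by
    rw [← hcst]
    exact congrArg Removal.cst (Subtype.ext (by simpa using hϖ₀))
  have hqe' : (q : Removal.Ser A) = Removal.pw R.toFrame ^ e * Removal.cst u := by
    rw [← hcst, Removal.pw, ← map_pow, ← map_mul]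
    exact congrArg Removal.cst (Subtype.ext (by push_cast; exact hqe))
  have key : ∀ n, n ≤ i → ∃ θ, Removal.IsFree R Dy (n + 1) θ := by
    intro n
    induction n with
    | zero => exact fun _ => ⟨θ₀, Removal.isFree_one hθ₀⟩
    | succ n ih =>
      intro hn
      obtain ⟨θ, hθ⟩ := ih (by omega)
      exact Removal.isFree_succ hsub hpw₀ hu huL hqe' hdvd hS hne hfy hfyR hfyint hfyneg hfyred
        (Nat.le_add_left 1 n) (by omega) hθ
  obtain ⟨θ, hθ⟩ := key i le_rfl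
  exact ⟨θ, hθ.1, fun l j hj => Removal.polar_of_isFree hθ l hj⟩

end FLTA.LevelLowering

end
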