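import Fermat.Agent.LevelLowering.Residues
import Mathlib.RingTheory.HahnSeries.Summable

/-!
# Normalising a datum at the two cusps

A datum is equivalent, with the same residues, to one whose expansions at both cusps are
`t ^ (-q m)` times integral power series units; division by it preserves boundedness.
-/

set_option autoImplicit false

noncomputable section

open AlgebraicCurve FLTA.BadRed

namespace FLTA.LevelLowering

variable {K : Type*} [Field K] {A : ValuationSubring K}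
  {k : Type*} [Field k] {π : A →+* k} {q : ℕ} [NeZero q]
  {F : Type*} [Field F] [Algebra K F] {F' : Type*} [Field F'] [Algebra K F']
  {Fk : Type*} [Field Fk] [Algebra k Fk] {g gF : ℕ} {B : BadFibre A π q F F' Fk g gF}

/-- An integral series whose lowest coefficient is a unit has an integral inverse. -/
theorem exists_int_inverse (hπ : Function.Surjective π) {y : LaurentSeries K}
    (hy : IntSeries A y) {n : ℤ} (hlow : ∀ j < n, y.coeff j = 0)
    (hn : (redSeries A π y).coeff n ≠ 0) :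
    ∃ v : LaurentSeries K, IntSeries A v ∧ y * v = 1 := by
  obtain ⟨z, rfl⟩ := exists_coeffMap_eq hy
  rw [redSeries_coeffMap] at hn
  have hu : IsUnit (z.coeff n) := isUnit_of_residue_ne_zero hπ hn
  have hz : ∀ j < n, z.coeff j = 0 := fun j hj => Subtype.ext (hlow j hj)
  have hne : z ≠ 0 := fun h => hu.ne_zero (by rw [h]; rfl)
  have hord : z.order = n := le_antisymm (HahnSeries.order_le_of_coeff_ne_zero hu.ne_zero)
    (by
      by_contra hlt
      exact mt HahnSeries.coeff_order_eq_zero.mp hne (hz _ (not_le.mp hlt)))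
  have hlead : IsUnit z.leadingCoeff := by rwa [HahnSeries.leadingCoeff_eq, hord]
  obtain ⟨w, hw⟩ := (HahnSeries.isUnit_iff.mpr hlead).exists_right_inv
  exact ⟨ModularCurve.coeffMap A.subtype w, intSeries_coeffMap w, by rw [← map_mul, hw, map_one]⟩

namespace Datum

variable {R : RatFrame B} (X : Datum R)

/-- The expansions of `f` are `t ^ (-q m)` times integral units. -/
structure IsTop (m : ℕ) : Prop where
  int : ∀ i, IntSeries A (B.e i X.f)
  low : ∀ i, ∀ j < -((q * m : ℕ) : ℤ), (B.e i X.f).coeff j = 0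
  lead : ∀ i, (redSeries A π (B.e i X.f)).coeff (-((q * m : ℕ) : ℤ)) ≠ 0

variable {X} in
theorem IsTop.exists_inverse {m : ℕ} (h : X.IsTop m) (i : Fin 2) :
    ∃ v : LaurentSeries K, IntSeries A v ∧ B.e i X.f * v = 1 :=
  exists_int_inverse R.π_surjective (h.int i) (h.low i) (h.lead i)

variable {X} in
/-- Division by a normalised datum preserves boundedness. -/
theorem IsTop.div_mem {m : ℕ} (h : X.IsTop m) {z : F} (hz : z ∈ R.BL) : z / X.f ∈ R.BL := by
  refine ⟨_root_.div_mem (R.BL_le hz) (R.BL_le X.mem), fun i => ?_⟩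
  obtain ⟨c, hc, hint⟩ := hz.2 i
  obtain ⟨v, hv, hfv⟩ := h.exists_inverse i
  refine ⟨c, hc, ?_⟩
  have e : B.e i (z / X.f) = B.e i z * v := by
    rw [map_div₀, div_eq_iff ((map_ne_zero (B.e i)).mpr X.f_ne_zero), mul_assoc, mul_comm v, hfv,
      mul_one]
  rw [e, smul_eq_C_mul, ← mul_assoc, ← smul_eq_C_mul]
  exact IntSeries.mul hint hv

/-- The two data differ by a principal divisor and have congruent orders. -/
structure Similar (Y : Datum R) : Prop where
  principal : Y.D - X.D ∈ Divisor.principal (K := K) (F := F)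
  dvd : ∀ (i : Fin 2) (Q : Place k Fk), (q : ℤ) ∣ Q.ord (R.ld i Y.f) - Q.ord (R.ld i X.f)

variable [IsAlgClosed K] [CharZero K] [IsAlgClosed k] [Fact q.Prime] [CharP k q]
variable {S : Finset (Place k Fk)} {m₀ : ℕ}

theorem exists_exact {m : ℕ} {D : Divisor k Fk} (hD : 2 * (g : ℤ) ≤ Divisor.degree D)
    (hP : D B.infk = m) :
    ∃ b ∈ riemannRochSpace D, b ≠ 0 ∧ B.infk.ord b = -(m : ℤ) := by
  obtain ⟨b, hb, hb0, hbo⟩ := FLTA.Curves.rrMult_exists_exact (g : ℤ) B.rrk.finiteDimensional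
    B.rrk.finrank_eq B.rrk.deg_eq_one hD B.infk
  exact ⟨b, hb, hb0, by rw [hbo, hP]⟩

/-- **Normalisation at the cusps.** -/
theorem exists_top (hS : B.IsGluing S m₀) (E : EtaData R S) (hne : S.Nonempty) :
    ∃ (m : ℕ) (Y : Datum R), X.Similar Y ∧ Y.IsTop m := by
  classical
  have hres : ∀ i, X.res i B.infk = 0 := fun i =>
    X.res_eq_zero_of_notMem hS E hne fun Q hQ h => by
      have hQS := (X.mem_bad.mp hQ).1
      fin_cases i
      · exact hS.infk_notMem (h ▸ hQS)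
      · exact hS.smul_ne Q hQS h
  obtain ⟨M, hM⟩ := X.exists_big S (2 * g + 1)
  set m := M + m₀ + gF + (X.flr 0 B.infk).natAbs + (X.flr 1 B.infk).natAbs with hm
  have hmq : m₀ ≤ q * m := le_trans (by omega) (Nat.le_mul_of_pos_left _ (NeZero.pos q))
  have hdeg : ∀ i, 2 * (g : ℤ) + 1 ≤ Divisor.degree (X.compDiv S m i) := fun i => by
    have := hM m (by omega) i; push_cast at this ⊢; omega
  obtain ⟨hsur, hker⟩ := X.full hS E hne hmq (by omega) fun i => by have := hdeg i; omega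
  have htop : ∀ i, X.compDiv S m i B.infk = X.flr i B.infk + m := fun i => by
    rcases X.compDiv_apply hS m i B.infk with ⟨-, h⟩ | ⟨Q, -, -, hne', -⟩
    · rw [h, Finsupp.single_eq_same]
    · exact absurd rfl hne'
  have hexact : ∀ i, ∃ b ∈ riemannRochSpace (X.compDiv S m i), b ≠ 0 ∧
      B.infk.ord b = -(X.flr i B.infk + m) := fun i => by
    obtain ⟨N, hN⟩ : ∃ N : ℕ, X.flr i B.infk + (m : ℤ) = N :=
      Int.eq_ofNat_of_zero_le (by
        rcases (by decide : ∀ l : Fin 2, l = 0 ∨ l = 1) i with rfl | rfl <;> omega)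
    rw [hN]
    exact exists_exact (by have := hdeg i; omega) ((htop i).trans hN)
  obtain ⟨b₀, hb₀, hb₀0, hb₀o⟩ := hexact 0
  obtain ⟨b₁, hb₁, hb₁0, hb₁o⟩ := hexact 1
  have hcut : X.compDiv S m 0 ≤ X.flr 0 + Finsupp.single B.infk (m : ℤ) := by
    refine Finsupp.le_def.mpr fun v => ?_
    rcases X.compDiv_apply hS m 0 v with ⟨-, h⟩ | ⟨Q, -, -, hv, h⟩ <;>
      rw [h, Finsupp.add_apply]
    rw [Finsupp.single_eq_of_ne hv]; omega
  obtain ⟨a, ha, ha0⟩ := hsur b₀ (FLTA.Curves.riemannRochSpace_mono hcut hb₀)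
  obtain ⟨a', ha', ha'o⟩ : ∃ a' ∈ X.img m, ∀ i, a' i ≠ 0 ∧
      B.infk.ord (a' i) = -(X.flr i B.infk + m) := by
    by_cases h1 : a 1 ≠ 0 ∧ B.infk.ord (a 1) = -(X.flr 1 B.infk + m)
    · exact ⟨a, ha, Fin.forall_fin_two.mpr ⟨by rw [ha0]; exact ⟨hb₀0, hb₀o⟩, h1⟩⟩
    obtain ⟨c, hc, hc0, hc1⟩ := hker b₁ hb₁
    refine ⟨a + c, add_mem ha hc, Fin.forall_fin_two.mpr ⟨?_, ?_⟩⟩
    · rw [Pi.add_apply, hc0, add_zero, ha0]; exact ⟨hb₀0, hb₀o⟩
    · rw [Pi.add_apply, hc1]
      rcases eq_or_ne (a 1) 0 with h | h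
      · rw [h, zero_add]; exact ⟨hb₁0, hb₁o⟩
      have hge := (X.ord_img hS hmq ha 1 h B.infk).1
      rw [Finsupp.single_eq_same] at hge
      have hlt : B.infk.ord b₁ < B.infk.ord (a 1) := by
        rw [hb₁o]; exact lt_of_le_of_ne hge fun e => h1 ⟨h, e.symm⟩
      have hord := FLTA.Curves.ord_add_eq_of_lt B.infk hb₁0 h hlt
      rw [add_comm] at hord
      refine ⟨fun h0 => ?_, hord.trans hb₁o⟩
      have : a 1 = -b₁ := eq_neg_of_add_eq_zero_left h0
      rw [this, FLTA.Curves.ord_neg] at hlt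
      exact lt_irrefl _ hlt
  obtain ⟨z₀, hz₀, hp₀⟩ := X.mem_img.mp ha'
  obtain ⟨z, hzW, hzB, hp⟩ := X.exists_rat_W hz₀ hp₀
  have hne' : ∀ i, (a' * X.fb) i ≠ 0 := fun i => mul_ne_zero (ha'o i).1 (X.fb_ne_zero i)
  have hz0 : z ≠ 0 := fun h => hne' 0 <| B.exk.toRingHom.injective <| show B.exk _ = B.exk _ by
    rw [hp.2 0, h, map_zero, redSeries_zero, map_zero]
  have hvz := fun i => ((R.of_isRed hzB hz0 hp i).1 (hne' i))
  obtain ⟨y, hy0, hprod, hym, hyB, hvy, hly⟩ := X.powDiv_spec hzW hzB hz0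
  obtain ⟨Z, hZ, -⟩ := B.rrF.principal.exists_divisor _ hz0
  set D' := Z - ((q : ℤ) - 1) • X.D with hD'
  have hK : BadFibre.KummerFn q D' y := ⟨hy0, fun v => by
    have h := congrArg v.ord hprod
    rw [Place.ord_mul _ hy0 (pow_ne_zero _ X.f_ne_zero), FLTA.Curves.ord_pow,
      FLTA.Curves.ord_pow, ← X.kummer.ord_eq, Nat.cast_sub (NeZero.pos q)] at h
    rw [hD', Finsupp.sub_apply, Finsupp.smul_apply, smul_eq_mul, hZ]
    push_cast at h ⊢
    linarith⟩
  have hbound : -(B.cuspDiv m) ≤ D' := Finsupp.le_def.mpr fun v => by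
    have h1 := (mem_riemannRochSpace_iff.mp hzW v).resolve_left hz0
    rw [twDiv, Finsupp.sub_apply] at h1
    rw [hD', Finsupp.sub_apply, Finsupp.neg_apply, hZ]
    omega
  have hvy0 : ∀ i, R.vs i y = 0 := fun i => by rw [hvy, (hvz i).1, mul_zero]
  have hld : ∀ i, R.ld i y = a' i ^ q * X.fb i := fun i => by
    apply mul_right_cancel₀ (pow_ne_zero (q - 1) (X.fb_ne_zero i))
    rw [hly, (hvz i).2, Pi.mul_apply, mul_pow, mul_assoc, mul_pow_sub_one (NeZero.ne q)]
  refine ⟨m, ⟨D', y, hK, hyB, ⟨m, hbound⟩, hvy0⟩, ⟨?_, fun i Q => ?_⟩, ⟨fun i => ?_, fun i j hj => ?_,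
    fun i => ?_⟩⟩
  · refine ⟨z / X.f, div_ne_zero hz0 X.f_ne_zero, fun v => ?_⟩
    rw [div_eq_mul_inv, Place.ord_mul _ hz0 (inv_ne_zero X.f_ne_zero), Place.ord_inv,
      ← X.kummer.ord_eq]
    show (Z - ((q : ℤ) - 1) • X.D - X.D) v = _
    rw [Finsupp.sub_apply, Finsupp.sub_apply, Finsupp.smul_apply, smul_eq_mul, hZ]
    ring
  · refine ⟨Q.ord (a' i), ?_⟩
    rw [show R.ld i y = a' i ^ q * X.fb i from hld i,
      Place.ord_mul _ (pow_ne_zero _ (ha'o i).1) (X.fb_ne_zero i), FLTA.Curves.ord_pow, fb,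
      add_sub_cancel_right]
  · exact (R.toFrame.ge_zero_iff _).mp ((R.ge_iff_le_vs i hyB hy0).mpr (hvy0 i).ge)
  · have h1 := (mem_riemannRochSpace_iff.mp hym (B.P i)).resolve_left hy0
    rw [B.cuspDiv_apply (Fact.out : q.Prime).two_le, B.ord_P i hy0] at h1
    exact HahnSeries.coeff_eq_zero_of_lt_order (lt_of_lt_of_le hj h1)
  · have hv := R.isVal_vs i hyB hy0
    have hex : B.exk (R.ld i y) = redSeries A π (B.e i y) := by
      rw [R.exk_ld i hyB hy0, hv.lead_eq R.toFrame, hvy0, neg_zero, zpow_zero, one_smul]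
    have hne2 : R.ld i y ≠ 0 := R.ld_ne_zero i hyB hy0
    have hord : (redSeries A π (B.e i y)).order = -((q * m : ℕ) : ℤ) := by
      rw [← hex, ← B.ord_infk _ hne2, hld i,
        Place.ord_mul _ (pow_ne_zero _ (ha'o i).1) (X.fb_ne_zero i), FLTA.Curves.ord_pow,
        (ha'o i).2, flr_apply]
      have h2 := Int.emod_add_mul_ediv (X.o i B.infk) q
      have h3 : X.o i B.infk % (q : ℤ) = 0 := hres i
      rw [h3, zero_add] at h2
      show (q : ℤ) * _ + X.o i B.infk = _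
      push_cast
      linarith
    rw [← hord]
    exact mt HahnSeries.coeff_order_eq_zero.mp fun h => hne2 (B.exk.toRingHom.injective
      (show B.exk _ = B.exk _ by rw [hex, h, map_zero]))

end Datum

end FLTA.LevelLowering

end
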