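import Fermat.Agent.LevelLowering.BadNode
import Fermat.Agent.LevelLowering.TopNormal
import Fermat.Agent.LevelLowering.Removal
import Fermat.Agent.LevelLowering.JumpDefs
import Fermat.Agent.LevelLowering.JumpStep

/-!
# The residue vector is proportional to the weights
-/

set_option autoImplicit false

noncomputable section

open AlgebraicCurve FLTA.BadRed

namespace FLTA.LevelLowering

variable {K : Type*} [Field K] [IsAlgClosed K] [CharZero K] {A : ValuationSubring K}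
  {k : Type*} [Field k] [IsAlgClosed k] {π : A →+* k}
  {q : ℕ} [NeZero q] [Fact q.Prime] [CharP k q]
  {F : Type*} [Field F] [Algebra K F] {F' : Type*} [Field F'] [Algebra K F']
  {Fk : Type*} [Field Fk] [Algebra k Fk] {g gF : ℕ} {B : BadFibre A π q F F' Fk g gF}

namespace Datum

variable {R : RatFrame B} (X : Datum R) {S : Finset (Place k Fk)} {m₀ : ℕ}

theorem mem_bad_or_tame {Q : Place k Fk} (hQ : Q ∈ S) : Q ∈ X.bad S ∨ Q ∈ X.tame S := by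
  classical
  by_cases h : X.res 0 Q = 0 ∨ X.res 1 (B.frobq • Q) = 0
  · exact Or.inr (Finset.mem_filter.mpr ⟨hQ, h⟩)
  · exact Or.inl (X.mem_bad.mpr ⟨hQ, not_or.mp h⟩)

theorem weight_eq {E : EtaData R S} (Wt : E.Weights) {Q : Place k Fk} (hQ : Q ∈ X.bad S)
    (N : X.NodeElt E Q) :
    Wt.n Q * q * N.c = Wt.t * E.e * X.res 1 (B.frobq • Q) := by
  have h1 := Wt.eq Q (X.mem_bad.mp hQ).1
  refine mul_left_cancel₀ (show (12 : ℤ) ≠ 0 by norm_num) ?_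
  linear_combination (Wt.t : ℤ) * N.eq - (q : ℤ) * N.c * h1

/-- **The residue vector.** -/
theorem exists_kappa (hS : B.IsGluing S m₀) (E : EtaData R S) (hne : S.Nonempty) (Wt : E.Weights)
    {R₀ : RatFrame B} (hsub : ∀ s ∈ R.H, s ∈ R₀.H) (hϖ₀ : R₀.ϖ = (q : K))
    (hsq : ¬ q ^ 2 ∣ E.e) (hjump : q ∣ E.e → Nonempty (Jumping R)) :
    ∃ κ : ℤ, ∀ Q ∈ S, (q : ℤ) ∣ X.o 0 Q + κ * Wt.n Q ∧
      (q : ℤ) ∣ X.o 1 (B.frobq • Q) - κ * Wt.n Q := by
  classical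
  have hp : Nat.Prime q := Fact.out
  have hpz : Prime (q : ℤ) := Nat.prime_iff_prime_int.mp hp
  obtain ⟨m, Y, hXY, hY⟩ := X.exists_top hS E hne
  suffices h : ∃ κ : ℤ, ∀ Q ∈ S, (q : ℤ) ∣ Y.o 0 Q + κ * Wt.n Q ∧
      (q : ℤ) ∣ Y.o 1 (B.frobq • Q) - κ * Wt.n Q by
    obtain ⟨κ, hκ⟩ := h
    refine ⟨κ, fun Q hQ => ⟨?_, ?_⟩⟩
    · have h1 := (hκ Q hQ).1.sub (hXY.dvd 0 Q)
      rwa [show Y.o 0 Q + κ * Wt.n Q - (Q.ord (R.ld 0 Y.f) - Q.ord (R.ld 0 X.f)) =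
        X.o 0 Q + κ * Wt.n Q by unfold o fb; ring] at h1
    · have h1 := (hκ Q hQ).2.sub (hXY.dvd 1 (B.frobq • Q))
      rwa [show Y.o 1 (B.frobq • Q) - κ * Wt.n Q - ((B.frobq • Q).ord (R.ld 1 Y.f) -
        (B.frobq • Q).ord (R.ld 1 X.f)) = X.o 1 (B.frobq • Q) - κ * Wt.n Q by unfold o fb; ring]
        at h1
  rcases (Y.bad S).eq_empty_or_nonempty with hb | ⟨Q₁, hQ₁⟩
  · refine ⟨0, fun Q hQ => ?_⟩
    have ht := ((Y.mem_bad_or_tame hQ).resolve_left (by rw [hb]; exact Finset.notMem_empty Q))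
    obtain ⟨-, h0, h1⟩ := (Y.mem_tame_iff hS E hne).mp ht
    rw [zero_mul, add_zero, sub_zero]
    exact ⟨Int.dvd_of_emod_eq_zero h0, Int.dvd_of_emod_eq_zero h1⟩
  have hrpos : ∀ Q ∈ Y.bad S, ¬ (q : ℤ) ∣ Y.res 1 (B.frobq • Q) := fun Q hQ h => by
    apply (Y.mem_bad.mp hQ).2.2
    have h2 := Int.emod_nonneg (Y.o 1 (B.frobq • Q)) (Int.natCast_ne_zero.mpr hp.ne_zero)
    have h3 := Int.emod_lt_of_pos (Y.o 1 (B.frobq • Q)) (Int.natCast_pos.mpr hp.pos)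
    exact Int.eq_zero_of_dvd_of_nonneg_of_lt h2 h3 h
  obtain ⟨N₁⟩ := Y.nonempty_nodeElt hS E hne hQ₁
  have hqe : q ∣ E.e := by
    have h : (q : ℤ) ∣ Wt.t * E.e * Y.res 1 (B.frobq • Q₁) :=
      ⟨Wt.n Q₁ * N₁.c, by rw [← Y.weight_eq Wt hQ₁ N₁]; ring⟩
    rcases hpz.dvd_or_dvd h with h | h
    · rcases hpz.dvd_or_dvd h with h | h
      · exact absurd (Int.natCast_dvd_natCast.mp h) Wt.not_dvd
      · exact Int.natCast_dvd_natCast.mp h
    · exact absurd h (hrpos Q₁ hQ₁)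
  obtain ⟨e', he'⟩ := hqe
  obtain ⟨J⟩ := hjump ⟨e', he'⟩
  obtain ⟨fy, θ₀, hprod, hK, hfyB, hfyint, hfyneg, hfyred, hθ₀⟩ :=
    hY.exists_trivialisation J hS E hne
  obtain ⟨θ, hθ, hpolar⟩ := exists_polarFree hsub hϖ₀ E.u_red E.u_mem E.q_eq ⟨e', he'⟩ hS hne hK
    hfyB hfyint hfyneg hfyred hθ₀ J.i_lt
  let C : Y.JumpCtx J := ⟨m, hY, fy, θ, hprod, hK, hfyB, hfyint, hfyred, hθ, hpolar⟩
  have hcong : ∀ β, β < J.i → ∃ lam, C.Cong (β + 1) lam := by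
    intro β
    induction β with
    | zero => exact fun _ => ⟨1, C.cong_one⟩
    | succ β ih =>
      intro hβ
      obtain ⟨lam, hC⟩ := ih (by omega)
      obtain ⟨gs, hgs, -⟩ := C.exists_scalars hS E hne hC (by omega)
      have hrel := C.scalar_rel hS E hne hC (by omega) hgs hQ₁ N₁
      rw [if_neg (by omega), add_zero] at hrel
      obtain ⟨G, hGL, hG⟩ := R.exists_lift (gs 0)
      refine ⟨lam + ⟨R.ϖ, R.ϖ_mem_A⟩ ^ (β + 1) * G,
        add_mem hC.1 (mul_mem (pow_mem R.ϖ_mem _) hGL), ?_, fun l => ?_⟩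
      · rw [map_add, map_mul, map_pow, R.π_ϖ, zero_pow (by omega), zero_mul, add_zero, hC.2.1]
      obtain ⟨h1, h2⟩ := R.geL_cst l ((β + 1 : ℕ) : ℤ) G
      have hl : gs l = gs 0 := by
        rcases (by decide : ∀ l : Fin 2, l = 0 ∨ l = 1) l with rfl | rfl
        exacts [rfl, hrel.symm]
      have h3 : R.lev l ((β + 1 : ℕ) : ℤ) (C.θ - R.cst 0 lam - R.cst ((β + 1 : ℕ) : ℤ) G) = 0 := by
        rw [R.lev_sub (hC.2.2 l) h1, h2, hgs, hG, hl, sub_self]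
      have h4 := R.geL_succ (sub_mem (sub_mem (R.BL_le C.triv.mem) (R.BL_le (R.cst_mem hC.1)))
        (R.BL_le (R.cst_mem hGL))) ((hC.2.2 l).sub h1) h3
      have e : C.θ - R.cst 0 lam - R.cst ((β + 1 : ℕ) : ℤ) G =
          C.θ - R.cst 0 (lam + ⟨R.ϖ, R.ϖ_mem_A⟩ ^ (β + 1) * G) := by
        simp only [RatFrame.cst]
        rw [sub_sub, ← map_add]
        congr 2
        rw [zpow_zero, one_mul, one_mul, zpow_natCast]
        push_cast
        ring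
      rw [e] at h4
      exact_mod_cast h4
  obtain ⟨lam, hC⟩ := hcong (J.i - 1) (by have := J.i_pos; omega)
  rw [Nat.sub_add_cancel J.i_pos] at hC
  obtain ⟨gs, hgs, htame⟩ := C.exists_scalars hS E hne hC le_rfl
  have hrel : ∀ Q, Q ∈ Y.bad S → ∀ N : Y.NodeElt E Q, gs 0 + (N.c : k) * π J.τ = gs 1 :=
    fun Q hQ N => by
      have h := C.scalar_rel hS E hne hC le_rfl hgs hQ N
      rwa [if_pos rfl] at h
  have he0 : ¬ (q : ℤ) ∣ (e' : ℤ) := fun h => hsq (by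
    obtain ⟨c, hc⟩ := Int.natCast_dvd_natCast.mp h
    exact ⟨c, by rw [he', hc]; ring⟩)
  have hweight : ∀ Q, Q ∈ Y.bad S → ∀ N : Y.NodeElt E Q,
      Wt.n Q * N.c = Wt.t * e' * Y.res 1 (B.frobq • Q) := fun Q hQ N => by
    have h := Y.weight_eq Wt hQ N
    rw [he'] at h
    push_cast at h
    exact mul_left_cancel₀ (Int.natCast_ne_zero.mpr hp.ne_zero) (by linear_combination h)
  have hc₁ : (N₁.c : k) ≠ 0 := fun h => by
    rw [CharP.intCast_eq_zero_iff k q] at h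
    have h' : (q : ℤ) ∣ Wt.t * e' * Y.res 1 (B.frobq • Q₁) := hweight Q₁ hQ₁ N₁ ▸ h.mul_left _
    rcases hpz.dvd_or_dvd h' with h' | h'
    · rcases hpz.dvd_or_dvd h' with h' | h'
      · exact Wt.not_dvd (Int.natCast_dvd_natCast.mp h')
      · exact he0 h'
    · exact hrpos Q₁ hQ₁ h'
  have hte : ((Wt.t : ZMod q) * (e' : ZMod q)) ≠ 0 := mul_ne_zero
    (fun h => Wt.not_dvd ((ZMod.natCast_eq_zero_iff _ _).mp h))
    (fun h => he0 (Int.natCast_dvd_natCast.mpr ((ZMod.natCast_eq_zero_iff _ _).mp h)))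
  obtain ⟨κ, hκ⟩ := ZMod.intCast_surjective
    ((N₁.c : ZMod q) * ((Wt.t : ZMod q) * (e' : ZMod q))⁻¹)
  refine ⟨κ, fun Q hQ => ?_⟩
  have hQb : Q ∈ Y.bad S := by
    refine (Y.mem_bad_or_tame hQ).resolve_right fun ht => hc₁ ?_
    have h1 := hrel Q₁ hQ₁ N₁
    rw [← htame ⟨Q, ht⟩] at h1
    exact (mul_eq_zero.mp (add_eq_left.mp h1)).resolve_right J.τ_red
  obtain ⟨N⟩ := Y.nonempty_nodeElt hS E hne hQb
  have hcc : (N.c : ZMod q) = (N₁.c : ZMod q) := by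
    have h1 := (hrel Q hQb N).trans (hrel Q₁ hQ₁ N₁).symm
    have h2 := mul_right_cancel₀ J.τ_red (add_left_cancel h1)
    rw [ZMod.intCast_eq_intCast_iff]
    exact (CharP.intCast_eq_intCast k q).mp h2
  have hw := congrArg (fun x : ℤ => (x : ZMod q)) (hweight Q hQb N)
  push_cast at hw
  have hr1 : ((Y.o 1 (B.frobq • Q) : ℤ) : ZMod q) = (κ : ZMod q) * (Wt.n Q : ZMod q) := by
    have h1 : ((Y.res 1 (B.frobq • Q) : ℤ) : ZMod q) = ((Y.o 1 (B.frobq • Q) : ℤ) : ZMod q) :=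
      ZMod.intCast_mod _ _
    rw [← h1, hκ, ← hcc]
    rw [mul_right_comm, eq_comm, mul_inv_eq_iff_eq_mul₀ hte]
    linear_combination hw
  have hr0 : ((Y.o 0 Q : ℤ) : ZMod q) = -((Y.o 1 (B.frobq • Q) : ℤ) : ZMod q) := by
    have h1 := congrArg (fun x : ℤ => (x : ZMod q)) (Y.res_add hS E hne hQb)
    push_cast [res, ZMod.natCast_self] at h1
    exact eq_neg_of_add_eq_zero_left h1
  constructor
  · rw [← ZMod.intCast_zmod_eq_zero_iff_dvd]
    push_cast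
    rw [hr0, hr1]
    ring
  · rw [← ZMod.intCast_zmod_eq_zero_iff_dvd]
    push_cast
    rw [hr1]
    ring

end Datum

end FLTA.LevelLowering

end
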