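import Fermat.Agent.LevelLowering.RatFun
import Fermat.Agent.BadRed.Toric.Twist
import Fermat.Agent.Curves.RRSpace

/-!
# Classes fixed by the symmetries of a rational frame

A fixed class has a fixed divisor `E - n (∞)` with `E` effective: `n` least with a section, which
is then unique up to scalars.  A fixed class killed by `q` has a rational Kummer function.
-/

set_option autoImplicit false

noncomputable section

open AlgebraicCurve FLTA.BadRed

namespace FLTA.LevelLowering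

variable {K : Type*} [Field K] {A : ValuationSubring K}
  {k : Type*} [Field k] {π : A →+* k} {q : ℕ} [NeZero q]
  {F : Type*} [Field F] [Algebra K F] {F' : Type*} [Field F'] [Algebra K F']
  {Fk : Type*} [Field Fk] [Algebra k Fk] {g gF : ℕ}
  {B : BadFibre A π q F F' Fk g gF}

variable (B) in
/-- Symmetries fix the cusp `∞`. -/
theorem sym_smul_P_zero (s : B.Sym) : s.σ • B.P 0 = B.P 0 := by
  refine FLTA.Curves.place_ext_ord fun x => ?_
  obtain ⟨y, rfl⟩ : ∃ y, x = s.σ • y := ⟨s.σ⁻¹ • x, by rw [smul_inv_smul]⟩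
  rw [SemilinearAut.ord_smul]
  rcases eq_or_ne y 0 with rfl | hy
  · rw [smul_zero]
  have hsy : s.σ • y ≠ 0 := (smul_ne_zero_iff_ne _).mpr hy
  rw [B.ord_P 0 hy, B.ord_P 0 hsy]
  have h1 : B.ex y ≠ 0 := (map_ne_zero B.ex).mpr hy
  have h2 : B.ex (s.σ • y) ≠ 0 := (map_ne_zero B.ex).mpr hsy
  show (B.ex y).order = (B.ex (s.σ • y)).order
  refine le_antisymm (HahnSeries.order_le_of_coeff_ne_zero ?_)
    (HahnSeries.order_le_of_coeff_ne_zero ?_)
  · have h3 := mt HahnSeries.coeff_order_eq_zero.mp h2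
    rw [s.ex_σ] at h3
    exact fun h => h3 (by rw [h, map_zero])
  · rw [s.ex_σ]
    exact (map_ne_zero _).mpr (mt HahnSeries.coeff_order_eq_zero.mp h1)

theorem divisor_degree_nonneg {D : Divisor K F} (h : 0 ≤ D) : 0 ≤ Divisor.degree D := by
  rw [Divisor.degree, Finsupp.liftAddHom_apply]
  exact Finset.sum_nonneg fun v _ => mul_nonneg (h v) (Int.natCast_nonneg _)

theorem riemannRochSpace_eq_bot_of_neg [HasPrincipalDivisors K F] {D : Divisor K F}
    (h : Divisor.degree D < 0) : riemannRochSpace D = ⊥ := by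
  rw [Submodule.eq_bot_iff]
  intro f hf
  by_contra hf0
  have := divisor_degree_nonneg ((FLTA.Curves.mem_riemannRochSpace_iff_add_nonneg hf0).mp hf)
  rw [map_add, FLTA.Curves.degree_divFn] at this
  omega

variable (B) in
theorem coeff_ex_smul (c : K) (x : F) (j : ℤ) : (B.ex (c • x)).coeff j = c * (B.ex x).coeff j := by
  rw [Algebra.smul_def, map_mul, AlgHom.commutes, ModularCurve.algebraMap_laurentSeries_eq_single,
    ← HahnSeries.C_apply, HahnSeries.C_mul_eq_smul, HahnSeries.coeff_smul, smul_eq_mul]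

variable (B) in
/-- With no sections below, a section is unique up to scalars. -/
theorem eq_smul_of_sub_single_eq_bot {D : Divisor K F}
    (hbot : riemannRochSpace (D - Finsupp.single (B.P 0) 1) = ⊥) {φ ψ : F}
    (hφ : φ ∈ riemannRochSpace D) (hφ0 : φ ≠ 0) (hψ : ψ ∈ riemannRochSpace D) :
    ∃ c : K, ψ = c • φ := by
  classical
  have key : ∀ z ∈ riemannRochSpace D, (B.ex z).coeff (-D (B.P 0)) = 0 → z = 0 := by
    intro z hz hc
    refine (Submodule.eq_bot_iff _).mp hbot z ?_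
    rw [mem_riemannRochSpace_iff] at hz ⊢
    intro v
    rcases eq_or_ne z 0 with h0 | h0
    · exact Or.inl h0
    right
    have h := (hz v).resolve_left h0
    rw [Finsupp.sub_apply, Finsupp.single_apply]
    split_ifs with hv
    · subst hv
      rw [B.ord_P_zero z h0] at h ⊢
      have hne : (B.ex z).order ≠ -D (B.P 0) := fun e =>
        mt HahnSeries.coeff_order_eq_zero.mp ((map_ne_zero B.ex).mpr h0) (e ▸ hc)
      omega
    · omega
  set m := -D (B.P 0)
  have ha : (B.ex φ).coeff m ≠ 0 := fun h => hφ0 (key φ hφ h)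
  refine ⟨(B.ex ψ).coeff m / (B.ex φ).coeff m, sub_eq_zero.mp (key _ ?_ ?_)⟩
  · exact Submodule.sub_mem _ hψ (Submodule.smul_mem _ _ hφ)
  · rw [map_sub, HahnSeries.coeff_sub, coeff_ex_smul, div_mul_cancel₀ _ ha, sub_self]

namespace RatFrame

variable (R : RatFrame B)

/-- A fixed class has a fixed divisor bounded below by a multiple of `∞`. -/
theorem exists_fixed_divisor {x : Pic0 K F} (hx : ∀ s ∈ R.H, s.σ • x = x) :
    ∃ (Dv : Divisor.degZero (K := K) (F := F)) (n : ℕ) (E : Divisor K F),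
      Pic0.mk Dv = x ∧ 0 ≤ E ∧ (Dv : Divisor K F) = E - Finsupp.single (B.P 0) (n : ℤ) ∧
      (∀ s ∈ R.H, s.σ • (Dv : Divisor K F) = Dv) ∧ ∀ s ∈ R.H, s.σ • E = E := by
  classical
  haveI := B.rrF.principal
  obtain ⟨D₀, rfl⟩ := Pic0.mk_surjective x
  set P := B.P 0 with hP
  have hD₀ : Divisor.degree (D₀ : Divisor K F) = 0 := Divisor.mem_degZero.mp D₀.2
  have hdeg : ∀ n : ℤ, Divisor.degree ((D₀ : Divisor K F) + Finsupp.single P n) = n := fun n => by
    rw [map_add, hD₀, Divisor.degree_single, B.rrF.deg_eq_one, Nat.cast_one, mul_one, zero_add]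
  have hex : ∃ n : ℕ, riemannRochSpace ((D₀ : Divisor K F) + Finsupp.single P (n : ℤ)) ≠ ⊥ := by
    refine ⟨2 * gF, fun hbot => ?_⟩
    have h := B.rrF.finrank_eq ((D₀ : Divisor K F) + Finsupp.single P ((2 * gF : ℕ) : ℤ))
      (by rw [hdeg]; omega)
    rw [hbot, finrank_bot, hdeg] at h
    omega
  set n := Nat.find hex with hn
  set DN : Divisor K F := (D₀ : Divisor K F) + Finsupp.single P (n : ℤ) with hDN
  have hbot : riemannRochSpace (DN - Finsupp.single P 1) = ⊥ := by
    rcases Nat.eq_zero_or_pos n with h0 | h0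
    · refine riemannRochSpace_eq_bot_of_neg ?_
      rw [map_sub, hdeg, Divisor.degree_single, B.rrF.deg_eq_one, h0]
      norm_num
    · have h := Nat.find_min hex (Nat.sub_lt h0 one_pos)
      rw [not_not] at h
      rw [hDN, add_sub_assoc, ← Finsupp.single_sub,
        show (n : ℤ) - 1 = ((n - 1 : ℕ) : ℤ) by omega]
      exact h
  obtain ⟨φ, hφ, hφ0⟩ := Submodule.exists_mem_ne_zero_of_ne_bot (Nat.find_spec hex)
  let Dv : Divisor.degZero (K := K) (F := F) :=
    D₀ + ⟨FLTA.Curves.divFn φ, Divisor.mem_degZero.mpr (FLTA.Curves.degree_divFn φ)⟩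
  have hfix : ∀ s ∈ R.H, ∀ v, (s.σ • (FLTA.Curves.divFn φ + DN : Divisor K F)) v =
      (FLTA.Curves.divFn φ + DN : Divisor K F) v := by
    intro s hs v
    have h := hx s hs
    rw [SemilinearAut.pic0_smul_mk, ← sub_eq_zero] at h
    obtain ⟨ψ, hψ0, hψ⟩ := (QuotientAddGroup.eq_zero_iff _).mp h
    have hψ' : ∀ w, (s.σ • (D₀ : Divisor K F)) w - (D₀ : Divisor K F) w = w.ord ψ := fun w => by
      simpa using hψ w
    have hPs : s.σ • P = P := sym_smul_P_zero B s
    have hord : ∀ w, (s.σ • FLTA.Curves.divFn (K := K) φ) w = w.ord (s.σ • φ) := fun w => by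
      obtain ⟨u, rfl⟩ : ∃ u, w = s.σ • u := ⟨s.σ⁻¹ • w, by rw [smul_inv_smul]⟩
      rw [SemilinearAut.divisor_smul_apply_smul, SemilinearAut.ord_smul, FLTA.Curves.divFn_apply]
    have hsum : ∀ w, (s.σ • (FLTA.Curves.divFn φ + DN : Divisor K F)) w =
        w.ord (s.σ • φ * ψ) + DN w := fun w => by
      rw [w.ord_mul ((smul_ne_zero_iff_ne _).mpr hφ0) hψ0, ← hord, ← hψ', smul_add,
        Finsupp.add_apply, hDN, smul_add, SemilinearAut.smul_single, hPs, Finsupp.add_apply,
        Finsupp.add_apply]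
      ring
    have hmem : s.σ • φ * ψ ∈ riemannRochSpace DN := by
      rw [mem_riemannRochSpace_iff]
      intro w
      right
      obtain ⟨u, rfl⟩ : ∃ u, w = s.σ • u := ⟨s.σ⁻¹ • w, by rw [smul_inv_smul]⟩
      have h1 := hsum (s.σ • u)
      rw [SemilinearAut.divisor_smul_apply_smul, Finsupp.add_apply, FLTA.Curves.divFn_apply] at h1
      have h2 := ((mem_riemannRochSpace_iff.mp hφ) u).resolve_left hφ0
      linarith
    obtain ⟨c, hc⟩ := eq_smul_of_sub_single_eq_bot B hbot hφ hφ0 hmem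
    have hc0 : c ≠ 0 := fun h0 => by
      rw [h0, zero_smul] at hc
      exact mul_ne_zero ((smul_ne_zero_iff_ne _).mpr hφ0) hψ0 hc
    rw [hsum v, hc, Algebra.smul_def, v.ord_mul ((map_ne_zero _).mpr hc0) hφ0,
      FLTA.Curves.ord_algebraMap_eq_zero, zero_add]
    simp only [hDN, Finsupp.add_apply, FLTA.Curves.divFn_apply]
  have hDv : (Dv : Divisor K F) = FLTA.Curves.divFn φ + DN - Finsupp.single P (n : ℤ) := by
    show (D₀ : Divisor K F) + FLTA.Curves.divFn φ = _
    rw [hDN]; abel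
  refine ⟨Dv, n, FLTA.Curves.divFn φ + DN, ?_, ?_, hDv, fun s hs => ?_, fun s hs => Finsupp.ext (hfix s hs)⟩
  · rw [eq_comm, ← sub_eq_zero]
    refine (QuotientAddGroup.eq_zero_iff _).mpr ⟨φ⁻¹, inv_ne_zero hφ0, fun w => ?_⟩
    rw [w.ord_inv, ← FLTA.Curves.divFn_apply (K := K) φ w]
    show ((D₀ : Divisor K F) - ((D₀ : Divisor K F) + FLTA.Curves.divFn φ) : Divisor K F) w = _
    rw [sub_add_cancel_left, Finsupp.neg_apply]
  · exact (FLTA.Curves.mem_riemannRochSpace_iff_add_nonneg hφ0).mp hφ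
  · rw [hDv, smul_sub, SemilinearAut.smul_single, sym_smul_P_zero B s, Finsupp.ext (hfix s hs)]

/-- A fixed class killed by `m` has a bounded rational Kummer function. -/
theorem exists_fixed_kummer {m : ℕ} (hm : 0 < m) {x : Pic0 K F} (hx : ∀ s ∈ R.H, s.σ • x = x)
    (hmx : m • x = 0) :
    ∃ (Dv : Divisor.degZero (K := K) (F := F)) (n : ℕ) (E : Divisor K F) (f : F),
      Pic0.mk Dv = x ∧ 0 ≤ E ∧ (Dv : Divisor K F) = E - Finsupp.single (B.P 0) (n : ℤ) ∧
      (∀ s ∈ R.H, s.σ • (Dv : Divisor K F) = Dv) ∧ (∀ s ∈ R.H, s.σ • E = E) ∧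
      f ∈ R.BL ∧ BadFibre.KummerFn m (Dv : Divisor K F) f ∧
      f ∈ riemannRochSpace (B.cuspDiv (m * n)) ∧ (B.ex f).coeff (B.ex f).order = 1 := by
  classical
  haveI := B.rrF.principal
  obtain ⟨Dv, n, E, hmk, hE, hDv, hfixD, hfixE⟩ := R.exists_fixed_divisor hx
  rw [← hmk] at hmx
  obtain ⟨f₀, hf₀, hf₀D⟩ := (QuotientAddGroup.eq_zero_iff (m • Dv)).mp hmx
  set a := (B.ex f₀).coeff (B.ex f₀).order
  have ha : a ≠ 0 := mt HahnSeries.coeff_order_eq_zero.mp ((map_ne_zero B.ex).mpr hf₀)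
  set f := a⁻¹ • f₀ with hfdef
  have hf0 : f ≠ 0 := smul_ne_zero (inv_ne_zero ha) hf₀
  have hK : BadFibre.KummerFn m (Dv : Divisor K F) f := ⟨hf0, fun v => by
    rw [hfdef, Algebra.smul_def, v.ord_mul ((map_ne_zero _).mpr (inv_ne_zero ha)) hf₀,
      FLTA.Curves.ord_algebraMap_eq_zero, zero_add]
    have h := hf₀D v
    rw [AddSubgroup.coe_subtype, AddSubgroupClass.coe_nsmul, Finsupp.smul_apply,
      nsmul_eq_mul] at h
    exact h⟩
  have hord : (B.ex f).order = (B.ex f₀).order := by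
    rw [← B.ord_P_zero f hf0, ← B.ord_P_zero f₀ hf₀, hfdef, Algebra.smul_def,
      (B.P 0).ord_mul ((map_ne_zero _).mpr (inv_ne_zero ha)) hf₀,
      FLTA.Curves.ord_algebraMap_eq_zero, zero_add]
  have hone : (B.ex f).coeff (B.ex f).order = 1 := by
    rw [hord, hfdef, coeff_ex_smul, inv_mul_cancel₀ ha]
  have hmem : f ∈ riemannRochSpace (B.cuspDiv (m * n)) := by
    rw [mem_riemannRochSpace_iff]
    intro v
    right
    rw [← hK.ord_eq v, hDv, Finsupp.sub_apply, BadFibre.cuspDiv, Finsupp.add_apply,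
      Finsupp.single_apply, Finsupp.single_apply, Finsupp.single_apply]
    have hv : 0 ≤ E v := hE v
    have h1 : (0 : ℤ) ≤ (m : ℤ) * E v := mul_nonneg (Int.natCast_nonneg m) hv
    push_cast
    split_ifs <;> nlinarith
  have hfix : ∀ s ∈ R.H, s.σ • f = f := by
    intro s hs
    have hsf : s.σ • f ≠ 0 := (smul_ne_zero_iff_ne _).mpr hf0
    have hordv : ∀ v : Place K F, v.ord (s.σ • f * f⁻¹) = 0 := fun v => by
      rw [v.ord_mul hsf (inv_ne_zero hf0), v.ord_inv]
      obtain ⟨u, rfl⟩ : ∃ u, v = s.σ • u := ⟨s.σ⁻¹ • v, by rw [smul_inv_smul]⟩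
      rw [SemilinearAut.ord_smul, ← hK.ord_eq, ← hK.ord_eq,
        ← SemilinearAut.divisor_smul_apply_smul s.σ (Dv : Divisor K F) u, hfixD s hs, add_neg_cancel]
    obtain ⟨c, hc⟩ : ∃ c : K, s.σ • f * f⁻¹ = c • (1 : F) := by
      refine eq_smul_of_sub_single_eq_bot B (D := 0) ?_ ?_ one_ne_zero ?_
      · exact riemannRochSpace_eq_bot_of_neg (by
          rw [map_sub, map_zero, Divisor.degree_single, B.rrF.deg_eq_one]; norm_num)
      · exact mem_riemannRochSpace_iff.mpr fun v => Or.inr (by simp)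
      · exact mem_riemannRochSpace_iff.mpr fun v => Or.inr (by rw [hordv v]; simp)
    have hsfc : s.σ • f = c • f := by
      rw [← inv_mul_cancel_right₀ hf0 (s.σ • f), hc, smul_mul_assoc, one_mul]
    have h := s.ex_σ f (B.ex f).order
    rw [hsfc, coeff_ex_smul, hone, map_one, mul_one] at h
    rw [hsfc, h, one_smul]
  exact ⟨Dv, n, E, f, hmk, hE, hDv, hfixD, hfixE, R.mem_BL_of_section hfix hmem, hK, hmem, hone⟩

end RatFrame

end FLTA.LevelLowering

end
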