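import Fermat.Agent.LevelLowering.Datum
import Fermat.Agent.LevelLowering.SettingFrameFixed

/-!
# Normalised data of fixed classes
-/

set_option autoImplicit false

noncomputable section

open AlgebraicCurve FLTA.BadRed

namespace FLTA.LevelLowering

variable {K : Type*} [Field K] [IsAlgClosed K] [CharZero K] {A : ValuationSubring K}
  {k : Type*} [Field k] [IsAlgClosed k] {π : A →+* k}
  {q : ℕ} [NeZero q] [Fact q.Prime] [CharP k q]
  {F : Type*} [Field F] [Algebra K F] {F' : Type*} [Field F'] [Algebra K F']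
  {Fk : Type*} [Field Fk] [Algebra k Fk] {g gF : ℕ} {B : BadFibre A π q F F' Fk g gF}

namespace RatFrame

variable {R : RatFrame B} {S : Finset (Place k Fk)}

/-- A fixed class killed by `q` has a datum of valuation zero, when the valuations of its rational
Kummer functions on the two components are congruent modulo `q`. -/
theorem exists_datum (E : EtaData R S) (hne : S.Nonempty) {x : Pic0 K F}
    (hx : ∀ s ∈ R.H, s.σ • x = x) (hqx : q • x = 0)
    (heps : ∀ (D : Divisor.degZero (K := K) (F := F)) (f : F), Pic0.mk D = x →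
      f ∈ R.BL → BadFibre.KummerFn q (D : Divisor K F) f →
      (∃ m : ℕ, -(B.cuspDiv m) ≤ (D : Divisor K F)) → (q : ℤ) ∣ R.vs 1 f - R.vs 0 f) :
    ∃ (X : Datum R) (D : Divisor.degZero (K := K) (F := F)),
      (D : Divisor K F) = X.D ∧ Pic0.mk D = x := by
  classical
  obtain ⟨Dv, n, E', f, hmk, hE', hDv, -, -, hf, hK, -, -⟩ :=
    R.exists_fixed_kummer (NeZero.pos q) hx hqx
  have hle : -(B.cuspDiv n) ≤ (Dv : Divisor K F) := Finsupp.le_def.mpr fun v => by
    rw [Finsupp.neg_apply, hDv, Finsupp.sub_apply, BadFibre.cuspDiv, Finsupp.add_apply,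
      Finsupp.single_apply, Finsupp.single_apply]
    have hv : 0 ≤ E' v := hE' v
    split_ifs <;> omega
  obtain ⟨b, hb⟩ := heps Dv f hmk hf hK ⟨n, hle⟩
  have hf0 := hK.ne_zero
  obtain ⟨ψ, hψ, hψ0, ⟨N, hN⟩, hv0, hv1⟩ := E.exists_shift hne 0 (-b)
  set c := algebraMap K F (R.ϖ ^ (-R.vs 0 f)) with hc
  have hcm : c ∈ R.BL := R.algebraMap_mem_BL (zpow_mem R.ϖ_mem _)
  have hc0 : c ≠ 0 := (map_ne_zero _).mpr (zpow_ne_zero _ R.ϖ_ne_zero)
  obtain ⟨Z, hZ, hZdeg⟩ := B.rrF.principal.exists_divisor _ hψ0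
  set y := c * f * ψ ^ q with hy
  have hy0 : y ≠ 0 := mul_ne_zero (mul_ne_zero hc0 hf0) (pow_ne_zero _ hψ0)
  have hbound : -(B.cuspDiv (n + N)) ≤ (Dv : Divisor K F) + Z := Finsupp.le_def.mpr fun v => by
    have h1 := Finsupp.le_def.mp hle v
    rw [Finsupp.neg_apply] at h1
    have h2 := (mem_riemannRochSpace_iff.mp hN v).resolve_left hψ0
    rw [Finsupp.neg_apply, BadFibre.cuspDiv_add, Finsupp.add_apply, Finsupp.add_apply, hZ]
    omega
  have hKy : BadFibre.KummerFn q ((Dv : Divisor K F) + Z) y := ⟨hy0, fun v => by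
    rw [hy, Place.ord_mul _ (mul_ne_zero hc0 hf0) (pow_ne_zero _ hψ0), Place.ord_mul _ hc0 hf0,
      hc, FLTA.Curves.ord_algebraMap_eq_zero, FLTA.Curves.ord_pow, ← hK.ord_eq, Finsupp.add_apply,
      hZ]
    ring⟩
  have hym : y ∈ R.BL := mul_mem (mul_mem hcm hf) (pow_mem hψ q)
  have hvy : ∀ i, R.vs i y = 0 := fun i => by
    have h : R.vs i y = -R.vs 0 f + R.vs i f + q * R.vs i ψ := by
      rw [hy, R.vs_mul i (mul_mem hcm hf) (mul_ne_zero hc0 hf0) (pow_mem hψ q)
        (pow_ne_zero _ hψ0), R.vs_mul i hcm hc0 hf hf0, R.vs_pow i hψ hψ0, hc,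
        R.vs_algebraMap_zpow]
    fin_cases i
    · simp only [Fin.zero_eta] at h ⊢
      rw [h, hv0]
      ring
    · simp only [Fin.mk_one] at h ⊢
      rw [h, hv1]
      linear_combination hb
  have hdeg : Divisor.degree Z = 0 := hZdeg
  refine ⟨⟨(Dv : Divisor K F) + Z, y, hKy, hym, ⟨n + N, hbound⟩, hvy⟩,
    ⟨(Dv : Divisor K F) + Z, Divisor.mem_degZero.mpr (by
      rw [map_add, Divisor.mem_degZero.mp Dv.2, hdeg, add_zero])⟩, rfl, ?_⟩
  rw [← hmk, eq_comm, ← sub_eq_zero]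
  refine (QuotientAddGroup.eq_zero_iff _).mpr ⟨ψ⁻¹, inv_ne_zero hψ0, fun w => ?_⟩
  rw [w.ord_inv, ← hZ w]
  show ((Dv : Divisor K F) - ((Dv : Divisor K F) + Z) : Divisor K F) w = _
  rw [sub_add_cancel_left, Finsupp.neg_apply]

end RatFrame

/-- A datum whose leading parts are `q`-th powers has a toric class. -/
theorem Datum.isToric {R : RatFrame B} (X : Datum R) (D : Divisor.degZero (K := K) (F := F))
    (hD : (D : Divisor K F) = X.D) (h : B.ReducesToPow q X.f) : B.IsToric q (Pic0.mk D) :=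
  ⟨D, X.f, X.f_ne_zero, rfl, fun P => by rw [hD, X.kummer.ord_eq], h⟩

end FLTA.LevelLowering

end
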