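import Fermat.Agent.LevelLowering.InertiaFrame
import Fermat.Agent.LevelLowering.SettingFrameFixed
import Fermat.Agent.BadRed.Ordinary.Inertia

/-!
# The rational frames of subgroups of inertia acting on a bad fibre
-/

set_option autoImplicit false

open scoped Pointwise
open IsLocalRing AlgebraicCurve FLTA.BadRed

noncomputable section

namespace FLTA.LevelLowering

local notation "Qbar" => AlgebraicClosure ℚ
local notation "Γ" => AlgebraicClosure ℚ ≃ₐ[ℚ] AlgebraicClosure ℚ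

/-- Inertia itself. -/
def InertiaSub.top (A : ValuationSubring Qbar) : InertiaSub A where
  H := A.inertiaSubgroupIn ℚ
  le := le_rfl
  conj_mem _ hσ _ hτ := mul_mem (mul_mem hσ hτ) (inv_mem hσ)
  isOpen := ⟨⊥, inferInstance, inf_le_left⟩

namespace SettingFrame

variable {A : ValuationSubring Qbar} {q : ℕ} [NeZero q]
  {F : Type*} [Field F] [Algebra Qbar F] {F' : Type*} [Field F'] [Algebra Qbar F']
  {Fk : Type*} [Field Fk] [Algebra (ResidueField A) Fk] {g gF : ℕ}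
  {B : BadFibre A (residue A) q F F' Fk g gF}
  (I : Ordinary.InertiaData B (A.inertiaSubgroupIn ℚ))

/-- The symmetries of a subgroup of inertia. -/
def symSet (D : InertiaSub A) : Set B.Sym :=
  I.sy '' {γ : A.inertiaSubgroupIn ℚ | (γ : Γ) ∈ D.H}

theorem symSet_mono (D : InertiaSub A) : symSet I D ⊆ symSet I (InertiaSub.top A) :=
  Set.image_mono fun γ _ => γ.2

variable [Fact q.Prime]

/-- The rational frame of `D`, with `q = ϖ ^ e * unit`. -/
theorem exists_ratFrame (hA : A.LiesOverPrime q) (D : InertiaSub A) :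
    ∃ (R : RatFrame B) (e : ℕ) (u : A), R.L = D.L.toSubfield ∧ R.H = symSet I D ∧
      0 < e ∧ e ∣ D.index ∧ (u : Qbar) ∈ R.L ∧ residue A u ≠ 0 ∧
      (q : Qbar) = R.ϖ ^ e * u := by
  obtain ⟨fr, e, hL, he, hdvd, u, hu, huL, hqe⟩ := D.exists_frame (Fact.out : q.Prime) hA
  refine ⟨{ fr with H := symSet I D, mem_L_iff := fun c => ?_ }, e, u, hL, rfl, he, hdvd, huL, hu,
    hqe⟩
  show c ∈ fr.L ↔ _
  rw [hL]
  refine D.mem_L_iff.trans ⟨?_, fun h σ hσ => ?_⟩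
  · rintro h _ ⟨γ, hγ, rfl⟩
    rw [I.base]
    exact h _ hγ
  · have := h _ ⟨⟨σ, D.le hσ⟩, hσ, rfl⟩
    rwa [I.base] at this

/-- The rational frame of inertia, with uniformizer `q`. -/
theorem exists_ratFrame_top (hA : A.LiesOverPrime q) :
    ∃ R₀ : RatFrame B, R₀.L = (InertiaSub.top A).L.toSubfield ∧
      R₀.H = symSet I (InertiaSub.top A) ∧ R₀.ϖ = (q : Qbar) := by
  obtain ⟨R, e, u, hL, hH, he, hdvd, huL, hu, hqe⟩ := exists_ratFrame I hA (InertiaSub.top A)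
  obtain rfl : e = 1 := Nat.dvd_one.mp (by
    rwa [show (InertiaSub.top A).index = 1 from Subgroup.relIndex_self _] at hdvd)
  rw [pow_one] at hqe
  have hv : ∀ w : A, residue A w ≠ 0 → A.valuation (w : Qbar) = 1 := fun w hw =>
    valuation_eq_one_of_not_mem_nonunits w.2
      (mt (Galois.residue_eq_zero_iff_mem_nonunits w).mpr hw)
  have hq0 : (q : Qbar) ≠ 0 := Nat.cast_ne_zero.mpr (NeZero.ne q)
  refine ⟨{ R with
    ϖ := q
    ϖ_mem := natCast_mem _ q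
    ϖ_ne_zero := hq0
    ϖ_mem_A := natCast_mem A q
    π_ϖ := (Galois.residue_eq_zero_iff_mem_nonunits _).mpr hA
    exists_unit := fun c hc hc0 => ?_
    exists_pow := fun c hc => ?_ }, hL, hH, rfl⟩
  · obtain ⟨n, w, hwL, hw, hcn⟩ := R.exists_unit c hc hc0
    have h1 : A.valuation (c / (q : Qbar) ^ n) = 1 := by
      rw [map_div₀, map_zpow₀, hcn, hqe, map_mul, map_mul, map_zpow₀, hv w hw, hv u hu, mul_one,
        mul_one, div_self]
      exact zpow_ne_zero n ((map_ne_zero _).mpr R.ϖ_ne_zero)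
    refine ⟨n, ⟨_, (A.valuation_le_one_iff _).mp h1.le⟩,
      div_mem hc (zpow_mem (natCast_mem _ q) n), ?_, (mul_div_cancel₀ c (zpow_ne_zero n hq0)).symm⟩
    rw [Ne, Galois.residue_eq_zero_iff_mem_nonunits, ValuationSubring.mem_nonunits_iff]
    exact h1.not_lt
  · obtain ⟨m, hm⟩ := R.exists_pow c hc
    refine ⟨m, ?_⟩
    show (q : Qbar) ^ m / c ∈ A
    rw [hqe, mul_pow, mul_comm, mul_div_assoc]
    exact mul_mem (pow_mem u.2 m) hm

omit [Fact q.Prime] in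
/-- Symmetries compose. -/
theorem sy_mul_smul (γ δ : A.inertiaSubgroupIn ℚ) (x : F) :
    (I.sy γ).σ • (I.sy δ).σ • x = (I.sy (γ * δ)).σ • x := by
  apply B.ex.toRingHom.injective
  show B.ex _ = B.ex _
  ext j
  rw [(I.sy γ).ex_σ, (I.sy δ).ex_σ, (I.sy (γ * δ)).ex_σ, I.base, I.base, I.base, mul_smul]

omit [Fact q.Prime] in
/-- Rationality is rationality of the expansion at `∞`. -/
theorem mem_FL_iff_coeff {D : InertiaSub A} (R : RatFrame B) (hL : R.L = D.L.toSubfield)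
    (hH : R.H = symSet I D) {x : F} : x ∈ R.FL ↔ R.toFrame.InL (B.ex x) := by
  refine ⟨fun h => R.inL_e 0 h, fun h s hs => ?_⟩
  rw [hH] at hs
  obtain ⟨γ, hγ, rfl⟩ := hs
  apply B.ex.toRingHom.injective
  show B.ex _ = B.ex _
  ext j
  have hj := h j
  rw [hL] at hj
  rw [(I.sy γ).ex_σ, I.base]
  exact D.mem_L_iff.mp hj _ hγ

omit [Fact q.Prime] in
theorem smul_mem_FL {D : InertiaSub A} (R : RatFrame B) (hL : R.L = D.L.toSubfield)
    (hH : R.H = symSet I D) (γ : A.inertiaSubgroupIn ℚ) {x : F} (hx : x ∈ R.FL) :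
    (I.sy γ).σ • x ∈ R.FL := by
  rw [mem_FL_iff_coeff I R hL hH]
  intro j
  have hj := R.inL_e 0 hx j
  rw [hL] at hj ⊢
  rw [(I.sy γ).ex_σ, I.base]
  exact D.apply_mem_L γ.2 hj

omit [Fact q.Prime] in
theorem smul_mem_BL {D : InertiaSub A} (R : RatFrame B) (hL : R.L = D.L.toSubfield)
    (hH : R.H = symSet I D) (γ : A.inertiaSubgroupIn ℚ) {x : F} (hx : x ∈ R.BL) :
    (I.sy γ).σ • x ∈ R.BL := by
  refine ⟨smul_mem_FL I R hL hH γ (R.BL_le hx), fun l => ?_⟩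
  obtain ⟨c, hc, hint⟩ := hx.2 l
  refine ⟨⟨γ • (c : Qbar), I.smul_mem γ c.2⟩, (smul_ne_zero_iff_ne _).mpr hc, fun j => ?_⟩
  have h := hint j
  rw [HahnSeries.coeff_smul, smul_eq_mul] at h
  show (((γ • (c : Qbar)) • B.e l ((I.sy γ).σ • x))).coeff j ∈ A
  rw [HahnSeries.coeff_smul, smul_eq_mul, I.coeff_e, ← smul_mul']
  exact I.smul_mem γ h

omit [Fact q.Prime] in
/-- The congruence of a jump on powers of the uniformizer. -/
theorem smul_zpow_sub {R : Frame A (residue A)} (γ : A.inertiaSubgroupIn ℚ) {i : ℕ} (hi : 1 ≤ i)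
    {τ : A} (hτ : (γ : Γ) R.ϖ = R.ϖ * (1 + τ * R.ϖ ^ i)) (c : ℤ) :
    ((γ : Γ) (R.ϖ ^ c) / R.ϖ ^ c - 1 - c * τ * R.ϖ ^ i) / R.ϖ ^ (i + 1) ∈ A := by
  set X : Qbar := τ * R.ϖ ^ i with hX
  have hϖ0 := R.ϖ_ne_zero
  have hXA : X ∈ A := mul_mem τ.2 (pow_mem R.ϖ_mem_A i)
  have hXn : X ∈ A.nonunits := by
    rw [hX, mul_comm]
    refine Galois.mul_mem_nonunits_of_mem ?_ τ.2
    obtain ⟨j, rfl⟩ := Nat.exists_eq_add_of_le hi
    rw [pow_add, pow_one]
    exact Galois.mul_mem_nonunits_of_mem ((Galois.residue_eq_zero_iff_mem_nonunits _).mp R.π_ϖ)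
      (pow_mem R.ϖ_mem_A j)
  have hn1 : (1 + X) ∉ A.nonunits := fun h =>
    Galois.one_not_mem_nonunits (A := A) (by simpa using sub_mem h hXn)
  have h1 : 1 + X ≠ 0 := fun h => hn1 (h ▸ zero_mem A.nonunits)
  have hinv : (1 + X)⁻¹ ∈ A := Galois.inv_mem_of_not_mem_nonunits hn1
  have hX2 : X ^ 2 / R.ϖ ^ (i + 1) ∈ A := by
    have e : X ^ 2 / R.ϖ ^ (i + 1) = (τ : Qbar) ^ 2 * R.ϖ ^ (i - 1) := by
      obtain ⟨j, rfl⟩ := Nat.exists_eq_add_of_le hi
      rw [div_eq_iff (pow_ne_zero _ hϖ0), hX, add_tsub_cancel_left]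
      ring
    rw [e]
    exact mul_mem (pow_mem τ.2 2) (pow_mem R.ϖ_mem_A _)
  have hγ : (γ : Γ) (R.ϖ ^ c) / R.ϖ ^ c = (1 + X) ^ c := by
    rw [map_zpow₀, hτ, mul_zpow, mul_div_cancel_left₀ _ (zpow_ne_zero c hϖ0)]
  rw [hγ, mul_assoc, ← hX]
  clear hγ
  induction c with
  | zero => simp
  | succ n ih =>
    have e : ((1 + X) ^ ((n : ℤ) + 1) - 1 - (((n : ℤ) + 1 : ℤ) : Qbar) * X) / R.ϖ ^ (i + 1) =
        ((1 + X) ^ (n : ℤ) - 1 - ((n : ℤ) : Qbar) * X) / R.ϖ ^ (i + 1) * (1 + X) +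
          ((n : ℤ) : Qbar) * (X ^ 2 / R.ϖ ^ (i + 1)) := by
      rw [zpow_add_one₀ h1]
      push_cast
      field_simp
      ring
    rw [e]
    exact add_mem (mul_mem ih (add_mem (one_mem A) hXA)) (mul_mem (intCast_mem A _) hX2)
  | pred n ih =>
    have e : ((1 + X) ^ (-(n : ℤ) - 1) - 1 - ((-(n : ℤ) - 1 : ℤ) : Qbar) * X) / R.ϖ ^ (i + 1) =
        (((1 + X) ^ (-(n : ℤ)) - 1 - ((-(n : ℤ) : ℤ) : Qbar) * X) / R.ϖ ^ (i + 1) +
          ((n : Qbar) + 1) * (X ^ 2 / R.ϖ ^ (i + 1))) * (1 + X)⁻¹ := by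
      rw [zpow_sub_one₀ h1]
      push_cast
      field_simp
      ring
    rw [e]
    exact mul_mem (add_mem ih (mul_mem (add_mem (natCast_mem A n) (one_mem A)) hX2)) hinv

/-- A jump moves integral rational functions by `ϖ ^ (i + 1)`, fixing reductions. -/
theorem smul_sub_coeff (hA : A.LiesOverPrime q) {D : InertiaSub A} (R : RatFrame B)
    (hL : R.L = D.L.toSubfield) (γ : A.inertiaSubgroupIn ℚ) {i : ℕ} {τ : A}
    (hτ : (γ : Γ) R.ϖ = R.ϖ * (1 + τ * R.ϖ ^ i)) {x : F} (hx : x ∈ R.FL) (l : Fin 2)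
    (hint : IntSeries A (B.e l x)) :
    IntSeries A (B.e l ((I.sy γ).σ • x)) ∧
      redSeries A (residue A) (B.e l ((I.sy γ).σ • x)) = redSeries A (residue A) (B.e l x) ∧
      ∀ j : ℤ, ((B.e l ((I.sy γ).σ • x)).coeff j - (B.e l x).coeff j) / R.ϖ ^ (i + 1) ∈ A := by
  obtain ⟨h1, h2⟩ := I.redSeries_smul_eq γ l hint
  refine ⟨h1, h2, fun j => ?_⟩
  rw [I.coeff_e]
  have hj := R.inL_e l hx j
  rw [hL] at hj
  refine D.sub_div_pow_mem (Fact.out : q.Prime) hA R.toFrame hL γ.2 (i + 1) ?_ hj (hint j)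
  have e : ((γ : Γ) R.ϖ - R.ϖ) / R.ϖ ^ (i + 1) = τ := by
    rw [hτ, div_eq_iff (pow_ne_zero _ R.ϖ_ne_zero)]
    ring
  rw [e]
  exact τ.2

end SettingFrame

end FLTA.LevelLowering

end
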