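import Fermat.Agent.LevelLowering.MainSettingShape
import Fermat.Agent.LevelLowering.SettingFrame
import Fermat.Agent.LevelLowering.JumpDefs

/-!
# The frames of the kernel of a local shape acting on a bad fibre
-/

set_option autoImplicit false

open scoped Pointwise
open IsLocalRing AlgebraicCurve FLTA.BadRed

noncomputable section

namespace FLTA.LevelLowering

local notation "Qbar" => AlgebraicClosure ℚ
local notation "Γ" => AlgebraicClosure ℚ ≃ₐ[ℚ] AlgebraicClosure ℚ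

namespace TorsShape

open SettingFrame

variable {A : ValuationSubring Qbar} {q : ℕ} [NeZero q] [Fact q.Prime]
  {V : Type*} [AddCommGroup V] [Module (ZMod q) V] [DistribMulAction Γ V]
  {L₀ : Submodule (ZMod q) V}
  {F : Type*} [Field F] [Algebra Qbar F] {F' : Type*} [Field F'] [Algebra Qbar F']
  {Fk : Type*} [Field Fk] [Algebra (ResidueField A) Fk] {g gF : ℕ}
  {B : BadFibre A (residue A) q F F' Fk g gF}

/-- The frames of inertia and of the kernel of `V` in inertia: `q = ϖ ^ e u` with `q ^ 2 ∤ e`,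
and a jump below `q` when `q ∣ e`. -/
theorem exists_setting (S : TorsShape q A V L₀) (hA : A.LiesOverPrime q)
    (I : Ordinary.InertiaData B (A.inertiaSubgroupIn ℚ)) :
    ∃ (R R₀ : RatFrame B) (e : ℕ) (u : A),
      R.L = S.inertiaSub.L.toSubfield ∧ R.H = symSet I S.inertiaSub ∧
      R₀.L = (InertiaSub.top A).L.toSubfield ∧ R₀.H = symSet I (InertiaSub.top A) ∧
      R₀.ϖ = (q : Qbar) ∧ (∀ s ∈ R.H, s ∈ R₀.H) ∧
      0 < e ∧ ¬ q ^ 2 ∣ e ∧ (u : Qbar) ∈ R.L ∧ residue A u ≠ 0 ∧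
      (q : Qbar) = R.ϖ ^ e * u ∧ (q ∣ e → Nonempty (Jumping R)) := by
  have hq : q.Prime := Fact.out
  obtain ⟨R, e, u, hL, hH, he, hdvd, huL, hu, hqe⟩ := exists_ratFrame I hA S.inertiaSub
  obtain ⟨R₀, hL₀, hH₀, hϖ₀⟩ := exists_ratFrame_top I hA
  refine ⟨R, R₀, e, u, hL, hH, hL₀, hH₀, hϖ₀, ?_, he, fun h2 => ?_, huL, hu, hqe, fun hqd => ?_⟩
  · rw [hH, hH₀]
    exact fun s hs => symSet_mono I S.inertiaSub hs
  · have h := Nat.dvd_of_mul_dvd_mul_left hq.pos
      (pow_two q ▸ h2.trans (hdvd.trans S.index_dvd.1))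
    have := hq.two_le
    have := Nat.le_of_dvd (by omega) h
    omega
  · obtain ⟨σ, hσI, i, hi1, hiq, τ, hτ, hστ, hall⟩ :=
      S.exists_move hA R.toFrame hL hdvd hu hqe hqd
    refine ⟨⟨I.sy ⟨σ, hσI⟩, I.inertia _, fun x hx => smul_mem_BL I R hL hH _ hx, i, hi1, hiq, τ,
      hτ, fun c hc hcA => ?_, fun c => ?_⟩⟩
    · rw [I.base]
      exact hall c (by rw [hL] at hc; exact hc) hcA
    · rw [I.base]
      exact smul_zpow_sub ⟨σ, hσI⟩ hi1 hστ c

end TorsShape

end FLTA.LevelLowering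

end
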