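import Fermat.Agent.LevelLowering.Global
import Fermat.Agent.LevelLowering.LocalFrey
import Fermat.Agent.LevelLowering.Main

/-!
# Level lowering at `p` for the Frey curve
-/

set_option autoImplicit false

noncomputable section

open WeierstrassCurve WeierstrassCurve.Affine.Point ModularCurve

namespace FLTA.LevelLowering

local notation "Qbar" => AlgebraicClosure ℚ

/-- No global datum exists. -/
theorem false_of_globalData (P : FreyPackage) {N M : ℕ} [NeZero N] [NeZero M]
    (hdvd : (P.p : ℤ) ∣ P.a * P.b * P.c) (hpM : ¬ P.p ∣ M) (hNM : N = M * P.p)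
    (D : GlobalData P N M) : False := by
  subst hNM
  haveI : Fact P.p.Prime := ⟨P.pp⟩
  haveI : NeZero P.p := ⟨P.pp.ne_zero⟩
  obtain ⟨A, hA⟩ := FLTA.Galois.exists_liesOverPrime P.pp
  obtain ⟨L₀, V⟩ := exists_torsShape_frey P hdvd A hA
  have hE : P.freyCurve.Δ ≠ 0 := by
    rw [← FLTA.Wiring.freyCurveInt_map_rat P, WeierstrassCurve.map_Δ]
    simpa using FLTA.Wiring.freyCurveInt_Δ_ne_zero P
  exact false_of_eigen_embedding hE P.hp5 hpM hA V D.S D.p_mem D.level_mem D.a D.iota
    D.iota_injective D.iota_smul D.hecke_iota D.t D.t_eval D.t_old D.exists_not_eisenstein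

/-- **Level lowering at `p`.** -/
theorem level_lowering_at_p (P : FreyPackage) {N : ℕ} (hcond : P.IsConductorLevel N)
    (hpN : P.p ∣ N)
    (hirr : GaloisRepIsIrreducible (K := AlgebraicClosure ℚ) ℚ P.freyCurve P.p)
    (hmod : P.ModularRepOfLevel N) :
    ∃ M : ℕ, M ∣ N ∧ ¬ P.p ∣ M ∧ P.ModularRepOfLevel M := by
  obtain ⟨M, hM⟩ := hpN
  haveI : NeZero N := ⟨hcond.pos.ne'⟩
  haveI : NeZero M := ⟨fun h => hcond.pos.ne' (by rw [hM, h, mul_zero])⟩
  have hpM : ¬ P.p ∣ M := fun h => hcond.sq_not_dvd P.pp (by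
    rw [hM, pow_two]; exact mul_dvd_mul_left _ h)
  rcases exists_embedding_or_lowered P hcond hM hirr hmod with h | hD
  · exact h
  · obtain ⟨D⟩ := hD
    exact (false_of_globalData P (hcond.p_dvd_abc ⟨M, hM⟩) hpM (by rw [hM, mul_comm]) D).elim

end FLTA.LevelLowering

end
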