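import Fermat.Agent.BadRed.IntSeries

/-!
# Series over a discretely valued subfield of the constants

`Frame A π` is a subfield `L` of the constant field on which the valuation of `A` is discrete,
with uniformizer `ϖ` and full residue field.  Every nonzero series with coefficients in `L` and a
Gauss valuation has an integer valuation `val` and a reduced leading part `lead`, both
multiplicative.
-/

set_option autoImplicit false

noncomputable section

open FLTA.BadRed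

namespace FLTA.LevelLowering

variable {K : Type*} [Field K] (A : ValuationSubring K) {k : Type*} [Field k] (π : A →+* k)

/-- A discretely valued subfield with full residue field. -/
structure Frame where
  /-- the subfield -/
  L : Subfield K
  /-- the uniformizer -/
  ϖ : K
  ϖ_mem : ϖ ∈ L
  ϖ_ne_zero : ϖ ≠ 0
  ϖ_mem_A : ϖ ∈ A
  π_ϖ : π ⟨ϖ, ϖ_mem_A⟩ = 0
  exists_unit : ∀ c ∈ L, c ≠ 0 → ∃ (n : ℤ) (u : A), (u : K) ∈ L ∧ π u ≠ 0 ∧ c = ϖ ^ n * u
  exists_pow : ∀ c : K, c ≠ 0 → ∃ m : ℕ, ϖ ^ m / c ∈ A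
  exists_lift : ∀ c : k, ∃ u : A, (u : K) ∈ L ∧ π u = c
  π_surjective : Function.Surjective π

theorem smul_eq_C_mul {R : Type*} [CommRing R] (c : R) (y : LaurentSeries R) :
    c • y = HahnSeries.C c * y := (HahnSeries.C_mul_eq_smul).symm

theorem residue_ne_zero_inv_mem {K : Type*} [Field K] {A : ValuationSubring K} {k : Type*}
    [Field k] {π : A →+* k} (hπ : Function.Surjective π) {c : K} (hc : c ∈ A)
    (h : π ⟨c, hc⟩ ≠ 0) : c⁻¹ ∈ A := by
  by_contra hn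
  exact h (residue_eq_zero_of_inv_notMem hπ hc hn)

namespace Frame

variable {A π} (fr : Frame A π)

/-- All coefficients lie in `L`. -/
def InL (y : LaurentSeries K) : Prop := ∀ i : ℤ, y.coeff i ∈ fr.L

/-- The Gauss valuation of `y` is at least `n`. -/
def Ge (y : LaurentSeries K) (n : ℤ) : Prop := IntSeries A ((fr.ϖ ^ (-n)) • y)

/-- The Gauss valuation of `y` is exactly `n`. -/
def IsVal (y : LaurentSeries K) (n : ℤ) : Prop :=
  fr.Ge y n ∧ redSeries A π ((fr.ϖ ^ (-n)) • y) ≠ 0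

theorem zpow_mem {n : ℤ} (hn : 0 ≤ n) : fr.ϖ ^ n ∈ A := by
  obtain ⟨m, rfl⟩ := Int.eq_ofNat_of_zero_le hn
  rw [zpow_natCast]
  exact pow_mem fr.ϖ_mem_A m

theorem π_zpow {n : ℤ} (hn : 0 < n) : π ⟨fr.ϖ ^ n, fr.zpow_mem hn.le⟩ = 0 := by
  obtain ⟨m, rfl⟩ := Int.eq_ofNat_of_zero_le hn.le
  have h : (⟨fr.ϖ ^ (m : ℤ), fr.zpow_mem hn.le⟩ : A) = ⟨fr.ϖ, fr.ϖ_mem_A⟩ ^ m :=
    Subtype.ext (zpow_natCast fr.ϖ m)
  rw [h, map_pow, fr.π_ϖ, zero_pow (by omega)]

theorem Ge.mono {y : LaurentSeries K} {n m : ℤ} (h : fr.Ge y n) (hm : m ≤ n) : fr.Ge y m := by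
  have e : fr.ϖ ^ (-m) • y = fr.ϖ ^ (n - m) • (fr.ϖ ^ (-n) • y) := by
    rw [smul_smul, ← zpow_add₀ fr.ϖ_ne_zero]
    congr 2
    ring
  show IntSeries A _
  rw [e]
  exact IntSeries.smul (fr.zpow_mem (by omega)) h

theorem ge_zero_iff (y : LaurentSeries K) : fr.Ge y 0 ↔ IntSeries A y := by simp [Ge]

theorem ge_zero (n : ℤ) : fr.Ge 0 n := by simp [Ge, IntSeries.zero]

theorem Ge.add {x y : LaurentSeries K} {n : ℤ} (hx : fr.Ge x n) (hy : fr.Ge y n) :
    fr.Ge (x + y) n := by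
  show IntSeries A _
  rw [smul_add]
  exact IntSeries.add hx hy

theorem Ge.sub {x y : LaurentSeries K} {n : ℤ} (hx : fr.Ge x n) (hy : fr.Ge y n) :
    fr.Ge (x - y) n := by
  show IntSeries A _
  rw [smul_sub]
  exact IntSeries.sub hx hy

theorem smul_mul_smul' (a b : K) (x y : LaurentSeries K) :
    a • x * (b • y) = (a * b) • (x * y) := by
  rw [smul_eq_C_mul a, smul_eq_C_mul b, smul_eq_C_mul (a * b), map_mul, mul_mul_mul_comm]

theorem Ge.mul {x y : LaurentSeries K} {n m : ℤ} (hx : fr.Ge x n) (hy : fr.Ge y m) :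
    fr.Ge (x * y) (n + m) := by
  show IntSeries A _
  rw [show -(n + m) = -n + -m by ring, zpow_add₀ fr.ϖ_ne_zero, ← smul_mul_smul']
  exact IntSeries.mul hx hy

/-- A series of valuation `> n` reduces to `0` at scale `n`. -/
theorem red_eq_zero_of_ge {y : LaurentSeries K} {n m : ℤ} (h : fr.Ge y m) (hnm : n < m) :
    redSeries A π (fr.ϖ ^ (-n) • y) = 0 := by
  have e : fr.ϖ ^ (-n) • y = fr.ϖ ^ (m - n) • (fr.ϖ ^ (-m) • y) := by
    rw [smul_smul, ← zpow_add₀ fr.ϖ_ne_zero]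
    congr 2
    ring
  rw [e, redSeries_smul (fr.zpow_mem (by omega)) h, fr.π_zpow (by omega), zero_smul]

theorem IsVal.ne_zero {y : LaurentSeries K} {n : ℤ} (h : fr.IsVal y n) : y ≠ 0 := by
  rintro rfl
  exact h.2 (by rw [smul_zero, redSeries_zero])

theorem IsVal.ge_iff {y : LaurentSeries K} {n m : ℤ} (h : fr.IsVal y n) : fr.Ge y m ↔ m ≤ n := by
  refine ⟨fun hm => ?_, fun hm => h.1.mono fr hm⟩
  by_contra hlt
  exact h.2 (fr.red_eq_zero_of_ge hm (not_le.mp hlt))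

theorem IsVal.unique {y : LaurentSeries K} {n m : ℤ} (hn : fr.IsVal y n) (hm : fr.IsVal y m) :
    n = m :=
  le_antisymm ((hm.ge_iff fr).mp hn.1) ((hn.ge_iff fr).mp hm.1)

theorem isVal_of_ge {y : LaurentSeries K} {n : ℤ} (h : fr.Ge y n)
    (hne : redSeries A π (fr.ϖ ^ (-n) • y) ≠ 0) : fr.IsVal y n := ⟨h, hne⟩

theorem IsVal.mul {x y : LaurentSeries K} {n m : ℤ} (hx : fr.IsVal x n) (hy : fr.IsVal y m) :
    fr.IsVal (x * y) (n + m) ∧
      redSeries A π (fr.ϖ ^ (-(n + m)) • (x * y)) =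
        redSeries A π (fr.ϖ ^ (-n) • x) * redSeries A π (fr.ϖ ^ (-m) • y) := by
  have e : fr.ϖ ^ (-(n + m)) • (x * y) = fr.ϖ ^ (-n) • x * (fr.ϖ ^ (-m) • y) := by
    rw [smul_mul_smul', ← zpow_add₀ fr.ϖ_ne_zero, neg_add]
  have hred := (congrArg (redSeries A π) e).trans (redSeries_mul hx.1 hy.1)
  exact ⟨⟨hx.1.mul fr hy.1, by rw [hred]; exact mul_ne_zero hx.2 hy.2⟩, hred⟩

/-- A nonzero bounded series with coefficients in `L` has an integral valuation. -/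
theorem exists_isVal {y : LaurentSeries K} (hy : fr.InL y) (hne : y ≠ 0)
    (hb : ∃ c : K, c ≠ 0 ∧ IntSeries A (c • y)) : ∃ n : ℤ, fr.IsVal y n := by
  classical
  obtain ⟨c, hc, hint⟩ := hb
  obtain ⟨j₀, hj₀⟩ : ∃ j, y.coeff j ≠ 0 := by
    by_contra h
    push Not at h
    exact hne (HahnSeries.ext (funext fun i => h i))
  choose N u hu using fun (i : {i : ℤ // y.coeff i ≠ 0}) => fr.exists_unit _ (hy i.1) i.2
  -- lower bound for the exponents
  obtain ⟨b, hbd⟩ : ∃ b : ℤ, ∀ i, b ≤ N i := by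
    obtain ⟨m, hm⟩ := fr.exists_pow c hc
    refine ⟨-(m : ℤ), fun i => ?_⟩
    by_contra hlt
    rw [not_le] at hlt
    have hcy : c * y.coeff i.1 ∈ A := by simpa [HahnSeries.coeff_smul] using hint i.1
    have h1 : fr.ϖ ^ ((m : ℤ) + N i) * (u i : K) ∈ A := by
      have h2 := mul_mem hm hcy
      rwa [← mul_assoc, div_mul_cancel₀ _ hc, (hu i).2.2, ← mul_assoc, ← zpow_natCast,
        ← zpow_add₀ fr.ϖ_ne_zero] at h2
    have hpos : (0 : ℤ) < -((m : ℤ) + N i) := by omega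
    have e : u i = ⟨fr.ϖ ^ (-((m : ℤ) + N i)), fr.zpow_mem hpos.le⟩ *
        ⟨fr.ϖ ^ ((m : ℤ) + N i) * (u i : K), h1⟩ := Subtype.ext (by
      show (u i : K) = fr.ϖ ^ (-((m : ℤ) + N i)) * (fr.ϖ ^ ((m : ℤ) + N i) * (u i : K))
      rw [← mul_assoc, ← zpow_add₀ fr.ϖ_ne_zero, neg_add_cancel, zpow_zero, one_mul])
    exact (hu i).2.1 (by rw [e, map_mul, fr.π_zpow hpos, zero_mul])
  obtain ⟨n, ⟨i, rfl⟩, hn⟩ := Int.exists_least_of_bdd (P := fun n => ∃ i, N i = n)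
    ⟨b, fun z ⟨i, hi⟩ => hi ▸ hbd i⟩ ⟨_, ⟨j₀, hj₀⟩, rfl⟩
  have hcoeff : ∀ l : {l : ℤ // y.coeff l ≠ 0},
      (fr.ϖ ^ (-N i) • y).coeff l.1 = fr.ϖ ^ (N l - N i) * u l := fun l => by
    rw [HahnSeries.coeff_smul, smul_eq_mul, (hu l).2.2, ← mul_assoc, ← zpow_add₀ fr.ϖ_ne_zero]
    congr 2
    ring
  have hge : fr.Ge y (N i) := fun l => by
    by_cases hl : y.coeff l = 0
    · rw [HahnSeries.coeff_smul, hl, smul_zero]
      exact zero_mem A
    · rw [hcoeff ⟨l, hl⟩]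
      exact mul_mem (fr.zpow_mem (sub_nonneg.mpr (hn _ ⟨⟨l, hl⟩, rfl⟩))) (u _).2
  refine ⟨N i, hge, fun h0 => (hu i).2.1 ?_⟩
  have h := congrArg (fun z => HahnSeries.coeff z i.1) h0
  rw [HahnSeries.coeff_zero] at h
  rw [show redSeries A π (fr.ϖ ^ (-N i) • y) = redSeries A π (fr.ϖ ^ (-N i) • y) from rfl,
    redSeries_coeff, hcoeff i, sub_self, zpow_zero, one_mul, redCoeff_coe] at h
  exact h

open Classical in
/-- The valuation, junk `0` when there is none. -/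
def val (y : LaurentSeries K) : ℤ := if h : ∃ n, fr.IsVal y n then h.choose else 0

/-- The reduced leading part. -/
def lead (y : LaurentSeries K) : LaurentSeries k := redSeries A π (fr.ϖ ^ (-fr.val y) • y)

theorem IsVal.val_eq {y : LaurentSeries K} {n : ℤ} (h : fr.IsVal y n) : fr.val y = n := by
  rw [val, dif_pos ⟨n, h⟩]
  exact Exists.choose_spec (p := fr.IsVal y) ⟨n, h⟩ |>.unique fr h

theorem IsVal.lead_eq {y : LaurentSeries K} {n : ℤ} (h : fr.IsVal y n) :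
    fr.lead y = redSeries A π (fr.ϖ ^ (-n) • y) := by rw [lead, h.val_eq fr]

theorem IsVal.lead_ne_zero {y : LaurentSeries K} {n : ℤ} (h : fr.IsVal y n) : fr.lead y ≠ 0 := by
  rw [h.lead_eq fr]
  exact h.2

theorem isVal_zpow (n : ℤ) :
    fr.IsVal (HahnSeries.C (fr.ϖ ^ n)) n ∧ fr.lead (HahnSeries.C (fr.ϖ ^ n)) = 1 := by
  have e : fr.ϖ ^ (-n) • HahnSeries.C (fr.ϖ ^ n) = (1 : LaurentSeries K) := by
    rw [smul_eq_C_mul, ← map_mul, ← zpow_add₀ fr.ϖ_ne_zero, neg_add_cancel, zpow_zero, map_one]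
  have h : fr.IsVal (HahnSeries.C (fr.ϖ ^ n)) n :=
    ⟨by show IntSeries A _; rw [e]; exact IntSeries.one,
      by rw [e, redSeries_one]; exact one_ne_zero⟩
  exact ⟨h, by rw [h.lead_eq fr, e, redSeries_one]⟩

theorem isVal_C_unit (u : A) (hu : π u ≠ 0) :
    fr.IsVal (HahnSeries.C (u : K)) 0 ∧ fr.lead (HahnSeries.C (u : K)) = HahnSeries.C (π u) := by
  have e : fr.ϖ ^ (-(0 : ℤ)) • HahnSeries.C (u : K) = (u : K) • (1 : LaurentSeries K) := by
    rw [neg_zero, zpow_zero, one_smul, smul_eq_C_mul, mul_one]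
  have hred : redSeries A π (fr.ϖ ^ (-(0 : ℤ)) • HahnSeries.C (u : K)) = HahnSeries.C (π u) := by
    rw [e, redSeries_smul u.2 IntSeries.one, redSeries_one, smul_eq_C_mul, mul_one]
  have h : fr.IsVal (HahnSeries.C (u : K)) 0 :=
    ⟨by show IntSeries A _; rw [e]; exact IntSeries.smul u.2 IntSeries.one,
      by rw [hred]; simpa using hu⟩
  exact ⟨h, by rw [h.lead_eq fr, hred]⟩

end Frame

end FLTA.LevelLowering

end
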