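import Fermat.Agent.LevelLowering.EtaUnitHecke
import Fermat.Agent.LevelLowering.Frame

/-!
# The series form of `T_l` and reduction

With `t ^ l = q`, the norm operator is `y ↦ y(t ^ (l*l)) * ∏_b y(ζ^b t)`.
-/

set_option autoImplicit false

noncomputable section

open ModularCurve FLTA.Congruence FLTA.BadRed

namespace FLTA.LevelLowering

section General

variable {R S : Type*} [CommRing R] [CommRing S]

/-- `z` is the image of `y` under `T_l`. -/
def IsHeckeImage (l : ℕ) [NeZero l] (ζ : Rˣ) (y z : LaurentSeries R) : Prop :=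
  qExpand R l z = conjProd l ζ y

variable {l : ℕ} [NeZero l] {ζ : Rˣ}

theorem conjProd_apply (y : LaurentSeries R) :
    conjProd l ζ y = qExpand R (l * l) y * ∏ i ∈ Finset.range l, scaleHom (ζ ^ i) y := rfl

theorem coeffMap_conjProd (f : R →+* S) (y : LaurentSeries R) :
    coeffMap f (conjProd l ζ y) = conjProd l (Units.map (f : R →* S) ζ) (coeffMap f y) := by
  rw [conjProd_apply, conjProd_apply, map_mul, map_prod, coeffMap_qExpand]
  refine congrArg _ (Finset.prod_congr rfl fun i _ => ?_)
  rw [coeffMap_scaleHom, map_pow]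

theorem IsHeckeImage.coeffMap (f : R →+* S) {y z : LaurentSeries R} (h : IsHeckeImage l ζ y z) :
    IsHeckeImage l (Units.map (f : R →* S) ζ) (ModularCurve.coeffMap f y)
      (ModularCurve.coeffMap f z) := by
  unfold IsHeckeImage at h ⊢
  rw [← coeffMap_qExpand, h, coeffMap_conjProd]

theorem IsHeckeImage.eq {y z z' : LaurentSeries R} (h : IsHeckeImage l ζ y z)
    (h' : IsHeckeImage l ζ y z') : z = z' :=
  qExpand_injective l (h.trans h'.symm)

theorem IsHeckeImage.mul {y y' z z' : LaurentSeries R} (h : IsHeckeImage l ζ y z)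
    (h' : IsHeckeImage l ζ y' z') : IsHeckeImage l ζ (y * y') (z * z') := by
  unfold IsHeckeImage at h h' ⊢
  rw [map_mul, map_mul, h, h']

theorem scaleHom_C (u : Rˣ) (c : R) : scaleHom u (HahnSeries.C c) = HahnSeries.C c := by
  rw [HahnSeries.C_apply, scaleHom_single, zpow_zero, Units.val_one, one_mul]

theorem isHeckeImage_C (c : R) :
    IsHeckeImage l ζ (HahnSeries.C c) (HahnSeries.C (c ^ (l + 1))) := by
  unfold IsHeckeImage
  rw [conjProd_apply, qExpand_C, qExpand_C]
  simp only [scaleHom_C, Finset.prod_const, Finset.card_range]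
  rw [← map_pow, ← map_mul, pow_succ']

/-- The product over the conjugates does not depend on the primitive root. -/
theorem conjProd_eq_of_isPrimitiveRoot [IsDomain R] {ζ' : Rˣ} (hζ : IsPrimitiveRoot ζ l)
    (hζ' : IsPrimitiveRoot ζ' l) (y : LaurentSeries R) : conjProd l ζ' y = conjProd l ζ y := by
  classical
  rw [conjProd_apply, conjProd_apply]
  congr 1
  have key : ∀ {a b : Rˣ}, IsPrimitiveRoot a l → IsPrimitiveRoot b l →
      (Finset.range l).image (fun i => a ^ i) ⊆ (Finset.range l).image (fun i => b ^ i) := by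
    intro a b ha hb c hc
    obtain ⟨i, -, rfl⟩ := Finset.mem_image.mp hc
    obtain ⟨j, hj, hjc⟩ := (IsPrimitiveRoot.coe_units_iff.mpr hb).eq_pow_of_pow_eq_one
      (ξ := ((a ^ i : Rˣ) : R)) (by
        rw [← Units.val_pow_eq_pow_val, ← pow_mul, mul_comm, pow_mul, ha.pow_eq_one, one_pow,
          Units.val_one])
    exact Finset.mem_image.mpr ⟨j, Finset.mem_range.mpr hj,
      Units.ext (by rw [Units.val_pow_eq_pow_val]; exact hjc)⟩
  rw [← Finset.prod_image (f := fun c : Rˣ => scaleHom c y) fun i hi j hj h =>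
      hζ'.pow_inj (Finset.mem_range.mp hi) (Finset.mem_range.mp hj) h,
    ← Finset.prod_image (f := fun c : Rˣ => scaleHom c y) fun i hi j hj h =>
      hζ.pow_inj (Finset.mem_range.mp hi) (Finset.mem_range.mp hj) h,
    Finset.Subset.antisymm (key hζ' hζ) (key hζ hζ')]

theorem conjProd_ne_zero [IsDomain R] {y : LaurentSeries R} (hy : y ≠ 0) :
    conjProd l ζ y ≠ 0 := by
  rw [conjProd_apply, mul_ne_zero_iff, Finset.prod_ne_zero_iff]
  refine ⟨fun h => hy (qExpand_injective (l * l) (h.trans (map_zero _).symm)), fun i _ h => hy ?_⟩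
  ext j
  have := congrArg (fun s : LaurentSeries R => s.coeff j) h
  simp only [scaleHom_coeff, HahnSeries.coeff_zero, mul_eq_zero, Units.ne_zero, false_or] at this
  simpa using this

theorem IsHeckeImage.ne_zero [IsDomain R] {y z : LaurentSeries R} (h : IsHeckeImage l ζ y z)
    (hy : y ≠ 0) : z ≠ 0 := fun h0 =>
  conjProd_ne_zero (l := l) (ζ := ζ) hy (by rw [← h, h0, map_zero])

end General

section Reduction

variable {K : Type*} [Field K] {A : ValuationSubring K} {k : Type*} [Field k] {π : A →+* k}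
  {l : ℕ} [NeZero l] {ζ : Aˣ}

/-- Integral series have integral images, and reduction commutes with `T_l`. -/
theorem IsHeckeImage.red {y z : LaurentSeries K}
    (h : IsHeckeImage l (Units.map (A.subtype : A →* K) ζ) y z) (hy : IntSeries A y) :
    IntSeries A z ∧
      IsHeckeImage l (Units.map (π : A →* k) ζ) (redSeries A π y) (redSeries A π z) := by
  obtain ⟨y₀, rfl⟩ := exists_coeffMap_eq hy
  unfold IsHeckeImage at h
  rw [← coeffMap_conjProd] at h
  obtain ⟨z₀, hz₀, rfl⟩ := exists_qExpand_eq (f := A.subtype) Subtype.coe_injective l h.symm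
  refine ⟨intSeries_coeffMap _, ?_⟩
  rw [redSeries_coeffMap, redSeries_coeffMap]
  exact IsHeckeImage.coeffMap π (show IsHeckeImage l ζ y₀ z₀ from hz₀)

namespace Frame

variable (fr : Frame A π)

theorem isVal_heckeImage {y z : LaurentSeries K} {n : ℤ}
    (hn : fr.IsVal y n) (h : IsHeckeImage l (Units.map (A.subtype : A →* K) ζ) y z) :
    fr.IsVal z ((l + 1) * n) ∧
      IsHeckeImage l (Units.map (π : A →* k) ζ) (fr.lead y) (fr.lead z) := by
  have h' : IsHeckeImage l (Units.map (A.subtype : A →* K) ζ) (fr.ϖ ^ (-n) • y)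
      (fr.ϖ ^ (-((l + 1 : ℤ) * n)) • z) := by
    rw [smul_eq_C_mul, smul_eq_C_mul]
    have e : fr.ϖ ^ (-((l + 1 : ℤ) * n)) = (fr.ϖ ^ (-n)) ^ (l + 1) := by
      rw [← zpow_natCast (fr.ϖ ^ (-n)), ← zpow_mul]
      congr 1
      push_cast
      ring
    rw [e]
    exact (isHeckeImage_C _).mul h
  obtain ⟨hint, hred⟩ := h'.red (π := π) hn.1
  have hz : fr.IsVal z ((l + 1) * n) := ⟨hint, hred.ne_zero hn.2⟩
  refine ⟨hz, ?_⟩
  rw [hn.lead_eq fr, hz.lead_eq fr]
  exact hred

end Frame

end Reduction

end FLTA.LevelLowering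

end
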