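import Fermat.Agent.LevelLowering.HeckeRed
import Fermat.Agent.LevelLowering.HeckeSeries
import Fermat.Agent.Congruence.Correspondence
import Fermat.Agent.Curves.BasicModular
import Fermat.Agent.BadRed.Modular
import Fermat.Agent.PlaceRed.Interface
import Fermat.Prelude.Def_ModularCurve_HeckeModule

/-!
# The Hecke norm as a multiplicative operator on the modular function field

`heckeNormHom N l f = N_α (β f)`: its expansion is the series image of `T_l`, its divisor is the
image of `div f` under the correspondence, and it commutes with the Atkin-Lehner swap at `p`.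
-/

set_option autoImplicit false
set_option synthInstance.maxHeartbeats 400000

noncomputable section

open AlgebraicCurve ModularCurve

namespace FLTA.LevelLowering

local notation "Qb" => AlgebraicClosure ℚ

section Generic

variable {K F G : Type*} [Field K] [Field F] [Field G] [Algebra K F] [Algebra K G]

theorem norm_along_ne_zero (ψ : F →ₐ[K] G) (hfin : FiniteAlong K ψ) {g : G} (hg : g ≠ 0) :
    (letI := algebraAlong ψ; Algebra.norm F g) ≠ 0 := by
  letI := algebraAlong ψ
  have : Module.Finite F G := hfin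
  exact Algebra.norm_ne_zero_iff.2 hg

/-- Compatible automorphisms commute with the norm along `α` of the image along `β`. -/
theorem map_norm_along (α β : F →ₐ[K] G) (w : F →ₐ[K] F) (W : G →ₐ[K] G)
    (hw : ∀ x, w (w x) = x) (hW : ∀ x, W (W x) = x) (hα : ∀ x, W (α x) = α (w x))
    (hβ : ∀ x, W (β x) = β (w x)) (f : F) :
    w (letI := algebraAlong α; Algebra.norm F (β f)) =
      (letI := algebraAlong α; Algebra.norm F (β (w f))) := by
  let e₁ := AlgEquiv.ofAlgHom w w (AlgHom.ext hw) (AlgHom.ext hw)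
  let e₂ := AlgEquiv.ofAlgHom W W (AlgHom.ext hW) (AlgHom.ext hW)
  letI := algebraAlong α
  have h := Algebra.norm_eq_of_equiv_equiv e₁.toRingEquiv e₂.toRingEquiv
    (RingHom.ext fun x => (hα x).symm) (β f)
  rw [h, show e₂.toRingEquiv (β f) = β (w f) from hβ f]
  exact AlgEquiv.apply_symm_apply e₁ _

theorem isPrincipal_sub_of_mk_eq {D E : Divisor.degZero (K := K) (F := F)} {a : ℤ}
    (h : Pic0.mk E = a • Pic0.mk D) :
    Divisor.IsPrincipal ((E : Divisor K F) - a • (D : Divisor K F)) := by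
  have h' : Pic0.mk (E - a • D) = 0 := by
    show (QuotientAddGroup.mk (E - a • D) : Pic0 K F) = 0
    rw [QuotientAddGroup.mk_sub, QuotientAddGroup.mk_zsmul]
    exact sub_eq_zero.mpr h
  exact (QuotientAddGroup.eq_zero_iff _).mp h'

/-- `div T ≡ a * div f` modulo `n` times principal divisors. -/
theorem exists_eq_mul_zpow_mul_pow [IsAlgClosed K] {g : ℕ} (hF : FLTA.PlaceRed.RRCurve K F g)
    {f T : F} (hf : f ≠ 0) (hT : T ≠ 0) {n : ℕ} {a a' d : ℤ} (hd : a - a' = n * d)
    {D E : Divisor K F} (hD : ∀ v, (n : ℤ) * D v = v.ord f) (hE : ∀ v, (n : ℤ) * E v = v.ord T)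
    (hprin : Divisor.IsPrincipal (E - a • D)) :
    ∃ (c : K) (h : F), c ≠ 0 ∧ h ≠ 0 ∧ T = algebraMap K F c * f ^ a' * h ^ n := by
  obtain ⟨h₀, hh₀, hh₀D⟩ := hprin
  set h := h₀ * f ^ d with hhdef
  have hh : h ≠ 0 := mul_ne_zero hh₀ (zpow_ne_zero _ hf)
  have hne : f ^ a' * h ^ n ≠ 0 := mul_ne_zero (zpow_ne_zero _ hf) (pow_ne_zero _ hh)
  have hord : ∀ v : Place K F, v.ord (T * (f ^ a' * h ^ n)⁻¹) = 0 := fun v => by
    have h2 : E v - a * D v = v.ord h₀ := by
      rw [← hh₀D v, Finsupp.sub_apply, Finsupp.smul_apply, smul_eq_mul]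
    rw [v.ord_mul hT (inv_ne_zero hne), v.ord_inv,
      v.ord_mul (zpow_ne_zero _ hf) (pow_ne_zero _ hh), v.ord_zpow, ← zpow_natCast, v.ord_zpow,
      hhdef, v.ord_mul hh₀ (zpow_ne_zero _ hf), v.ord_zpow, ← hE, ← h2, ← hD]
    linear_combination ((n : ℤ) * D v) * hd
  obtain ⟨c, hc⟩ := eq_algebraMap_of_forall_ord hF hord
  refine ⟨c, h, ?_, hh, ?_⟩
  · rintro rfl
    rw [map_zero] at hc
    exact mul_ne_zero hT (inv_ne_zero hne) hc
  · rw [mul_assoc, ← hc, inv_mul_cancel_right₀ hne]

theorem exists_equiv_coe {E₁ E₂ : IntermediateField K F} (h : E₁ = E₂) :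
    ∃ e : E₁ ≃ₐ[K] E₂, ∀ x, (e x : F) = x := ⟨IntermediateField.equivOfEq h, fun _ => rfl⟩

theorem exists_involution_conj (e : G ≃ₐ[K] F) (S : F →ₐ[K] F) (hS : ∀ x, S (S x) = x) :
    ∃ W : G →ₐ[K] G, (∀ x, W (W x) = x) ∧ ∀ x, e (W x) = S (e x) :=
  ⟨e.symm.toAlgHom.comp (S.comp e.toAlgHom),
    fun x => by simp [hS],
    fun x => by simp⟩

end Generic

variable (N l : ℕ) [NeZero N] [NeZero l]

/-- The norm of `f(q ^ l)` down to level `N`, multiplicatively. -/
def heckeNormHom : modularFunctionFieldBar N →* modularFunctionFieldBar N where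
  toFun f := FLTA.Congruence.heckeNorm Qb N l f
  map_one' := by simp [FLTA.Congruence.heckeNorm]
  map_mul' x y := by simp [FLTA.Congruence.heckeNorm]

theorem heckeNormHom_apply (f : modularFunctionFieldBar N) :
    heckeNormHom N l f =
      (letI := algebraAlong (heckeAlphaBar Qb N l)
       Algebra.norm (laurentBaseChange Qb (modularFunctionFieldFull N))
        (heckeBetaBar Qb N l f)) := rfl

theorem heckeNormHom_ne_zero {f : modularFunctionFieldBar N} (hf : f ≠ 0) :
    heckeNormHom N l f ≠ 0 := by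
  obtain ⟨-, -, hP, hfin, -, -⟩ := FLTA.Curves.heckeInputsAlong N Qb l
  exact norm_along_ne_zero (heckeAlphaBar Qb N l) hfin ((map_ne_zero (heckeBetaBar Qb N l)).mpr hf)

/-- The expansion of the Hecke norm is the series image. -/
theorem isHeckeImage_heckeNormHom (hl : l.Prime) (hlN : ¬ l ∣ N) {ζ : (Qb)ˣ}
    (hζ : IsPrimitiveRoot ζ l) (f : modularFunctionFieldBar N) :
    IsHeckeImage l ζ (f : LaurentSeries Qb)
      ((heckeNormHom N l f : modularFunctionFieldBar N) : LaurentSeries Qb) :=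
  FLTA.Congruence.qExpand_heckeNorm l N hl hlN FLTA.Congruence.modPolyExists_algebraicClosure
    (FLTA.Congruence.finrankAlong_heckeAlphaBar N l hl hlN) hζ f

/-- A primitive root of unity in a valuation ring of `Qb`. -/
theorem exists_zeta (A : ValuationSubring Qb) :
    ∃ ζ : Aˣ, IsPrimitiveRoot (Units.map (A.subtype : A →* Qb) ζ) l := by
  obtain ⟨ζ, hζ⟩ := FLTA.Congruence.exists_isPrimitiveRoot_units Qb l
  have hpow : (ζ : Qb) ^ l = 1 := by
    rw [← Units.val_pow_eq_pow_val, hζ.pow_eq_one, Units.val_one]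
  have hmem : (ζ : Qb) ∈ A := by
    rcases A.mem_or_inv_mem (ζ : Qb) with h | h
    · exact h
    · have e : (ζ : Qb) = ((ζ : Qb)⁻¹) ^ (l - 1) := by
        rw [inv_pow]
        exact eq_inv_of_mul_eq_one_left (by
          rw [← pow_succ', Nat.sub_add_cancel (Nat.pos_of_ne_zero (NeZero.ne l)), hpow])
      rw [e]
      exact pow_mem h _
  refine ⟨Units.ofPowEqOne ⟨(ζ : Qb), hmem⟩ l (Subtype.ext (by simpa using hpow)) (NeZero.ne l), ?_⟩
  convert hζ using 1
  exact Units.ext rfl

/-- The chosen primitive root of unity. -/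
def zetaA (A : ValuationSubring Qb) : Aˣ := (exists_zeta l A).choose

theorem zetaA_primitive (A : ValuationSubring Qb) :
    IsPrimitiveRoot (Units.map (A.subtype : A →* Qb) (zetaA l A)) l :=
  (exists_zeta l A).choose_spec

theorem hasPrincipalDivisors_mul :
    HasPrincipalDivisors Qb (laurentBaseChange Qb (modularFunctionFieldFull (N * l))) := by
  obtain ⟨-, -, hP, -, -, -⟩ := FLTA.Curves.heckeInputsAlong N Qb l
  exact hP

/-- The correspondence on divisors. -/
def heckeDiv : Divisor Qb (modularFunctionFieldBar N) →+ Divisor Qb (modularFunctionFieldBar N) :=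
  haveI := hasPrincipalDivisors_mul N l
  heckeDivBar (FLTA.Curves.heckeInputsAlong N Qb l).fst
    (FLTA.Curves.heckeInputsAlong N Qb l).snd.fst

theorem degree_heckeDiv (D : Divisor Qb (modularFunctionFieldBar N)) :
    Divisor.degree (heckeDiv N l D) =
      (finrankAlong Qb (heckeBetaBar Qb N l) : ℕ) * Divisor.degree D := by
  obtain ⟨hα, hβ, hP, -, hFI, -⟩ := FLTA.Curves.heckeInputsAlong N Qb l
  exact Divisor.degree_correspondence _ _ hβ hα hFI D

theorem heckeDiv_nonneg (D : Divisor Qb (modularFunctionFieldBar N)) (hD : 0 ≤ D) :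
    0 ≤ heckeDiv N l D := by
  haveI := hasPrincipalDivisors_mul N l
  exact Finsupp.le_def.mpr fun v =>
    FLTA.Congruence.correspondence_nonneg _ _ _ _ (fun w => Finsupp.le_def.mp hD w) v

theorem heckeDiv_ord {f : modularFunctionFieldBar N} (hf : f ≠ 0)
    (D : Divisor Qb (modularFunctionFieldBar N)) (hD : ∀ v, D v = v.ord f)
    (v : Place Qb (modularFunctionFieldBar N)) :
    heckeDiv N l D v = v.ord (heckeNormHom N l f) := by
  obtain ⟨hα, hβ, hP, hfin, -, hNF⟩ := FLTA.Curves.heckeInputsAlong N Qb l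
  exact FLTA.Congruence.correspondence_principal_apply _ _ hβ hα hfin hNF hf hD v

/-- The operator on classes is given by `heckeDiv`. -/
theorem heckeOperatorAlong_mk
    (D : Divisor.degZero (K := Qb) (F := modularFunctionFieldBar N)) :
    ∃ h : heckeDiv N l (D : Divisor Qb (modularFunctionFieldBar N)) ∈
        Divisor.degZero (K := Qb) (F := modularFunctionFieldBar N),
      heckeOperatorAlong Qb N l (Pic0.mk D) = Pic0.mk ⟨_, h⟩ := by
  obtain ⟨hα, hβ, hP, hfin, hFI, hNF⟩ := FLTA.Curves.heckeInputsAlong N Qb l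
  haveI := hP
  rw [heckeOperatorAlong_eq hα hβ hFI hfin hNF]
  exact ⟨(Pic0.degZeroCorrespondence (heckeBetaBar Qb N l) (heckeAlphaBar Qb N l) hβ hα hFI D).2,
    rfl⟩

variable {N}

/-- An eigenclass gives an eigenfunction modulo `n`-th powers. -/
theorem exists_heckeNormHom_eq (ℓ : Nat.Primes) {n : ℕ}
    {D : Divisor.degZero (K := Qb) (F := modularFunctionFieldBar N)}
    {f : modularFunctionFieldBar N} (hf : f ≠ 0)
    (hD : ∀ v, (n : ℤ) * (D : Divisor Qb (modularFunctionFieldBar N)) v = v.ord f)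
    {a : ℤ} (hx : heckeOperatorBar N ℓ (Pic0.mk D) = a • Pic0.mk D) :
    haveI : NeZero (ℓ : ℕ) := ⟨ℓ.2.ne_zero⟩
    ∀ a' : ℤ, (n : ℤ) ∣ a - a' → ∃ (c : Qb) (h : modularFunctionFieldBar N), c ≠ 0 ∧ h ≠ 0 ∧
      heckeNormHom N (ℓ : ℕ) f = algebraMap Qb _ c * f ^ a' * h ^ n := by
  haveI : NeZero (ℓ : ℕ) := ⟨ℓ.2.ne_zero⟩
  intro a' ha'
  obtain ⟨d, hd⟩ := ha'
  obtain ⟨hmem, hmk⟩ := heckeOperatorAlong_mk N (ℓ : ℕ) D
  refine exists_eq_mul_zpow_mul_pow (FLTA.PlaceRed.rrCurve_bar N) hf
    (heckeNormHom_ne_zero N _ hf) hd (D := (D : Divisor Qb (modularFunctionFieldBar N))) hD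
    (E := heckeDiv N (ℓ : ℕ) (D : Divisor Qb (modularFunctionFieldBar N))) (fun v => ?_) ?_
  · have h1 := heckeDiv_ord N (ℓ : ℕ) hf ((n : ℤ) • (D : Divisor Qb (modularFunctionFieldBar N)))
      (fun v => by rw [Finsupp.smul_apply, smul_eq_mul, hD]) v
    rwa [map_zsmul, Finsupp.smul_apply, smul_eq_mul] at h1
  · exact isPrincipal_sub_of_mk_eq (E := ⟨_, hmem⟩) (hmk.symm.trans hx)

section Swap

variable (M p : ℕ) [NeZero M] [NeZero p] [Fact p.Prime]

omit [NeZero l] [NeZero M] [NeZero p] [Fact p.Prime] in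
theorem bar_mul_right_comm :
    laurentBaseChange Qb (modularFunctionFieldFull (M * p * l)) =
      laurentBaseChange Qb (modularFunctionFieldFull (M * l * p)) := by
  rw [mul_right_comm]

/-- The Hecke norm at `l` commutes with the swap at `p`. -/
theorem heckeNormHom_swap (hl : l.Prime) (hlp : l ≠ p) (hpM : ¬ p ∣ M)
    (w : modularFunctionFieldBar (M * p) →ₐ[Qb] modularFunctionFieldBar (M * p))
    (hw₁ : w.comp (heckeAlphaBar Qb M p) = heckeBetaBar Qb M p)
    (hw₂ : w.comp (heckeBetaBar Qb M p) = heckeAlphaBar Qb M p)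
    (f : modularFunctionFieldBar (M * p)) :
    w (heckeNormHom (M * p) l f) = heckeNormHom (M * p) l (w f) := by
  have hpMl : ¬ p ∣ M * l := fun h => by
    rcases (Nat.Prime.dvd_mul (Fact.out (p := p.Prime))).mp h with h | h
    · exact hpM h
    · exact hlp ((Nat.prime_dvd_prime_iff_eq Fact.out hl).mp h).symm
  obtain ⟨e, he⟩ := exists_equiv_coe (bar_mul_right_comm l M p)
  obtain ⟨W, hWW, hW⟩ := exists_involution_conj e (FLTA.BadRed.swapBar (M * l) p hpMl)
    (FLTA.BadRed.swapBar_swapBar (M * l) p hpMl)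
  have hW₁ : ∀ (y : modularFunctionFieldBar (M * l))
      (x : laurentBaseChange Qb (modularFunctionFieldFull (M * p * l))),
      (x : LaurentSeries Qb) = y → (W x : LaurentSeries Qb) = qExpand Qb p (y : LaurentSeries Qb) := by
    intro y x hxy
    have h : e x = heckeAlphaBar Qb (M * l) p y :=
      Subtype.ext ((he x).trans (hxy.trans (coe_heckeAlphaBar (L := Qb) (M * l) p y).symm))
    rw [← he (W x), hW x, h, FLTA.BadRed.swapBar_apply_alpha, coe_heckeBetaBar]
  have hW₂ : ∀ (y : modularFunctionFieldBar (M * l))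
      (x : laurentBaseChange Qb (modularFunctionFieldFull (M * p * l))),
      (x : LaurentSeries Qb) = qExpand Qb p (y : LaurentSeries Qb) →
        (W x : LaurentSeries Qb) = y := by
    intro y x hxy
    have h : e x = heckeBetaBar Qb (M * l) p y :=
      Subtype.ext ((he x).trans (hxy.trans (coe_heckeBetaBar (L := Qb) (M * l) p y).symm))
    have h' : FLTA.BadRed.swapBar (M * l) p hpMl (heckeBetaBar Qb (M * l) p y) =
        heckeAlphaBar Qb (M * l) p y :=
      DFunLike.congr_fun (FLTA.BadRed.swapBar_beta (M * l) p hpMl) y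
    rw [← he (W x), hW x, h, h', coe_heckeAlphaBar]
  have hwα : ∀ y, w (heckeAlphaBar Qb M p y) = heckeBetaBar Qb M p y := DFunLike.congr_fun hw₁
  have hwβ : ∀ y, w (heckeBetaBar Qb M p y) = heckeAlphaBar Qb M p y := DFunLike.congr_fun hw₂
  have hcomm : ∀ z : LaurentSeries Qb, qExpand Qb l (qExpand Qb p z) =
      qExpand Qb p (qExpand Qb l z) := fun z => by
    rw [qExpand_qExpand, qExpand_qExpand]
    exact qExpand_congr (mul_comm l p) _
  have hp : p.Prime := Fact.out
  have hα : W.toRingHom.comp (heckeAlphaBar Qb (M * p) l).toRingHom =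
      (heckeAlphaBar Qb (M * p) l).toRingHom.comp w.toRingHom := by
    refine FLTA.Congruence.ringHom_ext_alpha_beta p M hp (fun y => Subtype.ext ?_)
      (fun y => Subtype.ext ?_) <;>
      simp only [RingHom.coe_comp, Function.comp_apply, AlgHom.toRingHom_eq_coe, RingHom.coe_coe]
    · rw [hwα, hW₁ (heckeAlphaBar Qb M l y) _ (by simp only [coe_heckeAlphaBar])]
      simp only [coe_heckeAlphaBar, coe_heckeBetaBar]
    · rw [hwβ, hW₂ (heckeAlphaBar Qb M l y) _ (by simp only [coe_heckeAlphaBar, coe_heckeBetaBar])]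
      simp only [coe_heckeAlphaBar]
  have hβ : W.toRingHom.comp (heckeBetaBar Qb (M * p) l).toRingHom =
      (heckeBetaBar Qb (M * p) l).toRingHom.comp w.toRingHom := by
    refine FLTA.Congruence.ringHom_ext_alpha_beta p M hp (fun y => Subtype.ext ?_)
      (fun y => Subtype.ext ?_) <;>
      simp only [RingHom.coe_comp, Function.comp_apply, AlgHom.toRingHom_eq_coe, RingHom.coe_coe]
    · rw [hwα, hW₁ (heckeBetaBar Qb M l y) _ (by simp only [coe_heckeAlphaBar, coe_heckeBetaBar])]
      simp only [coe_heckeBetaBar]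
      exact (hcomm _).symm
    · rw [hwβ, hW₂ (heckeBetaBar Qb M l y) _ (by simp only [coe_heckeBetaBar]; exact hcomm _)]
      simp only [coe_heckeAlphaBar, coe_heckeBetaBar]
  exact map_norm_along (heckeAlphaBar Qb (M * p) l) (heckeBetaBar Qb (M * p) l) w W
    (FLTA.BadRed.swap_swap M p w hw₁ hw₂) hWW (RingHom.congr_fun hα) (RingHom.congr_fun hβ) f

end Swap

end FLTA.LevelLowering

end
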