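import Mathlib
import Fermat.Agent.LevelLowering.GlobalDefs
import Fermat.Agent.LevelLowering.GlobalAlg
import Fermat.Agent.GaloisReps.TateConstructTorsion
import Fermat.Agent.Congruence.Torsion
import Fermat.Agent.MordellWeil.Modular
import Fermat.Prelude.Def_GaloisRep_Residual

/-!
# `J₀(N)` for the global step: Hecke eigenspaces in the `p`-torsion, polynomials killing `J₀(M)`
-/

set_option autoImplicit false

noncomputable section

open ModularCurve AlgebraicCurve
open scoped Matrix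
open FLTA.Kummer (JTors)
open FLTA.GaloisReps (GalQ FullHecke heckeMat heckeMat_injective torsCoord)

namespace FLTA.LevelLowering

variable (N : ℕ) [NeZero N]

theorem heckeMat_mulVec_torsCoord (n : ℕ) [NeZero n] {ℓ : ℕ} (hℓ : ℓ.Prime) (hℓN : ¬ ℓ ∣ N)
    (x : JTors N n) :
    (heckeMat N (CuspForm.heckeAlgebra.T hℓ hℓN (Set.notMem_empty ℓ))).map (Int.cast : ℤ → ZMod n)
        *ᵥ torsCoord N n x =
      torsCoord N n ⟨heckeOperatorBar N ⟨ℓ, hℓ⟩ (x : JZero N),
        FLTA.GaloisReps.hecke_mem_torsion N n ⟨ℓ, hℓ⟩ x⟩ :=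
  FLTA.GaloisReps.latMat_mulVec_torsCoord N n ⟨ℓ, hℓ⟩
    (FLTA.GaloisReps.heckeQuot_T_comp hℓ hℓN) x

section Kill

variable (S : Finset ℕ) (hS : ∀ ℓ : ℕ, ℓ.Prime → ℓ ∣ N → ℓ ∈ S)

/-- A polynomial in the good Hecke operators as an element of the Hecke algebra of forms. -/
def heckeLiftFull : FreeAlgebra ℤ {ℓ : Nat.Primes // (ℓ : ℕ) ∉ S} →ₐ[ℤ] FullHecke N :=
  FreeAlgebra.lift ℤ fun ℓ => CuspForm.heckeAlgebra.T ℓ.1.2
    (fun h => ℓ.2 (hS _ ℓ.1.2 h)) (Set.notMem_empty _)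

theorem heckeLiftFull_ι (ℓ : {ℓ : Nat.Primes // (ℓ : ℕ) ∉ S}) :
    heckeLiftFull N S hS (FreeAlgebra.ι ℤ ℓ) = CuspForm.heckeAlgebra.T ℓ.1.2
      (fun h => ℓ.2 (hS _ ℓ.1.2 h)) (Set.notMem_empty _) :=
  FreeAlgebra.lift_ι_apply _ _

theorem coe_torsCoord_symm_heckeMat (n : ℕ) [NeZero n]
    (t : FreeAlgebra ℤ {ℓ : Nat.Primes // (ℓ : ℕ) ∉ S}) (x : JTors N n) :
    (((torsCoord N n).symm ((heckeMat N (heckeLiftFull N S hS t)).map (Int.cast : ℤ → ZMod n)
        *ᵥ torsCoord N n x) : JTors N n) : JZero N) = heckeLiftBar N S t (x : JZero N) := by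
  induction t using FreeAlgebra.induction generalizing x with
  | grade0 r =>
    rw [AlgHom.commutes, AlgHom.commutes, eq_intCast, map_intCast, Module.algebraMap_end_apply]
    have h1 : ((r : Matrix (Fin (FLTA.Gamma0.homRank N)) (Fin (FLTA.Gamma0.homRank N)) ℤ)).map
        (Int.cast : ℤ → ZMod n) = (r : Matrix _ _ (ZMod n)) :=
      map_intCast (Int.castRingHom (ZMod n)).mapMatrix r
    rw [h1, show (r : Matrix (Fin (FLTA.Gamma0.homRank N)) (Fin (FLTA.Gamma0.homRank N)) (ZMod n))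
      = (r : ℤ) • 1 by simp, Matrix.smul_mulVec, Matrix.one_mulVec, map_zsmul,
      LinearEquiv.symm_apply_apply]
    exact AddSubgroupClass.coe_zsmul _ _
  | grade1 ℓ =>
    rw [heckeLiftFull_ι, heckeLiftBar, FreeAlgebra.lift_ι_apply,
      heckeMat_mulVec_torsCoord N n ℓ.1.2, LinearEquiv.symm_apply_apply]
    rfl
  | mul a b ha hb =>
    rw [map_mul, map_mul, map_mul, Module.End.mul_apply, ← hb x, ← ha]
    rw [LinearEquiv.apply_symm_apply, Matrix.mulVec_mulVec]
    rw [show ((heckeMat N (heckeLiftFull N S hS a) * heckeMat N (heckeLiftFull N S hS b))).map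
      (Int.cast : ℤ → ZMod n) = _ from map_mul (Int.castRingHom (ZMod n)).mapMatrix _ _]
    rfl
  | add a b ha hb =>
    rw [map_add, map_add, map_add, LinearMap.add_apply, ← ha, ← hb]
    rw [show ((heckeMat N (heckeLiftFull N S hS a) + heckeMat N (heckeLiftFull N S hS b))).map
      (Int.cast : ℤ → ZMod n) = _ from map_add (Int.castRingHom (ZMod n)).mapMatrix _ _,
      Matrix.add_mulVec, map_add]
    rfl

theorem heckeLiftBar_galois (t : FreeAlgebra ℤ {ℓ : Nat.Primes // (ℓ : ℕ) ∉ S}) (σ : GalQ)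
    (x : JZero N) : heckeLiftBar N S t (σ • x) = σ • heckeLiftBar N S t x := by
  induction t using FreeAlgebra.induction generalizing x with
  | grade0 r =>
    rw [AlgHom.commutes, Module.algebraMap_end_apply, Module.algebraMap_end_apply]
    exact (map_zsmul (DistribSMul.toAddMonoidHom (JZero N) σ) r x).symm
  | grade1 ℓ =>
    rw [heckeLiftBar, FreeAlgebra.lift_ι_apply]
    exact (FLTA.GaloisReps.heckeOperatorBar_galois N ℓ.1 σ x).symm
  | mul a b ha hb => rw [map_mul, Module.End.mul_apply, Module.End.mul_apply, hb, ha]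
  | add a b ha hb => rw [map_add, LinearMap.add_apply, LinearMap.add_apply, ha, hb, smul_add]

/-- A polynomial vanishing on cusp forms kills all of `J₀(N)`. -/
theorem heckeLiftBar_eq_zero {t : FreeAlgebra ℤ {ℓ : Nat.Primes // (ℓ : ℕ) ∉ S}}
    (ht : heckeLiftFull N S hS t = 0) : heckeLiftBar N S t = 0 := by
  refine LinearMap.toAddMonoidHom_injective
    (eq_zero_of_kills_torsion (G := GalQ) (heckeLiftBar N S t).toAddMonoidHom
      (heckeLiftBar_galois N S t) ?_ (fun x n hn => FLTA.MordellWeil.jZero_divisible N hn x) ?_)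
  · intro x n hn hnx
    have : NeZero n := ⟨hn⟩
    have hx : x ∈ Pic0.torsion (AlgebraicClosure ℚ) (modularFunctionFieldBar N) n := by
      rw [Pic0.mem_torsion, natCast_zsmul]; exact hnx
    show heckeLiftBar N S t x = 0
    rw [← coe_torsCoord_symm_heckeMat N S hS n t ⟨x, hx⟩, ht, map_zero,
      Matrix.map_zero _ Int.cast_zero, Matrix.zero_mulVec, map_zero]
    rfl
  · intro x
    obtain ⟨L, hL, hfix⟩ := FLTA.GaloisReps.exists_finiteDimensional_fix N x
    refine ⟨FixedPoints.addSubgroup L.fixingSubgroup (JZero N),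
      (AddGroup.fg_iff_addSubgroup_fg _).1 (FLTA.MordellWeil.jZero_fixed_fg N L), fun y hy σ => ?_⟩
    exact hy σ.1 (hfix σ.1 fun z hz => (IntermediateField.mem_fixingSubgroup_iff L σ.1).1 σ.2 z hz)

end Kill

section Eigen

variable (p : ℕ) [Fact p.Prime] (S : Finset ℕ) (a : ℕ → ℤ)

/-- The eigenspace of the good Hecke operators in `J₀(N)[p]`. -/
def eigenTors : Submodule (ZMod p) (JTors N p) where
  carrier := {x | ∀ ℓ : Nat.Primes, (ℓ : ℕ) ∉ S →
    heckeOperatorBar N ℓ (x : JZero N) = a ℓ • (x : JZero N)}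
  add_mem' {x y} hx hy ℓ hℓ := by
    rw [show ((x + y : JTors N p) : JZero N) = x + y from rfl, map_add, hx ℓ hℓ, hy ℓ hℓ]
    exact (smul_add (a ℓ : ℤ) (x : JZero N) (y : JZero N)).symm
  zero_mem' ℓ _ := by
    rw [show ((0 : JTors N p) : JZero N) = 0 from rfl, map_zero, smul_zero]
  smul_mem' c x hx ℓ hℓ := by
    have e : ((c • x : JTors N p) : JZero N) = (c.val : ℤ) • (x : JZero N) := by
      rw [show c • x = (c.val : ℤ) • x by
        rw [← Int.cast_smul_eq_zsmul (ZMod p), Int.cast_natCast, ZMod.natCast_zmod_val]]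
      exact AddSubgroupClass.coe_zsmul x _
    rw [e, map_zsmul, hx ℓ hℓ, smul_comm]

theorem nontrivial_eigenTors (hS : ∀ ℓ : ℕ, ℓ.Prime → ℓ ∣ N → ℓ ∈ S) (m : Ideal (FullHecke N))
    [m.IsPrime] (hpm : (p : FullHecke N) ∈ m)
    (ha : ∀ ℓ (hℓ : ℓ.Prime) (hℓN : ¬ ℓ ∣ N), ℓ ∉ S →
      CuspForm.heckeAlgebra.T hℓ hℓN (Set.notMem_empty ℓ) - (a ℓ : FullHecke N) ∈ m) :
    Nontrivial (eigenTors N p S a) := by
  obtain ⟨v, hv, hvm⟩ := exists_eigenvector_mod (heckeMat N) (heckeMat_injective N) m hpm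
  have hmem : (torsCoord N p).symm v ∈ eigenTors N p S a := fun ℓ hℓ => by
    have hℓN : ¬ (ℓ : ℕ) ∣ N := fun h => hℓ (hS _ ℓ.2 h)
    have h1 := heckeMat_mulVec_torsCoord N p ℓ.2 hℓN ((torsCoord N p).symm v)
    rw [LinearEquiv.apply_symm_apply] at h1
    have h2 := hvm _ (ha ℓ ℓ.2 hℓN hℓ)
    rw [map_sub, map_intCast] at h2
    rw [show ((heckeMat N (CuspForm.heckeAlgebra.T ℓ.2 hℓN (Set.notMem_empty _)) -
        (a ℓ : Matrix (Fin (FLTA.Gamma0.homRank N)) (Fin (FLTA.Gamma0.homRank N)) ℤ))).map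
      (Int.cast : ℤ → ZMod p) = _ from map_sub (Int.castRingHom (ZMod p)).mapMatrix _ _,
      map_intCast, Matrix.sub_mulVec, sub_eq_zero] at h2
    have h3 : (a ℓ : Matrix (Fin (FLTA.Gamma0.homRank N)) (Fin (FLTA.Gamma0.homRank N)) (ZMod p))
        *ᵥ v = a ℓ • v := by
      rw [show (a ℓ : Matrix (Fin (FLTA.Gamma0.homRank N)) (Fin (FLTA.Gamma0.homRank N)) (ZMod p))
        = (a ℓ : ℤ) • 1 by simp, Matrix.smul_mulVec, Matrix.one_mulVec]
    have h4 : (⟨heckeOperatorBar N ℓ (((torsCoord N p).symm v : JTors N p) : JZero N),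
        FLTA.GaloisReps.hecke_mem_torsion N p ℓ ((torsCoord N p).symm v)⟩ : JTors N p) =
          a ℓ • (torsCoord N p).symm v := by
      apply (torsCoord N p).injective
      rw [map_zsmul, LinearEquiv.apply_symm_apply, ← h3]
      exact h1.symm.trans h2
    exact (congrArg Subtype.val h4).trans (AddSubgroupClass.coe_zsmul _ _)
  refine ⟨⟨⟨_, hmem⟩, 0, fun h => hv ?_⟩⟩
  simpa using congrArg (torsCoord N p) (congrArg Subtype.val h)

/-- Galois on the eigenspace. -/
def eigenRep : GalQ →* Module.End (ZMod p) (eigenTors N p S a) where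
  toFun σ := LinearMap.restrict (p := eigenTors N p S a) (q := eigenTors N p S a)
    (JZero.torsionGaloisRep N p σ) fun x hx ℓ hℓ => by
      rw [JZero.coe_torsionGaloisRep_apply, ← FLTA.GaloisReps.heckeOperatorBar_galois, hx ℓ hℓ]
      exact map_zsmul (DistribSMul.toAddMonoidHom (JZero N) σ) _ _
  map_one' := by
    refine LinearMap.ext fun x => Subtype.ext ?_
    show JZero.torsionGaloisRep N p 1 x = x
    rw [map_one]; rfl
  map_mul' σ τ := by
    refine LinearMap.ext fun x => Subtype.ext ?_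
    show JZero.torsionGaloisRep N p (σ * τ) x = _
    rw [map_mul]; rfl

theorem coe_eigenRep (σ : GalQ) (x : eigenTors N p S a) :
    (((eigenRep N p S a σ x : eigenTors N p S a) : JTors N p) : JZero N) =
      σ • ((x : JTors N p) : JZero N) :=
  rfl

theorem eigenRep_factors : GaloisFactorsThroughFiniteLevel (eigenRep N p S a) := by
  obtain ⟨L, hL, h⟩ := FLTA.GaloisReps.exists_level_galMat N p
  exact ⟨L, hL, fun σ hσ => LinearMap.ext fun x => Subtype.ext (Subtype.ext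
    (((FLTA.GaloisReps.galMat_eq_one_iff N p σ).1 (h σ hσ) x.1)))⟩

/-- The Eichler–Shimura quadratic on the eigenspace. -/
theorem eigenRep_frobenius (hpS : p ∈ S) {ℓ : ℕ} (hℓ : ℓ.Prime) (hℓN : ¬ ℓ ∣ N) (hℓS : ℓ ∉ S)
    {A : ValuationSubring (AlgebraicClosure ℚ)} (hA : A.LiesOverPrime ℓ) {σ : GalQ}
    (hσ : A.IsFrobeniusAt σ ℓ) :
    eigenRep N p S a σ + (ℓ : ZMod p) • eigenRep N p S a σ⁻¹ =
      (a ℓ : ZMod p) • (1 : Module.End (ZMod p) (eigenTors N p S a)) := by
  have hℓp : ¬ ℓ ∣ p := fun h => hℓS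
    ((Nat.prime_dvd_prime_iff_eq hℓ Fact.out).1 h ▸ hpS)
  refine LinearMap.ext fun y => ?_
  have key : ∀ x : eigenTors N p S a,
      eigenRep N p S a σ (eigenRep N p S a σ x) - (a ℓ : ℤ) • eigenRep N p S a σ x
        + (ℓ : ℤ) • x = 0 := fun x => by
    have hx : p • ((x : JTors N p) : JZero N) = 0 := by
      have := Pic0.mem_torsion.1 (x : JTors N p).2
      rwa [natCast_zsmul] at this
    have h := FLTA.Congruence.frobenius_quadratic_torsion hℓ hℓN hA hℓp hσ hx
    rw [← coe_eigenRep, (eigenRep N p S a σ x).2 ⟨ℓ, hℓ⟩ hℓS] at h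
    exact Subtype.ext (Subtype.ext h)
  have h := key (eigenRep N p S a σ⁻¹ y)
  have hinv : eigenRep N p S a σ (eigenRep N p S a σ⁻¹ y) = y := by
    rw [← Module.End.mul_apply, ← map_mul, mul_inv_cancel, map_one, Module.End.one_apply]
  rw [hinv] at h
  rw [LinearMap.add_apply, LinearMap.smul_apply, LinearMap.smul_apply, Module.End.one_apply,
    Int.cast_smul_eq_zsmul, show (ℓ : ZMod p) = ((ℓ : ℤ) : ZMod p) by simp,
    Int.cast_smul_eq_zsmul, ← sub_eq_zero, ← h]
  abel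

end Eigen

end FLTA.LevelLowering

end
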