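import Fermat.Agent.LevelLowering.EtaUnitSeries
import Fermat.Agent.Bridge.ModHol

/-!
# `Δ(τ) / Δ(pτ)` as a holomorphic modular function
-/

set_option autoImplicit false

noncomputable section

open scoped Manifold MatrixGroups Topology Real
open UpperHalfPlane hiding I
open Complex Filter CongruenceSubgroup ModularCurve
open FLTA.Bridge

namespace FLTA.LevelLowering

variable (p : ℕ) [NeZero p]

/-- `Δ(τ) / Δ(pτ)`. -/
def etaFun (τ : ℍ) : ℂ := ModularForm.discriminant τ / ModularForm.discriminant (scaleTau p τ)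

/-- `Δ(pτ) / Δ(τ)`. -/
def etaFunInv (τ : ℍ) : ℂ := ModularForm.discriminant (scaleTau p τ) / ModularForm.discriminant τ

theorem etaFun_mul_inv (τ : ℍ) : etaFun p τ * etaFunInv p τ = 1 := by
  have h1 := ModularForm.discriminant_ne_zero τ
  have h2 := ModularForm.discriminant_ne_zero (scaleTau p τ)
  rw [etaFun, etaFunInv]
  field_simp

theorem discriminant_smul (g : SL(2, ℤ)) (τ : ℍ) :
    ModularForm.discriminant (g • τ) = ModularForm.discriminant τ * denom g τ ^ 12 := by
  have h := discriminant_slash_apply 1 g τ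
  rw [pow_one, pow_one] at h
  rw [← h, mul_assoc, Nat.cast_one, mul_one, zpow_neg, show (12 : ℤ) = ((12 : ℕ) : ℤ) from rfl,
    zpow_natCast, inv_mul_cancel₀ (pow_ne_zero _ (denom_ne_zero _ τ)), mul_one]

theorem norm_discriminant_smul (g : SL(2, ℤ)) (τ : ℍ) :
    ‖ModularForm.discriminant (g • τ)‖ * (g • τ).im ^ 6 =
      ‖ModularForm.discriminant τ‖ * τ.im ^ 6 := by
  have hd : Complex.normSq (denom g τ) ≠ 0 := mt Complex.normSq_eq_zero.mp (denom_ne_zero _ τ)
  rw [discriminant_smul, ModularGroup.im_smul_eq_div_normSq, norm_mul, norm_pow, div_pow,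
    show ‖denom g τ‖ ^ 12 = Complex.normSq (denom g τ) ^ 6 by
      rw [Complex.normSq_eq_norm_sq, ← pow_mul]]
  field_simp

theorem im_scaleTau (τ : ℍ) : (scaleTau p τ).im = p * τ.im := by
  rw [← UpperHalfPlane.coe_im, coe_scaleTau]
  simp

theorem etaFun_mem_hol : etaFun p ∈ Hol ∧ etaFunInv p ∈ Hol := by
  have hd := UpperHalfPlane.mdifferentiable_iff.mp FLTA.Dim.discriminant_mem.1
  have hp : (0 : ℝ) < p := by exact_mod_cast Nat.pos_of_ne_zero (NeZero.ne p)
  have hs : DifferentiableOn ℂ ((fun τ => ModularForm.discriminant (scaleTau p τ)) ∘ ofComplex)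
      {z | 0 < z.im} := by
    refine DifferentiableOn.congr
      (f := (ModularForm.discriminant ∘ ofComplex) ∘ fun z : ℂ => (p : ℂ) * z) ?_ ?_
    · exact hd.comp (by fun_prop) (fun z hz => by simpa using mul_pos hp hz)
    · intro z hz
      simp only [Function.comp_apply, ofComplex_apply_of_im_pos hz]
      rw [show (p : ℂ) * z = ((scaleTau p ⟨z, hz⟩ : ℍ) : ℂ) from rfl, ofComplex_apply]
  exact ⟨mem_hol_iff_differentiableOn.mpr
      (hd.div hs fun _ _ => ModularForm.discriminant_ne_zero _),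
    mem_hol_iff_differentiableOn.mpr (hs.div hd fun _ _ => ModularForm.discriminant_ne_zero _)⟩

theorem etaFun_smul {γ : SL(2, ℤ)} (hγ : γ ∈ Gamma0 p) (τ : ℍ) :
    etaFun p (γ • τ) = etaFun p τ := by
  rw [Gamma0_mem, ZMod.intCast_zmod_eq_zero_iff_dvd] at hγ
  obtain ⟨k, hk⟩ := hγ
  have hdet : γ.1 0 0 * γ.1 1 1 - γ.1 0 1 * γ.1 1 0 = 1 := by
    rw [← Matrix.det_fin_two]; exact γ.2
  let γ' : SL(2, ℤ) := ⟨!![γ.1 0 0, p * γ.1 0 1; k, γ.1 1 1], by
    rw [Matrix.det_fin_two_of]; rw [hk] at hdet; linarith⟩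
  have hden : denom γ' (scaleTau p τ : ℂ) = denom γ (τ : ℂ) := by
    rw [ModularGroup.denom_apply, ModularGroup.denom_apply, coe_scaleTau]
    simp [γ', hk]
    ring
  have he : scaleTau p (γ • τ) = γ' • scaleTau p τ := by
    apply UpperHalfPlane.ext
    rw [coe_scaleTau, coe_smul_eq γ τ, coe_smul_eq γ' _, coe_scaleTau]
    simp only [γ', Matrix.of_apply, Matrix.cons_val', Matrix.cons_val_zero, Matrix.cons_val_one,
      Matrix.cons_val_fin_one, Matrix.empty_val']
    rw [hk]
    push_cast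
    rw [mul_div_assoc']
    congr 1 <;> ring
  rw [etaFun, etaFun, he, discriminant_smul, discriminant_smul, hden,
    mul_div_mul_right _ _ (pow_ne_zero _ (denom_ne_zero _ τ))]

theorem etaFunInv_eq : etaFunInv p = fun τ => (etaFun p τ)⁻¹ := by
  funext τ
  rw [etaFun, etaFunInv, inv_div]

theorem etaFunInv_smul {γ : SL(2, ℤ)} (hγ : γ ∈ Gamma0 p) (τ : ℍ) :
    etaFunInv p (γ • τ) = etaFunInv p τ := by
  simp only [etaFunInv_eq, etaFun_smul p hγ τ]

theorem exists_bounded_etaFun_smul (g : SL(2, ℤ)) :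
    IsBoundedAtImInfty (fun τ : ℍ => Function.Periodic.qParam 1 (τ : ℂ) ^ (p - 1) * etaFun p (g • τ)) ∧
      IsBoundedAtImInfty
        (fun τ : ℍ => Function.Periodic.qParam 1 (τ : ℂ) ^ (p - 1) * etaFunInv p (g • τ)) := by
  obtain ⟨h, α, δ, β, hα, hδ, hαδ, he⟩ := exists_smul_eq_scaleTau_smul p g
  have hev := (tendsto_qParam_div_discriminant.norm).eventually
    (Ioo_mem_nhds (a := (1 / 2 : ℝ)) (b := 2) (by simp; norm_num) (by simp))
  obtain ⟨A, hA⟩ := (atImInfty_mem _).mp hev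
  have hδ' : (0 : ℝ) < δ := by exact_mod_cast hδ
  have hα' : (0 : ℝ) < α := by exact_mod_cast hα
  have hαp : (α : ℝ) ≤ p := by
    exact_mod_cast hαδ ▸ Nat.le_mul_of_pos_right α hδ
  have hbound : ∀ z : ℍ, A ≤ z.im →
      ‖ModularForm.discriminant z‖ ≤ 2 * Real.exp (-2 * π * z.im) ∧
      Real.exp (-2 * π * z.im) ≤ 2 * ‖ModularForm.discriminant z‖ := by
    intro z hz
    obtain ⟨h1, h2⟩ := hA z hz
    have hD : 0 < ‖ModularForm.discriminant z‖ := norm_pos_iff.mpr (ModularForm.discriminant_ne_zero z)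
    rw [norm_div, norm_qParam_one] at h1 h2
    rw [lt_div_iff₀ hD] at h1
    rw [div_lt_iff₀ hD] at h2
    constructor <;> linarith
  set C : ℝ := ((p : ℝ) * δ / α) ^ 6 with hC
  have hC0 : 0 < C := by
    have : (0 : ℝ) < p := by exact_mod_cast Nat.pos_of_ne_zero (NeZero.ne p)
    positivity
  refine ⟨isBoundedAtImInfty_iff.mpr ⟨C * 4, max A (max 0 (A * δ / α)), fun τ hτ => ?_⟩,
    isBoundedAtImInfty_iff.mpr ⟨C⁻¹ * 4, max A (max 0 (A * δ / α)), fun τ hτ => ?_⟩⟩
  all_goals
    have hy := τ.im_pos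
    have him : (((α : ℂ) * τ + β) / δ).im = α * τ.im / δ := by simp [Complex.div_natCast_im]
    let σ : ℍ := ⟨((α : ℂ) * τ + β) / δ, by rw [him]; positivity⟩
    have hσim : σ.im = α * τ.im / δ := him
    have hσA : A ≤ σ.im := by
      rw [hσim, le_div_iff₀ hδ']
      have := le_trans (le_trans (le_max_right _ _) (le_max_right _ _)) hτ
      rw [div_le_iff₀ hα'] at this
      linarith
    obtain ⟨t1, t2⟩ := hbound τ (le_trans (le_max_left _ _) hτ)
    obtain ⟨s1, s2⟩ := hbound σ hσA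
    have hDσ : 0 < ‖ModularForm.discriminant σ‖ := norm_pos_iff.mpr (ModularForm.discriminant_ne_zero σ)
    have hDτ : 0 < ‖ModularForm.discriminant τ‖ := norm_pos_iff.mpr (ModularForm.discriminant_ne_zero τ)
    have hG : ‖etaFun p (g • τ)‖ = C * (‖ModularForm.discriminant τ‖ / ‖ModularForm.discriminant σ‖) := by
      have e1 := norm_discriminant_smul g τ
      have e2 := norm_discriminant_smul h σ
      rw [← he τ σ rfl, im_scaleTau, hσim] at e2
      have hp0 : (p : ℝ) ≠ 0 := Nat.cast_ne_zero.mpr (NeZero.ne p)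
      have hgi : (g • τ).im ≠ 0 := (g • τ).im_ne_zero
      have hb : ‖ModularForm.discriminant (scaleTau p (g • τ))‖ =
          ‖ModularForm.discriminant σ‖ * (α * τ.im / δ) ^ 6 / (p * (g • τ).im) ^ 6 :=
        (eq_div_iff (pow_ne_zero _ (mul_ne_zero hp0 hgi))).mpr e2
      rw [etaFun, norm_div, hb, hC, eq_div_iff (pow_ne_zero 6 hgi) |>.mpr e1]
      field_simp
    have key : ∀ x : ℝ, -((p : ℝ) - 1) * (2 * π * τ.im) + x ≤ 0 →
        Real.exp (-((p : ℝ) - 1) * (2 * π * τ.im)) * Real.exp x ≤ 1 := fun x hx => by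
      rw [← Real.exp_add]; exact Real.exp_le_one_iff.mpr hx
    have hp1 : (1 : ℝ) ≤ p := by exact_mod_cast Nat.pos_of_ne_zero (NeZero.ne p)
    have hc1 : ((p - 1 : ℕ) : ℝ) = p - 1 := by
      rw [Nat.cast_sub (NeZero.pos p), Nat.cast_one]
    have hy2 : τ.im - σ.im ≤ (p - 1) * τ.im := by
      rcases Nat.lt_or_ge p 2 with h2 | h2
      · have hp : p = 1 := by have := NeZero.pos p; omega
        have hαδ' : α = 1 ∧ δ = 1 := mul_eq_one.mp (hαδ.trans hp)
        rw [hσim, hαδ'.1, hαδ'.2, hp]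
        simp
      · have : (2 : ℝ) ≤ p := by exact_mod_cast h2
        nlinarith [σ.im_pos]
    have hασ : (α : ℝ) * τ.im / δ ≤ p * τ.im :=
      le_trans (div_le_self (by positivity) (by exact_mod_cast hδ))
        (mul_le_mul_of_nonneg_right hαp hy.le)
    have hqp : ‖Function.Periodic.qParam 1 (τ : ℂ) ^ (p - 1)‖ =
        Real.exp (-((p : ℝ) - 1) * (2 * π * τ.im)) := by
      rw [norm_pow, norm_qParam_one, ← Real.exp_nat_mul, hc1]; ring_nf
  · rw [norm_mul, hqp, hG]
    have hr : ‖ModularForm.discriminant τ‖ / ‖ModularForm.discriminant σ‖ ≤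
        4 * Real.exp (-2 * π * τ.im + 2 * π * σ.im) := by
      rw [div_le_iff₀ hDσ]
      refine t1.trans (le_trans (le_of_eq ?_)
        (mul_le_mul_of_nonneg_left s2 (mul_nonneg zero_le_two (Real.exp_nonneg
          (-2 * π * τ.im + 2 * π * σ.im)))) |>.trans (le_of_eq (by ring)))
      rw [mul_assoc (2 : ℝ) (Real.exp _), ← Real.exp_add]
      ring_nf
    calc _ ≤ Real.exp (-((p : ℝ) - 1) * (2 * π * τ.im)) *
          (C * (4 * Real.exp (-2 * π * τ.im + 2 * π * σ.im))) := by gcongr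
      _ = C * 4 * (Real.exp (-((p : ℝ) - 1) * (2 * π * τ.im)) *
          Real.exp (-2 * π * τ.im + 2 * π * σ.im)) := by ring
      _ ≤ C * 4 * 1 := by
          refine mul_le_mul_of_nonneg_left (key _ ?_) (by positivity)
          rw [hσim]
          nlinarith [mul_le_mul_of_nonneg_left hασ Real.pi_pos.le, mul_pos Real.pi_pos hy]
      _ = C * 4 := mul_one _
  · rw [norm_mul, hqp, etaFunInv_eq, norm_inv, hG, mul_inv, inv_div]
    have hr : ‖ModularForm.discriminant σ‖ / ‖ModularForm.discriminant τ‖ ≤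
        4 * Real.exp (-2 * π * σ.im + 2 * π * τ.im) := by
      rw [div_le_iff₀ hDτ]
      refine s1.trans (le_trans (le_of_eq ?_)
        (mul_le_mul_of_nonneg_left t2 (mul_nonneg zero_le_two (Real.exp_nonneg
          (-2 * π * σ.im + 2 * π * τ.im)))) |>.trans (le_of_eq (by ring)))
      rw [mul_assoc (2 : ℝ) (Real.exp _), ← Real.exp_add]
      ring_nf
    calc _ ≤ Real.exp (-((p : ℝ) - 1) * (2 * π * τ.im)) *
          (C⁻¹ * (4 * Real.exp (-2 * π * σ.im + 2 * π * τ.im))) := by gcongr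
      _ = C⁻¹ * 4 * (Real.exp (-((p : ℝ) - 1) * (2 * π * τ.im)) *
          Real.exp (-2 * π * σ.im + 2 * π * τ.im)) := by ring
      _ ≤ C⁻¹ * 4 * 1 := by
          refine mul_le_mul_of_nonneg_left (key _ ?_) (by positivity)
          nlinarith [mul_le_mul_of_nonneg_left hy2 Real.pi_pos.le]
      _ = C⁻¹ * 4 := mul_one _

theorem etaFun_mem_modHol : etaFun p ∈ ModHol p :=
  ⟨(etaFun_mem_hol p).1, fun _ hγ τ => etaFun_smul p hγ τ,
    fun g => ⟨p - 1, (exists_bounded_etaFun_smul p g).1⟩⟩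

theorem etaFunInv_mem_modHol : etaFunInv p ∈ ModHol p :=
  ⟨(etaFun_mem_hol p).2, fun _ hγ τ => etaFunInv_smul p hγ τ,
    fun g => ⟨p - 1, (exists_bounded_etaFun_smul p g).2⟩⟩

theorem discriminant_mem_holInfty : ModularForm.discriminant ∈ HolInfty 1 ∧
    IsBoundedAtImInfty ModularForm.discriminant := by
  have hper : Function.Periodic (ModularForm.discriminant ∘ ofComplex) ((1 : ℕ) : ℂ) := by
    intro z
    by_cases hz : 0 < z.im
    · have hz' : 0 < (z + ((1 : ℕ) : ℂ)).im := by simpa using hz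
      simp only [Function.comp_apply, ofComplex_apply_of_im_pos hz, ofComplex_apply_of_im_pos hz']
      conv_rhs => rw [← mul_one (ModularForm.discriminant (⟨z, hz⟩ : ℍ))]
      rw [show (⟨z + ((1 : ℕ) : ℂ), hz'⟩ : ℍ) = ModularGroup.T • (⟨z, hz⟩ : ℍ) from
        UpperHalfPlane.ext (by rw [coe_smul_eq]; simp [ModularGroup.T]), discriminant_smul,
        ModularGroup.denom_apply]
      simp [ModularGroup.T]
    · have hz' : (z + ((1 : ℕ) : ℂ)).im ≤ 0 := by simpa using not_lt.mp hz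
      simp only [Function.comp_apply, ofComplex_apply_of_im_nonpos hz',
        ofComplex_apply_of_im_nonpos (not_lt.mp hz)]
  have hb : IsBoundedAtImInfty ModularForm.discriminant := by
    have h := (FLTA.Dim.discriminant_mem.2.2 1)
    simpa using h.isBoundedAtImInfty
  refine ⟨⟨FLTA.Dim.discriminant_mem.1, hper, 0, ?_⟩, hb⟩
  simpa using hb

theorem expansionFun_discriminant :
    expansionFun 1 ModularForm.discriminant = deltaLaurent ℂ := by
  obtain ⟨h1, h2⟩ := discriminant_mem_holInfty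
  rw [expansionFun_of_bounded 1 h1 h2, Nat.cast_one, qExpansion_discriminant, map_mul,
    HahnSeries.ofPowerSeries_X, deltaLaurent]

/-- The `q`-expansion of `Δ(τ) / Δ(pτ)`. -/
theorem expansionFun_etaFun :
    expansionFun 1 (etaFun p) = etaSeries ℂ p ∧
      expansionFun 1 (etaFunInv p) = etaSeriesInv ℂ p := by
  obtain ⟨hD, hDb⟩ := discriminant_mem_holInfty
  have hG := mem_holInfty_one_of_mem_modHol p (etaFun_mem_modHol p)
  have hH := mem_holInfty_one_of_mem_modHol p (etaFunInv_mem_modHol p)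
  have hper : Function.Periodic ((fun τ => ModularForm.discriminant (scaleTau p τ)) ∘ ofComplex)
      ((1 : ℕ) : ℂ) := by
    intro z
    by_cases hz : 0 < z.im
    · have hz' : 0 < (z + ((1 : ℕ) : ℂ)).im := by simpa using hz
      simp only [Function.comp_apply, ofComplex_apply_of_im_pos hz, ofComplex_apply_of_im_pos hz']
      rw [show scaleTau p (⟨z + ((1 : ℕ) : ℂ), hz'⟩ : ℍ) =
        (ModularGroup.T ^ (p : ℤ)) • scaleTau p (⟨z, hz⟩ : ℍ) from
        UpperHalfPlane.ext (by
          rw [modular_T_zpow_smul]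
          simp [coe_scaleTau]; ring), discriminant_smul, ModularGroup.denom_apply,
        ModularGroup.coe_T_zpow]
      simp
    · have hz' : (z + ((1 : ℕ) : ℂ)).im ≤ 0 := by simpa using not_lt.mp hz
      simp only [Function.comp_apply, ofComplex_apply_of_im_nonpos hz',
        ofComplex_apply_of_im_nonpos (not_lt.mp hz)]
  have hDp : (fun τ => ModularForm.discriminant (scaleTau p τ)) ∈ HolInfty 1 := by
    have e : (fun τ => ModularForm.discriminant (scaleTau p τ)) =
        etaFunInv p * ModularForm.discriminant := by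
      funext τ
      rw [Pi.mul_apply, etaFunInv, div_mul_cancel₀ _ (ModularForm.discriminant_ne_zero τ)]
    rw [e]
    exact mul_mem hH hD
  have h1 : etaFun p * (fun τ => ModularForm.discriminant (scaleTau p τ)) =
      ModularForm.discriminant := by
    funext τ
    rw [Pi.mul_apply, etaFun, div_mul_cancel₀ _ (ModularForm.discriminant_ne_zero _)]
  have h2 := expansionFun_mul 1 hG hDp
  rw [h1, expansionFun_discriminant, expansionFun_comp_scaleTau p hD hDp,
    expansionFun_discriminant] at h2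
  have hinv : qExpand ℂ p (deltaLaurentInv ℂ) * qExpand ℂ p (deltaLaurent ℂ) = 1 := by
    rw [← map_mul, mul_comm, deltaLaurent_mul_inv, map_one]
  have h3 : expansionFun 1 (etaFun p) = etaSeries ℂ p := by
    rw [etaSeries, h2, mul_assoc, mul_comm (qExpand ℂ p (deltaLaurent ℂ)), hinv, mul_one]
  refine ⟨h3, ?_⟩
  have h4 := expansionFun_mul 1 hG hH
  have e : etaFun p * etaFunInv p = algebraMap ℂ (ℍ → ℂ) 1 := funext fun τ => by
    simp [etaFun_mul_inv p τ]
  rw [e, expansionFun_const, map_one, h3] at h4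
  calc expansionFun 1 (etaFunInv p)
      = etaSeriesInv ℂ p * etaSeries ℂ p * expansionFun 1 (etaFunInv p) := by
        rw [mul_comm (etaSeriesInv ℂ p), etaSeries_mul_inv, one_mul]
    _ = etaSeriesInv ℂ p := by rw [mul_assoc, ← h4, mul_one]

/-- `Δ(τ) / Δ(pτ)` as an element of `ModHol M`, `p ∣ M`. -/
def etaHol (M : ℕ) (h : p ∣ M) : ModHol M := ⟨etaFun p, modHol_mono h (etaFun_mem_modHol p)⟩

/-- `Δ(pτ) / Δ(τ)` as an element of `ModHol M`, `p ∣ M`. -/
def etaHolInv (M : ℕ) (h : p ∣ M) : ModHol M :=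
  ⟨etaFunInv p, modHol_mono h (etaFunInv_mem_modHol p)⟩

theorem qexp_etaHol (M : ℕ) [NeZero M] (h : p ∣ M) :
    qexp M (etaHol p M h) = etaSeries ℂ p :=
  (expansionFun_etaFun p).1

theorem qexp_etaHolInv (M : ℕ) [NeZero M] (h : p ∣ M) :
    qexp M (etaHolInv p M h) = etaSeriesInv ℂ p :=
  (expansionFun_etaFun p).2

end FLTA.LevelLowering

end
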