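import Fermat.Prelude.Def_ModularCurve_X0
import Mathlib.RingTheory.PowerSeries.Expand
import Mathlib.RingTheory.Polynomial.Cyclotomic.Basic
import Mathlib.RingTheory.RootsOfUnity.PrimitiveRoots

/-!
# The conjugates of the Euler product under `X ↦ ζ X`
-/

set_option autoImplicit false

noncomputable section

open Filter Topology
open scoped PowerSeries.WithPiTopology

namespace FLTA.LevelLowering

open PowerSeries

variable {R : Type*} [CommRing R]

theorem multipliable_of_dvd [TopologicalSpace R] {f : ℕ → PowerSeries R}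
    (h : ∀ n, X ^ (n + 1) ∣ f n - 1) : Multipliable f := by
  have e : f = fun n => 1 + (f n - 1) := funext fun n => (add_sub_cancel 1 (f n)).symm
  rw [e]
  refine WithPiTopology.multipliable_one_add_of_tendsto_order_atTop_nhds_top R (f := fun n => f n - 1) ?_
  refine ENat.tendsto_nhds_top_iff_natCast_lt.mpr fun n => eventually_atTop.mpr ⟨n, fun m hm => ?_⟩
  refine lt_of_lt_of_le (Nat.cast_lt.mpr (Nat.lt_succ_of_le hm)) ?_
  exact PowerSeries.le_order _ _ fun i hi =>
    PowerSeries.X_pow_dvd_iff.mp (h m) i (by exact_mod_cast hi)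

theorem continuous_of_coeff [TopologicalSpace R] {α : Type*} [TopologicalSpace α]
    {f : α → PowerSeries R} (h : ∀ d, Continuous fun x => coeff d (f x)) : Continuous f :=
  continuous_iff_continuousAt.mpr fun x =>
    (WithPiTopology.tendsto_iff_coeff_tendsto R f (𝓝 x) (f x)).mpr fun d => (h d).tendsto x

theorem continuous_expand [TopologicalSpace R] (n : ℕ) (hn : n ≠ 0) :
    Continuous (expand n hn : PowerSeries R → PowerSeries R) := by
  refine continuous_of_coeff fun d => ?_
  simp only [coeff_expand]
  split_ifs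
  · exact WithPiTopology.continuous_coeff R _
  · exact continuous_const

theorem continuous_rescale [TopologicalSpace R] [IsTopologicalRing R] (a : R) :
    Continuous (rescale a : PowerSeries R → PowerSeries R) := by
  refine continuous_of_coeff fun d => ?_
  simp only [coeff_rescale]
  exact (WithPiTopology.continuous_coeff R d).const_mul _

theorem prod_one_sub_pow_mul [IsDomain R] {l : ℕ} (hl : 0 < l) {η : R} (hη : IsPrimitiveRoot η l)
    (y : PowerSeries R) : ∏ i ∈ Finset.range l, (1 - C (η ^ i) * y) = 1 - y ^ l := by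
  classical
  have hC : IsPrimitiveRoot (C η : PowerSeries R) l := hη.map_of_injective C_injective
  have himg : Polynomial.nthRootsFinset l (1 : PowerSeries R) =
      (Finset.range l).image fun i => (C η : PowerSeries R) ^ i := by
    ext z
    rw [Polynomial.mem_nthRootsFinset hl, Finset.mem_image]
    constructor
    · intro hz
      have := NeZero.of_pos hl
      obtain ⟨i, hi, hiz⟩ := hC.eq_pow_of_pow_eq_one hz
      exact ⟨i, Finset.mem_range.mpr hi, hiz⟩
    · rintro ⟨i, -, rfl⟩
      rw [← pow_mul, mul_comm, pow_mul, hC.pow_eq_one, one_pow]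
  have h := hC.pow_sub_pow_eq_prod_sub_mul (1 : PowerSeries R) y hl
  rw [one_pow, himg, Finset.prod_image fun i hi j hj hij =>
    hC.pow_inj (Finset.mem_range.mp hi) (Finset.mem_range.mp hj) hij] at h
  rw [h]
  simp only [map_pow]

/-- `∏_i P(ζ^i X) · P(X^(l^2)) = P(X^l)^(l+1)` for the Euler product `P`. -/
theorem etaProd_hecke [IsDomain R] {l : ℕ} (hl : l.Prime) {ζ : R} (hζ : IsPrimitiveRoot ζ l) :
    expand (l * l) (mul_ne_zero hl.ne_zero hl.ne_zero)
        (ModularCurve.etaProd.map (Int.castRingHom R)) *
        ∏ i ∈ Finset.range l, rescale (ζ ^ i) (ModularCurve.etaProd.map (Int.castRingHom R)) =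
      expand l hl.ne_zero (ModularCurve.etaProd.map (Int.castRingHom R)) ^ (l + 1) := by
  classical
  let _ : TopologicalSpace R := ⊥
  have : DiscreteTopology R := ⟨rfl⟩
  have hP : ModularCurve.etaProd.map (Int.castRingHom R) =
      ∏' n : ℕ, (1 - X ^ (n + 1) : PowerSeries R) := by
    have hcont : Continuous (PowerSeries.map (Int.castRingHom R)) := by
      refine continuous_of_coeff fun d => ?_
      simp only [coeff_map]
      exact continuous_of_discreteTopology.comp (WithPiTopology.continuous_coeff ℤ d)
    rw [ModularCurve.etaProd,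
      (WithPiTopology.multipliable_one_sub_X_pow ℤ).map_tprod _ hcont]
    simp
  let a : ℕ → PowerSeries R := fun n => 1 - X ^ (l * (n + 1))
  let a' : ℕ → PowerSeries R := fun n => 1 - X ^ (l * l * (n + 1))
  let u : ℕ → PowerSeries R := fun n => if l ∣ n + 1 then (1 - X ^ (n + 1)) ^ l else 1
  let v : ℕ → PowerSeries R := fun n => if l ∣ n + 1 then 1 else a n
  let w : ℕ → PowerSeries R := fun n => if l ∣ n + 1 then a n else 1
  have hsub : ∀ (n m : ℕ), n + 1 ≤ m → X ^ (n + 1) ∣ (1 - X ^ m : PowerSeries R) - 1 := by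
    intro n m h
    rw [sub_sub_cancel_left, dvd_neg]
    exact pow_dvd_pow X h
  have hle : ∀ n, n + 1 ≤ l * (n + 1) := fun n => Nat.le_mul_of_pos_left _ hl.pos
  have ha : Multipliable a := multipliable_of_dvd fun n => hsub n _ (hle n)
  have hu : Multipliable u := multipliable_of_dvd fun n => by
    simp only [u]
    split_ifs
    · exact (hsub n _ le_rfl).trans (sub_one_dvd_pow_sub_one _ l)
    · simp
  have hv : Multipliable v := multipliable_of_dvd fun n => by
    simp only [v]
    split_ifs
    · simp
    · exact hsub n _ (hle n)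
  have hw : Multipliable w := multipliable_of_dvd fun n => by
    simp only [w]
    split_ifs
    · exact hsub n _ (hle n)
    · simp
  let g : ℕ → ℕ := fun m => l * (m + 1) - 1
  have hg1 : ∀ m, g m + 1 = l * (m + 1) := fun m =>
    Nat.sub_add_cancel (Nat.one_le_iff_ne_zero.mpr (mul_ne_zero hl.ne_zero (Nat.succ_ne_zero m)))
  have hg : Function.Injective g := fun m m' h => by
    have := congrArg (· + 1) h
    simp only [hg1] at this
    exact Nat.succ_injective (Nat.eq_of_mul_eq_mul_left hl.pos this)
  have hrange : ∀ n, l ∣ n + 1 → n ∈ Set.range g := by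
    rintro n ⟨c, hc⟩
    refine ⟨c - 1, ?_⟩
    have hc0 : c ≠ 0 := by rintro rfl; simp at hc
    have := hg1 (c - 1)
    rw [Nat.sub_add_cancel (Nat.one_le_iff_ne_zero.mpr hc0), ← hc] at this
    exact Nat.succ_injective this
  have hU : ∏' n, u n = (∏' n, a n) ^ l := by
    rw [← hg.tprod_eq (f := u), ← ha.tprod_pow l]
    · refine tprod_congr fun m => ?_
      simp only [u, hg1, a, if_pos (dvd_mul_right l (m + 1))]
    · intro n hn
      simp only [u, Function.mem_mulSupport] at hn
      split_ifs at hn with h
      · exact hrange n h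
      · exact absurd rfl hn
  have hW : ∏' n, w n = ∏' n, a' n := by
    rw [← hg.tprod_eq (f := w)]
    · refine tprod_congr fun m => ?_
      simp only [w, a, a', hg1, if_pos (dvd_mul_right l (m + 1)), mul_assoc]
    · intro n hn
      simp only [w, Function.mem_mulSupport] at hn
      split_ifs at hn with h
      · exact hrange n h
      · exact absurd rfl hn
  have hvw : (∏' n, v n) * ∏' n, w n = ∏' n, a n := by
    rw [← hv.tprod_mul hw]
    refine tprod_congr fun n => ?_
    simp only [v, w]
    split_ifs <;> simp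
  have he : ∀ (m : ℕ) (hm : m ≠ 0), expand m hm (∏' n : ℕ, (1 - X ^ (n + 1) : PowerSeries R)) =
      ∏' n : ℕ, (1 - X ^ (m * (n + 1)) : PowerSeries R) := fun m hm => by
    rw [(WithPiTopology.multipliable_one_sub_X_pow R).map_tprod _ (continuous_expand m hm)]
    refine tprod_congr fun n => ?_
    rw [map_sub, map_one, map_pow, expand_X, ← pow_mul]
  have hr : ∀ i, Multipliable fun n : ℕ => rescale (ζ ^ i) (1 - X ^ (n + 1) : PowerSeries R) :=
    fun i => (WithPiTopology.multipliable_one_sub_X_pow R).map _ (continuous_rescale _)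
  have hprod : ∏ i ∈ Finset.range l, rescale (ζ ^ i) (∏' n : ℕ, (1 - X ^ (n + 1) : PowerSeries R))
      = (∏' n, u n) * ∏' n, v n := by
    rw [← hu.tprod_mul hv, Finset.prod_congr rfl fun i _ =>
      (WithPiTopology.multipliable_one_sub_X_pow R).map_tprod _ (continuous_rescale (ζ ^ i)),
      ← Multipliable.tprod_finsetProd fun i _ => hr i]
    refine tprod_congr fun n => ?_
    have hterm : ∀ i, rescale (ζ ^ i) (1 - X ^ (n + 1) : PowerSeries R) =
        1 - C ((ζ ^ (n + 1)) ^ i) * X ^ (n + 1) := fun i => by
      rw [map_sub, map_one, map_pow, rescale_X, mul_pow, ← map_pow, ← pow_mul, ← pow_mul,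
        mul_comm i]
    simp only [hterm, u, v, a]
    split_ifs with h
    · obtain ⟨c, hc⟩ := h
      have h1 : ζ ^ (n + 1) = 1 := by rw [hc, pow_mul, hζ.pow_eq_one, one_pow]
      simp [h1]
    · rw [prod_one_sub_pow_mul hl.pos
        (hζ.pow_of_coprime _ ((hl.coprime_iff_not_dvd.mpr h).symm)), ← pow_mul, one_mul,
        mul_comm (n + 1)]
  rw [hP, he, he, hprod, hU]
  calc (∏' n, a' n) * ((∏' n, a n) ^ l * ∏' n, v n)
      = (∏' n, a n) ^ l * ((∏' n, v n) * ∏' n, w n) := by rw [hW]; ring
    _ = _ := by rw [hvw, ← pow_succ]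

end FLTA.LevelLowering

end
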