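import Fermat.Agent.LevelLowering.EtaUnitSeries
import Fermat.Agent.LevelLowering.EtaUnitEuler

/-!
# The eta quotient is multiplicatively Eisenstein for `T_l`
-/

set_option autoImplicit false

noncomputable section

open ModularCurve FLTA.Congruence

namespace FLTA.LevelLowering

variable {R : Type*} [CommRing R]

theorem qExpand_ofPowerSeries (m : ℕ) [NeZero m] (f : PowerSeries R) :
    qExpand R m (HahnSeries.ofPowerSeries ℤ R f) =
      HahnSeries.ofPowerSeries ℤ R (PowerSeries.expand m (NeZero.ne m) f) := by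
  have hm : (0 : ℤ) < m := by exact_mod_cast Nat.pos_of_ne_zero (NeZero.ne m)
  ext k
  by_cases hk : (m : ℤ) ∣ k
  · obtain ⟨j, rfl⟩ := hk
    rw [qExpand_coeff_mul]
    rcases le_or_gt 0 j with hj | hj
    · lift j to ℕ using hj
      rw [HahnSeries.ofPowerSeries_apply_coeff, show (m : ℤ) * j = ((m * j : ℕ) : ℤ) by push_cast; rfl,
        HahnSeries.ofPowerSeries_apply_coeff, PowerSeries.coeff_expand_mul]
    · rw [ofPowerSeries_coeff_of_neg _ hj,
        ofPowerSeries_coeff_of_neg _ (mul_neg_of_pos_of_neg hm hj)]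
  · rw [qExpand_coeff_of_not_dvd m _ hk]
    rcases le_or_gt 0 k with hk0 | hk0
    · lift k to ℕ using hk0
      rw [HahnSeries.ofPowerSeries_apply_coeff, PowerSeries.coeff_expand_of_not_dvd]
      exact fun h => hk (Int.natCast_dvd_natCast.mpr h)
    · rw [ofPowerSeries_coeff_of_neg _ hk0]

theorem scaleHom_ofPowerSeries (u : Rˣ) (f : PowerSeries R) :
    scaleHom u (HahnSeries.ofPowerSeries ℤ R f) =
      HahnSeries.ofPowerSeries ℤ R (PowerSeries.rescale (u : R) f) := by
  ext k
  rw [scaleHom_coeff]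
  rcases le_or_gt 0 k with hk | hk
  · lift k to ℕ using hk
    rw [HahnSeries.ofPowerSeries_apply_coeff, HahnSeries.ofPowerSeries_apply_coeff,
      PowerSeries.coeff_rescale, zpow_natCast, Units.val_pow_eq_pow_val]
  · rw [ofPowerSeries_coeff_of_neg _ hk, ofPowerSeries_coeff_of_neg _ hk, mul_zero]

/-- `x ↦ x(t ^ (l * l)) * ∏_i x(ζ ^ i t)`. -/
def conjProd (l : ℕ) [NeZero l] (ζ : Rˣ) : LaurentSeries R →* LaurentSeries R where
  toFun x := qExpand R (l * l) x * ∏ i ∈ Finset.range l, scaleHom (ζ ^ i) x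
  map_one' := by simp
  map_mul' x y := by
    simp only [map_mul, Finset.prod_mul_distrib]
    ring

theorem conjProd_qExpand (l : ℕ) [NeZero l] (ζ : Rˣ) (m : ℕ) [NeZero m] (x : LaurentSeries R) :
    conjProd l ζ (qExpand R m x) = qExpand R m (conjProd l (ζ ^ m) x) := by
  show qExpand R (l * l) (qExpand R m x) * _ = _
  rw [conjProd, MonoidHom.coe_mk, OneHom.coe_mk, map_mul, map_prod, qExpand_qExpand,
    qExpand_qExpand, qExpand_congr (mul_comm (l * l) m)]
  refine congrArg _ (Finset.prod_congr rfl fun i _ => ?_)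
  rw [scaleHom_qExpand_eq, ← pow_mul, ← pow_mul, mul_comm m i]

variable [IsDomain R]

/-- The root of unity `∏_{i < l} ζ ^ i`. -/
def conjSign (l : ℕ) (ζ : Rˣ) : R := ((∏ i ∈ Finset.range l, ζ ^ i : Rˣ) : R)

theorem conjProd_deltaLaurent {l : ℕ} [NeZero l] (hl : l.Prime) {ζ : Rˣ}
    (hζ : IsPrimitiveRoot ζ l) :
    conjProd l ζ (deltaLaurent R) =
      HahnSeries.single (0 : ℤ) (conjSign l ζ) * qExpand R l (deltaLaurent R) ^ (l + 1) := by
  have hζ' : IsPrimitiveRoot (ζ : R) l := IsPrimitiveRoot.coe_units_iff.mpr hζ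
  set E : PowerSeries R := ModularCurve.etaProd.map (Int.castRingHom R)
  have hU : dedekindEtaUnit.map (Int.castRingHom R) = E ^ 24 := by
    rw [dedekindEtaUnit, map_pow]
  have hscale : ∀ i, scaleHom (ζ ^ i) (deltaLaurent R) =
      HahnSeries.single (1 : ℤ) (((ζ ^ i : Rˣ) : R)) *
        HahnSeries.ofPowerSeries ℤ R (PowerSeries.rescale ((ζ : R) ^ i) E ^ 24) := by
    intro i
    rw [deltaLaurent, map_mul, scaleHom_single, scaleHom_ofPowerSeries, hU, map_pow, zpow_one,
      mul_one, Units.val_pow_eq_pow_val]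
  have hq : ∀ (m : ℕ) [NeZero m], qExpand R m (deltaLaurent R) =
      HahnSeries.single (m : ℤ) 1 *
        HahnSeries.ofPowerSeries ℤ R (PowerSeries.expand m (NeZero.ne m) E ^ 24) := by
    intro m _
    rw [deltaLaurent, map_mul, qExpand_single, qExpand_ofPowerSeries, hU, map_pow, mul_one]
  have hsingle : ∏ i ∈ Finset.range l, HahnSeries.single (1 : ℤ) (((ζ ^ i : Rˣ) : R)) =
      HahnSeries.single (l : ℤ) (conjSign l ζ) := by
    have key : ∀ s : Finset ℕ, ∏ i ∈ s, HahnSeries.single (1 : ℤ) (((ζ ^ i : Rˣ) : R)) =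
        HahnSeries.single (s.card : ℤ) (((∏ i ∈ s, ζ ^ i : Rˣ) : R)) := by
      intro s
      induction s using Finset.induction_on with
      | empty => simp
      | insert a s ha ih =>
        rw [Finset.prod_insert ha, Finset.prod_insert ha, ih, HahnSeries.single_mul_single,
          Finset.card_insert_of_notMem ha, Units.val_mul]
        push_cast
        rw [add_comm (1 : ℤ)]
    rw [key, Finset.card_range]
    rfl
  show qExpand R (l * l) (deltaLaurent R) * _ = _
  rw [hq, hq, Finset.prod_congr rfl fun i _ => hscale i, Finset.prod_mul_distrib, hsingle,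
    ← map_prod, mul_mul_mul_comm, HahnSeries.single_mul_single, ← map_mul, Finset.prod_pow,
    ← mul_pow, etaProd_hecke hl hζ', mul_pow, HahnSeries.single_pow, one_mul, one_pow,
    ← mul_assoc, HahnSeries.single_mul_single, mul_one, ← pow_mul, mul_comm (l + 1) 24]
  simp only [map_pow, ← pow_mul]
  congr 2
  simp only [nsmul_eq_mul, zero_add]
  push_cast
  ring

omit [IsDomain R] in
theorem conjSign_pow {l : ℕ} (hl : l.Prime) {ζ : Rˣ} (hζ : IsPrimitiveRoot ζ l) {p : ℕ}
    (hp : p.Prime) (hlp : l ≠ p) : conjSign l (ζ ^ p) = conjSign l ζ := by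
  rw [conjSign, conjSign, Finset.prod_pow_eq_pow_sum, Finset.prod_pow_eq_pow_sum, ← pow_mul]
  congr 1
  rcases hl.eq_two_or_odd' with rfl | hodd
  · obtain ⟨m, rfl⟩ := hp.odd_of_ne_two (Ne.symm hlp)
    rw [show ∑ i ∈ Finset.range 2, i = 1 by simp [Finset.sum_range_succ], mul_one, pow_succ,
      pow_mul, hζ.pow_eq_one, one_pow, one_mul, pow_one]
  · obtain ⟨c, hc⟩ : l ∣ ∑ i ∈ Finset.range l, i := by
      obtain ⟨m, hm⟩ := hodd
      refine ⟨m, Nat.eq_of_mul_eq_mul_right two_pos ?_⟩
      rw [Finset.sum_range_id_mul_two, hm, Nat.add_sub_cancel]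
      ring
    rw [hc, mul_left_comm]
    simp [pow_mul, hζ.pow_eq_one]

/-- With `t ^ l = q`: the product of the conjugates of `G(q ^ l)` is `G(q) ^ (l + 1)`. -/
theorem etaSeries_hecke (p : ℕ) [NeZero p] {l : ℕ}
    [NeZero l] (hp : p.Prime) (hl : l.Prime) (hlp : l ≠ p) {ζ : Rˣ} (hζ : IsPrimitiveRoot ζ l) :
    qExpand R (l * l) (etaSeries R p) *
        ∏ i ∈ Finset.range l, scaleHom (ζ ^ i) (etaSeries R p) =
      qExpand R l (etaSeries R p) ^ (l + 1) := by
  show conjProd l ζ (etaSeries R p) = _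
  have hζp : IsPrimitiveRoot (ζ ^ p) l :=
    hζ.pow_of_coprime p ((Nat.coprime_primes hp hl).mpr (Ne.symm hlp))
  set C : LaurentSeries R := HahnSeries.single (0 : ℤ) (conjSign l ζ) with hC
  set X : LaurentSeries R := qExpand R l (deltaLaurent R) ^ (l + 1) with hX
  set Y : LaurentSeries R := qExpand R l (deltaLaurentInv R) ^ (l + 1) with hY
  have hXY : X * Y = 1 := by
    rw [hX, hY, ← mul_pow, ← map_mul, deltaLaurent_mul_inv, map_one, one_pow]
  have hD : conjProd l (ζ ^ p) (deltaLaurent R) = C * X := by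
    rw [conjProd_deltaLaurent hl hζp, conjSign_pow hl hζ hp hlp]
  have hinv : conjProd l (ζ ^ p) (deltaLaurentInv R) * C = Y := by
    have h1 : conjProd l (ζ ^ p) (deltaLaurentInv R) * (C * X) = 1 := by
      rw [← hD, ← map_mul, mul_comm, deltaLaurent_mul_inv, map_one]
    calc conjProd l (ζ ^ p) (deltaLaurentInv R) * C
        = conjProd l (ζ ^ p) (deltaLaurentInv R) * (C * X) * Y := by
          rw [mul_assoc, mul_assoc, hXY, mul_one]
      _ = Y := by rw [h1, one_mul]
  have hCp : qExpand R p C = C := by rw [hC, qExpand_single, mul_zero]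
  rw [etaSeries, map_mul (conjProd l ζ), conjProd_qExpand, conjProd_deltaLaurent hl hζ, ← hC, ← hX,
    mul_right_comm, ← hCp, ← map_mul, mul_comm C, hinv, hY, hX, map_mul, map_pow, mul_pow,
    qExpand_qExpand, qExpand_qExpand, qExpand_congr (mul_comm p l), mul_comm]

end FLTA.LevelLowering

end
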