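import Fermat.Agent.LevelLowering.EtaUnitAnalytic
import Fermat.Agent.Bridge.Field
import Fermat.Prelude.Def_ModularCurve_X0ModL
import Fermat.Prelude.Def_ModularForm_HeckeOperator
import Fermat.Prelude.Thm_ModularForm_heckeT_slash_eq_self_of_mem_Gamma0
import Fermat.Prelude.Thm_ModularForm_mdifferentiable_heckeU
import Fermat.Prelude.Thm_ModularForm_periodic_heckeU_comp_ofComplex
import Fermat.Prelude.Thm_ModularForm_isBoundedAtImInfty_heckeU
import Fermat.Prelude.Thm_UpperHalfPlane_qCoeff_heckeU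

/-!
# The trace of the eta quotient to level one, and its reduction mod `p`

`G + p ^ 13 * U_p (1 / G)` is `p ^ 13 * Δ * T_p (1 / Δ)`, a modular function of level one with
integral expansion, hence a monic integral polynomial in `j` of degree `p - 1`.
-/

set_option autoImplicit false

noncomputable section

open scoped Manifold MatrixGroups ModularForm Topology
open UpperHalfPlane hiding I
open Complex Filter CongruenceSubgroup ModularCurve
open FLTA.Bridge

namespace FLTA.LevelLowering

/-! ### Integral polynomials in `j` -/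

section Descent

variable {R : Type*} [CommRing R]

theorem coeff_C_mul_laurent (a : R) (x : LaurentSeries R) (i : ℤ) :
    (HahnSeries.C a * x).coeff i = a * x.coeff i := by
  rw [HahnSeries.C_mul_eq_smul, HahnSeries.coeff_smul, smul_eq_mul]

theorem coeff_eval₂_jqModC (Q : Polynomial R) (i : ℤ) :
    (Q.eval₂ HahnSeries.C (jqModC R)).coeff i =
      ∑ m ∈ Finset.range (Q.natDegree + 1), Q.coeff m * (jqModC R ^ m).coeff i := by
  rw [Polynomial.eval₂_eq_sum_range, HahnSeries.coeff_sum]
  exact Finset.sum_congr rfl fun m _ => coeff_C_mul_laurent _ _ _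

theorem coeff_eval₂_jqModC_neg_natDegree (Q : Polynomial R) :
    (Q.eval₂ HahnSeries.C (jqModC R)).coeff (-(Q.natDegree : ℤ)) = Q.leadingCoeff := by
  rw [coeff_eval₂_jqModC, Finset.sum_eq_single Q.natDegree]
  · rw [coeff_jqModC_pow_self, mul_one, Polynomial.leadingCoeff]
  · intro m hm hne
    rw [coeff_jqModC_pow_of_lt, mul_zero]
    have := Finset.mem_range.mp hm
    omega
  · intro h
    exact absurd (Finset.mem_range.mpr (Nat.lt_succ_self _)) h

theorem natDegree_le_of_coeff_eval₂_jqModC {Q : Polynomial R} {d : ℕ}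
    (h : ∀ i < -(d : ℤ), (Q.eval₂ HahnSeries.C (jqModC R)).coeff i = 0) : Q.natDegree ≤ d := by
  by_contra hc
  have h1 := h (-(Q.natDegree : ℤ)) (by omega)
  rw [coeff_eval₂_jqModC_neg_natDegree, Polynomial.leadingCoeff_eq_zero] at h1
  simp [h1] at hc

/-- An integral series which is a polynomial in `j` over a larger ring is one over `ℤ`. -/
theorem exists_int_poly_jqModC [CharZero R] (d : ℕ) (S : LaurentSeries ℤ)
    (hlow : ∀ i < -(d : ℤ), S.coeff i = 0) (P : Polynomial R)
    (hP : coeffMap (Int.castRingHom R) S = P.eval₂ HahnSeries.C (jqModC R)) :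
    ∃ Q : Polynomial ℤ, Q.natDegree ≤ d ∧ Q.coeff d = S.coeff (-(d : ℤ)) ∧
      S = Q.eval₂ HahnSeries.C (jqModC ℤ) := by
  induction d generalizing S P with
  | zero =>
    refine ⟨Polynomial.C (S.coeff 0), (Polynomial.natDegree_C _).le, by simp, ?_⟩
    have hd : P.natDegree ≤ 0 := natDegree_le_of_coeff_eval₂_jqModC fun i hi => by
      rw [← hP, coeffMap_coeff, hlow i (by simpa using hi), map_zero]
    rw [Polynomial.eq_C_of_natDegree_le_zero hd, Polynomial.eval₂_C] at hP
    rw [Polynomial.eval₂_C]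
    refine HahnSeries.ext (funext fun i => ?_)
    have h0 := congrArg (fun s : LaurentSeries R => s.coeff i) hP
    have h1 := congrArg (fun s : LaurentSeries R => s.coeff 0) hP
    simp only [coeffMap_coeff, HahnSeries.C_apply, HahnSeries.coeff_single_same] at h0 h1
    rw [HahnSeries.C_apply]
    by_cases hi : i = 0
    · rw [hi, HahnSeries.coeff_single_same]
    · rw [HahnSeries.coeff_single_of_ne hi, eq_intCast] at h0
      rw [HahnSeries.coeff_single_of_ne hi]
      exact_mod_cast h0
  | succ d ih =>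
    set c := S.coeff (-((d + 1 : ℕ) : ℤ))
    have hlow' : ∀ i < -(d : ℤ), (S - HahnSeries.C c * jqModC ℤ ^ (d + 1)).coeff i = 0 := by
      intro i hi
      rw [HahnSeries.coeff_sub, coeff_C_mul_laurent]
      rcases (show i ≤ -((d + 1 : ℕ) : ℤ) by omega).lt_or_eq with hlt | rfl
      · rw [hlow i hlt, coeff_jqModC_pow_of_lt ℤ hlt, mul_zero, sub_zero]
      · rw [coeff_jqModC_pow_self, mul_one, sub_self]
    obtain ⟨Q, hQd, -, hQ⟩ := ih _ hlow'
      (P - Polynomial.C (c : R) * Polynomial.X ^ (d + 1)) (by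
        rw [map_sub, map_mul, map_pow, coeffMap_jqModC, hP, Polynomial.eval₂_sub,
          Polynomial.eval₂_mul, Polynomial.eval₂_C, Polynomial.eval₂_pow, Polynomial.eval₂_X,
          HahnSeries.C_apply, HahnSeries.C_apply, coeffMap_single, eq_intCast])
    refine ⟨Q + Polynomial.C c * Polynomial.X ^ (d + 1), ?_, ?_, ?_⟩
    · refine (Polynomial.natDegree_add_le _ _).trans (max_le (hQd.trans d.le_succ) ?_)
      exact Polynomial.natDegree_C_mul_X_pow_le _ _
    · rw [Polynomial.coeff_add, Polynomial.coeff_eq_zero_of_natDegree_lt (by omega),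
        Polynomial.coeff_C_mul_X_pow, if_pos rfl, zero_add]
    · rw [Polynomial.eval₂_add, ← hQ, Polynomial.eval₂_mul, Polynomial.eval₂_C,
        Polynomial.eval₂_pow, Polynomial.eval₂_X, sub_add_cancel]

end Descent

/-! ### The trace -/

section Trace

variable (p : ℕ) [NeZero p]

/-- `p ^ 13 Δ T_p (1 / Δ)`. -/
def traceFun (τ : ℍ) : ℂ :=
  ModularForm.discriminant τ * ((p : ℂ) ^ 13 *
    ModularForm.heckeT (-12) p (fun z => (ModularForm.discriminant z)⁻¹) τ)

theorem inv_discriminant_slash (g : SL(2, ℤ)) :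
    (fun z => (ModularForm.discriminant z)⁻¹) ∣[(-12 : ℤ)] g =
      fun z => (ModularForm.discriminant z)⁻¹ := by
  funext τ
  rw [ModularForm.SL_slash_apply, discriminant_smul, neg_neg,
    show (12 : ℤ) = ((12 : ℕ) : ℤ) from rfl, zpow_natCast, mul_inv, mul_assoc,
    inv_mul_cancel₀ (pow_ne_zero _ (denom_ne_zero _ τ)), mul_one]

omit [NeZero p] in
theorem traceFun_smul (hp : p.Prime) (g : SL(2, ℤ)) (τ : ℍ) :
    traceFun p (g • τ) = traceFun p τ := by
  have hf : ∀ γ ∈ (Gamma0 1 : Subgroup (GL (Fin 2) ℝ)),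
      (fun z => (ModularForm.discriminant z)⁻¹) ∣[(-12 : ℤ)] γ =
        fun z => (ModularForm.discriminant z)⁻¹ := by
    rintro _ ⟨γ, -, rfl⟩
    exact inv_discriminant_slash γ
  have hmem : g ∈ Gamma0 1 := by rw [Gamma0_mem]; exact Subsingleton.elim _ _
  have h : (ModularForm.heckeT (-12) p (fun z => (ModularForm.discriminant z)⁻¹))
      ∣[(-12 : ℤ)] g = ModularForm.heckeT (-12) p (fun z => (ModularForm.discriminant z)⁻¹) :=
    ModularForm.heckeT_slash_eq_self_of_mem_Gamma0 (-12) hp (Nat.Prime.not_dvd_one hp) hf _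
      ⟨g, hmem, rfl⟩
  have h' := congrFun h τ
  rw [ModularForm.SL_slash_apply, neg_neg, zpow_ofNat] at h'
  rw [traceFun, traceFun, discriminant_smul, ← h']
  ring

theorem traceFun_eq :
    traceFun p = etaFun p + (p : ℂ) ^ 13 • ModularForm.heckeU 0 p (etaFunInv p) := by
  have hp0 : p ≠ 0 := NeZero.ne p
  have hp' : (p : ℂ) ≠ 0 := Nat.cast_ne_zero.mpr hp0
  funext τ
  have hd : ModularForm.heckeDiagMatrix p • τ = scaleTau p τ :=
    UpperHalfPlane.ext (by rw [ModularForm.coe_heckeDiagMatrix_smul hp0, coe_scaleTau])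
  have hU : ∀ j : ℕ, etaFunInv p (ModularForm.heckeMatrix p j • τ) =
      ModularForm.discriminant τ * (ModularForm.discriminant (ModularForm.heckeMatrix p j • τ))⁻¹ := by
    intro j
    have h : scaleTau p (ModularForm.heckeMatrix p j • τ) = (ModularGroup.T ^ (j : ℤ)) • τ :=
      UpperHalfPlane.ext (by
        rw [coe_scaleTau, ModularForm.coe_heckeMatrix_smul hp0, modular_T_zpow_smul,
          mul_div_cancel₀ _ hp']
        simp [add_comm])
    rw [etaFunInv, h,
      discriminant_smul, ModularGroup.denom_apply, ModularGroup.coe_T_zpow, div_eq_mul_inv]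
    simp
  rw [traceFun, ModularForm.heckeT_apply _ hp0, hd, Pi.add_apply, Pi.smul_apply, smul_eq_mul,
    ModularForm.heckeU_apply _ hp0, Finset.sum_congr rfl fun j _ => hU j, ← Finset.mul_sum,
    etaFun]
  rw [show ((-12 : ℤ) - 1) = -((13 : ℕ) : ℤ) from rfl, zpow_neg, zpow_natCast]
  field_simp
  ring

theorem etaFunInv_bounded : IsBoundedAtImInfty (etaFunInv p) := by
  have hH := mem_holInfty_one_of_mem_modHol p (etaFunInv_mem_modHol p)
  refine (isBoundedAtImInfty_iff_order 1 ⟨_, hH⟩).mpr ?_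
  show 0 ≤ (expansionFun 1 (etaFunInv p)).order
  rw [(expansionFun_etaFun p).2]
  have h := congrArg HahnSeries.order (etaSeries_mul_inv (R := ℂ) p)
  have hne : etaSeriesInv ℂ p ≠ 0 := fun h0 => by
    simpa [h0] using etaSeries_mul_inv (R := ℂ) p
  rw [HahnSeries.order_mul (etaSeries_ne_zero p) hne, HahnSeries.order_one, order_etaSeries] at h
  have := NeZero.pos p
  omega

theorem heckeU_etaFunInv_mem :
    ModularForm.heckeU 0 p (etaFunInv p) ∈ HolInfty 1 ∧
      IsBoundedAtImInfty (ModularForm.heckeU 0 p (etaFunInv p)) := by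
  have hH := mem_holInfty_one_of_mem_modHol p (etaFunInv_mem_modHol p)
  have hb := ModularForm.isBoundedAtImInfty_heckeU (etaFunInv_bounded p) 0 p
  exact ⟨⟨ModularForm.mdifferentiable_heckeU hH.1 0 p,
    by simpa using ModularForm.periodic_heckeU_comp_ofComplex (by simpa using hH.2.1) 0 p,
    0, by simpa using hb⟩, hb⟩

theorem traceFun_mem_holInfty : traceFun p ∈ HolInfty 1 := by
  rw [traceFun_eq]
  exact add_mem (mem_holInfty_one_of_mem_modHol p (etaFun_mem_modHol p))
    (Subalgebra.smul_mem _ (heckeU_etaFunInv_mem p).1 _)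

theorem traceFun_mem_modHol (hp : p.Prime) : traceFun p ∈ ModHol 1 := by
  refine ⟨(traceFun_mem_holInfty p).1, fun γ _ τ => traceFun_smul p hp γ τ, fun g => ?_⟩
  simpa only [traceFun_smul p hp g] using (traceFun_mem_holInfty p).2.2

/-- The integral expansion of the trace. -/
def traceSeries : LaurentSeries ℤ :=
  etaSeries ℤ p + HahnSeries.C ((p : ℤ) ^ 13) *
    HahnSeries.ofPowerSeries ℤ ℤ (PowerSeries.mk fun n => (etaSeriesInv ℤ p).coeff ((n * p : ℕ) : ℤ))

theorem expansionFun_traceFun :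
    expansionFun 1 (traceFun p) = coeffMap (Int.castRingHom ℂ) (traceSeries p) := by
  obtain ⟨hU, hUb⟩ := heckeU_etaFunInv_mem p
  have hH := mem_holInfty_one_of_mem_modHol p (etaFunInv_mem_modHol p)
  have hG := mem_holInfty_one_of_mem_modHol p (etaFun_mem_modHol p)
  have e : ((p : ℂ) ^ 13 • ModularForm.heckeU 0 p (etaFunInv p)) =
      algebraMap ℂ (ℍ → ℂ) ((p : ℂ) ^ 13) * ModularForm.heckeU 0 p (etaFunInv p) := by
    rw [Algebra.smul_def]
  have ec : coeffMap (Int.castRingHom ℂ) (HahnSeries.C ((p : ℤ) ^ 13)) =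
      algebraMap ℂ (LaurentSeries ℂ) ((p : ℂ) ^ 13) := by
    rw [HahnSeries.C_apply, coeffMap_single, algebraMap_laurentSeries_eq_single, map_pow,
      map_natCast]
  rw [traceFun_eq, e, expansionFun_add 1 hG (mul_mem (Subalgebra.algebraMap_mem _ _) hU),
    expansionFun_mul 1 (Subalgebra.algebraMap_mem _ _) hU, expansionFun_const,
    (expansionFun_etaFun p).1, expansionFun_of_bounded 1 hU hUb, traceSeries, map_add, map_mul,
    coeffMap_etaSeries, coeffMap_ofPowerSeries, ec]
  congr 2
  rw [Nat.cast_one]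
  refine congrArg _ (PowerSeries.ext fun n => ?_)
  have h1 := UpperHalfPlane.qCoeff_heckeU (by simpa using hH.2.1) hH.1 (etaFunInv_bounded p) 0
    (NeZero.ne p) n
  rw [ModularFormClass.qCoeff, ModularForm.coeffHeckeU, ModularFormClass.qCoeff] at h1
  rw [h1, PowerSeries.coeff_map, PowerSeries.coeff_mk]
  have h2 := (expansionFun_etaFun p).2
  rw [expansionFun_of_bounded 1 hH (etaFunInv_bounded p), Nat.cast_one,
    ← coeffMap_etaSeriesInv (R := ℤ) (Int.castRingHom ℂ) p] at h2
  have h3 := congrArg (fun s : LaurentSeries ℂ => s.coeff ((n * p : ℕ) : ℤ)) h2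
  simp only [HahnSeries.ofPowerSeries_apply_coeff, coeffMap_coeff] at h3
  exact h3

theorem coeff_traceSeries_low (hp : 2 ≤ p) :
    (∀ i < -((p - 1 : ℕ) : ℤ), (traceSeries p).coeff i = 0) ∧
      (traceSeries p).coeff (-((p - 1 : ℕ) : ℤ)) = 1 := by
  have hv : ∀ i < 0, (HahnSeries.C ((p : ℤ) ^ 13) * HahnSeries.ofPowerSeries ℤ ℤ
      (PowerSeries.mk fun n => (etaSeriesInv ℤ p).coeff ((n * p : ℕ) : ℤ))).coeff i = 0 :=
    fun i hi => by rw [coeff_C_mul_laurent, ofPowerSeries_coeff_of_neg _ hi, mul_zero]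
  refine ⟨fun i hi => ?_, ?_⟩
  · rw [traceSeries, HahnSeries.coeff_add, hv i (by omega),
      coeff_etaSeries_of_lt p (by omega), add_zero]
  · rw [traceSeries, HahnSeries.coeff_add, hv _ (by omega),
      show (-((p - 1 : ℕ) : ℤ)) = 1 - (p : ℤ) by omega, coeff_etaSeries_self, add_zero]

/-- The trace is a monic integral polynomial of degree `p - 1` in `j`. -/
theorem exists_poly_traceSeries (hp : p.Prime) :
    ∃ Q : Polynomial ℤ, Q.Monic ∧ Q.natDegree = p - 1 ∧
      traceSeries p = Q.eval₂ HahnSeries.C (jqModC ℤ) := by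
  obtain ⟨P, hP⟩ := exists_aeval_jMod_eq 1 (traceFun_mem_modHol p hp) (traceFun_smul p hp)
  have hT : (⟨traceFun p, traceFun_mem_modHol p hp⟩ : ModHol 1) = Polynomial.aeval (jMod 1) P := by
    apply Subtype.ext
    rw [← Subalgebra.coe_val, ← Polynomial.aeval_algHom_apply]
    show traceFun p = Polynomial.aeval (fun τ => jInv τ) P
    rw [hP]
    funext τ
    rw [Polynomial.aeval_fn_apply]
    simp
  have hexp : coeffMap (Int.castRingHom ℂ) (traceSeries p) =
      P.eval₂ HahnSeries.C (jqModC ℂ) := by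
    rw [← expansionFun_traceFun]
    refine (congrArg (qexp 1) hT).trans ?_
    rw [qexp_aeval_jMod, coeffEmb, ← jqModC_rat, coeffMap_jqModC, Polynomial.aeval_def]
    congr 1
    exact RingHom.ext fun c => by rw [algebraMap_laurentSeries_eq_single, HahnSeries.C_apply]
  obtain ⟨hlow, htop⟩ := coeff_traceSeries_low p hp.two_le
  obtain ⟨Q, hd, hc, hQ⟩ := exists_int_poly_jqModC (p - 1) (traceSeries p) hlow P hexp
  rw [htop] at hc
  exact ⟨Q, Polynomial.monic_of_natDegree_le_of_coeff_eq_one _ hd hc,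
    Polynomial.natDegree_eq_of_le_of_coeff_ne_zero hd (by rw [hc]; exact one_ne_zero), hQ⟩

/-- Mod `p` the eta quotient is that polynomial in `j`. -/
theorem exists_poly_etaSeries_char (hp : p.Prime) :
    ∃ P : Polynomial ℤ, P.Monic ∧ P.natDegree = p - 1 ∧
      ∀ (k : Type) [CommRing k] [CharP k p],
        etaSeries k p = P.eval₂ (Int.castRingHom (LaurentSeries k)) (jqModC k) := by
  obtain ⟨Q, hm, hd, hQ⟩ := exists_poly_traceSeries p hp
  refine ⟨Q, hm, hd, fun k _ _ => ?_⟩
  have h := congrArg (coeffMap (Int.castRingHom k)) hQ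
  rw [Polynomial.hom_eval₂, coeffMap_jqModC,
    RingHom.ext_int ((coeffMap (Int.castRingHom k)).comp HahnSeries.C)
      (Int.castRingHom (LaurentSeries k)), traceSeries, map_add, map_mul, coeffMap_etaSeries] at h
  rw [← h, HahnSeries.C_apply, coeffMap_single, map_pow, map_natCast, CharP.cast_eq_zero,
    zero_pow (by norm_num), HahnSeries.single_eq_zero, zero_mul, add_zero]

end Trace

end FLTA.LevelLowering

end
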