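import Fermat.Agent.LevelLowering.EtaUnitSeries
import Fermat.Agent.LevelLowering.EtaUnitHecke
import Fermat.Agent.Congruence.Embeddings
import Fermat.Prelude.Def_ModularCurve_X0ModL
import Fermat.Prelude.Def_AlgebraicCurve_DivisorClassGroup
import Fermat.Prelude.Def_ModularCurve_ArithmeticGalois
import Fermat.Agent.BadRed.IntSeries
import Fermat.Agent.LevelLowering.EtaUnitAnalytic
import Fermat.Agent.Bridge.Places
import Fermat.Agent.LevelLowering.EtaUnitTrace

/-!
# The modular unit `G = Δ(τ) / Δ(pτ)`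

It lies in the function field of every level divisible by `p`, has zeros and poles only over
`j = ∞`, satisfies `(w G) G = p ^ 12` for the Atkin-Lehner involution at `p`, and reduces mod `p`
to a monic polynomial of degree `p - 1` in `j`.
-/

set_option autoImplicit false

noncomputable section

open scoped MatrixGroups
open UpperHalfPlane hiding I
open CongruenceSubgroup ModularCurve AlgebraicCurve FLTA.Congruence FLTA.Bridge

namespace FLTA.LevelLowering

variable (p : ℕ) [NeZero p]

theorem etaSeries_mem_bar (M : ℕ) [NeZero M] (hM : p ∣ M) :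
    etaSeries (AlgebraicClosure ℚ) p ∈ modularFunctionFieldBar M := by
  refine mem_laurentBaseChange_of_rep M complexEmbedding.toRingHom (A := etaHol p M hM) (B := 1)
    one_ne_zero ?_
  rw [map_one, mul_one, qexp_etaHol, coeffMap_etaSeries]

/-- The eta quotient in the function field of level `M`. -/
def etaUnit (M : ℕ) [NeZero M] (hM : p ∣ M) : modularFunctionFieldBar M :=
  ⟨etaSeries (AlgebraicClosure ℚ) p, etaSeries_mem_bar p M hM⟩

@[simp] theorem coe_etaUnit (M : ℕ) [NeZero M] (hM : p ∣ M) :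
    (etaUnit p M hM : LaurentSeries (AlgebraicClosure ℚ)) = etaSeries (AlgebraicClosure ℚ) p :=
  rfl

theorem etaUnit_ne_zero (M : ℕ) [NeZero M] (hM : p ∣ M) : etaUnit p M hM ≠ 0 := fun h =>
  etaSeries_ne_zero (R := AlgebraicClosure ℚ) p (congrArg Subtype.val h)

theorem evMero_etaUnit (M : ℕ) [NeZero M] (hM : p ∣ M) :
    evMero M complexEmbedding.toRingHom (etaUnit p M hM) =
      algebraMap Hol Mero (modHolToHol M (etaHol p M hM)) := by
  rw [evMero_eq_of_rep M complexEmbedding.toRingHom (A := etaHol p M hM) (B := 1) one_ne_zero]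
  · rw [map_one, map_one, div_one]
  · rw [map_one, mul_one, qexp_etaHol, coe_etaUnit, coeffMap_etaSeries]

theorem jGenBar_eq_jElt {L : Type*} [Field L] [Algebra ℚ L] (M : ℕ) {d : ℕ} [NeZero d]
    (hd : d ∣ M) : jGenBar (L := L) M d hd = jElt M L hd :=
  Subtype.ext (coeffEmb_qExpand_jq d).symm

theorem ordF_etaUnit (M : ℕ) [NeZero M] (hM : p ∣ M) (τ : ℍ) :
    ordF M complexEmbedding.toRingHom τ (etaUnit p M hM) = 0 := by
  set A : Hol := modHolToHol M (etaHol p M hM)
  have hA : ∀ σ, (A : ℍ → ℂ) σ ≠ 0 := fun σ => left_ne_zero_of_mul_eq_one (etaFun_mul_inv p σ)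
  have hA0 : (A : ℍ → ℂ) ≠ 0 := fun h => hA τ (congrFun h τ)
  rw [ordF, evMero_etaUnit, ← div_one (algebraMap Hol Mero A), ← map_one (algebraMap Hol Mero),
    meroOrd_div τ (fun h => hA0 (congrArg Subtype.val h)) one_ne_zero,
    (ordAt_eq_zero_iff A.2 hA0 τ).mpr (hA τ),
    (ordAt_eq_zero_iff (1 : Hol).2 (fun h => one_ne_zero (congrFun h τ)) τ).mpr one_ne_zero]
  simp

theorem ordCusp_jGenBar (M : ℕ) [NeZero M] (g : SL(2, ℤ)) :
    ordCusp M complexEmbedding.toRingHom g (jGenBar M 1 (one_dvd M)) = -(M : ℤ) := by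
  have h : evFrac M complexEmbedding.toRingHom (jGenBar M 1 (one_dvd M)) =
      algebraMap (ModHol M) (ModFrac M) (jMod M) := by
    apply qexpFrac_injective M
    rw [qexpFrac_evFrac, qexpFrac_algebraMap, coe_jGenBar, qExpand_one_apply, qexp_jMod,
      coeffMap_jqModC, ← jqModC_rat, coeffEmb, coeffMap_jqModC]
  rw [ordCusp, h, qexpFracAt, IsFractionRing.lift_algebraMap]
  exact order_qexpAt_jMod M g

/-- Zeros and poles only over `j = ∞`. -/
theorem ord_etaUnit_eq_zero (M : ℕ) [NeZero M] (hM : p ∣ M)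
    (P : Place (AlgebraicClosure ℚ) (modularFunctionFieldBar M))
    (hP : 0 ≤ P.ord (jGenBar M 1 (one_dvd M))) : P.ord (etaUnit p M hM) = 0 := by
  rcases exists_eq_placeAt_or_cuspPlace M complexEmbedding.toRingHom P with ⟨τ, hτ, rfl⟩ | ⟨g, rfl⟩
  · have h := ordF_eq_mul_ord_placeAt M complexEmbedding.toRingHom τ hτ (etaUnit p M hM)
    rw [ordF_etaUnit, eq_comm, mul_eq_zero] at h
    exact h.resolve_left (by exact_mod_cast (ellipticIndex_pos M τ).ne')
  · have h := ordCusp_eq_mul_ord_cuspPlace M complexEmbedding.toRingHom g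
      (jGenBar M 1 (one_dvd M))
    rw [ordCusp_jGenBar] at h
    have := mul_nonneg (Int.natCast_nonneg (cuspDiv M g)) hP
    have := NeZero.pos M
    omega

/-- The matrix `(0, -1; p, 0)`. -/
def frickeMat : GL(2, ℝ)⁺ :=
  ⟨Matrix.GeneralLinearGroup.mkOfDetNeZero !![0, -1; (p : ℝ), 0]
    (by simp [NeZero.ne p]), by simp [Nat.pos_of_ne_zero (NeZero.ne p)]⟩

theorem frickeMat_smul (τ : ℍ) :
    (frickeMat p : GL (Fin 2) ℝ) • τ = ModularGroup.S • scaleTau p τ := by
  apply UpperHalfPlane.ext
  rw [UpperHalfPlane.coe_smul_of_det_pos (frickeMat p).2, coe_smul_eq, coe_scaleTau]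
  simp [frickeMat, UpperHalfPlane.num, UpperHalfPlane.denom, ModularGroup.S]

theorem scaleTau_frickeMat_smul (τ : ℍ) :
    scaleTau p ((frickeMat p : GL (Fin 2) ℝ) • τ) = ModularGroup.S • τ := by
  apply UpperHalfPlane.ext
  rw [coe_scaleTau, frickeMat_smul, coe_smul_eq, coe_smul_eq, coe_scaleTau]
  have hp : (p : ℂ) ≠ 0 := Nat.cast_ne_zero.mpr (NeZero.ne p)
  have hτ := UpperHalfPlane.ne_zero τ
  simp [ModularGroup.S]
  field_simp

theorem etaFun_frickeMat_mul (τ : ℍ) :
    etaFun p ((frickeMat p : GL (Fin 2) ℝ) • τ) * etaFun p τ = (p : ℂ) ^ 12 := by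
  rw [etaFun, etaFun, scaleTau_frickeMat_smul, frickeMat_smul, discriminant_smul,
    discriminant_smul, ModularGroup.denom_S, ModularGroup.denom_S, coe_scaleTau]
  have h1 := ModularForm.discriminant_ne_zero τ
  have h2 := ModularForm.discriminant_ne_zero (scaleTau p τ)
  have hτ := UpperHalfPlane.ne_zero τ
  field_simp

theorem eq_of_mem_adjoin_pair {L : Type*} [Field L] [Algebra ℚ L] {E : Type*} [Field E]
    (M d : ℕ) [NeZero d] (hd : d ∣ M)
    (f g : laurentBaseChange L (modularFunctionFieldFull M) →+* E)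
    (hc : ∀ c, f (algebraMap L _ c) = g (algebraMap L _ c))
    (h1 : f (jGenBar M 1 (one_dvd M)) = g (jGenBar M 1 (one_dvd M)))
    (h2 : f (jGenBar M d hd) = g (jGenBar M d hd))
    (x : laurentBaseChange L (modularFunctionFieldFull M))
    (hx : (x : LaurentSeries L) ∈ IntermediateField.adjoin L (pairSeries d L)) : f x = g x := by
  obtain ⟨x, hxM⟩ := x
  have hle : IntermediateField.adjoin L (pairSeries d L) ≤
      laurentBaseChange L (modularFunctionFieldFull M) := by
    rw [IntermediateField.adjoin_le_iff]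
    rintro z (rfl | rfl)
    · have h := jqd_mem_full M (one_dvd M)
      rw [qExpand_one_apply] at h
      exact coeffEmb_mem_laurentBaseChange L h
    · exact coeffEmb_mem_laurentBaseChange L (jqd_mem_full M hd)
  have key : ∀ (y : LaurentSeries L) (hy : y ∈ IntermediateField.adjoin L (pairSeries d L)),
      f ⟨y, hle hy⟩ = g ⟨y, hle hy⟩ := by
    intro y hy
    induction hy using IntermediateField.adjoin_induction with
    | mem u hu =>
      rcases hu with rfl | rfl
      · rw [jGenBar_eq_jElt] at h1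
        simp only [jElt] at h1
        simpa [qExpand_one_apply] using h1
      · rw [jGenBar_eq_jElt] at h2
        simp only [jElt] at h2
        exact h2
    | algebraMap c => exact hc c
    | add u v hu hv ihu ihv =>
      show f (⟨u, hle hu⟩ + ⟨v, hle hv⟩) = g (⟨u, hle hu⟩ + ⟨v, hle hv⟩)
      rw [map_add, map_add, ihu, ihv]
    | inv u hu ih =>
      show f ((⟨u, hle hu⟩)⁻¹) = g ((⟨u, hle hu⟩)⁻¹)
      rw [map_inv₀, map_inv₀, ih]
    | mul u v hu hv ihu ihv =>
      show f (⟨u, hle hu⟩ * ⟨v, hle hv⟩) = g (⟨u, hle hu⟩ * ⟨v, hle hv⟩)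
      rw [map_mul, map_mul, ihu, ihv]
  exact key x hx

/-- `(w G) G = p ^ 12` for any involution exchanging the two degeneracy maps at `p`. -/
theorem w_etaUnit_mul (N : ℕ) [NeZero N]
    (w : modularFunctionFieldBar (N * p) →ₐ[AlgebraicClosure ℚ] modularFunctionFieldBar (N * p))
    (hw : ∀ x, w (w x) = x)
    (hwa : ∀ x : modularFunctionFieldBar N,
      ((w (heckeAlphaBar (AlgebraicClosure ℚ) N p x) : modularFunctionFieldBar (N * p)) :
          LaurentSeries (AlgebraicClosure ℚ)) =
        qExpand (AlgebraicClosure ℚ) p (x : LaurentSeries (AlgebraicClosure ℚ))) :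
    w (etaUnit p (N * p) (dvd_mul_left p N)) * etaUnit p (N * p) (dvd_mul_left p N) =
      algebraMap (AlgebraicClosure ℚ) _ ((p : AlgebraicClosure ℚ) ^ 12) := by
  set ι := complexEmbedding.toRingHom
  let φ₁ : modularFunctionFieldBar (N * p) →+* Mero := (evMero (N * p) ι).comp w.toRingHom
  let φ₂ : modularFunctionFieldBar (N * p) →+* Mero :=
    (meroSmul (frickeMat p)).toAlgHom.toRingHom.comp (evMero (N * p) ι)
  have hj1 : w (jGenBar (N * p) 1 (one_dvd _)) = jGenBar (N * p) p (dvd_mul_left p N) := by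
    apply Subtype.ext
    rw [show jGenBar (N * p) 1 (one_dvd _) = heckeAlphaBar (AlgebraicClosure ℚ) N p
      (jGenBar N 1 (one_dvd N)) from Subtype.ext rfl, hwa, coe_jGenBar, coe_jGenBar,
      qExpand_one_apply]
  have hjp : w (jGenBar (N * p) p (dvd_mul_left p N)) = jGenBar (N * p) 1 (one_dvd _) := by
    rw [← hj1, hw]
  have h1 : φ₁ (jGenBar (N * p) 1 (one_dvd _)) = φ₂ (jGenBar (N * p) 1 (one_dvd _)) := by
    show evMero (N * p) ι (w _) = meroSmul (frickeMat p) (evMero (N * p) ι _)
    rw [hj1, jGenBar_eq_jElt, jGenBar_eq_jElt, evMero_jElt, evMero_jElt, meroSmul_algebraMap]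
    refine congrArg _ (Subtype.ext (funext fun τ => ?_))
    show jInv (scaleTau p τ) = jInv (scaleTau 1 ((frickeMat p : GL (Fin 2) ℝ) • τ))
    rw [show scaleTau 1 ((frickeMat p : GL (Fin 2) ℝ) • τ) = (frickeMat p : GL (Fin 2) ℝ) • τ from
      UpperHalfPlane.ext (by simp [coe_scaleTau]), frickeMat_smul, jInv_smul]
  have hp : φ₁ (jGenBar (N * p) p (dvd_mul_left p N)) =
      φ₂ (jGenBar (N * p) p (dvd_mul_left p N)) := by
    show evMero (N * p) ι (w _) = meroSmul (frickeMat p) (evMero (N * p) ι _)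
    rw [hjp, jGenBar_eq_jElt, jGenBar_eq_jElt, evMero_jElt, evMero_jElt, meroSmul_algebraMap]
    refine congrArg _ (Subtype.ext (funext fun τ => ?_))
    show jInv (scaleTau 1 τ) = jInv (scaleTau p ((frickeMat p : GL (Fin 2) ℝ) • τ))
    rw [scaleTau_frickeMat_smul, jInv_smul, show scaleTau 1 τ = τ from
      UpperHalfPlane.ext (by simp [coe_scaleTau])]
  have hmem : etaSeries (AlgebraicClosure ℚ) p ∈
      IntermediateField.adjoin (AlgebraicClosure ℚ) (pairSeries p (AlgebraicClosure ℚ)) :=
    mem_adjoin_pair_of_coeffMap_mem_fieldC p ι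
      (coeffMap_mem_fieldC p ι (etaSeries_mem_bar p p dvd_rfl))
  have hc : ∀ c, φ₁ (algebraMap (AlgebraicClosure ℚ) _ c) =
      φ₂ (algebraMap (AlgebraicClosure ℚ) _ c) := by
    intro c
    show evMero (N * p) ι (w (algebraMap (AlgebraicClosure ℚ) _ c)) =
      meroSmul (frickeMat p) (evMero (N * p) ι (algebraMap (AlgebraicClosure ℚ) _ c))
    rw [w.commutes]
    exact ((congrArg _ (evMero_algebraMap (N * p) ι c)).trans
      (((meroSmul (frickeMat p)).commutes _).trans
        (evMero_algebraMap (N * p) ι c).symm)).symm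
  have hG' : evMero (N * p) ι (w (etaUnit p (N * p) (dvd_mul_left p N))) =
      meroSmul (frickeMat p) (evMero (N * p) ι (etaUnit p (N * p) (dvd_mul_left p N))) :=
    eq_of_mem_adjoin_pair (N * p) p (dvd_mul_left p N) φ₁ φ₂ hc h1 hp
      (etaUnit p (N * p) (dvd_mul_left p N)) hmem
  apply (evMero (N * p) ι).injective
  rw [map_mul, hG', evMero_algebraMap, evMero_etaUnit, meroSmul_algebraMap, ← map_mul,
    IsScalarTower.algebraMap_apply ℂ Hol Mero]
  refine congrArg _ (Subtype.ext (funext fun τ => ?_))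
  show etaFun p ((frickeMat p : GL (Fin 2) ℝ) • τ) * etaFun p τ =
    ι ((p : AlgebraicClosure ℚ) ^ 12)
  rw [etaFun_frickeMat_mul, map_pow, map_natCast]

/-- The reduction of the eta quotient mod `p` is a monic polynomial in `j` of degree `p - 1`. -/
theorem exists_poly_etaSeries_modP (hp : p.Prime) :
    ∃ P : Polynomial ℤ, P.Monic ∧ P.natDegree = p - 1 ∧
      ∀ (k : Type) [CommRing k] [CharP k p],
        etaSeries k p = P.eval₂ (Int.castRingHom (LaurentSeries k)) (jqModC k) :=
  exists_poly_etaSeries_char p hp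

theorem etaSeries_mem_fullC (hp : p.Prime) (k : Type) [Field k] [CharP k p] (N : ℕ) [NeZero N] :
    etaSeries k p ∈ modularFunctionFieldFullC k N := by
  obtain ⟨P, -, -, hP⟩ := exists_poly_etaSeries_modP p hp
  rw [hP k, Polynomial.eval₂_eq_sum_range]
  refine sum_mem fun i _ => mul_mem ?_ (pow_mem (jqModC_mem_full k N) _)
  exact intCast_mem _ _

section Integral

variable {K : Type*} [Field K] (A : ValuationSubring K) {k : Type*} [Field k] (π : A →+* k)

theorem intSeries_etaSeries : FLTA.BadRed.IntSeries A (etaSeries K p) := by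
  rw [← coeffMap_etaSeries (R := A) A.subtype p]
  exact FLTA.BadRed.intSeries_coeffMap _

theorem intSeries_etaSeriesInv : FLTA.BadRed.IntSeries A (etaSeriesInv K p) := by
  rw [← coeffMap_etaSeriesInv (R := A) A.subtype p]
  exact FLTA.BadRed.intSeries_coeffMap _

theorem redSeries_etaSeries : FLTA.BadRed.redSeries A π (etaSeries K p) = etaSeries k p := by
  rw [← coeffMap_etaSeries (R := A) A.subtype p, FLTA.BadRed.redSeries_coeffMap,
    coeffMap_etaSeries]

theorem redSeries_etaSeriesInv :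
    FLTA.BadRed.redSeries A π (etaSeriesInv K p) = etaSeriesInv k p := by
  rw [← coeffMap_etaSeriesInv (R := A) A.subtype p, FLTA.BadRed.redSeries_coeffMap,
    coeffMap_etaSeriesInv]

end Integral

end FLTA.LevelLowering

end
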