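import Fermat.Agent.LT2.FixedHecke
import Fermat.Agent.LevelLowering.HeckeStepFin
import Fermat.Agent.RT.MazurZeros
import Fermat.Agent.LevelLowering.EtaUnit

/-!
# `T_l` at an elliptic point of order three

A place `P` over finite `j` where the order of `j` is prime to `3` is elliptic of order three; the
neighbours which are not ramified above it are again `P`, so `T_l P ≡ (l + 1) P (mod 3)`.
-/

set_option autoImplicit false
set_option linter.style.haveILetI false
set_option synthInstance.maxHeartbeats 100000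
set_option maxHeartbeats 1000000

noncomputable section

open UpperHalfPlane hiding I
open CongruenceSubgroup ModularCurve AlgebraicCurve FLTA.Bridge FLTA.Kummer FLTA.LT2
open ModularForm (E₄)
open scoped MatrixGroups

namespace FLTA.LevelLowering

local notation "Qb" => AlgebraicClosure ℚ
local notation "ιb" => AlgHom.toRingHom complexEmbedding

/-- A prime dividing `a² + a + 1` is the norm of an element of the ideal of `ω - a`. -/
theorem exists_eisenstein_norm {l : ℕ} (hl : l.Prime) {a : ℤ} (h : (l : ℤ) ∣ a ^ 2 + a + 1) :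
    ∃ x y : ℤ, x ^ 2 - x * y + y ^ 2 = l ∧ (l : ℤ) ∣ x + y * a := by
  classical
  have := Fact.mk hl
  set s := Nat.sqrt l
  have hs : s * s < l := lt_of_le_of_ne (Nat.sqrt_le l) fun he => by
    rcases (Nat.dvd_prime hl).mp ⟨s, he.symm⟩ with h1 | h1 <;> rw [h1] at he
    · exact hl.ne_one (by simpa using he.symm)
    · nlinarith [hl.two_le]
  let f : Fin (s + 1) × Fin (s + 1) → ZMod l := fun u =>
    (((u.1 : ℕ) : ℤ) + ((u.2 : ℕ) : ℤ) * a : ℤ)
  obtain ⟨u, v, huv, he⟩ := Fintype.exists_ne_map_eq_of_card_lt f (by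
    rw [ZMod.card, Fintype.card_prod, Fintype.card_fin]
    exact Nat.lt_succ_sqrt l)
  set x : ℤ := ((u.1 : ℕ) : ℤ) - (v.1 : ℕ)
  set y : ℤ := ((u.2 : ℕ) : ℤ) - (v.2 : ℕ)
  have hd : (l : ℤ) ∣ x + y * a := by
    have h' := (ZMod.intCast_eq_intCast_iff_dvd_sub _ _ l).mp he.symm
    exact h'.trans (dvd_of_eq (by simp only [x, y]; ring))
  have hxy : x ≠ 0 ∨ y ≠ 0 := by
    by_contra hc
    push Not at hc
    apply huv
    have hx := hc.1
    have hy := hc.2
    simp only [x, y] at hx hy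
    exact Prod.ext (Fin.ext (by omega)) (Fin.ext (by omega))
  have hxs : -(s : ℤ) ≤ x ∧ x ≤ s ∧ -(s : ℤ) ≤ y ∧ y ≤ s := by
    have := u.1.isLt; have := u.2.isLt; have := v.1.isLt; have := v.2.isLt
    simp only [x, y]
    omega
  obtain ⟨k, hk⟩ : (l : ℤ) ∣ x ^ 2 - x * y + y ^ 2 := by
    rw [show x ^ 2 - x * y + y ^ 2 = (x + y * a) * (x - y * a - y) + y ^ 2 * (a ^ 2 + a + 1) by ring]
    exact dvd_add (hd.mul_right _) (h.mul_left _)
  have hpos : 0 < x ^ 2 - x * y + y ^ 2 := by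
    rcases hxy with hx | hy
    · nlinarith [sq_nonneg (2 * y - x), mul_self_pos.mpr hx]
    · nlinarith [sq_nonneg (2 * x - y), mul_self_pos.mpr hy]
  have hlt : x ^ 2 - x * y + y ^ 2 < 3 * l := by
    have hs' : (s : ℤ) * s < l := by exact_mod_cast hs
    obtain ⟨h1, h2, h3, h4⟩ := hxs
    nlinarith [mul_nonneg (sub_nonneg.mpr h2) (by linarith : (0 : ℤ) ≤ x + s),
      mul_nonneg (sub_nonneg.mpr h4) (by linarith : (0 : ℤ) ≤ y + s), sq_nonneg (x + y)]
  have hl0 : (0 : ℤ) < l := by exact_mod_cast hl.pos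
  have hk1 : 0 < k := by nlinarith
  have hk3 : k < 3 := by nlinarith
  refine ⟨x, y, ?_, hd⟩
  by_cases hk' : k = 1
  · rw [hk, hk', mul_one]
  exfalso
  obtain rfl : k = 2 := by omega
  have hmod : ∀ X Y : ZMod 2, X ^ 2 - X * Y + Y ^ 2 = 0 → X = 0 ∧ Y = 0 := by decide
  obtain ⟨hx2, hy2⟩ := hmod x y (by
    have := congrArg (fun z : ℤ => (z : ZMod 2)) hk
    push_cast at this
    rw [this, show (2 : ZMod 2) = 0 from by decide, mul_zero])
  obtain ⟨x', hx'⟩ := (ZMod.intCast_zmod_eq_zero_iff_dvd x 2).mp hx2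
  obtain ⟨y', hy'⟩ := (ZMod.intCast_zmod_eq_zero_iff_dvd y 2).mp hy2
  rw [hx', hy'] at hk
  have h2l : 2 ∣ l := by
    have hd2 : ((2 : ℕ) : ℤ) ∣ (l : ℤ) := ⟨x' ^ 2 - x' * y' + y' ^ 2, by push_cast at hk ⊢; linarith⟩
    exact Int.natCast_dvd_natCast.mp hd2
  obtain rfl : 2 = l := (Nat.prime_dvd_prime_iff_eq Nat.prime_two hl).mp h2l
  have he2 := Int.even_mul_succ_self a
  obtain ⟨c, hc⟩ := he2
  obtain ⟨d, hd'⟩ := h
  push_cast at hd'
  have : a ^ 2 + a = a * (a + 1) := by ring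
  omega

/-- An element of order three of `SL₂(ℤ)` has trace `-1`. -/
theorem trace_eq_neg_one_of_pow_three {g : SL(2, ℤ)} (h3 : g ^ 3 = 1) (h1 : g ≠ 1) :
    g.1 0 0 + g.1 1 1 = -1 := by
  have e : ∀ i j, (g.1 * g.1 * g.1) i j = (1 : Matrix (Fin 2) (Fin 2) ℤ) i j := fun i j => by
    have := congrArg (fun m : SL(2, ℤ) => m.1 i j) h3
    simpa [pow_succ] using this
  have e00 := e 0 0
  have e01 := e 0 1
  have e10 := e 1 0
  have e11 := e 1 1
  simp [Matrix.mul_apply, Fin.sum_univ_two] at e00 e01 e10 e11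
  have hdet := g.det_coe
  rw [Matrix.det_fin_two] at hdet
  set a := g.1 0 0
  set b := g.1 0 1
  set c := g.1 1 0
  set d := g.1 1 1
  by_cases ht : (a + d) ^ 2 - 1 = 0
  · linear_combination a * ht - e00 + (-2 * a - d) * hdet
  exfalso
  have hb : b = 0 := (mul_eq_zero.mp
    (show ((a + d) ^ 2 - 1) * b = 0 by linear_combination e01 + b * hdet)).resolve_left ht
  have hc : c = 0 := (mul_eq_zero.mp
    (show ((a + d) ^ 2 - 1) * c = 0 by linear_combination e10 + c * hdet)).resolve_left ht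
  rw [hb] at hdet e00
  have had : a * d = 1 := by linear_combination hdet
  rcases Int.eq_one_or_neg_one_of_mul_eq_one had with ha | ha
  · refine h1 (Subtype.ext (Matrix.ext fun i j => ?_))
    rw [ha, one_mul] at had
    fin_cases i <;> fin_cases j <;> simp [← show a = g.1 0 0 from rfl, ha] <;> assumption
  · rw [ha, hc] at e00
    norm_num at e00

variable {M l : ℕ} [NeZero M] [NeZero l]

/-- An elliptic point of order three of level `M l` and its multiple by `l` agree at level `M`. -/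
theorem exists_smul_eq_scaleTau (hl : l.Prime) {σ : ℍ} (g : Gamma0 (M * l))
    (hfix : (g : SL(2, ℤ)) • σ = σ) (htr : gmat g 0 0 + gmat g 1 1 = -1) :
    ∃ γ ∈ Gamma0 M, γ • σ = scaleTau l σ := by
  obtain ⟨c₀, hc₀⟩ := dvd_lowerLeft (M * l) g
  replace hc₀ : gmat g 1 0 = (l : ℤ) * ((M : ℤ) * c₀) := by rw [gmat, hc₀]; push_cast; ring
  set a := gmat g 0 0 with ha
  set b := gmat g 0 1 with hb
  set c := gmat g 1 0 with hc
  set d := gmat g 1 1 with hd
  have hdet : a * d - b * c = 1 := by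
    have h := (g : SL(2, ℤ)).det_coe
    rw [Matrix.det_fin_two] at h
    exact h
  obtain ⟨x, y, hn, e, he⟩ := exists_eisenstein_norm hl (a := a)
    ⟨-(b * ((M : ℤ) * c₀)), by linear_combination a * htr - hdet - b * hc₀⟩
  have hl0 : (l : ℤ) ≠ 0 := by exact_mod_cast hl.ne_zero
  have hγdet : (x + y * d) * e - (-(y * b)) * (-(y * ((M : ℤ) * c₀))) = 1 := by
    refine mul_left_cancel₀ hl0 ?_
    linear_combination hn + x * y * htr + y ^ 2 * hdet + y ^ 2 * b * hc₀ - (x + y * d) * he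
  let γ : SL(2, ℤ) := ⟨!![x + y * d, -(y * b); -(y * ((M : ℤ) * c₀)), e], by
    rw [Matrix.det_fin_two_of]; exact hγdet⟩
  refine ⟨γ, FLTA.Periods.mem_Gamma0_of_dvd ⟨-(y * c₀), ?_⟩, ?_⟩
  · show -(y * ((M : ℤ) * c₀)) = (M : ℤ) * -(y * c₀)
    ring
  have hq : (a : ℂ) * σ + b = σ * ((c : ℂ) * σ + d) := by
    have h := congrArg (fun z : ℍ => (z : ℂ)) hfix
    simp only [FLTA.Bridge.coe_smul_SL2Z] at h
    rwa [div_eq_iff (denom_SL2Z_ne_zero _ σ)] at h
  refine UpperHalfPlane.ext ?_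
  rw [FLTA.Bridge.coe_smul_SL2Z, coe_scaleTau, div_eq_iff (denom_SL2Z_ne_zero γ σ)]
  have heC : ((x : ℂ) + y * a) = (l : ℂ) * e := by exact_mod_cast he
  have hcC : (c : ℂ) = (l : ℂ) * ((M : ℂ) * c₀) := by exact_mod_cast hc₀
  simp [γ]
  linear_combination (-(y : ℂ)) * hq + (σ : ℂ) * heC - (y : ℂ) * (σ : ℂ) ^ 2 * hcC

theorem jF_eq_jBar : jF M Qb = FLTA.BadRed.jBar M := by
  exact (((Subtype.ext (by rw [FLTA.Congruence.coe_jGenBar, qExpand_one_apply]; rfl) :
      FLTA.Congruence.jGenBar (L := Qb) M 1 (one_dvd M) = FLTA.BadRed.jBar M)).symm.trans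
      (LevelLowering.jGenBar_eq_jElt M (one_dvd M))).symm

set_option maxHeartbeats 2000000 in
open Classical in
/-- `T_l P ≡ (l + 1) P (mod 3)` at an elliptic place. -/
theorem heckeDiv_elliptic (hl : l.Prime) (hlM : ¬ l ∣ M)
    (P : Place Qb (modularFunctionFieldBar M)) (hfin : 0 ≤ P.ord (FLTA.BadRed.jBar M))
    (h3 : ¬ (3 : ℤ) ∣ P.ord (FLTA.BadRed.jBar M)) (v : Place Qb (modularFunctionFieldBar M)) :
    (3 : ℤ) ∣ heckeDiv M l (Finsupp.single P (1 : ℤ)) v -
      ((l : ℤ) + 1) * (Finsupp.single P (1 : ℤ) : Divisor Qb (modularFunctionFieldBar M)) v := by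
  rw [← jF_eq_jBar] at hfin h3
  rcases exists_eq_placeAt_or_cuspPlace M ιb P with ⟨τ, hτ, rfl⟩ | ⟨g, rfl⟩
  swap
  · rw [ord_jF_cuspPlace] at hfin h3
    have : cuspWidth M g = 0 := by omega
    simp [this] at h3
  have hmul := ordF_eq_mul_ord_placeAt M ιb τ hτ (jF M Qb)
  have hpos : 0 < (placeAt M ιb τ hτ).ord (jF M Qb) :=
    lt_of_le_of_ne hfin fun h => h3 (h ▸ dvd_zero 3)
  have hordF : ordF M ιb τ (jF M Qb) = 3 := by
    have hp : 0 < ordF M ιb τ (jF M Qb - algebraMap Qb _ 0) := by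
      rw [map_zero, sub_zero, hmul]
      exact mul_pos (by exact_mod_cast ellipticIndex_pos M τ) hpos
    have hj : jInv τ = ιb (0 : Qb) := jInv_eq_of_ordF_pos M ιb hp
    have h4 : E₄ τ = 0 := by
      rw [map_zero, jInv, div_eq_zero_iff, or_iff_left (ModularForm.discriminant_ne_zero τ),
        pow_eq_zero_iff (by norm_num)] at hj
      exact hj
    have h := ordF_jF_sub M ιb τ 0 hj.symm
    rw [map_zero, sub_zero, hj, map_zero] at h
    rw [h, analyticOrderNatAt, GenusKahler.analyticOrderAt_jFun_E4_zero h4]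
    rfl
  have hell : ellipticIndex M τ = 3 := by
    rw [hordF] at hmul
    have hd : ellipticIndex M τ ∣ 3 :=
      Int.natCast_dvd_natCast.mp (Dvd.intro _ hmul.symm)
    rcases (Nat.dvd_prime Nat.prime_three).mp hd with h1 | h1
    · rw [h1, Nat.cast_one, one_mul] at hmul
      exact absurd (hmul ▸ dvd_refl 3) h3
    · exact h1
  obtain ⟨hα, hβ, hP, -, -, -⟩ := FLTA.Curves.heckeInputsAlong M Qb l
  haveI := hP
  set fib := Place.fiberAlong (heckeBetaBar Qb M l) hβ (placeAt M ιb τ hτ) with hfib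
  let W : Fin (l + 1) → Place Qb (modularFunctionFieldBar (M * l)) := fun i =>
    placeAt (M * l) ιb (upperPt hl hlM τ i) (isPointOver_upperPt hl hlM hτ i)
  have hup : ∀ i, ∃ γ ∈ Gamma0 M, γ • scaleTau l (upperPt hl hlM τ i) = τ := fun i =>
    ⟨((heckeShift hl hlM i)⁻¹ : Gamma0 M), ((heckeShift hl hlM i)⁻¹).2, by
      rw [scaleTau_upperPt, Subgroup.coe_inv, inv_smul_smul]⟩
  have hmem : ∀ i, W i ∈ fib := fun i => Place.mem_fiberAlong.2
    (restrictAlong_beta_placeAt hβ _ hτ (hup i)).1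
  have hle : ∀ V ∈ fib, (Finset.univ.filter fun i => W i = V).card ≤
      V.ramificationIndexAlong (heckeBetaBar Qb M l) := by
    intro V _
    rcases (Finset.univ.filter fun i => W i = V).eq_empty_or_nonempty with h0 | ⟨i, hi⟩
    · rw [h0]; exact Nat.zero_le _
    · obtain rfl := (Finset.mem_filter.1 hi).2
      exact card_upperPt_le hl hlM hβ hτ i
  have hdeg1 : ∀ V : Place Qb (modularFunctionFieldBar (M * l)),
      (V.ramificationIndexAlong (heckeBetaBar Qb M l) : ℤ) *
        (V.inertiaDegAlong (heckeBetaBar Qb M l) hβ : ℤ) =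
          V.ramificationIndexAlong (heckeBetaBar Qb M l) := fun V => by
    rw [inertiaDegAlong_eq_one_bar hβ V, Nat.cast_one, mul_one]
  have hsum : ∑ V ∈ fib, V.ramificationIndexAlong (heckeBetaBar Qb M l) = l + 1 := by
    haveI : CharZero Qb := algebraRat.charZero Qb
    have h := FLTA.Curves.sum_ramificationIndexAlong_mul_inertiaDegAlong
      (heckeBetaBar Qb M l) hβ (FLTA.Curves.finiteAlong _)
      (FLTA.Curves.separableAlong_of_charZero _) (placeAt M ιb τ hτ)
    rw [finrankAlong_beta_eq_succ hl hlM] at h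
    replace h := (Finset.sum_congr rfl fun V _ => (hdeg1 V).symm).trans h
    exact_mod_cast h
  have heq : ∀ V ∈ fib, (Finset.univ.filter fun i => W i = V).card =
      V.ramificationIndexAlong (heckeBetaBar Qb M l) := by
    refine (Finset.sum_eq_sum_iff_of_le hle).1 ?_
    rw [hsum, ← Finset.card_eq_sum_card_fiberwise fun i _ => hmem i, Finset.card_univ,
      Fintype.card_fin]
  -- an unramified neighbour is the place itself
  have hkey : ∀ i, (3 ∣ (W i).ramificationIndexAlong (heckeBetaBar Qb M l)) ∨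
      (W i).restrictAlong (heckeAlphaBar Qb M l) hα = placeAt M ιb τ hτ := by
    intro i
    set σ := upperPt hl hlM τ i with hσdef
    have he := (restrictAlong_beta_placeAt hβ (isPointOver_upperPt hl hlM hτ i) hτ (hup i)).2
    rw [hell] at he
    rcases (Nat.dvd_prime Nat.prime_three).mp (Dvd.intro_left _ he) with h1 | h1
    swap
    · exact Or.inl (by rw [show (W i).ramificationIndexAlong (heckeBetaBar Qb M l) = 3 from h1])
    refine Or.inr ?_
    rw [h1, mul_one] at he
    haveI := finite_stabilizer_Gamma0 (M * l) σ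
    haveI := Fact.mk Nat.prime_three
    obtain ⟨s, hs⟩ := exists_prime_orderOf_dvd_card'
      (G := MulAction.stabilizer (Gamma0 (M * l)) σ) 3
      (by rw [← two_mul_ellipticIndex, he]; norm_num)
    have hs3 : ((s : Gamma0 (M * l)) : SL(2, ℤ)) ^ 3 = 1 := by
      have := congrArg (fun z : MulAction.stabilizer (Gamma0 (M * l)) σ =>
        ((z : Gamma0 (M * l)) : SL(2, ℤ))) (hs ▸ pow_orderOf_eq_one s)
      simpa using this
    have hs1 : ((s : Gamma0 (M * l)) : SL(2, ℤ)) ≠ 1 := fun h => by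
      have : s = 1 := Subtype.ext (Subtype.ext h)
      rw [this, orderOf_one] at hs
      norm_num at hs
    obtain ⟨γ, hγ, hγσ⟩ := exists_smul_eq_scaleTau hl (s : Gamma0 (M * l)) s.2
      (trace_eq_neg_one_of_pow_three hs3 hs1)
    refine (restrictAlong_alpha_placeAt hα _).trans (placeAt_eq_of_smul M ιb _ hτ
      (mul_mem ((heckeShift hl hlM i)⁻¹).2 hγ) ?_)
    rw [mul_smul, hγσ, scaleTau_upperPt, Subgroup.coe_inv, inv_smul_smul]
  have hα' : (heckeAlphaBar Qb M l).toRingHom.IsIntegral := hα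
  have hβ' : (heckeBetaBar Qb M l).toRingHom.IsIntegral := hβ
  show (3 : ℤ) ∣ Divisor.correspondence (heckeBetaBar Qb M l) (heckeAlphaBar Qb M l) hβ' hα'
    (Finsupp.single (placeAt M ιb τ hτ) (1 : ℤ)) v - _
  rw [Divisor.correspondence_apply, Divisor.pullbackAlong_single, ← hfib, map_sum,
    Finsupp.finsetSum_apply,
    show ((l : ℤ) + 1) = ∑ V ∈ fib, (V.ramificationIndexAlong (heckeBetaBar Qb M l) : ℤ) by
      exact_mod_cast hsum.symm, Finset.sum_mul, ← Finset.sum_sub_distrib]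
  refine Finset.dvd_sum fun V hV => ?_
  rw [Divisor.pushforwardAlong_single, inertiaDegAlong_eq_one_bar hα V]
  rcases (Finset.univ.filter fun i => W i = V).eq_empty_or_nonempty with h0 | ⟨i, hi⟩
  · have := heq V hV
    rw [h0, Finset.card_empty] at this
    simp [← this]
  obtain rfl := (Finset.mem_filter.1 hi).2
  rcases hkey i with ⟨e, he⟩ | hr
  · rw [he]
    simp only [Finsupp.single_apply]
    split_ifs <;> simp
  · rw [hr]
    simp [Finsupp.single_apply]

end FLTA.LevelLowering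

end
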