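import Fermat.Agent.LevelLowering.CurveWeights

/-!
# The reduced eta quotient in characteristic three is `j ^ 2`
-/

set_option autoImplicit false
set_option synthInstance.maxHeartbeats 400000

noncomputable section

open AlgebraicCurve ModularCurve FLTA.BadRed FLTA.Congruence

namespace FLTA.LevelLowering

variable {k : Type} [Field k]

section Series

variable [CharP k 3]

theorem jqModC_eq_deltaLaurentInv_three : jqModC k = deltaLaurentInv k := by
  have he : eisenstein4.map (Int.castRingHom k) = 1 := by
    ext n
    rw [PowerSeries.coeff_map, eisenstein4, PowerSeries.coeff_mk, PowerSeries.coeff_one]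
    split_ifs with h
    · simp
    · rw [map_mul, show Int.castRingHom k 240 = 0 from ?_, zero_mul]
      show ((240 : ℤ) : k) = 0
      rw [CharP.intCast_eq_zero_iff k 3]
      norm_num
  rw [jqModC, deltaLaurentInv, jNum, map_mul, map_pow, he, one_pow, one_mul]

/-- `Δ(τ)/Δ(3τ) = j²` in characteristic three. -/
theorem etaSeries_three : etaSeries k 3 = jqModC k ^ 2 := by
  haveI := Fact.mk Nat.prime_three
  haveI : ExpChar k 3 := ExpChar.prime Nat.prime_three
  rw [jqModC_eq_deltaLaurentInv_three, etaSeries]
  have h := qExpand_coeffMap_frobenius 3 (deltaLaurentInv k)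
  rw [coeffMap_deltaLaurentInv] at h
  rw [h, show deltaLaurentInv k ^ 3 = deltaLaurentInv k * deltaLaurentInv k ^ 2 by ring,
    ← mul_assoc, deltaLaurent_mul_inv, one_mul]

end Series

variable [IsAlgClosed k] {A : ValuationSubring (AlgebraicClosure ℚ)} {π : A →+* k} {q : ℕ}
  [NeZero q] [Fact q.Prime] [CharP k q] {N : ℕ} [NeZero N] {g gF : ℕ}
  {B : BadFibre A π q (modularFunctionFieldBar (N * q)) (modularFunctionFieldBar N)
      (modularFunctionFieldFullC k N) g gF}

/-- The orders of the reduced eta quotient are twice those of `j`. -/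
theorem IsModularFibre.d_eq_three (hB : IsModularFibre B) (hq3 : q = 3) (R : RatFrame B)
    {S : Finset (Place k (modularFunctionFieldFullC k N))} (E : EtaData R S)
    (hG : E.G = etaUnit q (N * q) (dvd_mul_left q N))
    (Q : Place k (modularFunctionFieldFullC k N)) : E.d Q = 2 * Q.ord (jK k N) := by
  subst hq3
  have hy := hB.coe_ld_etaUnit R E hG
  have he : R.ld 0 E.G = jK k N ^ 2 := Subtype.ext (by
    rw [hy, etaSeries_three]
    rfl)
  rw [EtaData.d, he, FLTA.Curves.ord_pow]
  norm_num

end FLTA.LevelLowering

end
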