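import Fermat.Agent.LevelLowering.HeckeStepFin

/-!
# `T_l` on the orders at the exceptional places in characteristic three
-/

set_option autoImplicit false
set_option synthInstance.maxHeartbeats 400000
set_option linter.style.haveILetI false
set_option linter.unusedSectionVars false

noncomputable section

open AlgebraicCurve ModularCurve FLTA.BadRed

namespace FLTA.LevelLowering

local notation "Qb" => AlgebraicClosure ℚ

variable (M p : ℕ) [NeZero M] [NeZero p] [Fact p.Prime]
variable (A : ValuationSubring (AlgebraicClosure ℚ)) (hA : A.LiesOverPrime p) (hpM : ¬ p ∣ M)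
variable (l : ℕ) [NeZero l] (hl : l.Prime) (hlp : l ≠ p) (hlM : ¬ l ∣ M)
variable [CharP (IsLocalRing.ResidueField A) p] [PerfectRing (IsLocalRing.ResidueField A) p]

local notation "k" => IsLocalRing.ResidueField A

set_option maxHeartbeats 1600000 in
/-- `T_l` multiplies the orders at the exceptional places by `l + 1`, modulo `3`. -/
theorem heckeData_ord_Tk_exceptional (h3 : p = 3)
    (hell : ∀ P : Place Qb (modularFunctionFieldBar M), 0 ≤ P.ord (FLTA.BadRed.jBar M) →
      ¬ (3 : ℤ) ∣ P.ord (FLTA.BadRed.jBar M) → ∀ v,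
      (3 : ℤ) ∣ heckeDiv M l (Finsupp.single P (1 : ℤ)) v -
        ((l : ℤ) + 1) * (Finsupp.single P (1 : ℤ) : Divisor Qb (modularFunctionFieldBar M)) v)
    (x : modularFunctionFieldFullC k M) (hx : x ≠ 0)
    (hdvd : ∀ w, JFin w → (3 : ℤ) ∣ w.ord (jK k M) → (3 : ℤ) ∣ w.ord x)
    (w₀ : Place k (modularFunctionFieldFullC k M)) (hw₀ : JFin w₀) :
    (3 : ℤ) ∣ w₀.ord ((heckeData M p A hA hpM l hl hlp hlM).Tk x) - ((l : ℤ) + 1) * w₀.ord x := by
  classical
  haveI : IsAlgClosed k := FLTA.Galois.isAlgClosed_residueField A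
  set B := badFibre M p A hA hpM with hBdef
  have hmod : IsModularFibre B :=
    ⟨fun _ => rfl, fun y => coe_heckeAlphaBar (L := Qb) M p y, fun _ => rfl⟩
  let O : RedOp B.R := heckeRedOp IsLocalRing.residue_surjective M l
    (FLTA.PlaceRed.natCast_residue_ne_zero M hpM A hA) hl hlM
  set r := B.R.placeMap B.rr' B.rrk with hrdef
  have hr : B.R.IsPlaceMap r := B.R.isPlaceMap_placeMap B.rr' B.rrk
  obtain ⟨s, hs⟩ := (RedOp.surjective_of_isPlaceMap (R := B.R) B.rr' hr).hasRightInverse
  have hTk : w₀.ord ((heckeData M p A hA hpM l hl hlp hlM).Tk x) =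
      O.divk r s (B.rrk.divisorOf x) w₀ :=
    (O.divk_apply_of_ord B.rr' B.rrk hr hs hx (fun Q => B.rrk.divisorOf_apply x Q) w₀).symm
  rw [hTk]
  set Pk := B.rrk.poleDiv (jK k M) with hPk
  set Pu := B.rr'.poleDiv (jBar M) with hPu
  have hmap : Finsupp.mapDomain r Pu = Pk := hmod.mapDomain_poleDiv hpM
  have hdiv0 : 0 ≤ O.div Pu := O.div_nonneg _ (B.rr'.poleDiv_nonneg _)
  -- the image of the poles
  have hPk0 : O.divk r s Pk w₀ = 0 := by
    rw [← hmap, ← O.mapDomain_div B.rr' B.rrk hr hs]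
    by_contra hne
    obtain ⟨v, hv, hvw⟩ := Finset.mem_image.mp
      (Finsupp.mapDomain_support (Finsupp.mem_support_iff.mpr hne))
    have hvneg : v.ord (jBar M) < 0 := by
      by_contra hvn
      refine Finsupp.mem_support_iff.mp hv
        (heckeDiv_eq_zero_of_poles M l (fun P hP => ?_) (not_lt.mp hvn))
      rw [hPu, FLTA.PlaceRed.RRCurve.poleDiv_apply] at hP
      omega
    have h1 : 0 < Pk w₀ := by
      have h2 : Pu v ≤ Finsupp.mapDomain r Pu w₀ := by
        have h3 : 0 ≤ Pu - Finsupp.single v (Pu v) := Finsupp.le_def.mpr fun P => by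
          rw [Finsupp.zero_apply, Finsupp.sub_apply, Finsupp.single_apply]
          split_ifs with hP
          · rw [hP, sub_self]
          · rw [sub_zero]; exact Finsupp.le_def.mp (B.rr'.poleDiv_nonneg _) P
        have h4 := Finsupp.le_def.mp (FLTA.PlaceRed.mapDomain_nonneg r h3) w₀
        rw [Finsupp.mapDomain_sub, Finsupp.mapDomain_single, Finsupp.zero_apply,
          Finsupp.sub_apply, hvw, Finsupp.single_eq_same] at h4
        omega
      rw [hmap] at h2
      rw [hPu, FLTA.PlaceRed.RRCurve.poleDiv_apply] at h2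
      omega
    rw [hPk, FLTA.PlaceRed.RRCurve.poleDiv_apply] at h1
    unfold JFin at hw₀
    omega
  have hmono : ∀ E : Divisor k (modularFunctionFieldFullC k M), 0 ≤ E →
      0 ≤ O.divk r s E w₀ := fun E hE =>
    Finsupp.le_def.mp (FLTA.PlaceRed.mapDomain_nonneg r
      (O.div_nonneg _ (FLTA.PlaceRed.mapDomain_nonneg s hE))) w₀
  -- places over the poles contribute nothing
  have hinf : ∀ Q, ¬ JFin Q → O.divk r s (Finsupp.single Q 1) w₀ = 0 := by
    intro Q hQ
    have hle : 0 ≤ Pk - Finsupp.single Q 1 := Finsupp.le_def.mpr fun P => by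
      rw [Finsupp.zero_apply, Finsupp.sub_apply, Finsupp.single_apply]
      have h0 := Finsupp.le_def.mp (B.rrk.poleDiv_nonneg (jK k M)) P
      rw [Finsupp.zero_apply, ← hPk] at h0
      split_ifs with hP
      · subst hP
        rw [hPk, FLTA.PlaceRed.RRCurve.poleDiv_apply]
        unfold JFin at hQ
        omega
      · omega
    have h1 := hmono _ hle
    rw [map_sub, Finsupp.sub_apply, hPk0] at h1
    have h2 := hmono (Finsupp.single Q 1) (Finsupp.single_nonneg.mpr zero_le_one)
    omega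
  -- an exceptional place is the reduction of an elliptic one
  have hexc : ∀ Q, JFin Q → ¬ (3 : ℤ) ∣ Q.ord (jK k M) →
      (3 : ℤ) ∣ O.divk r s (Finsupp.single Q 1) w₀ -
        ((l : ℤ) + 1) * (Finsupp.single Q (1 : ℤ) : Divisor k (modularFunctionFieldFullC k M)) w₀ := by
    intro Q hQ h3Q
    obtain ⟨J, hJ, hJk⟩ := hmod.exists_red_jBar
    have hne : B.R.red J ≠ 0 := by
      rw [hJk]
      exact fun h => jqModC_ne_zero_of_nontrivial k (congrArg Subtype.val h)
    set Z := B.rr'.divisorOf (jBar M) + Pu with hZdef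
    have hZ : Finsupp.mapDomain r Z Q = Q.ord (jK k M) := by
      rw [hZdef, Finsupp.mapDomain_add, Finsupp.add_apply, hmap, hPk,
        FLTA.PlaceRed.RRCurve.poleDiv_apply, max_eq_right (show -Q.ord (jK k M) ≤ 0 by
          unfold JFin at hQ; omega), add_zero,
        hr J hne (B.rr'.divisorOf (jBar M)) (fun P => by rw [hJ, B.rr'.divisorOf_apply]) Q, hJk]
    obtain ⟨P, hPQ, hP⟩ : ∃ P, r P = Q ∧ ¬ (3 : ℤ) ∣ Z P := by
      by_contra hcon
      push Not at hcon
      apply h3Q
      rw [← hZ, Finsupp.mapDomain, Finsupp.sum_apply]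
      refine Finset.dvd_sum fun P _ => ?_
      beta_reduce
      rw [Finsupp.single_apply]
      split_ifs with h
      · exact hcon P h
      · exact dvd_zero _
    rw [hZdef, Finsupp.add_apply, hPu, B.rr'.divisorOf_apply,
      FLTA.PlaceRed.RRCurve.poleDiv_apply] at hP
    have hPfin : 0 ≤ P.ord (jBar M) := by
      by_contra h
      apply hP
      rw [max_eq_left (by omega)]
      simp
    rw [max_eq_right (by omega), add_zero] at hP
    have hdiv : O.divk r s (Finsupp.single Q 1) =
        Finsupp.mapDomain r (O.div (Finsupp.single P 1)) := by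
      rw [O.mapDomain_div B.rr' B.rrk hr hs, Finsupp.mapDomain_single, hPQ]
    set D := O.div (Finsupp.single P (1 : ℤ)) -
      ((l : ℤ) + 1) • (Finsupp.single P (1 : ℤ) : Divisor Qb (modularFunctionFieldBar M)) with hD
    have hmain : (3 : ℤ) ∣ Finsupp.mapDomain r D w₀ := by
      rw [Finsupp.mapDomain, Finsupp.sum_apply]
      refine Finset.dvd_sum fun v _ => ?_
      beta_reduce
      rw [Finsupp.single_apply]
      split_ifs
      · rw [hD, Finsupp.sub_apply, Finsupp.smul_apply, smul_eq_mul]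
        exact hell P hPfin hP v
      · exact dvd_zero _
    rw [hD, Finsupp.mapDomain_sub, Finsupp.mapDomain_smul, Finsupp.mapDomain_single, hPQ,
      Finsupp.sub_apply, Finsupp.smul_apply, smul_eq_mul, ← hdiv] at hmain
    exact hmain
  set E := B.rrk.divisorOf x with hE
  rw [show w₀.ord x = (E.sum Finsupp.single) w₀ by
    rw [Finsupp.sum_single, hE, B.rrk.divisorOf_apply]]
  nth_rw 1 [← Finsupp.sum_single E]
  rw [map_finsuppSum, Finsupp.sum, Finsupp.finsetSum_apply, Finsupp.sum, Finsupp.finsetSum_apply,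
    Finset.mul_sum, ← Finset.sum_sub_distrib]
  refine Finset.dvd_sum fun Q _ => ?_
  show (3 : ℤ) ∣ O.divk r s (Finsupp.single Q (E Q)) w₀ -
    ((l : ℤ) + 1) * (Finsupp.single Q (E Q)) w₀
  have hsingle : Finsupp.single Q (E Q) = E Q • Finsupp.single Q (1 : ℤ) := by
    rw [Finsupp.smul_single, smul_eq_mul, mul_one]
  rw [hsingle, map_zsmul, Finsupp.smul_apply, Finsupp.smul_apply, smul_eq_mul, smul_eq_mul,
    mul_left_comm, ← mul_sub]
  by_cases hQ : JFin Q
  · by_cases h3Q : (3 : ℤ) ∣ Q.ord (jK k M)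
    · refine Dvd.dvd.mul_right ?_ _
      rw [hE, FLTA.PlaceRed.RRCurve.divisorOf_apply]
      exact hdvd Q hQ h3Q
    · exact (hexc Q hQ h3Q).mul_left _
  · have hne : Q ≠ w₀ := fun h => hQ (h ▸ hw₀)
    rw [hinf Q hQ, Finsupp.single_eq_of_ne hne.symm, mul_zero, sub_zero, mul_zero]
    exact dvd_zero _

end FLTA.LevelLowering

end
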