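import Fermat.Agent.LevelLowering.Jump
import Fermat.Agent.LevelLowering.HeckeKappa

/-!
# Residues at `p = 3` in the presence of thick nodes

With `d_Q = 2 J_Q`: either all `J_Q` are divisible by `3` and there are weights, or the residues
vanish at every node with `3 ∣ J_Q`.
-/

set_option autoImplicit false

noncomputable section

open AlgebraicCurve FLTA.BadRed

namespace FLTA.LevelLowering

variable {K : Type*} [Field K] [IsAlgClosed K] [CharZero K] {A : ValuationSubring K}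
  {k : Type*} [Field k] [IsAlgClosed k] {π : A →+* k}
  {q : ℕ} [NeZero q] [Fact q.Prime] [CharP k q]
  {F : Type*} [Field F] [Algebra K F] {F' : Type*} [Field F'] [Algebra K F']
  {Fk : Type*} [Field Fk] [Algebra k Fk] {g gF : ℕ} {B : BadFibre A π q F F' Fk g gF}

omit [IsAlgClosed K] [CharZero K] [IsAlgClosed k] [Fact q.Prime] [CharP k q] in
/-- (a) Weights when no node is thick. -/
theorem EtaData.nonempty_weights_of_three_dvd {R : RatFrame B} {S : Finset (Place k Fk)}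
    (E : EtaData R S) (hq3 : q = 3) (J : Place k Fk → ℤ) (hJ : ∀ Q ∈ S, E.d Q = 2 * J Q)
    (hall : ∀ Q ∈ S, (3 : ℤ) ∣ J Q) : Nonempty E.Weights := by
  subst hq3
  exact ⟨{ t := 2, n := fun Q => J Q / 3, not_dvd := by norm_num
           eq := fun Q hQ => by
            obtain ⟨c, hc⟩ := hall Q hQ
            rw [hJ Q hQ, hc]
            omega }⟩

namespace Datum

variable {R : RatFrame B} (X : Datum R) {S : Finset (Place k Fk)} {m₀ : ℕ}

/-- `c J_Q = 2 e r` at a node. -/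
theorem thick_eq {E : EtaData R S} (hq3 : q = 3) (J : Place k Fk → ℤ)
    (hJ : ∀ Q ∈ S, E.d Q = 2 * J Q) {Q : Place k Fk} (hQ : Q ∈ X.bad S) (N : X.NodeElt E Q) :
    N.c * J Q = 2 * E.e * X.res 1 (B.frobq • Q) := by
  subst hq3
  have h := N.eq
  rw [hJ Q (X.mem_bad.mp hQ).1] at h
  push_cast at h
  refine mul_left_cancel₀ (show (6 : ℤ) ≠ 0 by norm_num) ?_
  linear_combination h

/-- (b) With a thick node the residues at the other nodes vanish. -/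
theorem dvd_o_of_thick (hS : B.IsGluing S m₀) (E : EtaData R S) (hne : S.Nonempty) (hq3 : q = 3)
    (J : Place k Fk → ℤ) (hJ : ∀ Q ∈ S, E.d Q = 2 * J Q)
    (hthick : ∃ Q₀ ∈ S, ¬ (3 : ℤ) ∣ J Q₀)
    {R₀ : RatFrame B} (hsub : ∀ s ∈ R.H, s ∈ R₀.H) (hϖ₀ : R₀.ϖ = (q : K))
    (hsq : ¬ q ^ 2 ∣ E.e) (hjump : q ∣ E.e → Nonempty (Jumping R)) :
    ∀ Q ∈ S, (3 : ℤ) ∣ J Q → (q : ℤ) ∣ X.o 0 Q ∧ (q : ℤ) ∣ X.o 1 (B.frobq • Q) := by
  classical
  intro Q hQ hJQ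
  have hp : Nat.Prime q := Fact.out
  have hpz : Prime (q : ℤ) := Nat.prime_iff_prime_int.mp hp
  have hq3' : (q : ℤ) = 3 := by exact_mod_cast hq3
  obtain ⟨m, Y, hXY, hY⟩ := X.exists_top hS E hne
  suffices h : Q ∈ Y.tame S by
    obtain ⟨-, h0, h1⟩ := (Y.mem_tame_iff hS E hne).mp h
    constructor
    · have h2 := (Int.dvd_of_emod_eq_zero h0).sub (hXY.dvd 0 Q)
      rwa [show Y.o 0 Q - (Q.ord (R.ld 0 Y.f) - Q.ord (R.ld 0 X.f)) = X.o 0 Q by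
        unfold o fb; ring] at h2
    · have h2 := (Int.dvd_of_emod_eq_zero h1).sub (hXY.dvd 1 (B.frobq • Q))
      rwa [show Y.o 1 (B.frobq • Q) - ((B.frobq • Q).ord (R.ld 1 Y.f) -
        (B.frobq • Q).ord (R.ld 1 X.f)) = X.o 1 (B.frobq • Q) by unfold o fb; ring] at h2
  refine (Y.mem_bad_or_tame hQ).resolve_left fun hQ₁ => ?_
  have hrpos : ∀ Q ∈ Y.bad S, ¬ (q : ℤ) ∣ Y.res 1 (B.frobq • Q) := fun Q hQ h => by
    apply (Y.mem_bad.mp hQ).2.2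
    have h2 := Int.emod_nonneg (Y.o 1 (B.frobq • Q)) (Int.natCast_ne_zero.mpr hp.ne_zero)
    have h3 := Int.emod_lt_of_pos (Y.o 1 (B.frobq • Q)) (Int.natCast_pos.mpr hp.pos)
    exact Int.eq_zero_of_dvd_of_nonneg_of_lt h2 h3 h
  obtain ⟨N₁⟩ := Y.nonempty_nodeElt hS E hne hQ₁
  have hqJ : (q : ℤ) ∣ J Q := hq3' ▸ hJQ
  have h2q : ¬ (q : ℤ) ∣ 2 := by rw [hq3']; norm_num
  have hqe : q ∣ E.e := by
    have h : (q : ℤ) ∣ 2 * E.e * Y.res 1 (B.frobq • Q) :=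
      Y.thick_eq hq3 J hJ hQ₁ N₁ ▸ hqJ.mul_left _
    rcases hpz.dvd_or_dvd h with h | h
    · exact Int.natCast_dvd_natCast.mp ((hpz.dvd_or_dvd h).resolve_left h2q)
    · exact absurd h (hrpos Q hQ₁)
  obtain ⟨e', he'⟩ := hqe
  obtain ⟨Jp⟩ := hjump ⟨e', he'⟩
  obtain ⟨fy, θ₀, hprod, hK, hfyB, hfyint, hfyneg, hfyred, hθ₀⟩ :=
    hY.exists_trivialisation Jp hS E hne
  obtain ⟨θ, hθ, hpolar⟩ := exists_polarFree hsub hϖ₀ E.u_red E.u_mem E.q_eq ⟨e', he'⟩ hS hne hK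
    hfyB hfyint hfyneg hfyred hθ₀ Jp.i_lt
  let C : Y.JumpCtx Jp := ⟨m, hY, fy, θ, hprod, hK, hfyB, hfyint, hfyred, hθ, hpolar⟩
  have hcong : ∀ β, β < Jp.i → ∃ lam, C.Cong (β + 1) lam := by
    intro β
    induction β with
    | zero => exact fun _ => ⟨1, C.cong_one⟩
    | succ β ih =>
      intro hβ
      obtain ⟨lam, hC⟩ := ih (by omega)
      obtain ⟨gs, hgs, -⟩ := C.exists_scalars hS E hne hC (by omega)
      have hrel := C.scalar_rel hS E hne hC (by omega) hgs hQ₁ N₁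
      rw [if_neg (by omega), add_zero] at hrel
      obtain ⟨G, hGL, hG⟩ := R.exists_lift (gs 0)
      refine ⟨lam + ⟨R.ϖ, R.ϖ_mem_A⟩ ^ (β + 1) * G,
        add_mem hC.1 (mul_mem (pow_mem R.ϖ_mem _) hGL), ?_, fun l => ?_⟩
      · rw [map_add, map_mul, map_pow, R.π_ϖ, zero_pow (by omega), zero_mul, add_zero, hC.2.1]
      obtain ⟨h1, h2⟩ := R.geL_cst l ((β + 1 : ℕ) : ℤ) G
      have hl : gs l = gs 0 := by
        rcases (by decide : ∀ l : Fin 2, l = 0 ∨ l = 1) l with rfl | rfl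
        exacts [rfl, hrel.symm]
      have h3 : R.lev l ((β + 1 : ℕ) : ℤ) (C.θ - R.cst 0 lam - R.cst ((β + 1 : ℕ) : ℤ) G) = 0 := by
        rw [R.lev_sub (hC.2.2 l) h1, h2, hgs, hG, hl, sub_self]
      have h4 := R.geL_succ (sub_mem (sub_mem (R.BL_le C.triv.mem) (R.BL_le (R.cst_mem hC.1)))
        (R.BL_le (R.cst_mem hGL))) ((hC.2.2 l).sub h1) h3
      have e : C.θ - R.cst 0 lam - R.cst ((β + 1 : ℕ) : ℤ) G =
          C.θ - R.cst 0 (lam + ⟨R.ϖ, R.ϖ_mem_A⟩ ^ (β + 1) * G) := by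
        simp only [RatFrame.cst]
        rw [sub_sub, ← map_add]
        congr 2
        rw [zpow_zero, one_mul, one_mul, zpow_natCast]
        push_cast
        ring
      rw [e] at h4
      exact_mod_cast h4
  obtain ⟨lam, hC⟩ := hcong (Jp.i - 1) (by have := Jp.i_pos; omega)
  rw [Nat.sub_add_cancel Jp.i_pos] at hC
  obtain ⟨gs, hgs, htame⟩ := C.exists_scalars hS E hne hC le_rfl
  have hrel : ∀ Q, Q ∈ Y.bad S → ∀ N : Y.NodeElt E Q, gs 0 + (N.c : k) * π Jp.τ = gs 1 :=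
    fun Q hQ N => by
      have h := C.scalar_rel hS E hne hC le_rfl hgs hQ N
      rwa [if_pos rfl] at h
  have he0 : ¬ (q : ℤ) ∣ (e' : ℤ) := fun h => hsq (by
    obtain ⟨c, hc⟩ := Int.natCast_dvd_natCast.mp h
    exact ⟨c, by rw [he', hc]; ring⟩)
  have hc₁ : (N₁.c : k) ≠ 0 := fun h => by
    rw [CharP.intCast_eq_zero_iff k q] at h
    obtain ⟨c, hc⟩ := h
    obtain ⟨j, hj⟩ := hqJ
    have h3 := Y.thick_eq hq3 J hJ hQ₁ N₁
    rw [hc, hj, he'] at h3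
    push_cast at h3
    have h4 : (q : ℤ) ∣ 2 * e' * Y.res 1 (B.frobq • Q) :=
      ⟨c * j, mul_left_cancel₀ (Int.natCast_ne_zero.mpr hp.ne_zero) (by linear_combination -h3)⟩
    rcases hpz.dvd_or_dvd h4 with h4 | h4
    · exact he0 ((hpz.dvd_or_dvd h4).resolve_left h2q)
    · exact hrpos Q hQ₁ h4
  obtain ⟨Q₀, hQ₀, hJ₀⟩ := hthick
  have hQb : Q₀ ∈ Y.bad S := by
    refine (Y.mem_bad_or_tame hQ₀).resolve_right fun ht => hc₁ ?_
    have h1 := hrel Q hQ₁ N₁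
    rw [← htame ⟨Q₀, ht⟩] at h1
    exact (mul_eq_zero.mp (add_eq_left.mp h1)).resolve_right Jp.τ_red
  obtain ⟨N⟩ := Y.nonempty_nodeElt hS E hne hQb
  refine hc₁ ?_
  have hcc : (N.c : k) = (N₁.c : k) :=
    mul_right_cancel₀ Jp.τ_red (add_left_cancel ((hrel Q₀ hQb N).trans (hrel Q hQ₁ N₁).symm))
  rw [← hcc, CharP.intCast_eq_zero_iff k q]
  have h0 : (q : ℤ) ∣ N.c * J Q₀ := by
    rw [Y.thick_eq hq3 J hJ hQb N, he']
    exact ⟨2 * e' * Y.res 1 (B.frobq • Q₀), by push_cast; ring⟩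
  exact (hpz.dvd_or_dvd h0).resolve_right (hq3'.symm ▸ hJ₀)

/-- Residues confined to thick nodes vanish when `T_l` acts on those by `N ≢ a`. -/
theorem dvd_of_thick_hecke (hS : B.IsGluing S m₀) (E : EtaData R S) (hne : S.Nonempty)
    (hfix : ∀ v, E.IsFin (B.frobq • v) ↔ E.IsFin v) (Th : Place k Fk → Prop)
    (hThfix : ∀ v, Th (B.frobq • v) ↔ Th v)
    (hreg : ∀ Q ∈ S, ¬ Th Q → (q : ℤ) ∣ X.o 0 Q ∧ (q : ℤ) ∣ X.o 1 (B.frobq • Q))
    (Tk : Fk →* Fk) (N : ℤ)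
    (hTh : ∀ x : Fk, x ≠ 0 → (∀ v, E.IsFin v → ¬ Th v → (q : ℤ) ∣ v.ord x) →
      ∀ v, E.IsFin v → Th v → (q : ℤ) ∣ v.ord (Tk x) - N * v.ord x)
    (a : ℤ) (heig : ∀ i v, (q : ℤ) ∣ v.ord (Tk (X.fb i)) - a * X.o i v)
    (hneq : ¬ (q : ℤ) ∣ N - a) :
    ∀ i v, (q : ℤ) ∣ X.o i v := by
  classical
  have hpz : Prime (q : ℤ) := Nat.prime_iff_prime_int.mp Fact.out
  have hoff : ∀ i v, ¬ (E.IsFin v ∧ Th v) → (q : ℤ) ∣ X.o i v := by
    intro i v hv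
    by_cases h : ∃ Q ∈ S, pt B Q i = v
    · obtain ⟨Q, hQ, rfl⟩ := h
      have hQf := E.isFin_of_mem Q hQ
      rcases (by decide : ∀ l : Fin 2, l = 0 ∨ l = 1) i with rfl | rfl
      · rw [pt_zero] at hv ⊢
        exact (hreg Q hQ fun h => hv ⟨hQf, h⟩).1
      · rw [pt_one] at hv ⊢
        exact (hreg Q hQ fun h => hv ⟨(hfix Q).mpr hQf, (hThfix Q).mpr h⟩).2
    · push Not at h
      exact Int.dvd_of_emod_eq_zero
        (X.res_eq_zero_of_notMem hS E hne fun Q hQ => h Q (X.mem_bad.mp hQ).1)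
  intro i v
  by_cases hv : E.IsFin v ∧ Th v
  · have h1 := hTh (X.fb i) (X.fb_ne_zero i)
      (fun u _ hu => hoff i u fun h => hu h.2) v hv.1 hv.2
    have h2 := (heig i v).sub h1
    rw [show v.ord (Tk (X.fb i)) - a * X.o i v - (v.ord (Tk (X.fb i)) - N * v.ord (X.fb i)) =
      (N - a) * X.o i v by unfold o; ring] at h2
    exact (hpz.dvd_or_dvd h2).resolve_left hneq
  · exact hoff i v hv

end Datum

end FLTA.LevelLowering

end
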