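import Fermat.Agent.LevelLowering.Main
import Fermat.Agent.LevelLowering.EtaThree
import Fermat.Agent.LevelLowering.JumpThree
import Fermat.Agent.LevelLowering.EllipticHecke
import Fermat.Agent.LevelLowering.HeckeStepExc
import Fermat.Agent.LevelLowering.MainDatum
import Fermat.Agent.LevelLowering.MainSetting
import Fermat.Agent.LevelLowering.EtaFibre
import Fermat.Agent.LevelLowering.Jump
import Fermat.Agent.LevelLowering.HeckeModular
import Fermat.Agent.LevelLowering.HeckeStep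
import Fermat.Agent.LevelLowering.HeckeStepCusp
import Fermat.Agent.LevelLowering.HeckeStepFin
import Fermat.Agent.LevelLowering.HeckeKappa
import Fermat.Agent.LevelLowering.GlobalDefs
import Fermat.Agent.Congruence.Frobenius

/-!
# Level lowering at `p = 3` at elliptic points of order three
-/

set_option autoImplicit false
set_option synthInstance.maxHeartbeats 400000
set_option maxHeartbeats 1000000

open AlgebraicCurve ModularCurve IsLocalRing FLTA.BadRed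

noncomputable section

namespace FLTA.LevelLowering

open FLTA.EllReducible (Tors)

local notation "Qbar" => AlgebraicClosure ℚ
local notation "Γ" => AlgebraicClosure ℚ ≃ₐ[ℚ] AlgebraicClosure ℚ

variable {E : WeierstrassCurve ℚ} (hE : E.Δ ≠ 0) {p : ℕ} [hp : Fact p.Prime] [NeZero p]
  (hp2 : p ≠ 2) {M : ℕ} [NeZero M] (hpM : ¬ p ∣ M) {A : ValuationSubring Qbar}
  (hA : A.LiesOverPrime p) {L₀ : Submodule (ZMod p) (Tors E p)}
  (V : TorsShape p A (Tors E p) L₀)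
  (Sb : Finset ℕ) (hpS : p ∈ Sb) (hlev : ∀ ℓ : ℕ, ℓ.Prime → ℓ ∣ M * p → ℓ ∈ Sb)
  (a : ℕ → ℤ) (iota : Tors E p →+ JZero (M * p)) (hinj : Function.Injective iota)
  (hsmul : ∀ (σ : Γ) (x : Tors E p), iota (σ • x) = σ • iota x)
  (hhecke : ∀ ℓ : Nat.Primes, (ℓ : ℕ) ∉ Sb → ∀ x : Tors E p,
    heckeOperatorBar (M * p) ℓ (iota x) = a ℓ • iota x)
  (t : FreeAlgebra ℤ {ℓ : Nat.Primes // (ℓ : ℕ) ∉ Sb})
  (ht1 : heckeLiftMod p a Sb t = 1) (ht0 : heckeLiftBar M Sb t = 0)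
  (hne : ∃ ℓ : ℕ, ℓ.Prime ∧ ℓ ∉ Sb ∧ ¬ (p : ℤ) ∣ a ℓ - (ℓ + 1))

include hE hA V hpS hlev hsmul hhecke ht1 ht0 hne in
/-- At `p = 3` every point of the copy of `E[p]` is toric, with or without an auxiliary prime. -/
theorem isToric_iota_three [CharP (ResidueField A) p] [PerfectRing (ResidueField A) p]
    (h3 : p = 3)
    (v : Tors E p) :
    (badFibre M p A hA hpM).IsToric p (iota v) := by
  classical
  haveI := FLTA.Galois.isAlgClosed_residueField A
  set B := badFibre M p A hA hpM with hB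
  let I := fibreInertia M p A hA hpM
  obtain ⟨R, R₀, e, u, -, hH, -, -, hϖ₀, hsub, he, hsq, huL, hu, hqe, hjump⟩ :=
    V.exists_setting hA I
  obtain ⟨S, m₀, hS⟩ := B.exists_isGluing
  have hSne := isGluing_nonempty hA hpM hS
  obtain ⟨Ed, hEG, hEe, -, hFin⟩ := exists_etaData (isModularFibre_badFibre M p A hA hpM) hpM R he huL
    hu hqe hS
  rw [← hEe] at hsq hjump
  have hfix : ∀ s ∈ R.H, s.σ • iota v = iota v := by
    rw [hH]
    rintro _ ⟨γ, hγ, rfl⟩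
    rw [fibreInertia_smul, ← hsmul]
    exact congrArg iota ((V.mem_inertiaSub.mp hγ).2 v)
  have hkill : p • iota v = 0 := by
    rw [← map_nsmul]
    convert map_zero iota using 2
    rw [← Nat.cast_smul_eq_nsmul (ZMod p), ZMod.natCast_self, zero_smul]
  have hlM : ∀ ℓ : ℕ, ℓ.Prime → ℓ ∣ M → ℓ ∈ Sb := fun ℓ hℓ h => hlev ℓ hℓ (h.mul_right p)
  have hlp : ∀ ℓ : ℕ, ℓ ∉ Sb → ℓ ≠ p := fun ℓ h he' => h (he' ▸ hpS)
  haveI : ∀ j : {ℓ : Nat.Primes // (ℓ : ℕ) ∉ Sb}, NeZero (j.1 : ℕ) := fun j => ⟨j.1.2.ne_zero⟩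
  let H : ∀ j : {ℓ : Nat.Primes // (ℓ : ℕ) ∉ Sb}, HeckeData B (j.1 : ℕ) := fun j =>
    heckeData M p A hA hpM j.1 j.1.2 (hlp _ j.2) (fun h => j.2 (hlM _ j.1.2 h))
  have hTsec : ∀ j, ∀ x ∈ secRing B, (H j).T x ∈ secRing B := fun j x hx =>
    heckeData_T_mem_secRing M p A hA hpM j.1 j.1.2 (hlp _ j.2) (fun h => j.2 (hlM _ j.1.2 h)) hx
  have hrelD : ∀ (D : Divisor.degZero (K := Qbar) (F := modularFunctionFieldBar (M * p)))
      (f : modularFunctionFieldBar (M * p)), Pic0.mk D = iota v →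
      BadFibre.KummerFn p (D : Divisor Qbar (modularFunctionFieldBar (M * p))) f →
      ∀ j : {ℓ : Nat.Primes // (ℓ : ℕ) ∉ Sb}, ∃ (c : Qbar) (h : modularFunctionFieldBar (M * p)),
        (H j).T f = algebraMap Qbar _ c * f ^ a j.1 * h ^ p := by
    intro D f hD hK j
    obtain ⟨c, h, -, -, hch⟩ := exists_heckeNormHom_eq j.1 (n := p) hK.ne_zero
      (fun w => by rw [hK.ord_eq])
      (show heckeOperatorBar (M * p) j.1 (Pic0.mk D) = a j.1 • Pic0.mk D by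
        rw [hD]; exact hhecke j.1 j.2 v)
      (a j.1) (by rw [sub_self]; exact dvd_zero _)
    exact ⟨c, h, hch⟩
  obtain ⟨l₀, hl₀, hl₀S, hneq⟩ := hne
  haveI : NeZero l₀ := ⟨hl₀.ne_zero⟩
  set j₀ : {ℓ : Nat.Primes // (ℓ : ℕ) ∉ Sb} := ⟨⟨l₀, hl₀⟩, hl₀S⟩ with hj₀
  have hneq' : ¬ (p : ℤ) ∣ ((j₀.1 : ℕ) : ℤ) + 1 - a j₀.1 := fun h => hneq (by
    rw [← dvd_neg, neg_sub]; exact h)
  obtain ⟨X, Dd, hDd, hmk⟩ := R.exists_datum Ed hSne hfix hkill (fun D f hD hf hK hb => by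
    obtain ⟨c, h, hrel⟩ := hrelD D f hD hK j₀
    exact dvd_vs_sub (H j₀) (hTsec j₀) hf hK hb hrel hneq')
  have hrelX : ∀ j, ∃ (c : Qbar) (h : modularFunctionFieldBar (M * p)),
      (H j).T X.f = algebraMap Qbar _ c * X.f ^ a j.1 * h ^ p := fun j =>
    hrelD Dd X.f hmk (by rw [hDd]; exact X.kummer) j
  have hmod := isModularFibre_badFibre M p A hA hpM
  have hinf : ¬ Ed.IsFin B.infk := by
    rw [hFin, JFin, not_le,
      B.ord_infk _ (fun h => jqModC_ne_zero_of_nontrivial _ (congrArg Subtype.val h)),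
      hmod.exk_eq]
    show (jqModC (ResidueField A)).order < 0
    rw [order_jqModC]
    norm_num
  have hffix : ∀ w, Ed.IsFin (B.frobq • w) ↔ Ed.IsFin w := fun w => by
    rw [hFin, JFin, JFin]
    nth_rw 1 [← hmod.frobq_jK]
    rw [SemilinearAut.ord_smul]
  have hfin : ∀ (m : ℤ) (x : modularFunctionFieldFullC (ResidueField A) M), x ≠ 0 →
      (∀ w, Ed.IsFin w → m ∣ w.ord x) → ∀ w, Ed.IsFin w → m ∣ w.ord ((H j₀).Tk x) :=
    fun m x hx h w hw => heckeData_dvd_ord_Tk M p A hA hpM j₀.1 j₀.1.2 (hlp _ j₀.2)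
      (fun h' => j₀.2 (hlM _ j₀.1.2 h')) m x hx (fun w' hw' => h w' (hFin.symm ▸ hw')) w (hFin ▸ hw)
  have hg : ∀ w, Ed.IsFin w → w.ord ((H j₀).Tk (R.ld 0 Ed.G)) =
      (((j₀.1 : ℕ) : ℤ) + 1) * w.ord (R.ld 0 Ed.G) := fun w _ =>
    hmod.ord_Tk_ld_G R Ed hEG hl₀ (hlp _ hl₀S) (H j₀) w
  have hdiv : ∀ i w, (p : ℤ) ∣ X.o i w := by
    obtain ⟨c, h, hrel⟩ := hrelX j₀
    have heig : ∀ i w, (p : ℤ) ∣ w.ord ((H j₀).Tk (X.fb i)) - a j₀.1 * X.o i w := by
      intro i w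
      obtain ⟨uu, r, huu, hr0, hTk⟩ := X.exists_Tk_fb (H j₀) (hTsec j₀) hrel i
      refine ⟨w.ord r, ?_⟩
      rw [hTk, Place.ord_mul _ (mul_ne_zero ((map_ne_zero _).mpr huu)
          (zpow_ne_zero _ (X.fb_ne_zero i))) (pow_ne_zero _ hr0),
        Place.ord_mul _ ((map_ne_zero _).mpr huu) (zpow_ne_zero _ (X.fb_ne_zero i)),
        FLTA.Curves.ord_algebraMap_eq_zero, Place.ord_zpow, FLTA.Curves.ord_pow, Datum.o]
      ring
    set J : Place (ResidueField A) (modularFunctionFieldFullC (ResidueField A) M) → ℤ :=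
      fun Q => Q.ord (jK (ResidueField A) M) with hJdef
    have hJ : ∀ Q ∈ S, Ed.d Q = 2 * J Q := fun Q _ => by
      exact hmod.d_eq_three h3 R Ed hEG Q
    by_cases hall : ∀ Q ∈ S, (3 : ℤ) ∣ J Q
    · obtain ⟨Wt⟩ := Ed.nonempty_weights_of_three_dvd h3 J hJ hall
      obtain ⟨κ, hκ⟩ := X.exists_kappa hS Ed hSne Wt hsub hϖ₀ hsq hjump
      exact X.dvd_of_hecke hS Ed hSne Wt hffix hinf hκ (H j₀).Tk
        (fun x hx => (H j₀).Tk_ne_zero hx)
        (((j₀.1 : ℕ) : ℤ) + 1) hfin hg (a j₀.1) heig hneq'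
    · push Not at hall
      refine X.dvd_of_thick_hecke hS Ed hSne hffix (fun w => ¬ (3 : ℤ) ∣ J w) (fun w => ?_)
        (fun Q hQ hreg => X.dvd_o_of_thick hS Ed hSne h3 J hJ hall hsub hϖ₀ hsq hjump Q hQ
          (not_not.mp hreg)) (H j₀).Tk (((j₀.1 : ℕ) : ℤ) + 1) (fun x hx hdvd w hw _ => ?_)
        (a j₀.1) heig hneq'
      · simp only [hJdef]
        nth_rw 1 [← hmod.frobq_jK]
        rw [SemilinearAut.ord_smul]
      · have h := heckeData_ord_Tk_exceptional M p A hA hpM j₀.1 j₀.1.2 (hlp _ j₀.2)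
          (fun h' => j₀.2 (hlM _ j₀.1.2 h')) h3
          (heckeDiv_elliptic j₀.1.2 (fun h' => j₀.2 (hlM _ j₀.1.2 h'))) x hx
          (fun w' hw' h3w => by
            have := hdvd w' (hFin.symm ▸ hw') (not_not.mpr h3w)
            rwa [show (p : ℤ) = 3 by exact_mod_cast h3] at this) w (hFin ▸ hw)
        rw [show (p : ℤ) = 3 by exact_mod_cast h3]
        exact h
  rw [← hmk]
  refine X.isToric Dd hDd ?_
  obtain ⟨r, hr⟩ := B.R.exists_isPlaceMap B.rr' B.rrk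
  exact X.reducesToPow (fun j : {ℓ : Nat.Primes // (ℓ : ℕ) ∉ Sb} => (j.1 : ℕ)) H hTsec hr
    (heckeFamily residue_surjective M (FLTA.PlaceRed.natCast_residue_ne_zero M hpM A hA) hlM)
    (fun j x => rfl) (fun j => a j.1) t ht1
    (isPrincipal_divEval residue_surjective M (FLTA.PlaceRed.natCast_residue_ne_zero M hpM A hA)
      hlM t ht0)
    hrelX hdiv

include hE hp2 hpM hA V hpS hlev hinj hsmul hhecke ht1 ht0 hne in
/-- The eigen copy of `E[3]` cannot exist. -/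
theorem false_of_eigen_embedding_three [CharP (ResidueField A) p]
    [PerfectRing (ResidueField A) p] (h3 : p = 3) : False :=
  false_of_toric hA hpM hE hp2 V iota hinj hsmul
    (isToric_iota_three hE hpM hA V Sb hpS hlev a iota hsmul hhecke t ht1 ht0 hne h3)

end FLTA.LevelLowering

end
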