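import Mathlib
import Fermat.Prelude.Def_FLTPrelim_ModularRep
import Fermat.Agent.EllIsogeny.VarChange
import Fermat.Agent.Wiring.FreyModel

/-!
# Integral models: the traces of Frobenius do not depend on the model

Two integral models of a curve over `ℚ` have the same `a_ℓ` outside a finite set of primes, and
a model can be rescaled so that given primes become bad.
-/

set_option autoImplicit false

noncomputable section

open WeierstrassCurve

namespace FLTA.LevelLowering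

/-- Isomorphic curves over a field have equally many points. -/
theorem card_variableChange {F : Type} [Field F] (W : WeierstrassCurve F) (C : VariableChange F) :
    (C • W).card = W.card := by
  classical
  exact Nat.card_congr (FLTA.EllIsogeny.vcPointEquiv W.toAffine C).toEquiv

theorem exists_padicInt_eq {ℓ : ℕ} [Fact ℓ.Prime] {q : ℚ} (h : ¬ ℓ ∣ q.den) :
    ∃ x : ℤ_[ℓ], (x : ℚ_[ℓ]) = (q : ℚ_[ℓ]) :=
  ⟨⟨(q : ℚ_[ℓ]), Padic.norm_rat_le_one h⟩, rfl⟩

/-- A change of variables which is integral at `ℓ` identifies the reductions. -/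
theorem apOfModel_eq_of_variableChange {W₁ W₂ : WeierstrassCurve ℤ} {C : VariableChange ℚ}
    (hC : C • W₁.map (Int.castRingHom ℚ) = W₂.map (Int.castRingHom ℚ)) {ℓ : ℕ} (hℓ : ℓ.Prime)
    (hun : ¬ ℓ ∣ (C.u : ℚ).num.natAbs) (hud : ¬ ℓ ∣ (C.u : ℚ).den) (hr : ¬ ℓ ∣ C.r.den)
    (hs : ¬ ℓ ∣ C.s.den) (ht : ¬ ℓ ∣ C.t.den) :
    W₁.apOfModel ℓ = W₂.apOfModel ℓ := by
  have := Fact.mk hℓ
  obtain ⟨u, hu⟩ := exists_padicInt_eq hud
  obtain ⟨v, hv⟩ := exists_padicInt_eq (q := (C.u : ℚ)⁻¹) (ℓ := ℓ) (by rw [Rat.den_inv_of_ne_zero C.u.ne_zero]; exact hun)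
  obtain ⟨r, hr'⟩ := exists_padicInt_eq hr
  obtain ⟨s, hs'⟩ := exists_padicInt_eq hs
  obtain ⟨t, ht'⟩ := exists_padicInt_eq ht
  have huv : u * v = 1 := by
    apply Subtype.ext
    push_cast
    rw [hu, hv, Rat.cast_inv, mul_inv_cancel₀]
    exact_mod_cast C.u.ne_zero
  let Cl : VariableChange ℤ_[ℓ] := ⟨⟨u, v, huv, by rw [mul_comm, huv]⟩, r, s, t⟩
  have hCl : Cl.map PadicInt.Coe.ringHom = C.map (algebraMap ℚ ℚ_[ℓ]) := by
    ext <;> simp [Cl, VariableChange.map, hu, hr', hs', ht'] <;> assumption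
  have hcomp : PadicInt.Coe.ringHom.comp (Int.castRingHom ℤ_[ℓ]) =
      (algebraMap ℚ ℚ_[ℓ]).comp (Int.castRingHom ℚ) := RingHom.ext_int _ _
  have hinj : Function.Injective (PadicInt.Coe.ringHom (p := ℓ)) := fun x y h => Subtype.ext h
  have hZ : Cl • W₁.map (Int.castRingHom ℤ_[ℓ]) = W₂.map (Int.castRingHom ℤ_[ℓ]) := by
    refine WeierstrassCurve.map_injective hinj ?_
    show WeierstrassCurve.map _ _ = WeierstrassCurve.map _ _
    rw [← map_variableChange, map_map, map_map, hcomp, ← map_map, ← map_map, hCl,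
      map_variableChange, hC]
  have hmod : Cl.map PadicInt.toZMod • W₁.reductionMod ℓ = W₂.reductionMod ℓ := by
    have h1 : (PadicInt.toZMod (p := ℓ)).comp (Int.castRingHom ℤ_[ℓ]) = Int.castRingHom _ :=
      RingHom.ext_int _ _
    have h2 := congrArg (fun W : WeierstrassCurve ℤ_[ℓ] => W.map (PadicInt.toZMod (p := ℓ))) hZ
    simp only [← map_variableChange, map_map, h1] at h2
    exact h2
  rw [apOfModel, apOfModel, traceOfFrobenius, traceOfFrobenius, ← hmod, card_variableChange]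

/-- Two models of one curve have the same `a_ℓ` outside a finite set. -/
theorem exists_finset_apOfModel_eq {W₁ W₂ : WeierstrassCurve ℤ} {E : WeierstrassCurve ℚ}
    (h₁ : W₁.IsIntegralModelOf E) (h₂ : W₂.IsIntegralModelOf E) :
    ∃ T : Finset ℕ, ∀ ℓ : ℕ, ℓ.Prime → ℓ ∉ T → W₁.apOfModel ℓ = W₂.apOfModel ℓ := by
  obtain ⟨C₁, hC₁⟩ := h₁
  obtain ⟨C₂, hC₂⟩ := h₂
  let C := C₂ * C₁⁻¹
  have hC : C • W₁.map (Int.castRingHom ℚ) = W₂.map (Int.castRingHom ℚ) := by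
    rw [← hC₁, ← hC₂, smul_smul, inv_mul_cancel_right]
  refine ⟨(C.u : ℚ).num.natAbs.primeFactors ∪ (C.u : ℚ).den.primeFactors ∪ C.r.den.primeFactors ∪
    C.s.den.primeFactors ∪ C.t.den.primeFactors, fun ℓ hℓ hT => ?_⟩
  simp only [Finset.mem_union, Nat.mem_primeFactors, hℓ, true_and, not_or, not_and, not_not] at hT
  have hnum : (C.u : ℚ).num.natAbs ≠ 0 := by simp
  obtain ⟨⟨⟨⟨h1, h2⟩, h3⟩, h4⟩, h5⟩ := hT
  exact apOfModel_eq_of_variableChange hC hℓ (fun h => hnum (h1 h))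
    (fun h => (C.u : ℚ).den_nz (h2 h)) (fun h => C.r.den_nz (h3 h))
    (fun h => C.s.den_nz (h4 h)) (fun h => C.t.den_nz (h5 h))

/-- The model rescaled by `n`. -/
def scaleModel (W : WeierstrassCurve ℤ) (n : ℕ) : WeierstrassCurve ℤ :=
  ⟨n * W.a₁, (n : ℤ) ^ 2 * W.a₂, (n : ℤ) ^ 3 * W.a₃, (n : ℤ) ^ 4 * W.a₄, (n : ℤ) ^ 6 * W.a₆⟩

theorem scaleModel_Δ (W : WeierstrassCurve ℤ) (n : ℕ) :
    (scaleModel W n).Δ = (n : ℤ) ^ 12 * W.Δ := by
  simp only [scaleModel, WeierstrassCurve.Δ, b₂, b₄, b₆, b₈]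
  ring

/-- The scaling change of variables `u = 1/n`. -/
def scaleChange {n : ℕ} (hn : n ≠ 0) : VariableChange ℚ :=
  ⟨(Units.mk0 (n : ℚ) (Nat.cast_ne_zero.2 hn))⁻¹, 0, 0, 0⟩

theorem scaleChange_smul (W : WeierstrassCurve ℤ) {n : ℕ} (hn : n ≠ 0) :
    scaleChange hn • W.map (Int.castRingHom ℚ) =
      (scaleModel W n).map (Int.castRingHom ℚ) := by
  ext <;> simp [scaleChange, scaleModel, variableChange_def]

theorem scaleModel_isIntegralModelOf {W : WeierstrassCurve ℤ} {E : WeierstrassCurve ℚ}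
    (h : W.IsIntegralModelOf E) {n : ℕ} (hn : n ≠ 0) :
    (scaleModel W n).IsIntegralModelOf E := by
  obtain ⟨C, hC⟩ := h
  exact ⟨scaleChange hn * C, by rw [mul_smul, hC, scaleChange_smul]⟩

theorem not_isGoodPrimeFor_scaleModel (W : WeierstrassCurve ℤ) {n ℓ : ℕ} (h : ℓ ∣ n) :
    ¬ (scaleModel W n).IsGoodPrimeFor ℓ := fun hgood => hgood (by
  rw [scaleModel_Δ]
  exact dvd_mul_of_dvd_left (dvd_pow (Int.natCast_dvd_natCast.2 h) (by norm_num)) _)

theorem apOfModel_scaleModel (W : WeierstrassCurve ℤ) {n ℓ : ℕ} (hℓ : ℓ.Prime) (h : ¬ ℓ ∣ n) :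
    (scaleModel W n).apOfModel ℓ = W.apOfModel ℓ := by
  have hn : n ≠ 0 := fun h0 => h (h0 ▸ dvd_zero ℓ)
  refine (apOfModel_eq_of_variableChange (scaleChange_smul W hn) hℓ ?_ ?_ ?_ ?_ ?_).symm <;>
    simp [scaleChange, Rat.num_inv, Rat.den_inv_of_ne_zero, Int.natAbs_sign, hn, h, hℓ.not_dvd_one]

end FLTA.LevelLowering

end
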