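import Mathlib
import Fermat.Agent.Igusa.Degree
import Fermat.Agent.GenusKahler.Differential
import Fermat.Prelude.Thm_ModularCurve_coeff_jqModC_neg_one
import Fermat.Agent.Curves.BasicOrd

/-!
# `p`-th powers among the functions of `X₀(N)` in characteristic `p`

A function whose expansion has derivative zero is a `p`-th power, so its orders are divisible by
`p`.
-/

set_option autoImplicit false

noncomputable section

open ModularCurve AlgebraicCurve FLTA.GenusKahler

namespace FLTA.LevelLowering

variable {k : Type} [Field k]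

theorem lDeriv_pow_eq (f : LaurentSeries k) (n : ℕ) :
    lDeriv (f ^ n) = (n : LaurentSeries k) * f ^ (n - 1) * lDeriv f := by
  induction n with
  | zero =>
    rw [pow_zero, ← map_one (HahnSeries.C (Γ := ℤ) (R := k)), lDeriv_C]
    simp
  | succ n ih =>
    rw [pow_succ, lDeriv_mul, ih, Nat.add_sub_cancel]
    rcases n with _ | n
    · simp
    · rw [Nat.add_sub_cancel]
      push_cast
      ring

theorem lDeriv_pow_char {p : ℕ} [CharP k p] (f : LaurentSeries k) : lDeriv (f ^ p) = 0 := by
  rw [lDeriv_pow_eq, ← map_natCast (HahnSeries.C (Γ := ℤ) (R := k)), CharP.cast_eq_zero k p,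
    map_zero, zero_mul, zero_mul]

theorem lDeriv_inv_eq_zero {f : LaurentSeries k} (h : lDeriv f = 0) : lDeriv f⁻¹ = 0 := by
  rcases eq_or_ne f 0 with rfl | hf
  · rw [inv_zero, map_zero]
  have h1 : lDeriv (f * f⁻¹) = 0 := by
    rw [mul_inv_cancel₀ hf, ← map_one (HahnSeries.C (Γ := ℤ) (R := k)), lDeriv_C]
  rw [lDeriv_mul, h, mul_zero, add_zero] at h1
  exact (mul_eq_zero.mp h1).resolve_left hf

theorem lDeriv_jqModC_ne_zero : lDeriv (jqModC k) ≠ 0 := fun h => by
  have hc := congrArg (fun z => HahnSeries.coeff z (-2)) h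
  simp only [lDeriv_coeff, HahnSeries.coeff_zero, show (-2 : ℤ) + 1 = -1 by ring, Int.cast_neg,
    Int.cast_one, neg_mul, one_mul, neg_eq_zero, coeff_jqModC_neg_one] at hc
  exact one_ne_zero hc

/-- A series with exponents divisible by `p` and a `p`-th power times one has derivative zero. -/
theorem lDeriv_single_mul_pow {p : ℕ} [CharP k p] {m : ℤ} (hm : (m : k) = 0)
    (u : LaurentSeries k) : lDeriv (HahnSeries.single m 1 * u ^ p) = 0 := by
  rw [lDeriv_mul, lDeriv_pow_char, lDeriv_single, hm, zero_mul, map_zero, mul_zero, zero_add,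
    mul_zero]

variable (p : ℕ) [Fact p.Prime] [CharP k p]

instance charP_laurentSeries_levelLowering : CharP (LaurentSeries k) p :=
  charP_of_injective_ringHom (f := HahnSeries.C (Γ := ℤ) (R := k)) HahnSeries.C_injective p

/-- The subfield of `p`-th powers of functions of level `N`. -/
def powField (k : Type) [Field k] (p : ℕ) [Fact p.Prime] [CharP k p] (N : ℕ) [NeZero N] : Subfield (LaurentSeries k) :=
  (modularFunctionFieldFullC k N).toSubfield.map (frobenius (LaurentSeries k) p)

variable {p} {N : ℕ} [NeZero N]

theorem lDeriv_of_mem_powField {z : LaurentSeries k} (hz : z ∈ powField k p N) : lDeriv z = 0 := by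
  obtain ⟨y, -, rfl⟩ := hz
  exact lDeriv_pow_char y

theorem finrank_adjoin_powField {z : LaurentSeries k} (hz : z ∈ modularFunctionFieldFullC k N)
    (hz' : z ∉ powField k p N) :
    Module.finrank (powField k p N) (IntermediateField.adjoin (powField k p N) {z}) = p := by
  have hp : p.Prime := Fact.out
  set c : powField k p N := ⟨z ^ p, z, hz, rfl⟩
  have hirr : Irreducible (Polynomial.X ^ p - Polynomial.C c) :=
    X_pow_sub_C_irreducible_of_prime hp fun b hb => hz' <| by
      have h1 : (b : LaurentSeries k) ^ p = z ^ p := congrArg Subtype.val hb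
      rw [← frobenius_inj (LaurentSeries k) p (h1 : frobenius _ p (b : LaurentSeries k) = frobenius _ p z)]
      exact b.2
  have hev : Polynomial.aeval z (Polynomial.X ^ p - Polynomial.C c) = 0 := by
    rw [map_sub, map_pow, Polynomial.aeval_X, Polynomial.aeval_C]
    exact sub_self _
  have hmin : Polynomial.X ^ p - Polynomial.C c = minpoly (powField k p N) z :=
    minpoly.eq_of_irreducible_of_monic hirr hev (Polynomial.monic_X_pow_sub_C c hp.ne_zero)
  have hint : IsIntegral (powField k p N) z :=
    ⟨_, Polynomial.monic_X_pow_sub_C c hp.ne_zero, hev⟩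
  rw [IntermediateField.adjoin.finrank hint, ← hmin, Polynomial.natDegree_X_pow_sub_C]

variable [PerfectRing k p]

/-- The field of level `N` is generated by `j` over its `p`-th powers. -/
theorem mem_adjoin_powField (hN : (N : k) ≠ 0) {x : LaurentSeries k}
    (hx : x ∈ modularFunctionFieldFullC k N) :
    x ∈ IntermediateField.adjoin (powField k p N) {jqModC k} := by
  set b := IntermediateField.adjoin (powField k p N) {jqModC k} with hb
  have hC : ∀ c : k, algebraMap k (LaurentSeries k) c ∈ b := fun c => by
    obtain ⟨d, rfl⟩ := (bijective_frobenius k p).2 c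
    exact b.algebraMap_mem ⟨_, algebraMap k (LaurentSeries k) d,
      (modularFunctionFieldFullC k N).algebraMap_mem d, by
        show (algebraMap k (LaurentSeries k) d) ^ p = _
        rw [← map_pow]; rfl⟩
  have hle : ∀ z ∈ FLTA.Igusa.jField k, z ∈ b := fun z hz => by
    rw [FLTA.Igusa.jField] at hz
    induction hz using IntermediateField.adjoin_induction with
    | mem s hs => exact IntermediateField.subset_adjoin _ _ hs
    | algebraMap c => exact hC c
    | add _ _ _ _ ha hb => exact add_mem ha hb
    | inv _ _ ha => exact inv_mem ha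
    | mul _ _ _ _ ha hb => exact mul_mem ha hb
  have hxO : x ∈ FLTA.Igusa.fullOver k N := (FLTA.Igusa.mem_fullOver_iff k N).mpr hx
  have := FLTA.Igusa.isSeparable_fullOver k N hN
  have hsep0 : IsSeparable (FLTA.Igusa.jField k) (⟨x, hxO⟩ : FLTA.Igusa.fullOver k N) :=
    Algebra.IsSeparable.isSeparable _ _
  have hsep1 : (minpoly (FLTA.Igusa.jField k) x).Separable := by
    have h := minpoly.algebraMap_eq (A := FLTA.Igusa.jField k) (B := FLTA.Igusa.fullOver k N)
      (B' := LaurentSeries k) Subtype.val_injective ⟨x, hxO⟩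
    rw [show algebraMap (FLTA.Igusa.fullOver k N) (LaurentSeries k) ⟨x, hxO⟩ = x from rfl] at h
    rw [h]
    exact hsep0
  let incl : FLTA.Igusa.jField k →+* b :=
    { toFun := fun z => ⟨z, hle z z.2⟩
      map_one' := rfl
      map_mul' := fun _ _ => rfl
      map_zero' := rfl
      map_add' := fun _ _ => rfl }
  have hsep : IsSeparable b x := by
    refine (hsep1.map (f := incl)).of_dvd (minpoly.dvd b x ?_)
    rw [Polynomial.aeval_def, Polynomial.eval₂_map]
    exact minpoly.aeval (FLTA.Igusa.jField k) x
  have : CharP b p :=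
    (RingHom.charP_iff b.toSubfield.subtype Subtype.val_injective p).mpr inferInstance
  have : ExpChar b p := ExpChar.prime Fact.out
  have hpow : x ∈ perfectClosure b (LaurentSeries k) :=
    (mem_perfectClosure_iff_pow_mem p).mpr ⟨1, ⟨⟨x ^ p,
      b.algebraMap_mem ⟨x ^ p, x, hx, rfl⟩⟩, by rw [pow_one]; rfl⟩⟩
  have hbot : x ∈ (⊥ : IntermediateField b (LaurentSeries k)) := by
    rw [← separableClosure_inf_perfectClosure]
    exact ⟨mem_separableClosure_iff.mpr hsep, hpow⟩
  obtain ⟨y, hy⟩ := IntermediateField.mem_bot.mp hbot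
  exact hy ▸ y.2

/-- A function with derivative zero is a `p`-th power. -/
theorem exists_pow_eq_of_lDeriv (hN : (N : k) ≠ 0) (x : modularFunctionFieldFullC k N)
    (hd : lDeriv (x : LaurentSeries k) = 0) :
    ∃ y : modularFunctionFieldFullC k N, y ^ p = x := by
  by_cases hmem : (x : LaurentSeries k) ∈ powField k p N
  · obtain ⟨y, hy, hyx⟩ := hmem
    exact ⟨⟨y, hy⟩, Subtype.ext hyx⟩
  exfalso
  have hj : jqModC k ∈ modularFunctionFieldFullC k N := jqModC_mem_full k N
  have hjn : jqModC k ∉ powField k p N := fun h =>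
    lDeriv_jqModC_ne_zero (lDeriv_of_mem_powField h)
  have hfin : Module.Finite (powField k p N)
      (IntermediateField.adjoin (powField k p N) {jqModC k}) :=
    Module.finite_of_finrank_pos (by
      rw [finrank_adjoin_powField hj hjn]; exact (Fact.out : p.Prime).pos)
  have heq : IntermediateField.adjoin (powField k p N) {(x : LaurentSeries k)} =
      IntermediateField.adjoin (powField k p N) {jqModC k} :=
    IntermediateField.eq_of_le_of_finrank_eq
      (IntermediateField.adjoin_le_iff.mpr (Set.singleton_subset_iff.mpr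
        (mem_adjoin_powField hN x.2)))
      (by rw [finrank_adjoin_powField x.2 hmem, finrank_adjoin_powField hj hjn])
  have hker : ∀ z ∈ IntermediateField.adjoin (powField k p N) {(x : LaurentSeries k)},
      lDeriv z = 0 := fun z hz => by
    induction hz using IntermediateField.adjoin_induction with
    | mem s hs => rw [Set.mem_singleton_iff.mp hs]; exact hd
    | algebraMap c => exact lDeriv_of_mem_powField c.2
    | add _ _ _ _ ha hb => rw [map_add, ha, hb, add_zero]
    | inv _ _ ha => exact lDeriv_inv_eq_zero ha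
    | mul _ _ _ _ ha hb => rw [lDeriv_mul, ha, hb, mul_zero, mul_zero, add_zero]
  exact lDeriv_jqModC_ne_zero (hker _ (heq ▸ IntermediateField.mem_adjoin_simple_self _ _))

/-- Orders of a function with derivative zero are divisible by `p`. -/
theorem dvd_ord_of_lDeriv (hN : (N : k) ≠ 0) (x : modularFunctionFieldFullC k N)
    (hd : lDeriv (x : LaurentSeries k) = 0) (Q : Place k (modularFunctionFieldFullC k N)) :
    (p : ℤ) ∣ Q.ord x := by
  obtain ⟨y, rfl⟩ := exists_pow_eq_of_lDeriv hN x hd
  exact ⟨Q.ord y, FLTA.Curves.ord_pow Q y p⟩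

end FLTA.LevelLowering

end
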