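import Fermat.Agent.LevelLowering.Sections

/-!
# The local inequality at a glued point

For a section `z` with valuations `a, b` on the two components and orders `n₀, n₁` of its leading
parts at a glued pair, and `d` the order of the reduced eta quotient there,
`d (b - a) ≤ 12 e n₀` and `d (a - b) ≤ 12 e n₁`.
-/

set_option autoImplicit false

noncomputable section

open AlgebraicCurve FLTA.BadRed

namespace FLTA.LevelLowering

variable {K : Type*} [Field K] {A : ValuationSubring K}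
  {k : Type*} [Field k] {π : A →+* k} {q : ℕ} [NeZero q]
  {F : Type*} [Field F] [Algebra K F] {F' : Type*} [Field F'] [Algebra K F']
  {Fk : Type*} [Field Fk] [Algebra k Fk] {g gF : ℕ}

/-- The eta quotient `Δ(τ)/Δ(qτ)` relative to a frame. -/
structure EtaData {B : BadFibre A π q F F' Fk g gF} (R : RatFrame B) (S : Finset (Place k Fk))
    where
  /-- the function -/
  G : F
  /-- the absolute ramification index -/
  e : ℕ
  e_pos : 0 < e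
  /-- the unit with `q = ϖ ^ e u` -/
  u : A
  u_mem : (u : K) ∈ R.L
  u_red : π u ≠ 0
  q_eq : (q : K) = R.ϖ ^ e * u
  G_ne_zero : G ≠ 0
  G_mem : G ∈ R.BL
  vs_G : R.vs 0 G = 0
  G_mul_w : G * B.w G = algebraMap K F ((q : K) ^ 12)
  g_fixed : B.frobq • R.ld 0 G = R.ld 0 G
  /-- the places over finite `j` -/
  IsFin : Place k Fk → Prop
  isFin_of_mem : ∀ Q ∈ S, IsFin Q
  ord_g_nonneg : ∀ Q, IsFin Q → 0 ≤ Q.ord (R.ld 0 G)
  clear : ∀ Q, IsFin Q → ∃ φ ∈ R.BL, φ ≠ 0 ∧ (∀ i, R.vs i φ = 0) ∧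
    (∀ i, (pt B Q i).ord (R.ld i φ) = 0) ∧
    φ ∈ secRing B ∧ φ * G ∈ secRing B ∧ φ * B.w G ∈ secRing B

namespace EtaData

variable {B : BadFibre A π q F F' Fk g gF} {R : RatFrame B} {S : Finset (Place k Fk)}
  (E : EtaData R S)

/-- `G` or `w G`: the one of valuation `0` on the side `i`. -/
def Gs (i : Fin 2) : F := ![E.G, B.w E.G] i

theorem Gs_mem (i : Fin 2) : E.Gs i ∈ R.BL := by
  fin_cases i
  · exact E.G_mem
  · exact R.mem_BL_w E.G_mem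

theorem Gs_ne_zero (i : Fin 2) : E.Gs i ≠ 0 := by
  fin_cases i
  · exact E.G_ne_zero
  · exact (map_ne_zero B.w).mpr E.G_ne_zero

theorem vs_one_G : R.vs 1 E.G = 12 * E.e := by
  have h := R.vs_mul 0 E.G_mem E.G_ne_zero (R.mem_BL_w E.G_mem)
    ((map_ne_zero B.w).mpr E.G_ne_zero)
  rw [E.G_mul_w, E.vs_G, (R.vs_w E.G).1, zero_add] at h
  have hq : algebraMap K F ((q : K) ^ 12) =
      algebraMap K F (R.ϖ ^ ((12 * E.e : ℕ) : ℤ) * ((E.u ^ 12 : A) : K)) := by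
    rw [E.q_eq, SubmonoidClass.coe_pow, mul_pow, ← pow_mul, zpow_natCast, mul_comm E.e 12]
  rw [hq, R.vs_algebraMap 0 _ _ (by rw [map_pow]; exact pow_ne_zero 12 E.u_red)] at h
  rw [← h]
  push_cast
  ring

theorem vs_Gs {i j : Fin 2} (hij : i ≠ j) :
    R.vs i (E.Gs i) = 0 ∧ R.vs j (E.Gs i) = 12 * E.e := by
  fin_cases i <;> fin_cases j
  · exact absurd rfl hij
  · exact ⟨E.vs_G, E.vs_one_G⟩
  · exact ⟨(R.vs_w E.G).2.trans E.vs_G, (R.vs_w E.G).1.trans E.vs_one_G⟩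
  · exact absurd rfl hij

theorem Gs_mul {i j : Fin 2} (hij : i ≠ j) :
    E.Gs i * E.Gs j = algebraMap K F ((q : K) ^ 12) := by
  fin_cases i <;> fin_cases j
  · exact absurd rfl hij
  · exact E.G_mul_w
  · rw [mul_comm]; exact E.G_mul_w
  · exact absurd rfl hij

/-- The order of the reduced eta quotient. -/
def d (Q : Place k Fk) : ℤ := Q.ord (R.ld 0 E.G)

variable [IsAlgClosed K] [CharZero K] [IsAlgClosed k] [Fact q.Prime] [CharP k q]

theorem ld_Gs_self (i : Fin 2) : R.ld i (E.Gs i) = R.ld 0 E.G := by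
  fin_cases i
  · rfl
  · exact (R.ld_w E.G_mem E.G_ne_zero).2

theorem ord_ld_Gs {i j : Fin 2} (hij : i ≠ j) (Q : Place k Fk) :
    (pt B Q i).ord (R.ld i (E.Gs i)) = E.d Q ∧ (pt B Q i).ord (R.ld i (E.Gs j)) = -E.d Q := by
  have h1 : (pt B Q i).ord (R.ld i (E.Gs i)) = E.d Q := by
    rw [E.ld_Gs_self]
    exact ord_pt_of_fixed E.g_fixed Q i
  refine ⟨h1, ?_⟩
  have h := R.ld_mul i (E.Gs_mem i) (E.Gs_ne_zero i) (E.Gs_mem j) (E.Gs_ne_zero j)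
  rw [E.Gs_mul hij] at h
  have hq : algebraMap K F ((q : K) ^ 12) =
      algebraMap K F (R.ϖ ^ ((12 * E.e : ℕ) : ℤ) * ((E.u ^ 12 : A) : K)) := by
    rw [E.q_eq, SubmonoidClass.coe_pow, mul_pow, ← pow_mul, zpow_natCast, mul_comm E.e 12]
  rw [hq, R.ld_algebraMap i _ (by rw [SubmonoidClass.coe_pow]; exact pow_mem E.u_mem 12)
    (by rw [map_pow]; exact pow_ne_zero 12 E.u_red)] at h
  have h2 := congrArg (fun x => (pt B Q i).ord x) h
  clear hq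
  rw [FLTA.Curves.ord_algebraMap, Place.ord_mul _ (R.ld_ne_zero i (E.Gs_mem i) (E.Gs_ne_zero i))
    (R.ld_ne_zero i (E.Gs_mem j) (E.Gs_ne_zero j)), h1] at h2
  omega

theorem d_pos {m₀ : ℕ} (hS : B.IsGluing S m₀) {Q : Place k Fk} (hQ : Q ∈ S) : 0 < E.d Q := by
  obtain ⟨φ, hφ, hφ0, hvs, hord, -, hG, -⟩ := E.clear Q (E.isFin_of_mem Q hQ)
  have hne : φ * E.G ≠ 0 := mul_ne_zero hφ0 E.G_ne_zero
  have h := R.ord_pos_of_glue hS (mul_mem hφ E.G_mem) hne hG (i := 0) (j := 1) (by decide)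
    (by rw [R.vs_mul 0 hφ hφ0 E.G_mem E.G_ne_zero, hvs, E.vs_G, add_zero])
    (by rw [R.vs_mul 1 hφ hφ0 E.G_mem E.G_ne_zero, hvs, E.vs_one_G, zero_add]
        have := E.e_pos
        omega) hQ
  rw [R.ld_mul 0 hφ hφ0 E.G_mem E.G_ne_zero, Place.ord_mul _ (R.ld_ne_zero 0 hφ hφ0)
    (R.ld_ne_zero 0 E.G_mem E.G_ne_zero), hord 0, zero_add] at h
  exact h

/-- **The local inequality.** -/
theorem localIneq {m₀ : ℕ} (hS : B.IsGluing S m₀) {Q : Place k Fk} (hQ : Q ∈ S) {i j : Fin 2}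
    (hij : i ≠ j) {z : F} (hz : z ∈ R.BL) (hz0 : z ≠ 0) (hsec : z ∈ secRing B) :
    E.d Q * (R.vs j z - R.vs i z) ≤ 12 * E.e * (pt B Q i).ord (R.ld i z) := by
  by_contra hcon
  rw [not_le] at hcon
  obtain ⟨φ, hφ, hφ0, hvs, hord, -, hG0, hG1⟩ := E.clear Q (E.isFin_of_mem Q hQ)
  have hGsec : ∀ l : Fin 2, φ * E.Gs l ∈ secRing B := fun l => by
    fin_cases l
    · exact hG0
    · exact hG1
  obtain ⟨dn, hdn⟩ := Int.eq_ofNat_of_zero_le (E.d_pos hS hQ).le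
  set n := (pt B Q i).ord (R.ld i z) with hn
  obtain ⟨l, N, hlN⟩ : ∃ (l : Fin 2) (N : ℕ),
      (l = i ∧ n = -(N : ℤ)) ∨ (l = j ∧ n = N) := by
    rcases le_or_gt n 0 with h | h
    · obtain ⟨N, hN⟩ := Int.eq_ofNat_of_zero_le (neg_nonneg.mpr h)
      exact ⟨i, N, Or.inl ⟨rfl, by omega⟩⟩
    · obtain ⟨N, hN⟩ := Int.eq_ofNat_of_zero_le h.le
      exact ⟨j, N, Or.inr ⟨rfl, by omega⟩⟩
  set x := z ^ dn * (φ * E.Gs l) ^ N with hx
  have hxm : x ∈ R.BL := mul_mem (pow_mem hz _) (pow_mem (mul_mem hφ (E.Gs_mem l)) _)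
  have hpG0 : φ * E.Gs l ≠ 0 := mul_ne_zero hφ0 (E.Gs_ne_zero l)
  have hx0 : x ≠ 0 := mul_ne_zero (pow_ne_zero _ hz0) (pow_ne_zero _ hpG0)
  have hvx : ∀ s, R.vs s x = dn * R.vs s z + N * R.vs s (E.Gs l) := fun s => by
    rw [hx, R.vs_mul s (pow_mem hz _) (pow_ne_zero _ hz0)
      (pow_mem (mul_mem hφ (E.Gs_mem l)) _) (pow_ne_zero _ hpG0), R.vs_pow s hz hz0,
      R.vs_pow s (mul_mem hφ (E.Gs_mem l)) hpG0, R.vs_mul s hφ hφ0 (E.Gs_mem l) (E.Gs_ne_zero l),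
      hvs, zero_add]
  set y := x * algebraMap K F (R.ϖ ^ (-R.vs i x)) with hy
  have hc : algebraMap K F (R.ϖ ^ (-R.vs i x)) ∈ R.BL :=
    R.algebraMap_mem_BL (zpow_mem R.ϖ_mem _)
  have hc0 : algebraMap K F (R.ϖ ^ (-R.vs i x)) ≠ 0 :=
    (map_ne_zero _).mpr (zpow_ne_zero _ R.ϖ_ne_zero)
  have hvy : ∀ s, R.vs s y = R.vs s x - R.vs i x := fun s => by
    rw [hy, R.vs_mul s hxm hx0 hc hc0, R.vs_algebraMap_zpow]
    ring
  have hord0 : (pt B Q i).ord (R.ld i y) = 0 := by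
    rw [hy, R.ld_mul i hxm hx0 hc hc0, R.ld_algebraMap_zpow, mul_one, hx,
      R.ld_mul i (pow_mem hz _) (pow_ne_zero _ hz0) (pow_mem (mul_mem hφ (E.Gs_mem l)) _)
        (pow_ne_zero _ hpG0),
      Place.ord_mul _ (R.ld_ne_zero i (pow_mem hz _) (pow_ne_zero _ hz0))
        (R.ld_ne_zero i (pow_mem (mul_mem hφ (E.Gs_mem l)) _) (pow_ne_zero _ hpG0)),
      R.ld_pow i hz hz0, R.ld_pow i (mul_mem hφ (E.Gs_mem l)) hpG0, FLTA.Curves.ord_pow,
      FLTA.Curves.ord_pow, R.ld_mul i hφ hφ0 (E.Gs_mem l) (E.Gs_ne_zero l),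
      Place.ord_mul _ (R.ld_ne_zero i hφ hφ0) (R.ld_ne_zero i (E.Gs_mem l) (E.Gs_ne_zero l)),
      hord i, zero_add, ← hn]
    rcases hlN with ⟨rfl, hN⟩ | ⟨rfl, hN⟩
    · rw [(E.ord_ld_Gs hij Q).1, hdn, hN]; ring
    · rw [(E.ord_ld_Gs hij Q).2, hdn, hN]; ring
  have hpos : 0 < R.vs j y := by
    rw [hvy, hvx, hvx]
    rcases hlN with ⟨rfl, hN⟩ | ⟨rfl, hN⟩
    · obtain ⟨g1, g2⟩ := E.vs_Gs hij
      rw [g1, g2]
      rw [hN, hdn] at hcon
      linarith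
    · obtain ⟨g1, g2⟩ := E.vs_Gs (Ne.symm hij)
      rw [g1, g2]
      rw [hN, hdn] at hcon
      linarith
  have hsy : y ∈ secRing B :=
    mul_mem (mul_mem (pow_mem hsec _) (pow_mem (hGsec l) _)) (algebraMap_mem_secRing B _)
  have h := R.ord_pos_of_glue hS (mul_mem hxm hc) (mul_ne_zero hx0 hc0) hsy hij
    (by rw [hvy, sub_self]) hpos hQ
  rw [hord0] at h
  exact lt_irrefl 0 h

end EtaData

end FLTA.LevelLowering

end
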