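import Fermat.Agent.LevelLowering.EtaModular
import Fermat.Agent.LevelLowering.EtaUnit
import Fermat.Agent.LevelLowering.LocalIneq
import Fermat.Agent.LevelLowering.JumpDefs
import Fermat.Agent.LevelLowering.CurveCube

/-!
# Weights at `p = 3`

With an auxiliary prime `r ≡ 2 (mod 3)` in the level, the orders of the reduced eta quotient at
the places over finite `j` are divisible by `3`: its product with `Δ(τ) / Δ(rτ)`, a unit there,
has an expansion in `t³`.
-/

set_option autoImplicit false
set_option synthInstance.maxHeartbeats 400000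

noncomputable section

open AlgebraicCurve ModularCurve FLTA.BadRed FLTA.GenusKahler FLTA.Congruence FLTA.Bridge

namespace FLTA.LevelLowering

section Series

variable {k : Type} [Field k] [CharP k 3]

omit [CharP k 3] in
theorem exists_deltaLaurent_eq_cube :
    ∃ u : LaurentSeries k, u ≠ 0 ∧ deltaLaurent k = HahnSeries.single (1 : ℤ) 1 * u ^ 3 := by
  refine ⟨HahnSeries.ofPowerSeries ℤ k ((etaProd ^ 8).map (Int.castRingHom k)), fun h => ?_, ?_⟩
  · have h1 : deltaLaurent k * deltaLaurentInv k = 1 := deltaLaurent_mul_inv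
    rw [deltaLaurent, dedekindEtaUnit, show (24 : ℕ) = 8 * 3 from rfl, pow_mul, map_pow, map_pow,
      h, zero_pow (by norm_num), mul_zero, zero_mul] at h1
    exact zero_ne_one h1
  · rw [deltaLaurent, dedekindEtaUnit, show (24 : ℕ) = 8 * 3 from rfl, pow_mul, map_pow, map_pow]

/-- `Δ(τ)/Δ(3τ) · Δ(τ)/Δ(rτ)` is a series in `t³` when `r ≡ 2 (mod 3)`. -/
theorem lDeriv_etaSeries_mul (r : ℕ) [NeZero r] (hr : r % 3 = 2) :
    lDeriv (etaSeries k 3 * etaSeries k r) = 0 := by
  obtain ⟨u, hu, hD⟩ := exists_deltaLaurent_eq_cube (k := k)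
  have hI : deltaLaurentInv k = HahnSeries.single (-1 : ℤ) 1 * u⁻¹ ^ 3 := by
    refine mul_left_cancel₀ (a := deltaLaurent k) ?_ ?_
    · intro h
      have h1 : deltaLaurent k * deltaLaurentInv k = 1 := deltaLaurent_mul_inv
      rw [h, zero_mul] at h1
      exact zero_ne_one h1
    · rw [deltaLaurent_mul_inv, hD, mul_mul_mul_comm, HahnSeries.single_mul_single, ← mul_pow,
        mul_inv_cancel₀ hu]
      simp
  have hE : etaSeries k 3 * etaSeries k r =
      HahnSeries.single (-(1 : ℤ) - r) 1 *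
        (u ^ 2 * qExpand k 3 u⁻¹ * qExpand k r u⁻¹) ^ 3 := by
    have h2 : HahnSeries.single (-(1 : ℤ) - r) (1 : k) =
        HahnSeries.single (1 : ℤ) 1 * qExpand k 3 (HahnSeries.single (-1 : ℤ) 1) *
          (HahnSeries.single (1 : ℤ) 1 * qExpand k r (HahnSeries.single (-1 : ℤ) 1)) := by
      rw [qExpand_single, qExpand_single, HahnSeries.single_mul_single,
        HahnSeries.single_mul_single, HahnSeries.single_mul_single, mul_one, mul_one]
      congr 1
      push_cast
      ring_nf
    rw [etaSeries, etaSeries, hI, hD, map_mul, map_mul, map_pow, map_pow, h2]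
    ring_nf
  rw [hE]
  refine lDeriv_single_mul_pow ?_ _
  have : (-(1 : ℤ) - r) = 3 * (-((r : ℤ) / 3) - 1) := by omega
  rw [this, Int.cast_mul, show ((3 : ℤ) : k) = ((3 : ℕ) : k) by simp, CharP.cast_eq_zero k 3,
    zero_mul]

end Series

section Modular

local notation "Qb" => AlgebraicClosure ℚ

variable {A : ValuationSubring Qb} {k : Type} [Field k] [IsAlgClosed k] {π : A →+* k} {q : ℕ}
  [NeZero q] [Fact q.Prime] [CharP k q] {N : ℕ} [NeZero N] {g gF : ℕ}
  {B : BadFibre A π q (modularFunctionFieldBar (N * q)) (modularFunctionFieldBar N)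
      (modularFunctionFieldFullC k N) g gF}

/-- The reduced `Δ(τ)/Δ(rτ)` has no zeros and poles over finite `j`. -/
theorem IsModularFibre.exists_red_unit (hB : IsModularFibre B) (hqN : ¬ q ∣ N) {r : ℕ} [NeZero r]
    (hrN : r ∣ N) :
    ∃ x : modularFunctionFieldFullC k N, (x : LaurentSeries k) = etaSeries k r ∧ x ≠ 0 ∧
      ∀ Q : Place k (modularFunctionFieldFullC k N), 0 ≤ Q.ord (jK k N) → Q.ord x = 0 := by
  classical
  have hint : IntSeries A (B.ex (B.a (etaUnit r N hrN))) := by
    rw [hB.ex_a]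
    exact intSeries_etaSeries r A
  obtain ⟨hmem, hred⟩ := B.red_of_int _ hint
  rw [hB.ex_a, coe_etaUnit, redSeries_etaSeries, hB.exk_eq] at hred
  set U : B.R.O := ⟨_, hmem⟩ with hU
  have hne : B.R.red U ≠ 0 := fun h => by
    rw [h] at hred
    exact etaSeries_ne_zero r hred.symm
  refine ⟨B.R.red U, hred, hne, fun Q hQ => ?_⟩
  set ρ := B.R.placeMap B.rr' B.rrk with hρ
  rw [← B.R.isPlaceMap_placeMap B.rr' B.rrk U hne (B.rr'.divisorOf (U : modularFunctionFieldBar N))
    (fun P => B.rr'.divisorOf_apply _ P) Q, Finsupp.mapDomain, Finsupp.sum_apply]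
  refine Finset.sum_eq_zero fun P hP => ?_
  beta_reduce
  rw [Finsupp.single_apply]
  split_ifs with hPQ
  · rw [B.rr'.divisorOf_apply]
    refine ord_etaUnit_eq_zero r N hrN P ?_
    rw [show jGenBar N 1 (one_dvd N) = jBar N from Subtype.ext (qExpand_one_apply _)]
    by_contra hj
    rw [not_le] at hj
    have h1 := congrArg (fun D => D Q) (hB.mapDomain_poleDiv hqN)
    simp only [FLTA.PlaceRed.RRCurve.poleDiv_apply, max_eq_right (show -Q.ord (jK k N) ≤ 0 by omega),
      Finsupp.mapDomain, Finsupp.sum_apply] at h1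
    have h2 : (0 : ℤ) < (B.rr'.poleDiv (jBar N)).sum fun P' c => Finsupp.single (ρ P') c Q := by
      refine Finset.sum_pos' (fun P' _ => ?_) ⟨P, ?_, ?_⟩
      · beta_reduce
        rw [Finsupp.single_apply]
        split_ifs
        · exact B.rr'.poleDiv_nonneg (jBar N) P'
        · exact le_rfl
      · rw [Finsupp.mem_support_iff, FLTA.PlaceRed.RRCurve.poleDiv_apply]
        omega
      · beta_reduce
        rw [Finsupp.single_apply, if_pos hPQ, FLTA.PlaceRed.RRCurve.poleDiv_apply]
        omega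
    rw [hρ] at h2
    omega
  · rfl

/-- The reduced eta quotient of the frame. -/
theorem IsModularFibre.coe_ld_etaUnit (hB : IsModularFibre B) (R : RatFrame B)
    {S : Finset (Place k (modularFunctionFieldFullC k N))} (E : EtaData R S)
    (hG : E.G = etaUnit q (N * q) (dvd_mul_left q N)) :
    ((R.ld 0 E.G : modularFunctionFieldFullC k N) : LaurentSeries k) = etaSeries k q := by
  rw [← hB.exk_eq, R.exk_ld 0 E.G_mem E.G_ne_zero,
    (R.isVal_vs 0 E.G_mem E.G_ne_zero).lead_eq R.toFrame, E.vs_G, neg_zero, zpow_zero, one_smul,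
    BadFibre.e_zero, hB.ex_eq, hG, coe_etaUnit, redSeries_etaSeries]

/-- Weights at `p = 3` in the presence of an auxiliary prime `r ≡ 2 (mod 3)`. -/
theorem exists_weights_three (hB : IsModularFibre B) (hqN : ¬ q ∣ N) (hq3 : q = 3) {r : ℕ}
    [NeZero r] (hr : r % 3 = 2) (hrN : r ∣ N) (R : RatFrame B)
    {S : Finset (Place k (modularFunctionFieldFullC k N))} (E : EtaData R S)
    (hG : E.G = etaUnit q (N * q) (dvd_mul_left q N)) (hfin : E.IsFin = JFin) :
    Nonempty E.Weights := by
  subst hq3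
  have hNk : (N : k) ≠ 0 := natCast_ne_zero_of_not_dvd hqN
  have hdvd : ∀ Q ∈ S, (3 : ℤ) ∣ E.d Q := by
    intro Q hQ
    obtain ⟨x, hx, hx0, hord⟩ := hB.exists_red_unit hqN hrN
    have hy := hB.coe_ld_etaUnit R E hG
    have hy0 : R.ld 0 E.G ≠ 0 := R.ld_ne_zero 0 E.G_mem E.G_ne_zero
    have hd : lDeriv ((R.ld 0 E.G * x : modularFunctionFieldFullC k N) : LaurentSeries k) = 0 := by
      rw [show ((R.ld 0 E.G * x : modularFunctionFieldFullC k N) : LaurentSeries k) =
        (R.ld 0 E.G : LaurentSeries k) * (x : LaurentSeries k) from rfl, hy, hx]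
      exact lDeriv_etaSeries_mul r hr
    have h := dvd_ord_of_lDeriv (p := 3) hNk _ hd Q
    rw [Place.ord_mul _ hy0 hx0, hord Q (hfin ▸ E.isFin_of_mem Q hQ : JFin Q), add_zero] at h
    exact_mod_cast h
  exact ⟨{ t := 4, n := fun Q => E.d Q / 3, not_dvd := by norm_num
           eq := fun Q hQ => by obtain ⟨c, hc⟩ := hdvd Q hQ; omega }⟩

end Modular

end FLTA.LevelLowering

end
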