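import Mathlib
import Fermat.Agent.LevelLowering.GlobalJ
import Fermat.Agent.LevelLowering.GlobalPlane

/-!
# `E[p]` inside a Hecke eigenspace of `J₀(N)[p]`
-/

set_option autoImplicit false

noncomputable section

open ModularCurve WeierstrassCurve WeierstrassCurve.Affine.Point
open FLTA.GaloisReps (GalQ FullHecke)
open FLTA.Kummer (JTors)
open FLTA.EllReducible (Tors)

namespace FLTA.LevelLowering

theorem exists_iota {W : WeierstrassCurve ℤ} (hΔ : W.Δ ≠ 0) {p : ℕ} [Fact p.Prime] (hp2 : p ≠ 2)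
    {E : WeierstrassCurve ℚ} (hE : W.map (Int.castRingHom ℚ) = E)
    (hirr : GaloisRepIsIrreducible (K := AlgebraicClosure ℚ) ℚ E p)
    (N : ℕ) [NeZero N] (S : Finset ℕ) (hS : ∀ ℓ : ℕ, ℓ.Prime → ℓ ∣ N → ℓ ∈ S) (hpS : p ∈ S)
    (hbad : ∀ ℓ : ℕ, ℓ.Prime → ¬ W.IsGoodPrimeFor ℓ → ℓ ∈ S)
    (m : Ideal (FullHecke N)) [m.IsPrime] (hpm : (p : FullHecke N) ∈ m)
    (ha : ∀ ℓ (hℓ : ℓ.Prime) (hℓN : ¬ ℓ ∣ N), ℓ ∉ S →
      CuspForm.heckeAlgebra.T hℓ hℓN (Set.notMem_empty ℓ) - (W.apOfModel ℓ : FullHecke N) ∈ m) :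
    ∃ iota : Tors E p →+ JZero N, Function.Injective iota ∧
      (∀ (σ : GalQ) (x : Tors E p), iota (σ • x) = σ • iota x) ∧
      ∀ ℓ : Nat.Primes, (ℓ : ℕ) ∉ S → ∀ x : Tors E p,
        heckeOperatorBar N ℓ (iota x) = W.apOfModel ℓ • iota x := by
  subst hE
  set a : ℕ → ℤ := fun ℓ => W.apOfModel ℓ with hadef
  set R := planeRep hΔ (p := p) with hR
  set ω := eigenRep N p S a with hωdef
  have hW : Nontrivial (eigenTors N p S a) := nontrivial_eigenTors N p S a hS m hpm ha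
  haveI : Nontrivial R.V := Module.nontrivial_of_finrank_eq_succ R.finrank_eq
  have hρ := fun g => quadratic_self R.finrank_eq R.ρ g
  have hω : ∀ g, ω g + detChar hΔ (p := p) g • ω g⁻¹ =
      LinearMap.trace (ZMod p) R.V (R.ρ g) • (1 : Module.End (ZMod p) (eigenTors N p S a)) := by
    intro g
    obtain ⟨ℓ, hℓ, hℓS', A, hA, τ, hτ, k, hk⟩ := FLTA.Density.exists_frobenius_pow_map_eq
      (R.ρ.prod ω) (FLTA.Density.galoisFactorsThroughFiniteLevel_prod R.factorsThroughFiniteLevel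
        (eigenRep_factors N p S a)) (insert 2 S) g
    have hℓS : ℓ ∉ S := fun h => hℓS' (Finset.mem_insert_of_mem h)
    rw [← map_pow] at hk
    have h1 : R.ρ (τ ^ k) = R.ρ g := congrArg Prod.fst hk
    have h2 : ω (τ ^ k) = ω g := congrArg Prod.snd hk
    have h3 : ω (τ ^ k)⁻¹ = ω g⁻¹ := by
      calc ω (τ ^ k)⁻¹ = ω (τ ^ k)⁻¹ * ω g * ω g⁻¹ := by
            rw [mul_assoc, ← map_mul ω g, mul_inv_cancel, map_one, mul_one]
        _ = ω g⁻¹ := by rw [← h2, ← map_mul, inv_mul_cancel, map_one, one_mul]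
    have h4 : detChar hΔ (p := p) (τ ^ k) = detChar hΔ (p := p) g := congrArg LinearMap.det h1
    have hℓN : ¬ ℓ ∣ N := fun h => hℓS (hS ℓ hℓ h)
    obtain ⟨ht, hd⟩ := planeRep_frobenius hΔ hp2 hℓ (fun h => hℓS' (by simp [h]))
      (by_contra fun h => hℓS (hbad ℓ hℓ h)) (fun h => hℓS (h ▸ hpS)) hA hτ
    have hbase : ω τ + detChar hΔ (p := p) τ • ω τ⁻¹ =
        LinearMap.trace (ZMod p) R.V (R.ρ τ) • (1 : Module.End (ZMod p) (eigenTors N p S a)) := by
      rw [show detChar hΔ (p := p) τ = (ℓ : ZMod p) from hd, hR, ht]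
      exact eigenRep_frobenius N p S a hpS hℓ hℓN hℓS hA hτ
    have := quadratic_pow R.ρ ω (detChar hΔ (p := p))
      (fun x => LinearMap.trace (ZMod p) R.V (R.ρ x)) hρ hbase k
    rwa [h2, h3, h4, h1] at this
  have hspan := planeRep_spans hΔ hp2 hirr
  obtain ⟨θ, hθ0, hθ⟩ := exists_equivariant_hom_of_quadratic R.ρ ω (detChar hΔ (p := p)) hspan hρ hω
    (exists_commutator_trace_ne_two R.finrank_eq R.ρ hspan (two_ne_zero_zmod hp2)
      complexConjugation_mul_self (planeRep_det_conjugation hΔ)) hW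
  have hinj : Function.Injective θ := by
    rw [← LinearMap.ker_eq_bot]
    refine (hirr.2 (LinearMap.ker θ) fun σ x hx => ?_).resolve_right fun h =>
      hθ0 (LinearMap.ker_eq_top.1 h)
    show θ (R.ρ σ x) = 0
    rw [hθ σ x, show θ x = 0 from hx, _root_.map_zero]
  let inc : eigenTors N p S a →+ JZero N :=
    AddMonoidHom.mk' (fun x => ((x : JTors N p) : JZero N)) fun _ _ => rfl
  refine ⟨inc.comp θ.toAddMonoidHom, fun x y h => hinj (Subtype.ext (Subtype.ext h)),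
    fun σ x => ?_, fun ℓ hℓ x => (θ x).2 ℓ hℓ⟩
  show inc (θ (R.ρ σ x)) = σ • inc (θ x)
  rw [hθ σ x]
  exact coe_eigenRep N p S a σ (θ x)

end FLTA.LevelLowering

end
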