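import Mathlib
import Fermat.Agent.LevelLowering.GlobalJ
import Fermat.Agent.LevelLowering.GlobalModel
import Fermat.Agent.Hecke.EigenChar
import Fermat.Agent.Periods.IntegralStructure

/-!
# A mod `p` system of good Hecke eigenvalues at level `M` gives an eigenform of level `M`
-/

set_option autoImplicit false

noncomputable section

open WeierstrassCurve
open FLTA.GaloisReps (FullHecke)

namespace FLTA.LevelLowering

/-- Deligne–Serre: a mod `p` system of good Hecke eigenvalues at level `M` lifts. -/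
theorem exists_eigenform_of_no_separator (p : ℕ) [Fact p.Prime] (a : ℕ → ℤ) (M : ℕ) [NeZero M]
    (S : Finset ℕ) (hS : ∀ ℓ : ℕ, ℓ.Prime → ℓ ∣ M → ℓ ∈ S)
    (hno : ∀ t, heckeLiftFull M S hS t = 0 → heckeLiftMod p a S t = 0) :
    ∃ (f : CuspForm (CongruenceSubgroup.Gamma0 M) 2) (𝔪 : Ideal (integralClosure ℤ ℂ)),
      f.IsNormalizedEigenform ∧ 𝔪.IsMaximal ∧ (p : integralClosure ℤ ℂ) ∈ 𝔪 ∧
      ∀ ℓ : ℕ, ℓ.Prime → ℓ ∉ S → ∃ c : integralClosure ℤ ℂ,
        (c : ℂ) = ModularFormClass.qCoeff f ℓ ∧ c - (a ℓ : integralClosure ℤ ℂ) ∈ 𝔪 := by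
  let Φ := heckeLiftFull M S hS
  let θ := heckeLiftMod p a S
  let R : Subalgebra ℤ (FullHecke M) := Φ.range
  let θ' : R →+* ZMod p := Φ.rangeRestrict.toRingHom.liftOfSurjective
    Φ.rangeRestrict_surjective ⟨θ.toRingHom, fun t ht => hno t (congrArg Subtype.val ht)⟩
  have hθ' : ∀ t, θ' (Φ.rangeRestrict t) = θ t := fun t =>
    RingHom.liftOfRightInverse_comp_apply _ _ _ _ t
  have hfin : Module.Finite ℤ (FullHecke M) :=
    FLTA.Hecke.heckeAlgebra_finite_of_integralStructure one_le_two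
      (FLTA.Periods.hasIntegralStructure_two M)
  have : Algebra.IsIntegral ℤ (FullHecke M) := Algebra.IsIntegral.of_finite ℤ _
  have : Algebra.IsIntegral R (FullHecke M) :=
    ⟨fun x => (Algebra.IsIntegral.isIntegral (R := ℤ) x).tower_top⟩
  have hkerprime : (RingHom.ker θ').IsPrime := RingHom.ker_isPrime θ'
  obtain ⟨𝔭, -, h𝔭, h𝔭c⟩ := Ideal.exists_ideal_over_prime_of_isIntegral (S := FullHecke M)
    (RingHom.ker θ') ⊥ (fun x hx => by
      rw [Ideal.mem_comap, Ideal.mem_bot] at hx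
      rw [show x = 0 from Subtype.ext hx]
      exact Ideal.zero_mem _)
  obtain ⟨f, χ, hf, -, hint, hker, hχT, -⟩ :=
    FLTA.Hecke.exists_eigenform_char_ker_le (FLTA.Periods.hasIntegralStructure_two M) 𝔭
  let φ : FullHecke M →+* integralClosure ℤ ℂ := χ.codRestrict _ hint
  have hφker : RingHom.ker φ ≤ 𝔭 := fun t ht => hker (congrArg Subtype.val ht : χ t = 0)
  let _ := φ.toAlgebra
  have : Algebra.IsIntegral ℤ (integralClosure ℤ ℂ) := integralClosure.AlgebraIsIntegral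
  have : IsScalarTower ℤ (FullHecke M) (integralClosure ℤ ℂ) :=
    IsScalarTower.of_algebraMap_eq fun r => (map_intCast φ r).symm
  have : Algebra.IsIntegral (FullHecke M) (integralClosure ℤ ℂ) :=
    ⟨fun x => (Algebra.IsIntegral.isIntegral (R := ℤ) x).tower_top⟩
  obtain ⟨Q, -, hQ, hQc⟩ := Ideal.exists_ideal_over_prime_of_isIntegral 𝔭
    (⊥ : Ideal (integralClosure ℤ ℂ)) hφker
  obtain ⟨𝔪, h𝔪, hQ𝔪⟩ := Ideal.exists_le_maximal Q hQ.ne_top
  have hmem : ∀ r : R, θ' r = 0 → φ (r : FullHecke M) ∈ 𝔪 := fun r hr => by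
    have h1 : r ∈ RingHom.ker θ' := hr
    rw [← h𝔭c, Ideal.mem_comap, ← hQc, Ideal.mem_comap] at h1
    exact hQ𝔪 h1
  refine ⟨f, 𝔪, hf, h𝔪, ?_, fun ℓ hℓ hℓS => ?_⟩
  · have h := hmem (p : R) (by rw [map_natCast, ZMod.natCast_self])
    rwa [show ((p : R) : FullHecke M) = (p : FullHecke M) from map_natCast R.val _,
      map_natCast] at h
  have hℓM : ¬ ℓ ∣ M := fun h => hℓS (hS ℓ hℓ h)
  refine ⟨φ (CuspForm.heckeAlgebra.T hℓ hℓM (Set.notMem_empty ℓ)), hχT ℓ hℓ hℓM, ?_⟩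
  let ι : FreeAlgebra ℤ {q : Nat.Primes // (q : ℕ) ∉ S} :=
    FreeAlgebra.ι ℤ ⟨⟨ℓ, hℓ⟩, hℓS⟩ - algebraMap ℤ _ (a ℓ)
  have hθ : θ' (Φ.rangeRestrict ι) = 0 := by
    rw [hθ']
    show θ ι = 0
    rw [map_sub, AlgHom.commutes]
    show heckeLiftMod p a S (FreeAlgebra.ι ℤ _) - _ = 0
    rw [heckeLiftMod, FreeAlgebra.lift_ι_apply, eq_intCast, sub_self]
  have h := hmem _ hθ
  rw [show ((Φ.rangeRestrict ι : R) : FullHecke M) = Φ ι from rfl, map_sub, AlgHom.commutes,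
    eq_intCast, map_sub, map_intCast] at h
  rwa [show Φ (FreeAlgebra.ι ℤ (⟨⟨ℓ, hℓ⟩, hℓS⟩ : {q : Nat.Primes // (q : ℕ) ∉ S})) = _ from
    heckeLiftFull_ι M S hS _] at h

end FLTA.LevelLowering

end
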