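import Mathlib
import Fermat.Agent.LevelLowering.GlobalDefs
import Fermat.Agent.LevelLowering.GlobalEmbed
import Fermat.Agent.LevelLowering.GlobalLowered
import Fermat.Agent.GaloisReps.EigenChar

/-!
# The global step of level lowering, for an arbitrary integral model
-/

set_option autoImplicit false

noncomputable section

open WeierstrassCurve WeierstrassCurve.Affine.Point ModularCurve
open FLTA.GaloisReps (FullHecke)
open FLTA.EllReducible (Tors)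

namespace FLTA.LevelLowering

/-- The congruences outside `S` of an eigenform of level `N` with `a` modulo a place over `p`. -/
def HasSystem (p : ℕ) (a : ℕ → ℤ) (N : ℕ) (S : Finset ℕ) : Prop :=
  ∃ (f : CuspForm (CongruenceSubgroup.Gamma0 N) 2) (𝔪 : Ideal (integralClosure ℤ ℂ)),
    f.IsNormalizedEigenform ∧ 𝔪.IsMaximal ∧ (p : integralClosure ℤ ℂ) ∈ 𝔪 ∧
    ∀ ℓ : ℕ, ℓ.Prime → ℓ ∉ S → ∃ c : integralClosure ℤ ℂ,
      (c : ℂ) = ModularFormClass.qCoeff f ℓ ∧ c - (a ℓ : integralClosure ℤ ℂ) ∈ 𝔪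

/-- `E[p]` in a Hecke eigenspace of `J₀(N)`, with a polynomial separating it from level `M`. -/
structure CurveGlobalData (W : WeierstrassCurve ℤ) (p N M : ℕ) [NeZero N] [NeZero M]
    (S : Finset ℕ) where
  /-- the copy of `E[p]` -/
  iota : Tors (W.map (Int.castRingHom ℚ)) p →+ JZero N
  iota_injective : Function.Injective iota
  iota_smul : ∀ (σ : AlgebraicClosure ℚ ≃ₐ[ℚ] AlgebraicClosure ℚ)
    (x : Tors (W.map (Int.castRingHom ℚ)) p), iota (σ • x) = σ • iota x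
  hecke_iota : ∀ ℓ : Nat.Primes, (ℓ : ℕ) ∉ S → ∀ x : Tors (W.map (Int.castRingHom ℚ)) p,
    heckeOperatorBar N ℓ (iota x) = W.apOfModel ℓ • iota x
  /-- a Hecke polynomial separating the system from level `M` -/
  t : FreeAlgebra ℤ {ℓ : Nat.Primes // (ℓ : ℕ) ∉ S}
  t_eval : heckeLiftMod p (fun ℓ => W.apOfModel ℓ) S t = 1
  t_old : heckeLiftBar M S t = 0
  exists_not_eisenstein : ∃ ℓ : ℕ, ℓ.Prime ∧ ℓ ∉ S ∧ ¬ (p : ℤ) ∣ W.apOfModel ℓ - (ℓ + 1)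

/-- Either the system occurs at level `M`, or `E[p]` lives in its complement in `J₀(N)[p]`. -/
theorem exists_curveData_or_eigenform (W : WeierstrassCurve ℤ) (hΔ : W.Δ ≠ 0) (p : ℕ)
    [Fact p.Prime] (hp2 : p ≠ 2)
    (hirr : GaloisRepIsIrreducible (K := AlgebraicClosure ℚ) ℚ (W.map (Int.castRingHom ℚ)) p)
    (N M : ℕ) [NeZero N] [NeZero M] (hMN : M ∣ N) (S : Finset ℕ) (hpS : p ∈ S)
    (hlev : ∀ ℓ : ℕ, ℓ.Prime → ℓ ∣ N → ℓ ∈ S)
    (hbad : ∀ ℓ : ℕ, ℓ.Prime → ¬ W.IsGoodPrimeFor ℓ → ℓ ∈ S)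
    (hsys : HasSystem p (fun ℓ => W.apOfModel ℓ) N S) :
    HasSystem p (fun ℓ => W.apOfModel ℓ) M S ∨ Nonempty (CurveGlobalData W p N M S) := by
  classical
  have hSM : ∀ ℓ : ℕ, ℓ.Prime → ℓ ∣ M → ℓ ∈ S := fun ℓ hℓ h => hlev ℓ hℓ (h.trans hMN)
  let a : ℕ → ℤ := fun ℓ => W.apOfModel ℓ
  by_cases hsep : ∀ t, heckeLiftFull M S hSM t = 0 → heckeLiftMod p a S t = 0
  · exact Or.inl (exists_eigenform_of_no_separator p a M S hSM hsep)
  refine Or.inr ?_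
  simp only [not_forall] at hsep
  obtain ⟨t, ht0, ht1⟩ := hsep
  obtain ⟨f, 𝔪, hf, h𝔪, hp𝔪, hcong⟩ := hsys
  -- the prime of the Hecke algebra cut out by `f` modulo `𝔪`
  haveI : Module.Finite ℤ (FullHecke N) := FLTA.Hecke.heckeAlgebra_finite_of_integralStructure
    one_le_two (FLTA.Periods.hasIntegralStructure_two N)
  let ψ : FullHecke N →+* integralClosure ℤ ℂ ⧸ 𝔪 :=
    (Ideal.Quotient.mk 𝔪).comp (FLTA.GaloisReps.eigenChar hf)
  haveI := h𝔪.isPrime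
  haveI : (RingHom.ker ψ).IsPrime := RingHom.ker_isPrime ψ
  have hpm : (p : FullHecke N) ∈ RingHom.ker ψ := by
    rw [RingHom.mem_ker, map_natCast, ← map_natCast (Ideal.Quotient.mk 𝔪)]
    exact Ideal.Quotient.eq_zero_iff_mem.2 hp𝔪
  have ha : ∀ ℓ (hℓ : ℓ.Prime) (hℓN : ¬ ℓ ∣ N), ℓ ∉ S →
      CuspForm.heckeAlgebra.T hℓ hℓN (Set.notMem_empty ℓ) - (W.apOfModel ℓ : FullHecke N) ∈
        RingHom.ker ψ := by
    intro ℓ hℓ hℓN hℓS
    obtain ⟨c, hc, hca⟩ := hcong ℓ hℓ hℓS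
    have hc' : c = FLTA.GaloisReps.eigenChar hf
        (CuspForm.heckeAlgebra.T hℓ hℓN (Set.notMem_empty ℓ)) :=
      Subtype.ext (hc.trans (FLTA.GaloisReps.coe_eigenChar_T hf hℓ hℓN _).symm)
    rw [RingHom.mem_ker, map_sub, map_intCast, sub_eq_zero,
      ← map_intCast (Ideal.Quotient.mk 𝔪)]
    refine Ideal.Quotient.eq.2 ?_
    show FLTA.GaloisReps.eigenChar hf _ - _ ∈ 𝔪
    rw [← hc']
    exact hca
  obtain ⟨iota, hinj, hsmul, hhecke⟩ :=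
    exists_iota hΔ hp2 rfl hirr N S hlev hpS hbad (RingHom.ker ψ) hpm ha
  obtain ⟨c, hc⟩ := ZMod.intCast_surjective (heckeLiftMod p a S t)⁻¹
  refine ⟨{
    iota := iota
    iota_injective := hinj
    iota_smul := hsmul
    hecke_iota := hhecke
    t := c • t
    t_eval := ?_
    t_old := heckeLiftBar_eq_zero M S hSM (by rw [map_zsmul, ht0, smul_zero])
    exists_not_eisenstein := exists_not_eisenstein hΔ hp2 hirr S hpS hbad }⟩
  rw [map_zsmul, zsmul_eq_mul, hc, inv_mul_cancel₀ ht1]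

/-- The form used for residual modularity: `N = p * M`. -/
theorem exists_curveData_or_residuallyModular (W : WeierstrassCurve ℤ) (hΔ : W.Δ ≠ 0) (p : ℕ)
    [Fact p.Prime] (hp2 : p ≠ 2)
    (hirr : GaloisRepIsIrreducible (K := AlgebraicClosure ℚ) ℚ (W.map (Int.castRingHom ℚ)) p)
    (N M : ℕ) [NeZero N] [NeZero M] (hNM : N = p * M)
    (hmod : W.IsResiduallyModularOfLevel p N) :
    W.IsResiduallyModularOfLevel p M ∨
      Nonempty (CurveGlobalData W p N M ({p} ∪ N.primeFactors ∪ W.Δ.natAbs.primeFactors)) := by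
  have hp : p.Prime := Fact.out
  set S : Finset ℕ := {p} ∪ N.primeFactors ∪ W.Δ.natAbs.primeFactors with hSdef
  have hlev : ∀ ℓ : ℕ, ℓ.Prime → ℓ ∣ N → ℓ ∈ S := fun ℓ hℓ h => by
    simp [hSdef, Nat.mem_primeFactors, hℓ, h, NeZero.ne N]
  have hbad : ∀ ℓ : ℕ, ℓ.Prime → ¬ W.IsGoodPrimeFor ℓ → ℓ ∈ S := fun ℓ hℓ h => by
    have hd : ℓ ∣ W.Δ.natAbs := Int.natCast_dvd.1 (not_not.1 h)
    simp [hSdef, Nat.mem_primeFactors, hℓ, hd, hΔ]
  obtain ⟨f, 𝔪, hf, h𝔪, hp𝔪, hcong⟩ := hmod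
  have hsys : HasSystem p (fun ℓ => W.apOfModel ℓ) N S :=
    ⟨f, 𝔪, hf, h𝔪, hp𝔪, fun ℓ hℓ hℓS => hcong ℓ hℓ (by_contra fun h => hℓS (hbad ℓ hℓ h))
      (fun h => hℓS (hlev ℓ hℓ h)) (fun h => hℓS (by simp [hSdef, h]))⟩
  refine (exists_curveData_or_eigenform W hΔ p hp2 hirr N M ⟨p, by rw [hNM, mul_comm]⟩ S
    (by simp [hSdef]) hlev hbad hsys).imp_left ?_
  rintro ⟨g, 𝔫, hg, h𝔫, hp𝔫, hcong'⟩
  refine ⟨g, 𝔫, hg, h𝔫, hp𝔫, fun ℓ hℓ hgood hℓM hℓp => hcong' ℓ hℓ fun h => ?_⟩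
  simp only [hSdef, Finset.mem_union, Finset.mem_singleton, Nat.mem_primeFactors] at h
  rcases h with (h | h) | h
  · exact hℓp h
  · rw [hNM] at h
    exact (hℓ.dvd_mul.1 h.2.1).elim (fun h' => hℓp ((Nat.prime_dvd_prime_iff_eq hℓ hp).1 h')) hℓM
  · exact hgood (Int.natCast_dvd.2 h.2.1)

end FLTA.LevelLowering

end
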