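import Mathlib.AlgebraicGeometry.EllipticCurve.Affine.Point
import Mathlib.Algebra.DualNumber
import Mathlib.RingTheory.Localization.FractionRing
import Mathlib.Algebra.Polynomial.Derivative
import Fermat.Agent.EllTorsion.MulFormula
import Fermat.Agent.EllTorsion.Card

/-!
# The invariant differential: `[n]` multiplies it by `n`

We use the derivation `D` of the function field with `D x = ψ₂`.
-/

set_option autoImplicit false
set_option linter.unusedSectionVars false

open Polynomial WeierstrassCurve WeierstrassCurve.Affine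
open scoped Polynomial.Bivariate WeierstrassCurve.Affine

namespace FLTA.LevelLowering.Omega

/-- `2 y + a₁ x + a₃`. -/
def pVal {F : Type*} [Field F] (W : WeierstrassCurve F) (x y : F) : F := 2 * y + W.a₁ * x + W.a₃

/-- `3 x² + 2 a₂ x + a₄ - a₁ y`. -/
def nVal {F : Type*} [Field F] (W : WeierstrassCurve F) (x y : F) : F :=
  3 * x ^ 2 + 2 * W.a₂ * x + W.a₄ - W.a₁ * y

/-- Additive maps with the Leibniz rule killing the coefficients. -/
structure CurveDeriv {F : Type*} [Field F] (W : WeierstrassCurve F) (D : F → F) : Prop where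
  add : ∀ a b, D (a + b) = D a + D b
  mul : ∀ a b, D (a * b) = D a * b + a * D b
  a₁ : D W.a₁ = 0
  a₂ : D W.a₂ = 0
  a₃ : D W.a₃ = 0
  a₄ : D W.a₄ = 0
  a₆ : D W.a₆ = 0

variable {F : Type*} [Field F] {W : WeierstrassCurve F} {D : F → F}

namespace CurveDeriv

variable (h : CurveDeriv W D)
include h

lemma zero : D 0 = 0 := by
  have := h.add 0 0
  rw [add_zero] at this
  linear_combination -this

lemma one : D 1 = 0 := by
  have := h.mul 1 1
  rw [mul_one] at this
  linear_combination -this

lemma neg (a : F) : D (-a) = -D a := by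
  have := h.add a (-a)
  rw [add_neg_cancel, h.zero] at this
  linear_combination -this

lemma sub (a b : F) : D (a - b) = D a - D b := by
  rw [sub_eq_add_neg, h.add, h.neg]; ring

lemma sq (a : F) : D (a ^ 2) = 2 * a * D a := by
  rw [pow_two, h.mul]; ring

lemma natCast : ∀ n : ℕ, D n = 0
  | 0 => by rw [Nat.cast_zero, h.zero]
  | n + 1 => by rw [Nat.cast_succ, h.add, natCast n, h.one, add_zero]

lemma equation {x y : F} (he : W.toAffine.Equation x y) :
    pVal W x y * D y = nVal W x y * D x := by
  rw [Affine.equation_iff] at he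
  have := congrArg D he
  simp only [h.add, h.mul, h.sq, h.a₁, h.a₂, h.a₃, h.a₄, h.a₆, pow_succ, pow_zero, one_mul] at this
  simp only [pVal, nVal]
  linear_combination this

lemma addX {x₁ y₁ x₂ y₂ : F} [DecidableEq F] (hx : x₁ ≠ x₂) (e₁ : W.toAffine.Equation x₁ y₁)
    (e₂ : W.toAffine.Equation x₂ y₂) {c₁ c₂ : F}
    (dx₁ : D x₁ = c₁ * pVal W x₁ y₁) (dy₁ : D y₁ = c₁ * nVal W x₁ y₁)
    (dx₂ : D x₂ = c₂ * pVal W x₂ y₂) (dy₂ : D y₂ = c₂ * nVal W x₂ y₂) :
    D (W.toAffine.addX x₁ x₂ (W.toAffine.slope x₁ x₂ y₁ y₂)) =
      (c₁ + c₂) * pVal W (W.toAffine.addX x₁ x₂ (W.toAffine.slope x₁ x₂ y₁ y₂))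
        (W.toAffine.addY x₁ x₂ y₁ (W.toAffine.slope x₁ x₂ y₁ y₂)) := by
  rw [Affine.equation_iff] at e₁ e₂
  have hl : W.toAffine.slope x₁ x₂ y₁ y₂ * (x₁ - x₂) = y₁ - y₂ := by
    rw [slope_of_X_ne hx, div_mul_cancel₀ _ (sub_ne_zero.mpr hx)]
  generalize W.toAffine.slope x₁ x₂ y₁ y₂ = l at hl
  have hd : x₁ - x₂ ≠ 0 := sub_ne_zero.mpr hx
  have hDl : D l * (x₁ - x₂) + l * (D x₁ - D x₂) = D y₁ - D y₂ := by
    rw [← h.sub, ← h.mul, hl, h.sub]
  refine mul_left_cancel₀ hd ?_
  simp only [Affine.addX, Affine.addY, Affine.negAddY, Affine.negY, h.sub, h.add, h.mul, h.sq, h.a₁,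
    h.a₂, pVal]
  rw [dx₁, dx₂, dy₁, dy₂] at hDl
  rw [dx₁, dx₂]
  simp only [pVal, nVal] at hDl ⊢
  grind

lemma dblX {x y : F} [DecidableEq F] (hp : pVal W x y ≠ 0)
    {c : F} (dx : D x = c * pVal W x y) (dy : D y = c * nVal W x y) :
    D (W.toAffine.addX x x (W.toAffine.slope x x y y)) =
      (c + c) * pVal W (W.toAffine.addX x x (W.toAffine.slope x x y y))
        (W.toAffine.addY x x y (W.toAffine.slope x x y y)) := by
  have hy : y ≠ W.toAffine.negY x y := by
    intro e
    apply hp
    simp only [Affine.negY] at e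
    simp only [pVal]
    linear_combination e
  have hl : W.toAffine.slope x x y y * pVal W x y = nVal W x y := by
    rw [slope_of_Y_ne rfl hy, show y - W.toAffine.negY x y = pVal W x y by
      simp only [Affine.negY, pVal]; ring, div_mul_cancel₀ _ hp]
    rfl
  generalize W.toAffine.slope x x y y = l at hl
  have hDl : D l * pVal W x y + l * D (pVal W x y) = D (nVal W x y) := by
    rw [← h.mul, hl]
  have h2 : D (2 : F) = 0 := h.natCast 2
  have h3 : D (3 : F) = 0 := h.natCast 3
  simp only [pVal, nVal, h.add, h.sub, h.mul, h.sq, h.a₁, h.a₂, h.a₃, h.a₄, h2, h3, dx, dy] at hDl hl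
  simp only [pVal] at hp
  refine mul_left_cancel₀ hp ?_
  simp only [Affine.addX, Affine.addY, Affine.negAddY, Affine.negY, h.sub, h.add, h.mul, h.sq, h.a₁,
    h.a₂, dx, pVal, nVal]
  grind

lemma eval {K : Type*} [Field K] (f : K →+* F) (hf : ∀ a, D (f a) = 0) (P : K[X]) (x : F) :
    D ((P.map f).eval x) = ((derivative P).map f).eval x * D x := by
  induction P using Polynomial.induction_on' with
  | add P Q hP hQ =>
    rw [Polynomial.map_add, eval_add, h.add, hP, hQ, derivative_add, Polynomial.map_add, eval_add]
    ring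
  | monomial n a =>
    rw [derivative_monomial, map_monomial, map_monomial, eval_monomial, eval_monomial, h.mul, hf,
      map_mul, map_natCast]
    induction n with
    | zero => simp [h.one]
    | succ n ih =>
      rw [pow_succ, h.mul]
      rcases n with _ | n
      · simp [h.one]
      · simp only [Nat.add_sub_cancel] at ih ⊢
        push_cast at ih ⊢
        linear_combination x * ih

end CurveDeriv

section Generic

variable {K : Type*} [Field K] (W : WeierstrassCurve K)

local notation "FF" => W.toAffine.FunctionField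

/-- The abscissa of the generic point. -/
noncomputable def genX : FF := algebraMap W.toAffine.CoordinateRing FF (CoordinateRing.mk W (C X))

/-- The ordinate of the generic point. -/
noncomputable def genY : FF := algebraMap W.toAffine.CoordinateRing FF (CoordinateRing.mk W Y)

/-- The constants in the function field. -/
noncomputable def const : K →+* FF :=
  (algebraMap W.toAffine.CoordinateRing FF).comp ((CoordinateRing.mk W.toAffine).comp (C.comp C))

/-- The curve over its function field. -/
noncomputable def genCurve : WeierstrassCurve FF := W.map (const W)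

lemma eval_genX (P : K[X]) : (P.map (const W)).eval (genX W) =
    algebraMap W.toAffine.CoordinateRing FF (CoordinateRing.mk W (C P)) := by
  induction P using Polynomial.induction_on' with
  | add P Q hP hQ => simp only [Polynomial.map_add, eval_add, hP, hQ, map_add]
  | monomial n a =>
    rw [map_monomial, eval_monomial, ← C_mul_X_pow_eq_monomial]
    simp [const, genX]

lemma eval_genX_ne_zero {P : K[X]} (hP : P ≠ 0) : (P.map (const W)).eval (genX W) ≠ 0 := by
  rw [eval_genX]
  exact fun h => hP (EllTorsion.mk_C_injective W (by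
    have := IsFractionRing.injective W.toAffine.CoordinateRing FF (h.trans (map_zero _).symm)
    simpa using this))

lemma gen_equation : (genCurve W).toAffine.Equation (genX W) (genY W) := by
  rw [Affine.equation_iff']
  have h : algebraMap W.toAffine.CoordinateRing FF
      (CoordinateRing.mk W W.toAffine.polynomial) = 0 := by
    rw [AdjoinRoot.mk_self, map_zero]
  simp only [Affine.polynomial, map_add, map_sub, map_mul, map_pow, C_add, C_mul, C_pow] at h
  simp only [genCurve, WeierstrassCurve.map, genX, genY, const, RingHom.comp_apply]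
  linear_combination h

/-- The map to dual numbers defining the derivation. -/
noncomputable def dualHomCR : W.toAffine.CoordinateRing →+* DualNumber FF :=
  AdjoinRoot.lift
    (Polynomial.eval₂RingHom ((algebraMap FF (DualNumber FF)).comp (const W))
      (TrivSqZeroExt.inl (genX W) + TrivSqZeroExt.inr (pVal (genCurve W) (genX W) (genY W))))
    (TrivSqZeroExt.inl (genY W) + TrivSqZeroExt.inr (nVal (genCurve W) (genX W) (genY W)))
    (by
      have he := gen_equation W
      rw [Affine.equation_iff'] at he
      simp only [genCurve, WeierstrassCurve.map] at he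
      simp only [Affine.polynomial, eval₂_add, eval₂_sub, eval₂_mul, eval₂_pow, eval₂_X, eval₂_C,
        map_add, map_mul, map_pow, coe_eval₂RingHom]
      refine TrivSqZeroExt.ext ?_ ?_
      · simp [TrivSqZeroExt.algebraMap_eq_inl, pow_succ]
        linear_combination he
      · simp [TrivSqZeroExt.algebraMap_eq_inl, pow_succ, pVal, nVal, genCurve, WeierstrassCurve.map]
        ring)

lemma dualHomCR_fst : (TrivSqZeroExt.fstHom FF FF FF).toRingHom.comp (dualHomCR W) =
    algebraMap W.toAffine.CoordinateRing FF := by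
  refine Ideal.Quotient.ringHom_ext (Polynomial.ringHom_ext (fun P => ?_) ?_)
  · refine (RingHom.congr_fun (Polynomial.ringHom_ext (f :=
      (((TrivSqZeroExt.fstHom FF FF FF).toRingHom.comp (dualHomCR W)).comp
        ((AdjoinRoot.mk W.toAffine.polynomial).comp C)))
      (g := (algebraMap W.toAffine.CoordinateRing FF).comp
        ((AdjoinRoot.mk W.toAffine.polynomial).comp C)) (fun a => ?_) ?_) P : _)
    · simp [dualHomCR, AdjoinRoot.lift_mk, const, TrivSqZeroExt.algebraMap_eq_inl]
    · simp [dualHomCR, AdjoinRoot.lift_mk, genX]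
  · show (dualHomCR W (AdjoinRoot.mk _ Polynomial.X)).fst = genY W
    simp [dualHomCR, AdjoinRoot.lift_mk]

/-- The map to dual numbers on the function field. -/
noncomputable def dualHom : FF →+* DualNumber FF :=
  IsLocalization.lift (M := nonZeroDivisors W.toAffine.CoordinateRing) (g := dualHomCR W)
    (fun a => by
      rw [TrivSqZeroExt.isUnit_iff_isUnit_fst, isUnit_iff_ne_zero]
      have := RingHom.congr_fun (dualHomCR_fst W) a
      simp at this
      rw [this]
      exact IsFractionRing.to_map_ne_zero_of_mem_nonZeroDivisors a.2)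

/-- The invariant derivation. -/
noncomputable def deriv (z : FF) : FF := (dualHom W z).snd

lemma dualHom_fst (z : FF) : (dualHom W z).fst = z := by
  have h : (TrivSqZeroExt.fstHom FF FF FF).toRingHom.comp (dualHom W) = RingHom.id FF := by
    refine IsLocalization.ringHom_ext (nonZeroDivisors W.toAffine.CoordinateRing) ?_
    rw [RingHom.id_comp, RingHom.comp_assoc]
    conv_rhs => rw [← dualHomCR_fst W]
    congr 1
    exact IsLocalization.lift_comp _
  exact RingHom.congr_fun h z

lemma deriv_algebraMap (a : W.toAffine.CoordinateRing) :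
    deriv W (algebraMap W.toAffine.CoordinateRing FF a) = (dualHomCR W a).snd := by
  rw [deriv, dualHom, IsLocalization.lift_eq]

lemma deriv_const (a : K) : deriv W (const W a) = 0 := by
  rw [const, RingHom.comp_apply, deriv_algebraMap]
  simp [dualHomCR, AdjoinRoot.lift_mk, TrivSqZeroExt.algebraMap_eq_inl]

lemma curveDeriv : CurveDeriv (genCurve W) (deriv W) where
  add a b := by simp [deriv]
  mul a b := by
    simp only [deriv, map_mul, TrivSqZeroExt.snd_mul, dualHom_fst, smul_eq_mul,
      op_smul_eq_mul]
    ring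
  a₁ := deriv_const W _
  a₂ := deriv_const W _
  a₃ := deriv_const W _
  a₄ := deriv_const W _
  a₆ := deriv_const W _

lemma deriv_genX : deriv W (genX W) = pVal (genCurve W) (genX W) (genY W) := by
  rw [genX, deriv_algebraMap]
  simp [dualHomCR, AdjoinRoot.lift_mk]
  rfl

lemma deriv_genY : deriv W (genY W) = nVal (genCurve W) (genX W) (genY W) := by
  rw [genY, deriv_algebraMap]
  simp [dualHomCR, AdjoinRoot.lift_mk]
  rfl

variable [W.IsElliptic]

/-- `ΨSq n ≠ 0` for `n ≠ 0`, in any characteristic. -/
theorem ΨSq_ne_zero_of_isElliptic {n : ℕ} (hn : n ≠ 0) : W.ΨSq n ≠ 0 := by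
  classical
  intro h0
  set L := AlgebraicClosure K
  obtain ⟨q, hq, hqp⟩ := Nat.exists_infinite_primes (max n (ringChar K) + 1)
  obtain ⟨hq1, hq2⟩ : n < q ∧ ringChar K < q := by omega
  have hqn : ¬ q ∣ n := fun h => absurd (Nat.le_of_dvd (Nat.pos_of_ne_zero hn) h) (not_le.mpr hq1)
  have hqK : (q : L) ≠ 0 := by
    intro h
    rw [← map_natCast (algebraMap K L), map_eq_zero] at h
    rw [ringChar.spec] at h
    rcases (Nat.dvd_prime hqp).mp h with h1 | h1
    · exact CharP.ringChar_ne_one h1
    · omega
  have : (W.map (algebraMap K L)).IsElliptic := inferInstance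
  have hcard := EllTorsion.natCard_torsionBy (W.map (algebraMap K L)) hqK
  obtain ⟨P, hP⟩ : ∃ P : Submodule.torsionBy ℤ (W.map (algebraMap K L)).toAffine.Point q, P ≠ 0 := by
    by_contra hc
    push Not at hc
    have : Nat.card (Submodule.torsionBy ℤ (W.map (algebraMap K L)).toAffine.Point q) ≤ 1 :=
      haveI : Finite _ := EllTorsion.finite_torsionBy (W.map (algebraMap K L)) hqK
      Finite.card_le_one_iff_subsingleton.mpr ⟨fun a b => (hc a).trans (hc b).symm⟩
    rw [hcard] at this
    have := Nat.pow_le_pow_left hqp.two_le 2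
    omega
  obtain ⟨P, hPq⟩ := P
  cases P with
  | zero => exact hP (Subtype.ext rfl)
  | some x y hxy =>
    have h1 : n • (Point.some _ _ hxy : (W.map (algebraMap K L)).toAffine.Point) = 0 := by
      rw [EllTorsion.nsmul_eq_zero_iff, map_ΨSq, h0, Polynomial.map_zero, eval_zero]
    have h2 : q • (Point.some _ _ hxy : (W.map (algebraMap K L)).toAffine.Point) = 0 := by
      rw [← natCast_zsmul]; exact (Submodule.mem_torsionBy_iff _ _).mp hPq
    have h3 := Nat.dvd_gcd (addOrderOf_dvd_iff_nsmul_eq_zero.mpr h1)
      (addOrderOf_dvd_iff_nsmul_eq_zero.mpr h2)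
    rw [Nat.Coprime.gcd_eq_one ((hqp.coprime_iff_not_dvd.mpr hqn).symm), Nat.dvd_one,
      AddMonoid.addOrderOf_eq_one_iff] at h3
    exact Point.some_ne_zero hxy h3

/-- The generic point. -/
noncomputable def genPoint : (genCurve W).toAffine.Point :=
  haveI : (genCurve W).IsElliptic := inferInstanceAs (W.map (const W)).IsElliptic
  .some (genX W) (genY W) ((genCurve W).toAffine.equation_iff_nonsingular.mp (gen_equation W))

lemma nsmul_genPoint_ne_zero [DecidableEq FF] {n : ℕ} (hn : n ≠ 0) : n • genPoint W ≠ 0 := by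
  haveI : (genCurve W).IsElliptic := inferInstanceAs (W.map (const W)).IsElliptic
  rw [genPoint, Ne, EllTorsion.nsmul_eq_zero_iff, genCurve, map_ΨSq]
  exact eval_genX_ne_zero W (ΨSq_ne_zero_of_isElliptic W hn)

lemma deriv_nsmul [DecidableEq FF] : ∀ n : ℕ, 1 ≤ n →
    ∃ (x y : FF) (h : (genCurve W).toAffine.Nonsingular x y),
      n • genPoint W = .some x y h ∧ deriv W x = n * pVal (genCurve W) x y ∧
        deriv W y = n * nVal (genCurve W) x y := by
  haveI : (genCurve W).IsElliptic := inferInstanceAs (W.map (const W)).IsElliptic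
  have hD := curveDeriv W
  intro n hn
  induction n, hn using Nat.le_induction with
  | base =>
    exact ⟨_, _, _, one_nsmul _, by rw [Nat.cast_one, one_mul, deriv_genX],
      by rw [Nat.cast_one, one_mul, deriv_genY]⟩
  | succ n hn ih =>
    obtain ⟨x, y, h, e, dx, dy⟩ := ih
    set hgen := ((genCurve W).toAffine.equation_iff_nonsingular.mp (gen_equation W))
    have hP : genPoint W = .some (genX W) (genY W) hgen := rfl
    have hp0 : pVal (genCurve W) (genX W) (genY W) ≠ 0 := by
      intro h0
      apply nsmul_genPoint_ne_zero W two_ne_zero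
      rw [hP, two_nsmul, Point.add_self_of_Y_eq]
      simp only [pVal] at h0
      simp only [Affine.negY]
      linear_combination h0
    have finish : ∀ (x₃ y₃ : FF) (h₃ : (genCurve W).toAffine.Nonsingular x₃ y₃),
        (n + 1) • genPoint W = .some x₃ y₃ h₃ →
        deriv W x₃ = ((n + 1 : ℕ) : FF) * pVal (genCurve W) x₃ y₃ →
        ∃ (x y : FF) (h : (genCurve W).toAffine.Nonsingular x y),
          (n + 1) • genPoint W = .some x y h ∧
            deriv W x = ((n + 1 : ℕ) : FF) * pVal (genCurve W) x y ∧
            deriv W y = ((n + 1 : ℕ) : FF) * nVal (genCurve W) x y := by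
      intro x₃ y₃ h₃ e₃ dx₃
      refine ⟨x₃, y₃, h₃, e₃, dx₃, ?_⟩
      have hp3 : pVal (genCurve W) x₃ y₃ ≠ 0 := by
        intro h0
        apply nsmul_genPoint_ne_zero W (n := 2 * (n + 1)) (by omega)
        rw [mul_comm, mul_nsmul, e₃, two_nsmul, Point.add_self_of_Y_eq]
        simp only [pVal] at h0
        simp only [Affine.negY]
        linear_combination h0
      refine mul_left_cancel₀ hp3 ?_
      rw [hD.equation h₃.left, dx₃]
      ring
    rcases eq_or_lt_of_le hn with rfl | hn2
    · have hy : genY W ≠ (genCurve W).toAffine.negY (genX W) (genY W) := by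
        intro e'
        apply hp0
        simp only [Affine.negY] at e'
        simp only [pVal]
        linear_combination e'
      refine finish _ _ _ (by rw [hP, two_nsmul, Point.add_self_of_Y_ne hy]) ?_
      have := hD.dblX (c := 1) hp0 (by rw [one_mul, deriv_genX]) (by rw [one_mul, deriv_genY])
      rw [this]
      norm_num
    · have hne : x ≠ genX W := by
        intro he
        rcases (Point.X_eq_iff (h₁ := h) (h₂ := hgen)).mp he with h' | h'
        · apply nsmul_genPoint_ne_zero W (n := n - 1) (by omega)
          rw [sub_nsmul (genPoint W) (by omega : 1 ≤ n), e, h', one_nsmul, ← hP, add_neg_cancel]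
        · apply nsmul_genPoint_ne_zero W (n := n + 1) (by omega)
          rw [succ_nsmul, e, h', ← hP, neg_add_cancel]
      refine finish _ _ _ (by rw [succ_nsmul, e, hP, Point.add_of_X_ne hne]) ?_
      rw [hD.addX hne h.left hgen.left dx dy (c₂ := 1) (by rw [one_mul, deriv_genX])
        (by rw [one_mul, deriv_genY])]
      push_cast
      ring

/-- In characteristic `p`, the Wronskian of `Φ p` and `ΨSq p` vanishes. -/
theorem wronskian_eq_zero {p : ℕ} [CharP K p] (hp : p ≠ 0) :
    derivative (W.Φ p) * W.ΨSq p - W.Φ p * derivative (W.ΨSq p) = 0 := by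
  classical
  haveI : (genCurve W).IsElliptic := inferInstanceAs (W.map (const W)).IsElliptic
  by_contra hne
  apply eval_genX_ne_zero W hne
  have hD := curveDeriv W
  obtain ⟨x, y, h, e, dx, -⟩ := deriv_nsmul W p (Nat.pos_of_ne_zero hp)
  rw [show (p : FF) = 0 by rw [← map_natCast (const W), CharP.cast_eq_zero, map_zero],
    zero_mul] at dx
  rw [genPoint, ← natCast_zsmul] at e
  obtain ⟨hB, hA⟩ := EllTorsion.mul_ΨSq_eq_Φ _ h e
  simp only [genCurve, map_ΨSq, map_Φ] at hB hA
  have hd := congrArg (deriv W) hA
  rw [hD.mul, dx, zero_mul, zero_add, hD.eval _ (deriv_const W), hD.eval _ (deriv_const W),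
    deriv_genX, ← mul_assoc] at hd
  have hp0 : pVal (genCurve W) (genX W) (genY W) ≠ 0 := by
    intro h0
    apply nsmul_genPoint_ne_zero W two_ne_zero
    rw [two_nsmul, genPoint, Point.add_self_of_Y_eq]
    simp only [pVal] at h0
    simp only [Affine.negY]
    linear_combination h0
  have hd' := mul_right_cancel₀ hp0 hd
  rw [Polynomial.map_sub, Polynomial.map_mul, Polynomial.map_mul, eval_sub, eval_mul, eval_mul]
  linear_combination -(((W.ΨSq p).map (const W)).eval (genX W)) * hd' +
    ((derivative (W.ΨSq p)).map (const W)).eval (genX W) * hA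

end Generic

end FLTA.LevelLowering.Omega
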