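import Mathlib.AlgebraicGeometry.EllipticCurve.DivisionPolynomial.Basic
import Mathlib.NumberTheory.EllipticDivisibilitySequence
import Mathlib.FieldTheory.IsAlgClosed.AlgebraicClosure
import Mathlib.Algebra.CharP.Lemmas
import Mathlib.RingTheory.Polynomial.Basic
import Mathlib.Tactic

/-!
# The `p`-division polynomial of a nodal cubic in characteristic `p`

For `b₄ = b₆ = b₈ = 0` the smooth locus is the multiplicative group, parametrised by
`x = b₂ / (s - 1/s)²`; hence `preΨ' p = b₂ ^ ((p - 1) / 2) * X ^ ((p² - p) / 2)`.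
-/

set_option autoImplicit false

open Polynomial

namespace FLTA.LevelLowering

section EDS

variable {F : Type*} [Field F] {s γ g : F}

/-- The value of the normalised `n`-th division polynomial at the parameter `s`. -/
noncomputable def torusVal (s γ g : F) (n : ℕ) : F :=
  (s ^ n - (1 / s) ^ n) * g ^ (n ^ 2) / γ

variable (hs : s ≠ 0) (hγ : γ ≠ 0) (hD : g * (s - 1 / s) = γ) (hT : s + 1 / s ≠ 0)

include hs hγ hD hT

lemma normEDS_torus (n : ℕ) :
    normEDS (torusVal s γ g 2) (torusVal s γ g 3) (g ^ 12 * (s ^ 2 + (1 / s) ^ 2)) (n : ℤ)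
      = torusVal s γ g n := by
  have hd : s - 1 / s ≠ 0 := fun h => hγ (by rw [← hD, h, mul_zero])
  have hg : g ≠ 0 := fun h => hγ (by rw [← hD, h, zero_mul])
  have hsq : s ^ 2 - 1 ≠ 0 := fun h => hd (by field_simp; linear_combination h)
  have hb : torusVal s γ g 2 ≠ 0 := by
    rw [torusVal, show s ^ 2 - (1 / s) ^ 2 = (s - 1 / s) * (s + 1 / s) by ring]
    exact div_ne_zero (mul_ne_zero (mul_ne_zero hd hT) (pow_ne_zero _ hg)) hγ
  induction n using normEDSRec with
  | zero => simp [torusVal]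
  | one =>
    rw [Nat.cast_one, normEDS_one, torusVal]
    rw [pow_one, pow_one, one_pow, pow_one, mul_comm, hD, div_self hγ]
  | two => rw [Nat.cast_ofNat, normEDS_two]
  | three => rw [Nat.cast_ofNat, normEDS_three]
  | four =>
    rw [Nat.cast_ofNat, normEDS_four, torusVal, torusVal]
    field_simp
    ring
  | even m h1 h2 h3 h4 h5 =>
    have key := normEDS_even (torusVal s γ g 2) (torusVal s γ g 3)
      (g ^ 12 * (s ^ 2 + (1 / s) ^ 2)) ((m + 3 : ℕ) : ℤ)
    rw [show ((m + 3 : ℕ) : ℤ) - 1 = ((m + 2 : ℕ) : ℤ) by push_cast; ring,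
      show ((m + 3 : ℕ) : ℤ) + 2 = ((m + 5 : ℕ) : ℤ) by push_cast; ring,
      show ((m + 3 : ℕ) : ℤ) - 2 = ((m + 1 : ℕ) : ℤ) by push_cast; ring,
      show ((m + 3 : ℕ) : ℤ) + 1 = ((m + 4 : ℕ) : ℤ) by push_cast; ring,
      h1, h2, h3, h4, h5] at key
    rw [show ((2 * (m + 3) : ℕ) : ℤ) = 2 * ((m + 3 : ℕ) : ℤ) by push_cast; ring]
    refine mul_right_cancel₀ hb (key.trans ?_)
    subst hD
    simp only [torusVal, div_pow, one_pow]
    field_simp
    ring
  | odd m h1 h2 h3 h4 =>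
    have key := normEDS_odd (torusVal s γ g 2) (torusVal s γ g 3)
      (g ^ 12 * (s ^ 2 + (1 / s) ^ 2)) ((m + 2 : ℕ) : ℤ)
    rw [show ((m + 2 : ℕ) : ℤ) + 2 = ((m + 4 : ℕ) : ℤ) by push_cast; ring,
      show ((m + 2 : ℕ) : ℤ) - 1 = ((m + 1 : ℕ) : ℤ) by push_cast; ring,
      show ((m + 2 : ℕ) : ℤ) + 1 = ((m + 3 : ℕ) : ℤ) by push_cast; ring,
      h1, h2, h3, h4] at key
    rw [show ((2 * (m + 2) + 1 : ℕ) : ℤ) = 2 * ((m + 2 : ℕ) : ℤ) + 1 by push_cast; ring]
    refine key.trans ?_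
    subst hD
    simp only [torusVal, div_pow, one_pow]
    field_simp
    ring

end EDS

theorem preΨ'_nodal {K : Type*} [Field K] {p : ℕ} [CharP K p] (hp : p.Prime) (hp2 : p ≠ 2)
    (W : WeierstrassCurve K) (h₂ : W.b₂ ≠ 0) (h₄ : W.b₄ = 0) (h₆ : W.b₆ = 0) (h₈ : W.b₈ = 0) :
    W.preΨ' p = C (W.b₂ ^ ((p - 1) / 2)) * X ^ ((p ^ 2 - p) / 2) := by
  classical
  apply Polynomial.map_injective _ (algebraMap K (AlgebraicClosure K)).injective
  set ι := algebraMap K (AlgebraicClosure K)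
  have : Fact p.Prime := ⟨hp⟩
  haveI : CharP (AlgebraicClosure K) p := (RingHom.charP_iff ι ι.injective p).mp inferInstance
  rw [← WeierstrassCurve.map_preΨ', Polynomial.map_mul, Polynomial.map_C, Polynomial.map_pow,
    Polynomial.map_X]
  apply Polynomial.eq_of_infinite_eval_eq
  refine Set.Infinite.mono (s := {x : AlgebraicClosure K | x ≠ 0 ∧ 4 * x + ι W.b₂ ≠ 0}) ?_ ?_
  · intro x ⟨hx, hx4⟩
    obtain ⟨γ, hγ2⟩ := IsAlgClosed.exists_pow_nat_eq (ι W.b₂) (n := 2) two_pos
    obtain ⟨g, hg2⟩ := IsAlgClosed.exists_pow_nat_eq x (n := 2) two_pos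
    have hγ : γ ≠ 0 := by
      rintro rfl
      rw [zero_pow two_ne_zero] at hγ2
      exact h₂ (ι.injective (by rw [← hγ2, map_zero]))
    have hg : g ≠ 0 := by rintro rfl; rw [zero_pow two_ne_zero] at hg2; exact hx hg2.symm
    obtain ⟨s, hs2⟩ := IsAlgClosed.exists_root (C g * X ^ 2 + C (-γ) * X + C (-g))
      (by rw [Polynomial.degree_quadratic hg]; decide)
    simp only [IsRoot, eval_add, eval_mul, eval_C, eval_pow, eval_X] at hs2
    have hs : s ≠ 0 := by rintro rfl; simp [hg] at hs2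
    have hD : g * (s - 1 / s) = γ := by field_simp; linear_combination hs2
    have hT : s + 1 / s ≠ 0 := by
      intro h
      apply hx4
      rw [← hγ2, ← hg2, ← hD, show 4 * g ^ 2 + (g * (s - 1 / s)) ^ 2 = g ^ 2 * (s + 1 / s) ^ 2 by
        field_simp; ring, h]
      ring
    have hsq : s ^ 2 - 1 ≠ 0 := fun h => hγ (by rw [← hD]; field_simp; linear_combination g * h)
    set W' := W.map ι with hW'
    have e2 : W'.b₂ = γ ^ 2 := by rw [hW', WeierstrassCurve.map_b₂, hγ2]
    have e4 : W'.b₄ = 0 := by rw [hW', WeierstrassCurve.map_b₄, h₄, map_zero]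
    have e6 : W'.b₆ = 0 := by rw [hW', WeierstrassCurve.map_b₆, h₆, map_zero]
    have e8 : W'.b₈ = 0 := by rw [hW', WeierstrassCurve.map_b₈, h₈, map_zero]
    have q2 : eval x (W'.Ψ₂Sq ^ 2) = torusVal s γ g 2 ^ 4 := by
      rw [WeierstrassCurve.Ψ₂Sq, e2, e4, e6, ← hg2]
      simp only [eval_pow, eval_add, eval_mul, eval_C, eval_X, mul_zero, add_zero,
        map_zero, zero_mul, eval_zero]
      subst hD
      simp only [torusVal]
      field_simp
      ring
    have q3 : eval x W'.Ψ₃ = torusVal s γ g 3 := by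
      rw [WeierstrassCurve.Ψ₃, e2, e4, e6, e8, ← hg2]
      simp only [eval_pow, eval_add, eval_mul, eval_C, eval_X, eval_ofNat, mul_zero, add_zero,
        map_zero, zero_mul, eval_zero]
      subst hD
      simp only [torusVal]
      field_simp
      ring
    have q4 : eval x W'.preΨ₄ = g ^ 12 * (s ^ 2 + (1 / s) ^ 2) := by
      rw [WeierstrassCurve.preΨ₄, e2, e4, e6, e8, ← hg2]
      simp only [eval_pow, eval_add, eval_mul, eval_C, eval_X, eval_ofNat, mul_zero, add_zero,
        sub_zero, zero_sub, map_zero, zero_mul, eval_zero, map_mul, map_sub, map_neg, map_pow]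
      subst hD
      simp
      field_simp
      ring
    show eval x (W'.preΨ' p) = eval x (C (ι (W.b₂ ^ ((p - 1) / 2))) * X ^ ((p ^ 2 - p) / 2))
    have hodd : Odd p := hp.odd_of_ne_two hp2
    have hnorm := normEDS_torus hs hγ hD hT p
    rw [normEDS_ofNat, if_neg (Nat.not_even_iff_odd.mpr hodd), mul_one] at hnorm
    rw [WeierstrassCurve.preΨ', ← coe_evalRingHom, map_preNormEDS', coe_evalRingHom, q2, q3, q4,
      hnorm, eval_mul, eval_C, eval_pow, eval_X, map_pow, ← hγ2, ← hg2, ← pow_mul, ← pow_mul,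
      torusVal, ← sub_pow_char (R := AlgebraicClosure K) (p := p)]
    obtain ⟨k, hk⟩ := hodd
    subst hk
    rw [show (2 * k + 1 - 1) / 2 = k by omega,
      show 2 * (((2 * k + 1) ^ 2 - (2 * k + 1)) / 2) = (2 * k + 1) ^ 2 - (2 * k + 1) by
        rw [show (2 * k + 1) ^ 2 - (2 * k + 1) = 2 * (k * (2 * k + 1)) by
          rw [Nat.sub_eq_iff_eq_add] <;> nlinarith]
        omega,
      div_eq_iff hγ, ← hD]
    conv_lhs =>
      rw [show (2 * k + 1) ^ 2 = ((2 * k + 1) ^ 2 - (2 * k + 1)) + (2 * k + 1) by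
        rw [Nat.sub_add_cancel]; nlinarith]
    generalize (2 * k + 1) ^ 2 - (2 * k + 1) = j
    generalize s - 1 / s = d
    ring
  · have hfin : ({x : AlgebraicClosure K | x = 0} ∪ {x | 4 * x + ι W.b₂ = 0}).Finite := by
      refine Set.Finite.union (by simp) (Set.Subsingleton.finite ?_)
      intro a (ha : _ = _) b (hb : _ = _)
      have h4 : (4 : AlgebraicClosure K) ≠ 0 := by
        intro h
        have h' : ((4 : ℕ) : AlgebraicClosure K) = 0 := by exact_mod_cast h
        rw [CharP.cast_eq_zero_iff _ p] at h'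
        exact hp2 ((Nat.prime_dvd_prime_iff_eq hp Nat.prime_two).mp
          (hp.dvd_of_dvd_pow (show p ∣ 2 ^ 2 from h')))
      exact mul_left_cancel₀ h4 (by linear_combination ha - hb)
    exact hfin.infinite_compl.mono fun x hx => by
      simpa [not_or] using hx

end FLTA.LevelLowering
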