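import Fermat.Agent.EllTorsion.FrobAnnihilate
import Fermat.Agent.EllTorsion.Card
import Fermat.Agent.EllTorsion.MulFormula
import Fermat.Agent.LevelLowering.LocalFreyNodal
import Fermat.Agent.LevelLowering.LocalCurveOmega
import Mathlib.GroupTheory.Perm.Cycle.Type
import Mathlib.Algebra.Polynomial.Taylor
import Fermat.Agent.EllReduction.NormalForm

/-!
# The `p`-division polynomial is non-constant modulo `p` at an ordinary or multiplicative prime
-/

set_option autoImplicit false
set_option linter.unusedSectionVars false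

open Polynomial WeierstrassCurve WeierstrassCurve.Affine
open scoped WeierstrassCurve.Affine

namespace FLTA.LevelLowering

open FLTA.EllTorsion.Frob

section Ordinary

variable (Wz : WeierstrassCurve ℤ) (p : ℕ) [Fact p.Prime] (k : Type*) [Field k] [CharP k p]
  [DecidableEq k] [IsAlgClosed k]

/-- The `p ^ m` power map as power-map data. -/
noncomputable def powDataPow {e : ℕ} (hp : p = 2 * e + 1) (he : 0 < e) (m : ℕ) (hm : 0 < m) :
    PowData (Wz⁄k) (p ^ m) ((p ^ m - 1) / 2) where
  σ := iterateFrobenius k p m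
  apply_eq x := iterateFrobenius_def _ _ _
  map_eq := baseChange_map_int Wz k _
  Φ := Point.map (iterateFrobenius k p m).toIntAlgHom
  isPointMap _ _ h := ⟨_, Point.map_some _ h⟩
  two_ne_zero := (powData Wz p k hp he).two_ne_zero
  odd_eq := by
    have ho : Odd (p ^ m) := Odd.pow ⟨e, hp⟩
    obtain ⟨t, ht⟩ := ho
    omega
  pos := by
    have h3 : 3 ≤ p := by omega
    have : p ^ 1 ≤ p ^ m := Nat.pow_le_pow_right (by omega) hm
    rw [pow_one] at this
    omega
  cast_eq_zero := by rw [Nat.cast_pow, CharP.cast_eq_zero k p, zero_pow hm.ne']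

variable {Wz p k}

/-- A good ordinary curve has a point of order `p` over an algebraically closed field. -/
theorem exists_point_order_p (hp2 : p ≠ 2) (hgood : Wz.IsGoodPrimeFor p)
    (hord : ¬ (p : ℤ) ∣ Wz.apOfModel p) :
    ∃ P : (Wz⁄k).Point, P ≠ 0 ∧ p • P = 0 := by
  have hp : p.Prime := Fact.out
  obtain ⟨e, he⟩ := hp.eq_two_or_odd'.resolve_left hp2
  have hepos : 0 < e := by have := hp.two_le; omega
  have : (Wz⁄k).IsElliptic := isElliptic_of_good Wz p k hgood
  set D := powData Wz p k he hepos with hD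
  set a := Wz.apOfModel p with ha
  have hN : a = (p : ℤ) + 1 - D.fixCount := by
    have h1 : (D.fixCount : ℤ) = (Wz.reductionMod p).card := by
      rw [card_reductionMod_eq Wz p k, ← D.ncard_fixed.2, ← Nat.card_coe_set_eq]
      rfl
    rw [h1, ha, WeierstrassCurve.apOfModel, WeierstrassCurve.traceOfFrobenius, Nat.card_zmod]
  -- `φ² = a φ - p` on all points
  have hquad : ∀ P : (Wz⁄k).Point, D.Φ (D.Φ P) = a • D.Φ P - (p : ℤ) • P := by
    intro P
    have h2ne : ((2 : ℤ) : k) ≠ 0 := by exact_mod_cast D.two_ne_zero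
    obtain ⟨R, rfl⟩ := EllTorsion.exists_zsmul_eq (W := (Wz⁄k)) (n := 2) (by norm_num) P
    have h : (2 : ℤ) • (D.Φ (D.Φ R) - a • D.Φ R + (p : ℤ) • R) = 0 :=
      two_zsmul_frobenius_quadratic Wz p k hp2 hgood R
    rw [map_zsmul, map_zsmul, smul_comm a, smul_comm (p : ℤ), ← smul_sub]
    rw [smul_add] at h
    rw [eq_comm, ← sub_eq_zero, ← smul_sub]
    rw [← smul_add] at h
    rw [← neg_eq_zero, ← smul_neg]
    rwa [show -(a • D.Φ R - (p : ℤ) • R - D.Φ (D.Φ R)) = D.Φ (D.Φ R) - a • D.Φ R + (p : ℤ) • R by abel]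
  -- `φ ^ m = A φ + B` with `A ≡ a ^ (m - 1)`, `B ≡ 0`
  have hiter : ∀ m : ℕ, ∃ A B : ℤ, (p : ℤ) ∣ A - a ^ m ∧ (p : ℤ) ∣ B ∧ ∀ P : (Wz⁄k).Point,
      D.Φ^[m + 1] P = A • D.Φ P + B • P := by
    intro m
    induction m with
    | zero => exact ⟨1, 0, by simp, dvd_zero _, fun P => by simp⟩
    | succ m ih =>
      obtain ⟨A, B, hA, hB, hP⟩ := ih
      refine ⟨A * a + B, -(A * p), ?_, (dvd_mul_left _ _).neg_right, fun P => ?_⟩
      · rw [show A * a + B - a ^ (m + 1) = (A - a ^ m) * a + B by ring]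
        exact dvd_add (dvd_mul_of_dvd_left hA _) hB
      · rw [Function.iterate_succ_apply', hP, map_add, map_zsmul, map_zsmul, hquad, smul_sub,
          smul_smul, smul_smul, add_smul, neg_smul]
        abel
  have h3 : 3 ≤ p := by have := hp.two_le; omega
  obtain ⟨A, B, hA, hB, hAB⟩ := hiter (p - 2)
  set Dm := powDataPow Wz p k he hepos (p - 1) (by omega) with hDm
  have hΦ : ∀ P : (Wz⁄k).Point, Dm.Φ P = D.Φ^[p - 1] P := by
    intro P
    cases P with
    | zero => exact (map_zero _).trans (Function.iterate_fixed (map_zero D.Φ) _).symm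
    | some x y h =>
      have hit : ∀ j, ∃ h', D.Φ^[j] (Point.some x y h) = Point.some (x ^ p ^ j) (y ^ p ^ j) h' := by
        intro j
        induction j with
        | zero => exact ⟨by simpa using h, by simp⟩
        | succ j ih =>
          obtain ⟨h', e'⟩ := ih
          rw [Function.iterate_succ_apply', e']
          obtain ⟨h'', e''⟩ := frobHom_some Wz p k h'
          refine ⟨?_, e''.trans ?_⟩
          · rw [pow_succ, pow_mul, pow_mul]; exact h''
          · simp only [pow_succ, pow_mul]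
      obtain ⟨h', e'⟩ := hit (p - 1)
      rw [e']
      show Point.map (iterateFrobenius k p (p - 1)).toIntAlgHom (Point.some x y h) = _
      rw [Point.map_some, Point.some.injEq]
      exact ⟨iterateFrobenius_def _ _ _, iterateFrobenius_def _ _ _⟩
  obtain ⟨d, hd, hde⟩ := D.hasDeg_lin A (B - 1)
  have heq : Dm.Φ - AddMonoidHom.id _ = A • D.Φ + (B - 1) • AddMonoidHom.id (Wz⁄k).Point := by
    refine AddMonoidHom.ext fun P => ?_
    rw [AddMonoidHom.sub_apply, hΦ, show p - 1 = p - 2 + 1 by omega, hAB]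
    simp [sub_smul]
    abel
  rw [← heq] at hd
  have hfix : d = Dm.fixCount := hd.unique Dm.hasDeg_sub_id
  rw [← hN] at hde
  have hdvd : p ∣ Dm.fixCount := by
    rw [← hfix, ← Int.natCast_dvd_natCast, hde,
      ← ZMod.intCast_zmod_eq_zero_iff_dvd]
    have hA' : (A : ZMod p) = (a : ZMod p) ^ (p - 2) := by
      rw [← Int.cast_pow, ← sub_eq_zero, ← Int.cast_sub]
      exact (ZMod.intCast_zmod_eq_zero_iff_dvd _ _).mpr hA
    have hB' : (B : ZMod p) = 0 := (ZMod.intCast_zmod_eq_zero_iff_dvd _ _).mpr hB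
    have ha0 : (a : ZMod p) ≠ 0 := fun h => hord ((ZMod.intCast_zmod_eq_zero_iff_dvd _ _).mp h)
    have hf : (a : ZMod p) * (a : ZMod p) ^ (p - 2) = 1 := by
      rw [← pow_succ', show p - 2 + 1 = p - 1 by omega, ZMod.pow_card_sub_one_eq_one ha0]
    push_cast
    rw [hA', hB', ZMod.natCast_self]
    linear_combination -hf
  obtain ⟨hfin, hcard⟩ := Dm.ncard_fixed
  let F : AddSubgroup (Wz⁄k).Point := (Dm.Φ - AddMonoidHom.id _).ker
  have hF : ∀ P, P ∈ F ↔ Dm.Φ P = P := fun P => by
    simp [F, AddMonoidHom.mem_ker, sub_eq_zero]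
  have hFcard : Nat.card F = Dm.fixCount := by
    rw [← hcard, ← Nat.card_coe_set_eq]
    exact Nat.card_congr (Equiv.subtypeEquivRight fun P => hF P)
  have : Finite F := Nat.finite_of_card_ne_zero (by
    rw [hFcard, PowData.fixCount]; omega)
  obtain ⟨P, hP⟩ := exists_prime_addOrderOf_dvd_card' p (hFcard ▸ hdvd)
  refine ⟨P, fun h => ?_, ?_⟩
  · rw [show P = 0 from Subtype.ext h, addOrderOf_zero] at hP
    exact hp.one_lt.ne hP
  · have := addOrderOf_nsmul_eq_zero P
    rw [hP] at this
    exact congrArg Subtype.val this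

end Ordinary

section Translate

variable {R : Type*} [CommRing R]

/-- Translating the abscissa translates the division polynomials. -/
theorem preΨ'_translate (W : WeierstrassCurve R) (r : R) (n : ℕ) :
    ((⟨1, r, 0, 0⟩ : VariableChange R) • W).preΨ' n = (W.preΨ' n).comp (X + C r) := by
  have h2 : ((⟨1, r, 0, 0⟩ : VariableChange R) • W).Ψ₂Sq = W.Ψ₂Sq.comp (X + C r) := by
    simp only [Ψ₂Sq, variableChange_b₂, variableChange_b₄, variableChange_b₆, inv_one,
      Units.val_one, one_pow, one_mul, add_comp, mul_comp, C_comp, pow_comp, X_comp]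
    simp only [map_add, map_mul, map_pow, map_ofNat]
    ring
  have h3 : ((⟨1, r, 0, 0⟩ : VariableChange R) • W).Ψ₃ = W.Ψ₃.comp (X + C r) := by
    simp only [Ψ₃, variableChange_b₂, variableChange_b₄, variableChange_b₆, variableChange_b₈,
      inv_one, Units.val_one, one_pow, one_mul, add_comp, mul_comp, C_comp, pow_comp, X_comp,
      ofNat_comp]
    simp only [map_add, map_mul, map_pow, map_ofNat]
    ring
  have h4 : ((⟨1, r, 0, 0⟩ : VariableChange R) • W).preΨ₄ = W.preΨ₄.comp (X + C r) := by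
    have hb := congrArg (C (R := R)) W.b_relation
    simp only [preΨ₄, variableChange_b₂, variableChange_b₄, variableChange_b₆, variableChange_b₈,
      inv_one, Units.val_one, one_pow, one_mul, add_comp, sub_comp, mul_comp, C_comp, pow_comp,
      X_comp, ofNat_comp, map_sub]
    simp only [map_add, map_mul, map_pow, map_ofNat, map_sub] at hb ⊢
    grind
  rw [preΨ', preΨ', h2, h3, h4, ← pow_comp]
  exact (map_preNormEDS' (compRingHom (X + C r)) (W.Ψ₂Sq ^ 2) W.Ψ₃ W.preΨ₄ n).symm

end Translate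

/-- At a good ordinary or multiplicative prime `p`, some non-constant coefficient of `preΨ' p` is
prime to `p`. -/
theorem exists_coeff_not_dvd {p : ℕ} [Fact p.Prime] (hp2 : p ≠ 2) (W : WeierstrassCurve ℤ)
    (hloc : (¬ (p : ℤ) ∣ W.Δ ∧ ¬ (p : ℤ) ∣ W.apOfModel p) ∨ ((p : ℤ) ∣ W.Δ ∧ ¬ (p : ℤ) ∣ W.c₄)) :
    ∃ i, 1 ≤ i ∧ ¬ (p : ℤ) ∣ (W.preΨ' p).coeff i := by
  classical
  have hp : p.Prime := Fact.out
  have hodd : Odd p := hp.odd_of_ne_two hp2
  suffices h : 0 < ((W.map (Int.castRingHom (ZMod p))).preΨ' p).natDegree by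
    refine ⟨_, h, fun hd => ?_⟩
    have h0 : (W.map (Int.castRingHom (ZMod p))).preΨ' p ≠ 0 := fun e => by
      rw [e, natDegree_zero] at h; omega
    apply leadingCoeff_ne_zero.mpr h0
    rw [leadingCoeff]
    conv_lhs => arg 1; rw [map_preΨ']
    rw [coeff_map, eq_intCast]
    exact (ZMod.intCast_zmod_eq_zero_iff_dvd _ _).mpr hd
  rcases hloc with ⟨hgood, hord⟩ | ⟨hmult, hc4⟩
  · let k := AlgebraicClosure (ZMod p)
    have : CharP k p := (RingHom.charP_iff (algebraMap (ZMod p) k) (RingHom.injective _) p).mp inferInstance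
    obtain ⟨P, hP, hpP⟩ := exists_point_order_p (k := k) hp2 hgood hord
    cases P with
    | zero => exact absurd rfl hP
    | some x y hxy =>
      have : (W.map (algebraMap ℤ k)).IsElliptic := isElliptic_of_good W p k hgood
      have hr : ((W⁄k).preΨ' p).eval x = 0 :=
        (EllTorsion.nsmul_eq_zero_iff_of_odd (W := W.map (algebraMap ℤ k)) hxy hodd).mp hpP
      have hne : (W⁄k).preΨ' p ≠ 0 := by
        intro h0
        have := Omega.ΨSq_ne_zero_of_isElliptic (W.map (algebraMap ℤ k)) hp.ne_zero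
        have h0' : (W.map (algebraMap ℤ k)).preΨ' p = 0 := h0
        exact this (by rw [ΨSq_ofNat, h0']; simp)
      have hpos : 0 < ((W⁄k).preΨ' p).natDegree := by
        by_contra h0
        rw [eq_C_of_natDegree_le_zero (not_lt.mp h0)] at hr hne
        simp at hr hne
        exact hne hr
      have e : (W⁄k) = (W.map (Int.castRingHom (ZMod p))).map (algebraMap (ZMod p) k) := by
        show W.map _ = _
        rw [WeierstrassCurve.map_map]
        exact congrArg W.map (RingHom.ext_int _ _)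
      rwa [e, map_preΨ', natDegree_map] at hpos
  · set Wb := W.map (Int.castRingHom (ZMod p)) with hWb
    have hΔ0 : Wb.Δ = 0 := by
      rw [hWb, map_Δ, eq_intCast]
      exact (ZMod.intCast_zmod_eq_zero_iff_dvd _ _).mpr hmult
    have hc0 : Wb.c₄ ≠ 0 := by
      rw [hWb, map_c₄, eq_intCast]
      exact fun h => hc4 ((ZMod.intCast_zmod_eq_zero_iff_dvd _ _).mp h)
    set r := (18 * Wb.b₆ - Wb.b₂ * Wb.b₄) / Wb.c₄
    set W' := (⟨1, r, 0, 0⟩ : VariableChange (ZMod p)) • Wb with hW'
    have h4 : W'.b₄ = 0 := by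
      have := FLTA.EllReduction.nodeX_b₄ hc0
      rw [hΔ0] at this
      simp only [hW', variableChange_b₄, inv_one, Units.val_one, one_pow, one_mul]
      simpa [FLTA.EllReduction.nodeX, r] using this
    have h6 : W'.b₆ = 0 := by
      have := FLTA.EllReduction.nodeX_b₆ hc0
      rw [hΔ0] at this
      simp only [hW', variableChange_b₆, inv_one, Units.val_one, one_pow, one_mul]
      simpa [FLTA.EllReduction.nodeX, r] using this
    have h8 : W'.b₈ = 0 := by
      have hb := W'.b_relation
      rw [h4, h6] at hb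
      have h4ne : (4 : ZMod p) ≠ 0 := by
        intro h
        have h' : ((4 : ℕ) : ZMod p) = 0 := by exact_mod_cast h
        rw [ZMod.natCast_eq_zero_iff] at h'
        exact hp2 ((Nat.prime_dvd_prime_iff_eq hp Nat.prime_two).mp
          (hp.dvd_of_dvd_pow (show p ∣ 2 ^ 2 from h')))
      exact mul_left_cancel₀ h4ne (by linear_combination hb)
    have h2 : W'.b₂ ≠ 0 := by
      intro h
      apply hc0
      have hc : W'.c₄ = Wb.c₄ := by simp [hW', variableChange_c₄]
      rw [← hc, WeierstrassCurve.c₄, h, h4]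
      ring
    have hform := preΨ'_nodal hp hp2 W' h2 h4 h6 h8
    have hd : (W'.preΨ' p).natDegree = (p ^ 2 - p) / 2 := by
      rw [hform, natDegree_C_mul_X_pow _ _ (pow_ne_zero _ h2)]
    rw [hW', preΨ'_translate, natDegree_comp, natDegree_X_add_C, mul_one] at hd
    rw [hd]
    have h3 : 3 ≤ p := by have := hp.two_le; omega
    have : p * 3 ≤ p ^ 2 := by rw [sq]; exact Nat.mul_le_mul_left p h3
    omega

end FLTA.LevelLowering
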