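import Fermat.Agent.LevelLowering.InertiaFrame
import Fermat.Agent.LevelLowering.LocalFrey
import Fermat.Agent.LevelLowering.LocalCurve
import Fermat.Agent.EllReducible.Line

/-!
# The kernel of a mod `p` representation inside inertia

`TorsShape p A V L₀`: inertia at `A` acts on the plane `V` through `(χ *; 0 1)` with cyclotomic
`χ` on the line `L₀`, and the wild part is peu ramifié.  The kernel `H` has index dividing
`p (p - 1)` in inertia; when `p` divides the index some element of order `p` modulo `H` has a jump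
`i < p`.
-/

set_option autoImplicit false

open scoped Pointwise
open IsLocalRing

noncomputable section

namespace FLTA.LevelLowering

local notation "Qbar" => AlgebraicClosure ℚ
local notation "Γ" => AlgebraicClosure ℚ ≃ₐ[ℚ] AlgebraicClosure ℚ

/-- The local shape at `A` of a two-dimensional representation `V`. -/
structure TorsShape (p : ℕ) [Fact p.Prime] (A : ValuationSubring Qbar) (V : Type*)
    [AddCommGroup V] [Module (ZMod p) V] [DistribMulAction Γ V]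
    (L₀ : Submodule (ZMod p) V) : Prop where
  finrank_eq : Module.finrank (ZMod p) V = 2
  ne_bot : L₀ ≠ ⊥
  ne_top : L₀ ≠ ⊤
  sub_mem : ∀ σ ∈ A.inertiaSubgroupIn ℚ, ∀ x : V, σ • x - x ∈ L₀
  cyclo : ∀ σ ∈ A.inertiaSubgroupIn ℚ, ∀ x ∈ L₀, σ • x = ExtCitation.cycloExp p σ • x
  finiteLevel : ∃ N₀ : IntermediateField ℚ Qbar, FiniteDimensional ℚ N₀ ∧
    ∀ σ : Γ, (∀ c ∈ N₀, σ c = c) → ∀ x : V, σ • x = x
  wild : ∀ σ ∈ A.inertiaSubgroupIn ℚ, (∀ x : V, σ • (σ • x - x) = σ • x - x) →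
    (∃ x : V, σ • x ≠ x) →
    ∃ b ∈ A, (∀ τ ∈ A.inertiaSubgroupIn ℚ, (∀ x : V, τ • x = x) → τ b = b) ∧
      σ b - b ≠ 0 ∧ (p : Qbar) / (σ b - b) ^ (p - 1) ∈ A

namespace TorsShape

variable {p : ℕ} [Fact p.Prime] {A : ValuationSubring Qbar} {V : Type*} [AddCommGroup V]
  [Module (ZMod p) V] [DistribMulAction Γ V] {L₀ : Submodule (ZMod p) V}
  (S : TorsShape p A V L₀)

include S

/-- The kernel of `V` in inertia. -/
def inertiaSub : InertiaSub A where
  H :=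
    { carrier := {σ | σ ∈ A.inertiaSubgroupIn ℚ ∧ ∀ x : V, σ • x = x}
      mul_mem' := fun {σ τ} hσ hτ => ⟨mul_mem hσ.1 hτ.1, fun x => by rw [mul_smul, hτ.2, hσ.2]⟩
      one_mem' := ⟨one_mem _, fun x => one_smul Γ x⟩
      inv_mem' := fun {σ} hσ => ⟨inv_mem hσ.1, fun x => inv_smul_eq_iff.mpr (hσ.2 x).symm⟩ }
  le := fun _ h => h.1
  conj_mem σ hσ τ hτ := ⟨mul_mem (mul_mem hσ hτ.1) (inv_mem hσ), fun x => by
    rw [mul_smul, mul_smul, hτ.2, smul_inv_smul]⟩
  isOpen := by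
    obtain ⟨N₀, hN, h⟩ := S.finiteLevel
    exact ⟨N₀, hN, fun σ hσ =>
      ⟨hσ.1, h σ ((IntermediateField.mem_fixingSubgroup_iff N₀ σ).mp hσ.2)⟩⟩

theorem mem_inertiaSub {σ : Γ} :
    σ ∈ S.inertiaSub.H ↔ σ ∈ A.inertiaSubgroupIn ℚ ∧ ∀ x : V, σ • x = x :=
  Iff.rfl

omit S in
/-- The cyclotomic character of inertia. -/
def cycUnits (p : ℕ) [Fact p.Prime] (A : ValuationSubring Qbar) :
    A.inertiaSubgroupIn ℚ →* (ZMod p)ˣ :=
  haveI : NeZero p := ⟨(Fact.out : p.Prime).ne_zero⟩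
  ((modularCyclotomicCharacter Qbar (IsAlgClosed.card_rootsOfUnity_eq Qbar p)).comp
    (MulSemiringAction.toRingAut Γ Qbar)).comp (A.inertiaSubgroupIn ℚ).subtype

omit S in
theorem cycUnits_eq (σ : A.inertiaSubgroupIn ℚ) :
    ((cycUnits p A σ : (ZMod p)ˣ) : ZMod p) = (ExtCitation.cycloExp p (σ : Γ) : ZMod p) := by
  have : NeZero p := ⟨(Fact.out : p.Prime).ne_zero⟩
  rw [ExtCitation.cycloExp, ZMod.natCast_zmod_val]
  rfl

theorem smul_line (σ : A.inertiaSubgroupIn ℚ) (hσ : cycUnits p A σ = 1) {x : V} (hx : x ∈ L₀) :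
    (σ : Γ) • x = x := by
  rw [S.cyclo _ σ.2 x hx, ← Nat.cast_smul_eq_nsmul (ZMod p), ← cycUnits_eq, hσ, Units.val_one,
    one_smul]

theorem finite : Module.Finite (ZMod p) V :=
  Module.finite_of_finrank_eq_succ S.finrank_eq

theorem card_line : Nat.card L₀ = p := by
  have := S.finite
  have h1 : 1 ≤ Module.finrank (ZMod p) L₀ :=
    Submodule.one_le_finrank_iff.mpr S.ne_bot
  have h2 := Submodule.finrank_lt S.ne_top
  rw [S.finrank_eq] at h2
  rw [Module.natCard_eq_pow_finrank (K := ZMod p), Nat.card_zmod,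
    show Module.finrank (ZMod p) L₀ = 1 by omega, pow_one]

theorem exists_decomp {w : V} (hw : w ∉ L₀) (x : V) :
    ∃ (a : ℕ), x - a • w ∈ L₀ := by
  have := S.finite
  have : NeZero p := ⟨(Fact.out : p.Prime).ne_zero⟩
  set M := L₀ ⊔ Submodule.span (ZMod p) {w}
  have hlt : L₀ < M := lt_of_le_of_ne le_sup_left fun h =>
    hw (h ▸ Submodule.mem_sup_right (Submodule.mem_span_singleton_self w))
  have h0 : 1 ≤ Module.finrank (ZMod p) L₀ := Submodule.one_le_finrank_iff.mpr S.ne_bot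
  have h1 := Submodule.finrank_lt_finrank_of_lt hlt
  have htop : M = ⊤ := Submodule.eq_top_of_finrank_eq (le_antisymm (Submodule.finrank_le M)
    (by rw [S.finrank_eq]; omega))
  obtain ⟨l, hl, m, hm, hx⟩ := Submodule.mem_sup.mp (htop ▸ Submodule.mem_top : x ∈ M)
  obtain ⟨a, rfl⟩ := Submodule.mem_span_singleton.mp hm
  refine ⟨a.val, ?_⟩
  rw [← Nat.cast_smul_eq_nsmul (ZMod p), ZMod.natCast_zmod_val, ← hx, add_sub_cancel_right]
  exact hl

/-- The index divides `p (p - 1)`; if `p` divides it, some element of inertia has order `p` modulo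
the kernel and is unipotent. -/
theorem index_dvd :
    S.inertiaSub.index ∣ p * (p - 1) ∧ (p ∣ S.inertiaSub.index →
      ∃ σ ∈ A.inertiaSubgroupIn ℚ, σ ^ p ^ 1 ∈ S.inertiaSub.H ∧
        (∀ x : V, σ • (σ • x - x) = σ • x - x) ∧ ∃ x : V, σ • x ≠ x) := by
  classical
  have hp : p.Prime := Fact.out
  have : NeZero p := ⟨hp.ne_zero⟩
  set I := A.inertiaSubgroupIn ℚ
  set K : Subgroup I := (cycUnits p A).ker
  obtain ⟨w, -, hw⟩ : ∃ w ∈ (⊤ : Submodule (ZMod p) V), w ∉ L₀ :=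
    SetLike.exists_of_lt S.ne_top.lt_top
  let φ : K →* Multiplicative L₀ := MonoidHom.mk'
    (fun σ => Multiplicative.ofAdd ⟨((σ : I) : Γ) • w - w, S.sub_mem _ (σ : I).2 w⟩)
    (fun σ τ => by
      apply Multiplicative.toAdd.injective
      apply Subtype.ext
      show (((σ : I) : Γ) * ((τ : I) : Γ)) • w - w =
        (((σ : I) : Γ) • w - w) + (((τ : I) : Γ) • w - w)
      have h := S.smul_line (σ : I) (MonoidHom.mem_ker.mp σ.2) (S.sub_mem _ (τ : I).2 w)
      rw [smul_sub] at h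
      rw [mul_smul, eq_add_of_sub_eq h]
      abel)
  have hker : ∀ σ : K, φ σ = 1 → ((σ : I) : Γ) ∈ S.inertiaSub.H := by
    intro σ hσ
    have hw' : ((σ : I) : Γ) • w = w :=
      sub_eq_zero.mp (congrArg Subtype.val (congrArg Multiplicative.toAdd hσ))
    refine ⟨(σ : I).2, fun x => ?_⟩
    obtain ⟨a, ha⟩ := S.exists_decomp hw x
    have h := S.smul_line (σ : I) (MonoidHom.mem_ker.mp σ.2) ha
    rwa [smul_sub, smul_comm, hw', sub_left_inj] at h
  have hK : S.inertiaSub.H.subgroupOf I ≤ K := by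
    intro σ hσ
    rw [MonoidHom.mem_ker]
    refine Units.ext ?_
    obtain ⟨u, hu, hu0⟩ := Submodule.exists_mem_ne_zero_of_ne_bot S.ne_bot
    have h := S.cyclo _ σ.2 u hu
    rw [(S.mem_inertiaSub.mp (Subgroup.mem_subgroupOf.mp hσ)).2, ← Nat.cast_smul_eq_nsmul (ZMod p), ← cycUnits_eq] at h
    have h2 : (((cycUnits p A σ : (ZMod p)ˣ) : ZMod p) - 1) • u = 0 := by
      rw [sub_smul, one_smul, ← h, sub_self]
    rw [Units.val_one]
    exact sub_eq_zero.mp ((smul_eq_zero.mp h2).resolve_right hu0)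
  have hmul : (S.inertiaSub.H.subgroupOf I).relIndex K * K.index = S.inertiaSub.index :=
    Subgroup.relIndex_mul_index hK
  have hKd : K.index ∣ p - 1 := by
    rw [Subgroup.index_ker, ← ZMod.card_units p, ← Nat.card_eq_fintype_card]
    exact Subgroup.card_subgroup_dvd_card _
  have hφker : (S.inertiaSub.H.subgroupOf I).subgroupOf K = φ.ker := by
    ext σ
    rw [MonoidHom.mem_ker]
    refine ⟨fun h => ?_, hker σ⟩
    apply Multiplicative.toAdd.injective
    exact Subtype.ext (sub_eq_zero.mpr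
      ((S.mem_inertiaSub.mp (Subgroup.mem_subgroupOf.mp (Subgroup.mem_subgroupOf.mp h))).2 w))
  have hd : (S.inertiaSub.H.subgroupOf I).relIndex K ∣ p := by
    have := S.finite
    rw [Subgroup.relIndex, hφker, Subgroup.index_ker]
    have h := Subgroup.card_subgroup_dvd_card φ.range
    rwa [Nat.card_congr Multiplicative.toAdd, S.card_line] at h
  refine ⟨hmul ▸ mul_dvd_mul hd hKd, fun hpd => ?_⟩
  obtain ⟨σ, hσ⟩ : ∃ σ : K, ((σ : I) : Γ) ∉ S.inertiaSub.H := by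
    by_contra hall
    have hall' : ∀ σ : K, ((σ : I) : Γ) ∈ S.inertiaSub.H := fun σ => by_contra fun h => hall ⟨σ, h⟩
    have h1 : (S.inertiaSub.H.subgroupOf I).relIndex K = 1 :=
      Subgroup.relIndex_eq_one.mpr fun x hx => hall' ⟨x, hx⟩
    rw [← hmul, h1, one_mul] at hpd
    have hp2 := hp.two_le
    have := Nat.le_of_dvd (by omega) (hpd.trans hKd)
    omega
  refine ⟨((σ : I) : Γ), (σ : I).2, ?_, fun x => ?_, ?_⟩
  · rw [pow_one]
    refine hker (σ ^ p) ?_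
    rw [map_pow]
    apply Multiplicative.toAdd.injective
    rw [toAdd_pow, toAdd_one, ← Nat.cast_smul_eq_nsmul (ZMod p), ZMod.natCast_self, zero_smul]
  · exact S.smul_line (σ : I) (MonoidHom.mem_ker.mp σ.2) (S.sub_mem _ (σ : I).2 x)
  · by_contra hall
    exact hσ ⟨(σ : I).2, fun x => by_contra fun h => hall ⟨x, h⟩⟩

/-- When `p ∣ e` some element of inertia moves the uniformizer at a level `i < p`. -/
theorem exists_move (hA : A.LiesOverPrime p) (fr : Frame A (residue A))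
    (hfr : fr.L = S.inertiaSub.L.toSubfield) {e : ℕ} (hdvd : e ∣ S.inertiaSub.index) {u : A}
    (hu : residue A u ≠ 0) (hpe : (p : Qbar) = fr.ϖ ^ e * u) (hp : p ∣ e) :
    ∃ σ : Γ, σ ∈ A.inertiaSubgroupIn ℚ ∧ ∃ i : ℕ, 1 ≤ i ∧ i < p ∧ ∃ τ : A, residue A τ ≠ 0 ∧
      σ fr.ϖ = fr.ϖ * (1 + τ * fr.ϖ ^ i) ∧
      ∀ c ∈ S.inertiaSub.L, c ∈ A → (σ c - c) / fr.ϖ ^ (i + 1) ∈ A := by
  have hpr : p.Prime := Fact.out
  obtain ⟨σ, hσI, hpow, huni, hmv⟩ := S.index_dvd.2 (hp.trans hdvd)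
  obtain ⟨b, hbA, hbfix, hb0, hbp⟩ := S.wild σ hσI huni hmv
  have hbL : b ∈ S.inertiaSub.L :=
    S.inertiaSub.mem_L_iff.mpr fun τ hτ => hbfix τ hτ.1 hτ.2
  obtain ⟨i, hi1, τ, -, hτ, hστ, hall⟩ :=
    S.inertiaSub.exists_jump hpr hA fr hfr hσI hpow ⟨b, hbL, fun h => hb0 (sub_eq_zero.mpr h)⟩
  refine ⟨σ, hσI, i, hi1, ?_, τ, hτ, hστ, hall⟩
  by_contra hip
  have he : e ≤ p * (p - 1) := Nat.le_of_dvd (Nat.mul_pos hpr.pos (by have := hpr.two_le; omega))
    (hdvd.trans S.index_dvd.1)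
  have hlt : e < (i + 1) * (p - 1) :=
    lt_of_le_of_lt he (Nat.mul_lt_mul_of_pos_right (by omega) (by have := hpr.two_le; omega))
  obtain ⟨m, hm⟩ := Nat.exists_eq_add_of_lt hlt
  have hϖ := fr.ϖ_ne_zero
  have h1 : (p : Qbar) / fr.ϖ ^ ((i + 1) * (p - 1)) ∈ A := by
    have e1 : (p : Qbar) / fr.ϖ ^ ((i + 1) * (p - 1)) =
        (p : Qbar) / (σ b - b) ^ (p - 1) * ((σ b - b) / fr.ϖ ^ (i + 1)) ^ (p - 1) := by
      rw [pow_mul, div_pow, div_mul_div_cancel₀ (pow_ne_zero _ hb0)]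
    rw [e1]
    exact mul_mem hbp (pow_mem (hall b hbL hbA) _)
  refine hu ((Galois.residue_eq_zero_iff_mem_nonunits u).mpr ?_)
  have e2 : (u : Qbar) = fr.ϖ * (fr.ϖ ^ m * ((p : Qbar) / fr.ϖ ^ ((i + 1) * (p - 1)))) := by
    rw [hpe, hm, pow_succ, pow_add]
    field_simp
  rw [e2]
  exact Galois.mul_mem_nonunits_of_mem ((Galois.residue_eq_zero_iff_mem_nonunits _).mp fr.π_ϖ)
    (mul_mem (pow_mem fr.ϖ_mem_A m) h1)

end TorsShape

open WeierstrassCurve

open scoped WeierstrassCurve.Affine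

open FLTA.EllReducible (Tors)

/-- The shape of the Frey curve at a place over `p ∣ abc`. -/
theorem exists_torsShape_frey (P : FreyPackage) (hdvd : (P.p : ℤ) ∣ P.a * P.b * P.c)
    [Fact P.p.Prime] (A : ValuationSubring Qbar) (hA : A.LiesOverPrime P.p) :
    ∃ L₀, TorsShape P.p A (Tors P.freyCurve P.p) L₀ := by
  obtain ⟨L₀, h1, h2, h3, h4⟩ := exists_inertiaLine P hdvd A hA
  exact ⟨L₀, EllReducible.finrank_tors _ (freyCurve_Δ_ne_zero P), h1, h2, h3, h4,
    EllReducible.exists_finiteLevel _ (freyCurve_Δ_ne_zero P) Fact.out,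
    fun σ hσ => wild_bound P hdvd A hA hσ⟩

/-- The shape of an integral curve at an ordinary or peu ramifié place. -/
theorem exists_torsShape_curve (W : WeierstrassCurve ℤ) (hΔ : W.Δ ≠ 0) (p : ℕ) [Fact p.Prime]
    (hp2 : p ≠ 2) (hloc : IsOrdinaryOrPeuMult W p) (A : ValuationSubring Qbar)
    (hA : A.LiesOverPrime p) :
    ∃ L₀, TorsShape p A (Tors (W.map (Int.castRingHom ℚ)) p) L₀ := by
  obtain ⟨L₀, h1, h2, h3, h4⟩ :=
    exists_inertiaLine_curve W hΔ p hp2 (hloc.imp id fun h => And.intro h.1 h.2.1) A hA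
  have hΔ' : (W.map (Int.castRingHom ℚ)).Δ ≠ 0 := by
    rw [WeierstrassCurve.map_Δ]; simpa using hΔ
  exact ⟨L₀, EllReducible.finrank_tors _ hΔ', h1, h2, h3, h4,
    EllReducible.exists_finiteLevel _ hΔ' Fact.out,
    fun σ hσ => wild_bound_curve W hΔ p hp2 hloc A hA hσ⟩

end FLTA.LevelLowering

end
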