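import Fermat.Agent.BadRed.Ordinary.Main
import Fermat.Agent.BadRed.Ordinary.Field
import Fermat.Agent.BadRed.Ordinary.GenusCard
import Fermat.Agent.BadRed.ModularSym
import Fermat.Agent.BadRed.Fibre
import Fermat.Agent.LevelLowering.MainSettingShape
import Fermat.Prelude.Def_ModularCurve_HeckeModule

/-!
# Inertia on the bad fibre and the end of level lowering

A Galois-equivariant copy of `E[p]` in `J₀(M p)` cannot consist of toric classes.
-/

set_option autoImplicit false
set_option synthInstance.maxHeartbeats 400000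
set_option maxHeartbeats 1000000

open AlgebraicCurve ModularCurve IsLocalRing FLTA.BadRed

noncomputable section

namespace FLTA.LevelLowering

open FLTA.EllReducible (Tors)

local notation "Qbar" => AlgebraicClosure ℚ
local notation "Γ" => AlgebraicClosure ℚ ≃ₐ[ℚ] AlgebraicClosure ℚ

variable (M q : ℕ) [NeZero M] [NeZero q] [hq : Fact q.Prime]
  (A : ValuationSubring (AlgebraicClosure ℚ)) (hA : A.LiesOverPrime q) (hqM : ¬ q ∣ M)
  [CharP (ResidueField A) q] [PerfectRing (ResidueField A) q]

/-- Inertia acting on the fibre of `X₀(M q)`. -/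
def fibreInertia : Ordinary.InertiaData (badFibre M q A hA hqM) (A.inertiaSubgroupIn ℚ) where
  sy γ := symOfData (badFibre M q A hA hqM) (fun _ => rfl) (fun _ => rfl) (swapBar_alpha M q hqM)
    (swapBar_beta M q hqM) (FLTA.Galois.inertiaSubgroupIn_le_decompositionSubgroup γ.2)
  base γ c := by
    show SemilinearAut.baseAut (arithmeticGalois (modularFunctionFieldFull (M * q)) (γ : Γ)) c = _
    rw [baseAut_arithmeticGalois]
    rfl
  inertia γ := symOfData_isInertia (badFibre M q A hA hqM) (fun _ => rfl) (fun _ => rfl)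
    (swapBar_alpha M q hqM) (swapBar_beta M q hqM) γ.2

/-- On classes inertia acts as Galois. -/
theorem fibreInertia_smul (γ : A.inertiaSubgroupIn ℚ) (x : JZero (M * q)) :
    ((fibreInertia M q A hA hqM).sy γ).σ • x = (γ : Γ) • x :=
  symOfData_smul (badFibre M q A hA hqM) (fun _ => rfl) (fun _ => rfl) (swapBar_alpha M q hqM)
    (swapBar_beta M q hqM) _ x

variable {M q A}

include hA hqM in
/-- There are glued pairs. -/
theorem isGluing_nonempty {S : Finset (Place (ResidueField A)
      (modularFunctionFieldFullC (ResidueField A) M))} {m₀ : ℕ}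
    (hS : (badFibre M q A hA hqM).IsGluing S m₀) : S.Nonempty := by
  rw [← Finset.card_pos]
  have h1 := hS.card_eq
  have h2 := two_mul_genusX0_le M q hqM
  omega

include hA hqM in
/-- **The end.** A copy of `E[q]` with the shape of the line cannot be toric. -/
theorem false_of_toric {E : WeierstrassCurve ℚ} (hE : E.Δ ≠ 0) (hq2 : q ≠ 2)
    {L₀ : Submodule (ZMod q) (Tors E q)} (V : TorsShape q A (Tors E q) L₀) (iota : Tors E q →+ JZero (M * q)) (hinj : Function.Injective iota)
    (hsmul : ∀ (σ : Γ) (x : Tors E q), iota (σ • x) = σ • iota x)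
    (htor : ∀ x, (badFibre M q A hA hqM).IsToric q (iota x)) : False := by
  classical
  haveI := FLTA.Galois.isAlgClosed_residueField A
  haveI : Finite (Tors E q) := FLTA.EllReducible.finite_tors E hE hq.out
  obtain ⟨S, m₀, hS⟩ := (badFibre M q A hA hqM).exists_isGluing
  obtain ⟨f, hf0, hker⟩ : ∃ f : Tors E q →ₗ[ZMod q] ZMod q, f ≠ 0 ∧ L₀ ≤ LinearMap.ker f :=
    Submodule.exists_le_ker_of_lt_top L₀ V.ne_top.lt_top
  have hsurj : Function.Surjective f := fun c => by
    obtain ⟨v, hv⟩ : ∃ v, f v ≠ 0 := by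
      by_contra h
      push Not at h
      exact hf0 (LinearMap.ext h)
    exact ⟨(c / f v) • v, by rw [map_smul, smul_eq_mul, div_mul_cancel₀ _ hv]⟩
  let e : Tors E q ≃+ iota.range := AddMonoidHom.ofInjective hinj
  haveI : Finite iota.range := Finite.of_equiv _ e.toEquiv
  refine Ordinary.no_invariant_quotient hq2 hS (isGluing_nonempty hA hqM hS)
    (fibreInertia M q A hA hqM) (Ordinary.inertiaField_bar hq.out hA) iota.range
    (by rintro _ ⟨x, rfl⟩; exact htor x) ?_ (f.toAddMonoidHom.comp e.symm.toAddMonoidHom)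
    (hsurj.comp e.symm.surjective) ?_
  · rintro σ _ ⟨x, rfl⟩
    exact ⟨(σ : Γ) • x, by rw [fibreInertia_smul, hsmul]⟩
  · intro σ z
    obtain ⟨x, rfl⟩ := e.surjective z
    show f (e.symm _) = f (e.symm (e x))
    rw [e.symm_apply_apply]
    have hx : f ((σ : Γ) • x) = f x := by
      rw [← sub_eq_zero, ← map_sub]
      exact LinearMap.mem_ker.mp (hker (V.sub_mem σ σ.2 x))
    rw [← hx]
    congr 1
    rw [AddEquiv.symm_apply_eq]
    apply Subtype.ext
    show ((fibreInertia M q A hA hqM).sy σ).σ • iota x = iota ((σ : Γ) • x)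
    rw [fibreInertia_smul, hsmul]

end FLTA.LevelLowering

end
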