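import Fermat.Agent.Galois.PlacesFinite

/-!
# The fixed field of inertia is unramified: its value group is generated by `p`
-/

set_option autoImplicit false

open scoped Pointwise NumberField
open IsLocalRing

noncomputable section

namespace FLTA.LevelLowering

local notation "Qbar" => AlgebraicClosure ℚ
local notation "Γ" => AlgebraicClosure ℚ ≃ₐ[ℚ] AlgebraicClosure ℚ

/-- If `x` has order exactly `1` at `P`, every nonzero element is a power of `x` times a unit at
`P`. -/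
theorem exists_mul_eq_pow_mul {S : Type*} [CommRing S] [IsDedekindDomain S] {P : Ideal S}
    [hP : P.IsPrime] (hP0 : P ≠ ⊥) {x : S} (hx : P ∣ Ideal.span {x})
    (hx2 : ¬ P ^ 2 ∣ Ideal.span {x}) {a : S} (ha : a ≠ 0) :
    ∃ (n : ℕ) (r s : S), r ∉ P ∧ s ∉ P ∧ a * r = x ^ n * s := by
  have hPp : Prime P := Ideal.prime_of_isPrime hP0 hP
  obtain ⟨J, hJ, hJP⟩ := (FiniteMultiplicity.of_prime_left hPp
    (show Ideal.span {a} ≠ 0 by simpa using ha)).exists_eq_pow_mul_and_not_dvd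
  set n := multiplicity P (Ideal.span {a})
  obtain ⟨J', hJ'⟩ := hx
  have hJ'P : ¬ P ∣ J' := fun h => hx2 (by
    rw [hJ', pow_two]; exact mul_dvd_mul_left P h)
  obtain ⟨j, hjJ, hjP⟩ := SetLike.not_le_iff_exists.mp (fun h => hJ'P (Ideal.dvd_iff_le.mpr h))
  have hmem : a * j ^ n ∈ Ideal.span {x ^ n} := by
    rw [← Ideal.span_singleton_pow, hJ', mul_pow]
    refine Ideal.mul_mem_mul ?_ (Ideal.pow_mem_pow hjJ n)
    exact (Ideal.dvd_iff_le.mp ⟨J, hJ⟩ : Ideal.span {a} ≤ P ^ n) (Ideal.mem_span_singleton_self a)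
  obtain ⟨s, hs⟩ := Ideal.mem_span_singleton'.mp hmem
  refine ⟨n, j ^ n, s, fun h => hjP (hP.mem_of_pow_mem n h), fun hsP => ?_, by
    rw [← hs, mul_comm]⟩
  have h1 : P ^ (n + 1) ∣ Ideal.span {a * j ^ n} := by
    rw [← hs, mul_comm, ← Ideal.span_singleton_mul_span_singleton, ← Ideal.span_singleton_pow,
      hJ', mul_pow, pow_succ, mul_assoc]
    exact mul_dvd_mul_left _ (dvd_mul_of_dvd_right (Ideal.dvd_span_singleton.mpr hsP) _)
  rw [← Ideal.span_singleton_mul_span_singleton] at h1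
  have h2 := hPp.pow_dvd_of_dvd_mul_right (n + 1)
    (fun h => hjP (hP.mem_of_pow_mem n (Ideal.dvd_span_singleton.mp h))) h1
  rw [hJ, pow_succ] at h2
  exact hJP ((mul_dvd_mul_iff_left (pow_ne_zero n hP0)).mp h2)

variable {A : ValuationSubring Qbar}

theorem valuation_eq_one_of_not_mem_nonunits {x : Qbar} (hx : x ∈ A) (hn : x ∉ A.nonunits) :
    A.valuation x = 1 := by
  rw [ValuationSubring.mem_nonunits_iff, not_lt] at hn
  exact le_antisymm ((A.valuation_le_one_iff x).mpr hx) hn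

/-- An element fixed by inertia has the valuation of an integral power of `p`. -/
theorem exists_zpow_valuation_eq_of_fixed {p : ℕ} (hp : p.Prime) (hA : A.LiesOverPrime p)
    {c : Qbar} (hc0 : c ≠ 0) (hc : ∀ σ ∈ A.inertiaSubgroupIn ℚ, σ c = c) :
    ∃ n : ℤ, A.valuation c = A.valuation (p : Qbar) ^ n := by
  -- a finite Galois field containing `c`, and the fixed field `T` of inertia inside it
  let M₁ : IntermediateField ℚ Qbar := IntermediateField.adjoin ℚ {c}
  haveI : FiniteDimensional ℚ M₁ :=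
    IntermediateField.adjoin.finiteDimensional (Algebra.IsIntegral.isIntegral c)
  let M : IntermediateField ℚ Qbar := IntermediateField.normalClosure ℚ M₁ Qbar
  have hcM : c ∈ M := M₁.le_normalClosure (IntermediateField.mem_adjoin_simple_self ℚ c)
  haveI : Normal ℚ M := normalClosure.normal ℚ M₁ Qbar
  haveI : NumberField M := { to_finiteDimensional := inferInstance }
  haveI : IsGalois ℚ M := isGalois_iff.mpr ⟨inferInstance, inferInstance⟩
  haveI := Galois.placeIdeal_isPrime (A := A) (L := M)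
  set P := Galois.placeIdeal A M with hPdef
  haveI := Galois.placeIdeal_liesOver hp hA (L := M)
  set Ip := P.inertia (M ≃ₐ[ℚ] M) with hIp
  haveI : IsGaloisGroup (M ≃ₐ[ℚ] M) ℤ (𝓞 M) :=
    IsGaloisGroup.of_isFractionRing (M ≃ₐ[ℚ] M) ℤ (𝓞 M) ℚ M
  let T : IntermediateField ℚ M := IntermediateField.fixedField Ip
  haveI : IsGaloisGroup Ip T M := IsGaloisGroup.subgroup (M ≃ₐ[ℚ] M) ℚ M Ip
  haveI : NumberField T := NumberField.of_intermediateField T
  haveI : IsGaloisGroup Ip (𝓞 T) (𝓞 M) := IsGaloisGroup.of_isFractionRing Ip (𝓞 T) (𝓞 M) T M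
  set PT := P.under (𝓞 T) with hPT
  haveI : P.LiesOver PT := ⟨rfl⟩
  haveI : PT.LiesOver (Ideal.span {(p : ℤ)}) := Ideal.LiesOver.tower_bot P PT _
  have hspan0 : Ideal.span {(p : ℤ)} ≠ ⊥ := by simpa using hp.ne_zero
  have hP0 : P ≠ ⊥ := Ideal.ne_bot_of_liesOver_of_ne_bot hspan0 P
  have hPT0 : PT ≠ ⊥ := Ideal.ne_bot_of_liesOver_of_ne_bot hspan0 PT
  haveI : PT.IsMaximal := Ideal.IsPrime.isMaximal inferInstance hPT0
  haveI : (Ideal.span {(p : ℤ)}).IsMaximal :=
    haveI := Fact.mk hp; Int.ideal_span_isMaximal_of_prime p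
  haveI : Finite (ℤ ⧸ Ideal.span {(p : ℤ)}) := Ring.HasFiniteQuotients.finiteQuotient hspan0
  haveI : Finite (𝓞 T ⧸ PT) := Ring.HasFiniteQuotients.finiteQuotient hPT0
  -- `PT` is unramified over `p`
  have he : PT.ramificationIdx ℤ = 1 := by
    have htop : P.inertia Ip = ⊤ := eq_top_iff.mpr fun g _ x => g.2 x
    have h1 : Nat.card Ip = P.ramificationIdx ℤ := by
      rw [hIp, Ideal.card_inertia_eq_ramificationIdxIn (G := M ≃ₐ[ℚ] M) (Ideal.span {(p : ℤ)}) P,
        Ideal.ramificationIdxIn_eq_ramificationIdx (Ideal.span {(p : ℤ)}) P (M ≃ₐ[ℚ] M)]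
    have h2 : Nat.card Ip = P.ramificationIdx (𝓞 T) := by
      rw [← Subgroup.card_top (G := Ip), ← htop,
        Ideal.card_inertia_eq_ramificationIdxIn (G := Ip) PT P,
        Ideal.ramificationIdxIn_eq_ramificationIdx PT P Ip]
    have h3 := Ideal.ramificationIdx_tower (R := ℤ) PT P
    rw [← h1, ← h2] at h3
    exact Nat.eq_of_mul_eq_mul_right Nat.card_pos (h3.symm.trans (one_mul _).symm)
  have hmap : (Ideal.span {(p : ℤ)}).map (algebraMap ℤ (𝓞 T)) = Ideal.span {(p : 𝓞 T)} := by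
    rw [Ideal.map_span, Set.image_singleton, map_natCast]
  have hne : Ideal.span {(p : 𝓞 T)} ≠ ⊥ := by simpa using hp.ne_zero
  rw [Ideal.IsDedekindDomain.ramificationIdx_eq_multiplicity (Ideal.span {(p : ℤ)}) PT (hmap ▸ hne),
    hmap] at he
  have hfin : FiniteMultiplicity PT (Ideal.span {(p : 𝓞 T)}) :=
    FiniteMultiplicity.of_prime_left (Ideal.prime_of_isPrime hPT0 inferInstance) hne
  have hx : PT ∣ Ideal.span {(p : 𝓞 T)} := by
    have := pow_multiplicity_dvd PT (Ideal.span {(p : 𝓞 T)})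
    rwa [he, pow_one] at this
  have hx2 : ¬ PT ^ 2 ∣ Ideal.span {(p : 𝓞 T)} := hfin.not_pow_dvd_of_multiplicity_lt (by omega)
  -- units at `PT` are units of `A`
  have hunit : ∀ r : 𝓞 T, r ∉ PT → A.valuation ((((r : T) : M) : Qbar)) = 1 := fun r hr =>
    valuation_eq_one_of_not_mem_nonunits
      (Galois.mem_of_isIntegral (((NumberField.RingOfIntegers.isIntegral_coe r).map
        T.val.toIntAlgHom).map M.val.toIntAlgHom))
      fun h => hr h
  have hint : ∀ a : 𝓞 T, a ≠ 0 →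
      ∃ n : ℕ, A.valuation (((a : T) : M) : Qbar) = A.valuation (p : Qbar) ^ n := by
    intro a ha
    obtain ⟨n, r, s, hr, hs, h⟩ := exists_mul_eq_pow_mul hPT0 hx hx2 ha
    refine ⟨n, ?_⟩
    have h' := congrArg (fun z : 𝓞 T => A.valuation (((z : T) : M) : Qbar)) h
    simpa [hunit r hr, hunit s hs] using h'
  have hcT : (⟨c, hcM⟩ : M) ∈ T := by
    rw [IntermediateField.mem_fixedField_iff]
    intro t ht
    rw [hIp, ← Galois.map_inertia_eq hp hA] at ht
    obtain ⟨σ, hσ, rfl⟩ := ht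
    exact Subtype.ext ((AlgEquiv.restrictNormal_commutes σ M ⟨c, hcM⟩).trans (hc σ hσ))
  obtain ⟨a, b, hb, hab⟩ := IsFractionRing.div_surjective (𝓞 T) (⟨⟨c, hcM⟩, hcT⟩ : T)
  have hc' : c = (((a : T) : M) : Qbar) / (((b : T) : M) : Qbar) := by
    have := congrArg (fun z : T => ((z : M) : Qbar)) hab
    simpa using this.symm
  have ha0 : a ≠ 0 := by rintro rfl; exact hc0 (by simpa using hc')
  obtain ⟨n, hn⟩ := hint a ha0
  obtain ⟨m, hm⟩ := hint b (nonZeroDivisors.ne_zero hb)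
  refine ⟨(n : ℤ) - m, ?_⟩
  have hv : A.valuation (p : Qbar) ≠ 0 := by
    simpa using (Nat.cast_ne_zero (R := Qbar)).mpr hp.ne_zero
  rw [hc', map_div₀, hn, hm, zpow_sub₀ hv, zpow_natCast, zpow_natCast]

end FLTA.LevelLowering

end
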