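import Fermat.Agent.LevelLowering.SectionLift
import Fermat.Agent.LevelLowering.LocalIneq
import Fermat.Agent.BadRed.Toric.Twist

/-!
# Rational Kummer data of valuation zero on both components

`Datum R`: a divisor `D` whose negative part lives at the two cusps and a rational `f` with
`div f = q D` and valuation `0` on both components.  Every datum has an opposite one.
-/

set_option autoImplicit false

noncomputable section

open AlgebraicCurve FLTA.BadRed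

namespace FLTA.LevelLowering

variable {K : Type*} [Field K] {A : ValuationSubring K}
  {k : Type*} [Field k] {π : A →+* k} {q : ℕ} [NeZero q]
  {F : Type*} [Field F] [Algebra K F] {F' : Type*} [Field F'] [Algebra K F']
  {Fk : Type*} [Field Fk] [Algebra k Fk] {g gF : ℕ} {B : BadFibre A π q F F' Fk g gF}

/-- A rational Kummer datum. -/
structure Datum (R : RatFrame B) where
  /-- the divisor -/
  D : Divisor K F
  /-- the Kummer function -/
  f : F
  kummer : BadFibre.KummerFn q D f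
  mem : f ∈ R.BL
  bound : ∃ m : ℕ, -(B.cuspDiv m) ≤ D
  vs_f : ∀ i, R.vs i f = 0

theorem smul_mem_rr (s : SemilinearAut K F) {E : Divisor K F} {x : F}
    (hx : x ∈ riemannRochSpace E) : s • x ∈ riemannRochSpace (s • E) := by
  rw [mem_riemannRochSpace_iff] at hx ⊢
  intro v
  rcases hx (s⁻¹ • v) with h | h
  · exact Or.inl (by rw [h, smul_zero])
  · refine Or.inr ?_
    have h1 := SemilinearAut.ord_smul s (s⁻¹ • v) x
    rw [smul_inv_smul] at h1
    rwa [h1, SemilinearAut.divisor_smul_apply]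

namespace RatFrame

variable (R : RatFrame B)

theorem smul_cuspDiv (s : B.Sym) (m : ℕ) : s.σ • B.cuspDiv m = B.cuspDiv m := by
  rw [BadFibre.cuspDiv, smul_add, SemilinearAut.smul_single, SemilinearAut.smul_single, smul_cusp,
    smul_cusp]

/-- A stable space of cusp sections is spanned by its rational elements. -/
theorem span_rat_of_stable {E : Divisor K F} {M : ℕ} (hE : E ≤ B.cuspDiv M)
    (hst : ∀ s ∈ R.H, s.σ • E = E) :
    Submodule.span K {x : F | x ∈ riemannRochSpace E ∧ x ∈ R.BL} = riemannRochSpace E := by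
  have := B.rrF.finiteDimensional E
  have h := R.span_rat_eq (riemannRochSpace E) fun s hs x hx => by
    have h := smul_mem_rr s.σ hx
    rwa [hst s hs] at h
  conv_rhs => rw [← h]
  congr 1
  ext x
  exact ⟨fun h => ⟨h.1, R.BL_le h.2⟩, fun h => ⟨h.1,
    R.mem_BL_of_section h.2 (FLTA.Curves.riemannRochSpace_mono hE h.1)⟩⟩

end RatFrame

namespace Datum

variable {R : RatFrame B} (X : Datum R)

theorem f_ne_zero : X.f ≠ 0 := X.kummer.ne_zero

theorem degree_eq_zero : Divisor.degree X.D = 0 := by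
  obtain ⟨E, hE, hdeg⟩ := B.rrF.principal.exists_divisor _ X.f_ne_zero
  have h : E = (q : ℤ) • X.D := Finsupp.ext fun v => by
    rw [hE v, ← X.kummer.ord_eq v, Finsupp.smul_apply, smul_eq_mul]
  rw [h, map_zsmul, smul_eq_mul] at hdeg
  exact (mul_eq_zero.mp hdeg).resolve_left (by exact_mod_cast NeZero.ne q)

theorem smul_D {s : B.Sym} (hs : s ∈ R.H) : s.σ • X.D = X.D := Finsupp.ext fun v => by
  have h := SemilinearAut.ord_smul s.σ (s.σ⁻¹ • v) X.f
  rw [smul_inv_smul, (R.BL_le X.mem) s hs] at h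
  rw [SemilinearAut.divisor_smul_apply]
  refine mul_left_cancel₀ (show (q : ℤ) ≠ 0 by exact_mod_cast NeZero.ne q) ?_
  rw [X.kummer.ord_eq, X.kummer.ord_eq, h]

theorem f_mem_secRing : X.f ∈ secRing B := by
  obtain ⟨m, hm⟩ := X.bound
  refine ⟨q * m, FLTA.Curves.riemannRochSpace_mono ?_ X.kummer.mem⟩
  rw [← BadFibre.natCast_smul_cuspDiv]
  refine Finsupp.le_def.mpr fun v => ?_
  have h : -(B.cuspDiv m v) ≤ X.D v := by
    have := Finsupp.le_def.mp hm v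
    rwa [Finsupp.neg_apply] at this
  have hq : (0 : ℤ) ≤ q := Int.natCast_nonneg q
  rw [Finsupp.neg_apply, Finsupp.smul_apply, Finsupp.smul_apply, smul_eq_mul, smul_eq_mul]
  nlinarith

end Datum

variable [IsAlgClosed K] [CharZero K] [IsAlgClosed k] [Fact q.Prime] [CharP k q]

namespace EtaData

variable {R : RatFrame B} {S : Finset (Place k Fk)} (E : EtaData R S)

include E

theorem exists_shift_nat (hne : S.Nonempty) (c : ℕ) :
    ∃ ψ ∈ R.BL, ψ ≠ 0 ∧ ψ ∈ secRing B ∧ R.vs 0 ψ = 0 ∧ R.vs 1 ψ = c := by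
  obtain ⟨Q₀, hQ₀⟩ := hne
  obtain ⟨φ, hφ, hφ0, hvs, -, hsec, hG, -⟩ := E.clear Q₀ (E.isFin_of_mem Q₀ hQ₀)
  have hx := mul_mem hφ E.G_mem
  have hx0 : φ * E.G ≠ 0 := mul_ne_zero hφ0 E.G_ne_zero
  have hvx0 : R.vs 0 (φ * E.G) = 0 := by
    rw [R.vs_mul 0 hφ hφ0 E.G_mem E.G_ne_zero, hvs, E.vs_G, add_zero]
  have hvx1 : R.vs 1 (φ * E.G) = 12 * E.e := by
    rw [R.vs_mul 1 hφ hφ0 E.G_mem E.G_ne_zero, hvs, E.vs_one_G, zero_add]
  obtain ⟨y, hy, hy0, hys, hyv0, hyv1⟩ : ∃ y ∈ R.BL, y ≠ 0 ∧ y ∈ secRing B ∧ R.vs 0 y = 0 ∧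
      R.vs 1 y = ((c % (12 * E.e) : ℕ) : ℤ) := by
    rcases Nat.eq_zero_or_pos (c % (12 * E.e)) with hr | hr
    · exact ⟨φ, hφ, hφ0, hsec, hvs 0, by rw [hvs 1, hr]; rfl⟩
    set r := c % (12 * E.e)
    have hrlt : r < 12 * E.e := Nat.mod_lt _ (by have := E.e_pos; omega)
    set t := algebraMap K F (R.ϖ ^ (r : ℤ)) * φ with ht
    have hcm : algebraMap K F (R.ϖ ^ (r : ℤ)) ∈ R.BL :=
      R.algebraMap_mem_BL (zpow_mem R.ϖ_mem _)
    have hc0 : algebraMap K F (R.ϖ ^ (r : ℤ)) ≠ 0 :=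
      (map_ne_zero _).mpr (zpow_ne_zero _ R.ϖ_ne_zero)
    have htm : t ∈ R.BL := mul_mem hcm hφ
    have ht0 : t ≠ 0 := mul_ne_zero hc0 hφ0
    have hvt : ∀ i, R.vs i t = r := fun i => by
      rw [ht, R.vs_mul i hcm hc0 hφ hφ0, R.vs_algebraMap_zpow, hvs, add_zero]
    obtain ⟨h1, h2⟩ := R.vs_add_of_lt 0 hx hx0 htm ht0 (by rw [hvx0, hvt]; omega)
    obtain ⟨-, h3⟩ := R.vs_add_of_lt 1 htm ht0 hx hx0 (by rw [hvx1, hvt]; omega)
    rw [add_comm t] at h3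
    exact ⟨φ * E.G + t, add_mem hx htm, h1,
      add_mem hG (mul_mem (algebraMap_mem_secRing B _) hsec), h2.trans hvx0, h3.trans (hvt 1)⟩
  refine ⟨(φ * E.G) ^ (c / (12 * E.e)) * y, mul_mem (pow_mem hx _) hy,
    mul_ne_zero (pow_ne_zero _ hx0) hy0, mul_mem (pow_mem hG _) hys, ?_, ?_⟩
  · rw [R.vs_mul 0 (pow_mem hx _) (pow_ne_zero _ hx0) hy hy0, R.vs_pow 0 hx hx0, hvx0, hyv0]
    ring
  · rw [R.vs_mul 1 (pow_mem hx _) (pow_ne_zero _ hx0) hy hy0, R.vs_pow 1 hx hx0, hvx1, hyv1]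
    have h := Nat.div_add_mod c (12 * E.e)
    rw [mul_comm (12 * E.e)] at h
    exact_mod_cast h

/-- Multipliers with prescribed valuations. -/
theorem exists_shift (hne : S.Nonempty) (a b : ℤ) :
    ∃ ψ ∈ R.BL, ψ ≠ 0 ∧ ψ ∈ secRing B ∧ R.vs 0 ψ = a ∧ R.vs 1 ψ = b := by
  obtain ⟨z, hz, hz0, hzs, hzd⟩ : ∃ z ∈ R.BL, z ≠ 0 ∧ z ∈ secRing B ∧
      R.vs 1 z - R.vs 0 z = b - a := by
    rcases le_total a b with h | h
    · obtain ⟨c, hc⟩ := Int.eq_ofNat_of_zero_le (sub_nonneg.mpr h)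
      obtain ⟨ψ, h1, h2, h3, h4, h5⟩ := E.exists_shift_nat hne c
      exact ⟨ψ, h1, h2, h3, by omega⟩
    · obtain ⟨c, hc⟩ := Int.eq_ofNat_of_zero_le (sub_nonneg.mpr h)
      obtain ⟨ψ, h1, h2, h3, h4, h5⟩ := E.exists_shift_nat hne c
      refine ⟨B.w ψ, R.mem_BL_w h1, (map_ne_zero B.w).mpr h2, w_mem_secRing B h3, ?_⟩
      rw [(R.vs_w ψ).1, (R.vs_w ψ).2]
      omega
  have hcm : algebraMap K F (R.ϖ ^ (a - R.vs 0 z)) ∈ R.BL :=
    R.algebraMap_mem_BL (zpow_mem R.ϖ_mem _)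
  have hc0 : algebraMap K F (R.ϖ ^ (a - R.vs 0 z)) ≠ 0 :=
    (map_ne_zero _).mpr (zpow_ne_zero _ R.ϖ_ne_zero)
  refine ⟨algebraMap K F (R.ϖ ^ (a - R.vs 0 z)) * z, mul_mem hcm hz, mul_ne_zero hc0 hz0,
    mul_mem (algebraMap_mem_secRing B _) hzs, ?_, ?_⟩
  · rw [R.vs_mul 0 hcm hc0 hz hz0, R.vs_algebraMap_zpow]
    omega
  · rw [R.vs_mul 1 hcm hc0 hz hz0, R.vs_algebraMap_zpow]
    omega

end EtaData

namespace Datum

variable {R : RatFrame B} (X : Datum R)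

/-- A rational function with `div ≥ D` away from the cusps. -/
theorem exists_above :
    ∃ m : ℕ, ∃ h ∈ R.BL, h ≠ 0 ∧ h ∈ secRing B ∧
      ∀ v, X.D v - B.cuspDiv m v ≤ v.ord h := by
  obtain ⟨b, hb⟩ := X.bound
  set E := B.cuspDiv gF - X.D with hE
  have hle : E ≤ B.cuspDiv (gF + b) := Finsupp.le_def.mpr fun v => by
    have h := Finsupp.le_def.mp hb v
    rw [Finsupp.neg_apply] at h
    rw [hE, Finsupp.sub_apply, BadFibre.cuspDiv_add, Finsupp.add_apply]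
    omega
  have hst : ∀ s ∈ R.H, s.σ • E = E := fun s hs => by
    rw [hE, smul_sub, X.smul_D hs, RatFrame.smul_cuspDiv]
  have hdeg : Divisor.degree E = 2 * gF := by
    rw [hE, map_sub, X.degree_eq_zero, BadFibre.degree_cuspDiv, sub_zero]
  have hdim := B.rrF.finrank_eq E (by rw [hdeg]; omega)
  rw [hdeg] at hdim
  obtain ⟨h, ⟨hm, hr⟩, h0⟩ : ∃ h, h ∈ {x : F | x ∈ riemannRochSpace E ∧ x ∈ R.BL} ∧ h ≠ 0 := by
    by_contra hcon
    push Not at hcon
    have hbot : riemannRochSpace E = ⊥ := by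
      rw [← R.span_rat_of_stable hle hst, Submodule.span_eq_bot]
      exact hcon
    rw [hbot, finrank_bot] at hdim
    omega
  refine ⟨gF, h, hr, h0, ⟨_, FLTA.Curves.riemannRochSpace_mono hle hm⟩, fun v => ?_⟩
  have := (mem_riemannRochSpace_iff.mp hm v).resolve_left h0
  rw [hE, Finsupp.sub_apply] at this
  omega

theorem exists_dual {S : Finset (Place k Fk)} (E : EtaData R S) (hne : S.Nonempty) :
    ∃ Y : Datum R, ∀ (i : Fin 2) (Q : Place k Fk),
      (q : ℤ) ∣ Q.ord (R.ld i Y.f) + Q.ord (R.ld i X.f) := by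
  classical
  obtain ⟨m, h, hh, hh0, ⟨M, hM⟩, habove⟩ := X.exists_above
  obtain ⟨ψ, hψ, hψ0, ⟨N, hN⟩, hv0, hv1⟩ := E.exists_shift hne (-R.vs 0 h) (-R.vs 1 h)
  set z := h * ψ with hz
  have hzm : z ∈ R.BL := mul_mem hh hψ
  have hz0 : z ≠ 0 := mul_ne_zero hh0 hψ0
  have hvz : ∀ i, R.vs i z = 0 := Fin.forall_fin_two.mpr
    ⟨by rw [hz, R.vs_mul 0 hh hh0 hψ hψ0, hv0, add_neg_cancel],
      by rw [hz, R.vs_mul 1 hh hh0 hψ hψ0, hv1, add_neg_cancel]⟩
  obtain ⟨Z, hZ, -⟩ := B.rrF.principal.exists_divisor _ hz0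
  set y := z ^ q / X.f with hy
  have hy0 : y ≠ 0 := div_ne_zero (pow_ne_zero _ hz0) X.f_ne_zero
  have hD' : -(B.cuspDiv (m + N)) ≤ Z - X.D := Finsupp.le_def.mpr fun v => by
    rw [Finsupp.neg_apply, Finsupp.sub_apply, hZ, hz, Place.ord_mul _ hh0 hψ0,
      BadFibre.cuspDiv_add, Finsupp.add_apply]
    have h1 := habove v
    have h2 := (mem_riemannRochSpace_iff.mp hN v).resolve_left hψ0
    omega
  have hK : BadFibre.KummerFn q (Z - X.D) y := ⟨hy0, fun v => by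
    rw [hy, div_eq_mul_inv, Place.ord_mul _ (pow_ne_zero _ hz0) (inv_ne_zero X.f_ne_zero),
      FLTA.Curves.ord_pow, Place.ord_inv, ← X.kummer.ord_eq, Finsupp.sub_apply, hZ]
    ring⟩
  have hyF : y ∈ R.FL := div_mem (pow_mem (R.BL_le hzm) q) (R.BL_le X.mem)
  have hysec : y ∈ secRing B := by
    refine ⟨q * (m + N), FLTA.Curves.riemannRochSpace_mono ?_ hK.mem⟩
    rw [← BadFibre.natCast_smul_cuspDiv]
    refine Finsupp.le_def.mpr fun v => ?_
    have h1 := Finsupp.le_def.mp hD' v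
    rw [Finsupp.neg_apply] at h1
    have hq : (0 : ℤ) ≤ q := Int.natCast_nonneg q
    rw [Finsupp.neg_apply, Finsupp.smul_apply, Finsupp.smul_apply, smul_eq_mul, smul_eq_mul]
    nlinarith
  have hyB : y ∈ R.BL := R.mem_BL_of_secRing hyF hysec
  have hprod : y * X.f = z ^ q := div_mul_cancel₀ _ X.f_ne_zero
  have hvy : ∀ i, R.vs i y = 0 := fun i => by
    have h := R.vs_mul i hyB hy0 X.mem X.f_ne_zero
    rw [hprod, R.vs_pow i hzm hz0, hvz, X.vs_f] at h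
    omega
  refine ⟨⟨Z - X.D, y, hK, hyB, ⟨m + N, hD'⟩, hvy⟩, fun i Q => ⟨Q.ord (R.ld i z), ?_⟩⟩
  rw [← Place.ord_mul _ (R.ld_ne_zero i hyB hy0) (R.ld_ne_zero i X.mem X.f_ne_zero),
    ← R.ld_mul i hyB hy0 X.mem X.f_ne_zero, hprod, R.ld_pow i hzm hz0, FLTA.Curves.ord_pow]

end Datum

end FLTA.LevelLowering

end
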