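import Fermat.Agent.LevelLowering.RatFun

/-!
# Rational bases of stable finite dimensional spaces, adapted to reduction

* a finite dimensional space stable under the symmetries is spanned by rational functions;
* a space spanned by bounded rational functions has a rational basis whose expansions form the
  identity at chosen pivots, so integral elements have integral coordinates and their reductions
  are also reached by rational elements.
-/

set_option autoImplicit false

noncomputable section

open AlgebraicCurve FLTA.BadRed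

namespace FLTA.LevelLowering

variable {K : Type*} [Field K] {A : ValuationSubring K}
  {k : Type*} [Field k] {π : A →+* k} {q : ℕ} [NeZero q]
  {F : Type*} [Field F] [Algebra K F] {F' : Type*} [Field F'] [Algebra K F']
  {Fk : Type*} [Field Fk] [Algebra k Fk] {g gF : ℕ}
  {B : BadFibre A π q F F' Fk g gF}

namespace RatFrame

variable (R : RatFrame B)

/-- The coefficient of `e i x` at `n`. -/
def coord (B : BadFibre A π q F F' Fk g gF) (a : Fin 2 × ℤ) : F →ₗ[K] K where
  toFun x := (B.e a.1 x).coeff a.2
  map_add' x y := by rw [map_add, HahnSeries.coeff_add]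
  map_smul' c x := by
    have h := congrFun ((BadFibre.pair B).map_smul c x) a.1
    simp only [BadFibre.pair_apply, Pi.smul_apply] at h
    rw [h, HahnSeries.coeff_smul, RingHom.id_apply]

theorem coord_apply (a : Fin 2 × ℤ) (x : F) : coord B a x = (B.e a.1 x).coeff a.2 := rfl

theorem eq_zero_of_coord {x : F} (h : ∀ n : ℤ, coord B (0, n) x = 0) : x = 0 :=
  B.ex.toRingHom.injective (by
    show B.ex x = B.ex 0
    rw [map_zero]
    exact HahnSeries.ext (funext fun n => h n))

theorem exists_pivots (W : Submodule K F) [FiniteDimensional K W] :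
    ∃ (n : ℕ) (P : Fin n → Fin 2 × ℤ),
      Function.Bijective (LinearMap.pi fun j => (coord B (P j)).comp W.subtype) := by
  classical
  set φ : ℤ → Module.Dual K W := fun m => (coord B (0, m)).comp W.subtype with hφ
  have hspan : Submodule.span K (Set.range φ) = ⊤ := by
    rw [← Subspace.dualCoannihilator_dualAnnihilator_eq (W := Submodule.span K (Set.range φ)),
      show (Submodule.span K (Set.range φ)).dualCoannihilator = ⊥ from ?_,
      Submodule.dualAnnihilator_bot]
    refine (Submodule.eq_bot_iff _).mpr fun w hw => ?_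
    rw [Submodule.mem_dualCoannihilator] at hw
    exact Subtype.ext (eq_zero_of_coord fun m => hw _ (Submodule.subset_span ⟨m, rfl⟩))
  obtain ⟨s, hs, hsspan, hli⟩ := exists_linearIndependent K (Set.range φ)
  rw [hspan] at hsspan
  have hfin : s.Finite := hli.setFinite
  haveI := hfin.fintype
  let bd : Module.Basis s K (Module.Dual K W) :=
    Module.Basis.mk hli (by rw [Subtype.range_coe, hsspan])
  choose m hm using fun a : s => hs a.2
  refine ⟨Fintype.card s, fun j => (0, m ((Fintype.equivFin s).symm j)), ?_⟩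
  set Φ := LinearMap.pi fun j =>
    (coord B (0, m ((Fintype.equivFin s).symm j))).comp W.subtype
  have hinj : Function.Injective Φ := by
    rw [← LinearMap.ker_eq_bot, Submodule.eq_bot_iff]
    intro w hw
    by_contra hne
    obtain ⟨f, hf⟩ : ∃ f : Module.Dual K W, f w ≠ 0 := by
      by_contra h
      push Not at h
      exact hne ((Module.forall_dual_apply_eq_zero_iff K w).mp h)
    apply hf
    rw [← bd.sum_repr f, LinearMap.sum_apply]
    refine Finset.sum_eq_zero fun a _ => ?_
    have h1 : φ (m a) w = 0 := by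
      have h2 := congrFun (LinearMap.mem_ker.mp hw) (Fintype.equivFin s a)
      simpa [Φ, hφ] using h2
    rw [LinearMap.smul_apply, Module.Basis.mk_apply, ← hm a, h1, smul_zero]
  refine ⟨hinj, ?_⟩
  have hdim : Module.finrank K W = Fintype.card s := by
    rw [← Subspace.dual_finrank_eq, Module.finrank_eq_card_basis bd]
  exact (LinearMap.injective_iff_surjective_of_finrank_eq_finrank
    (by rw [hdim, Module.finrank_fintype_fun_eq_card, Fintype.card_fin])).mp hinj

/-- **Descent.** A stable finite dimensional space is spanned by rational functions. -/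
theorem span_rat_eq (W : Submodule K F) [FiniteDimensional K W]
    (hW : ∀ s ∈ R.H, ∀ x ∈ W, s.σ • x ∈ W) :
    Submodule.span K {x : F | x ∈ W ∧ x ∈ R.FL} = W := by
  classical
  refine le_antisymm (Submodule.span_le.mpr fun x hx => hx.1) fun x hx => ?_
  obtain ⟨n, P, hP⟩ := exists_pivots (B := B) W
  let Φ := LinearEquiv.ofBijective _ hP
  let b := (Pi.basisFun K (Fin n)).map Φ.symm
  have hb : ∀ j, (b j : F) ∈ R.FL := fun j s hs => by
    have hmem := hW s hs _ (b j).2
    suffices (⟨_, hmem⟩ : W) = b j from congrArg Subtype.val this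
    apply Φ.injective
    funext l
    have hbj : Φ (b j) = Pi.basisFun K (Fin n) j := by simp [b]
    have hbl : coord B (P l) (b j : F) = Pi.basisFun K (Fin n) j l := congrFun hbj l
    show coord B (P l) (s.σ • (b j : F)) = Φ (b j) l
    rw [hbj, coord_apply]
    have hσ : ∀ y : F, (B.e (P l).1 (s.σ • y)).coeff (P l).2 =
        SemilinearAut.baseAut s.σ ((B.e (P l).1 y).coeff (P l).2) := fun y => by
      revert y
      generalize (P l).1 = i
      intro y
      fin_cases i
      · exact s.ex_σ y _
      · show (B.ex (B.w (s.σ • y))).coeff _ = SemilinearAut.baseAut s.σ ((B.ex (B.w y)).coeff _)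
        rw [s.w_σ]
        exact s.ex_σ _ _
    rw [hσ, ← coord_apply, hbl, Pi.basisFun_apply, Pi.single_apply]
    split_ifs <;> simp
  have hrepr := b.sum_repr ⟨x, hx⟩
  have h2 := congrArg Subtype.val hrepr
  rw [AddSubmonoidClass.coe_finsetSum] at h2
  rw [← show _ = x from h2]
  exact Submodule.sum_mem _ fun j _ => by
    rw [Submodule.coe_smul]
    exact Submodule.smul_mem _ _ (Submodule.subset_span ⟨(b j).2, hb j⟩)

/-- A pivot basis: integral rational elements forming the identity at the pivots. -/
structure PivotBasis (W : Submodule K F) where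
  /-- the size -/
  n : ℕ
  /-- the basis -/
  b : Fin n → F
  /-- the pivots -/
  P : Fin n → Fin 2 × ℤ
  mem : ∀ j, b j ∈ W
  rat : ∀ j, b j ∈ R.BL
  int : ∀ j i, IntSeries A (B.e i (b j))
  delta : ∀ j l, coord B (P l) (b j) = if l = j then 1 else 0
  span : Submodule.span K (Set.range b) = W

theorem nonempty_pivotBasis_span (v : ℕ → F) (hv : ∀ j, v j ∈ R.BL) (m : ℕ) :
    Nonempty (PivotBasis R (Submodule.span K (v '' Set.Iio m))) := by
  classical
  induction m with
  | zero =>
    exact ⟨⟨0, Fin.elim0, Fin.elim0, fun j => j.elim0, fun j => j.elim0, fun j => j.elim0,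
      fun j => j.elim0, by simp⟩⟩
  | succ m ih =>
    obtain ⟨T⟩ := ih
    set W := Submodule.span K (v '' Set.Iio m) with hWdef
    have hsucc : Submodule.span K (v '' Set.Iio (m + 1)) = W ⊔ Submodule.span K {v m} := by
      rw [hWdef, ← Submodule.span_union]
      congr 1
      ext x
      simp only [Set.mem_image, Set.mem_Iio, Set.mem_union, Set.mem_singleton_iff]
      constructor
      · rintro ⟨j, hj, rfl⟩
        rcases Nat.lt_succ_iff_lt_or_eq.mp hj with h | h
        · exact Or.inl ⟨j, h, rfl⟩
        · exact Or.inr (by rw [h])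
      · rintro (⟨j, hj, rfl⟩ | rfl)
        · exact ⟨j, Nat.lt_succ_of_lt hj, rfl⟩
        · exact ⟨m, Nat.lt_succ_self m, rfl⟩
    have hcoordL : ∀ (a : Fin 2 × ℤ), ∀ x ∈ R.BL, coord B a x ∈ R.L := fun a x hx =>
      R.inL_e a.1 (R.BL_le hx) a.2
    have hsmul : ∀ c ∈ R.L, ∀ x ∈ R.BL, c • x ∈ R.BL := fun c hc x hx => by
      rw [Algebra.smul_def]
      exact mul_mem (R.algebraMap_mem_BL hc) hx
    -- clear the old pivots
    set v' := v m - ∑ j, coord B (T.P j) (v m) • T.b j with hv'
    have hv'rat : v' ∈ R.BL :=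
      sub_mem (hv m) (sum_mem fun j _ => hsmul _ (hcoordL _ _ (hv m)) _ (T.rat j))
    have hv'piv : ∀ l, coord B (T.P l) v' = 0 := fun l => by
      rw [hv', map_sub, map_sum, Finset.sum_eq_single l]
      · rw [map_smul, T.delta, if_pos rfl, smul_eq_mul, mul_one, sub_self]
      · intro j _ hj
        rw [map_smul, T.delta, if_neg hj.symm, smul_zero]
      · exact fun h => absurd (Finset.mem_univ l) h
    have hsum : ∑ j, coord B (T.P j) (v m) • T.b j ∈ W :=
      Submodule.sum_mem _ fun j _ => W.smul_mem _ (T.mem j)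
    have hspan' : W ⊔ Submodule.span K {v m} = W ⊔ Submodule.span K {v'} := by
      apply le_antisymm <;> refine sup_le le_sup_left ((Submodule.span_singleton_le_iff_mem _ _).mpr ?_)
      · rw [show v m = ∑ j, coord B (T.P j) (v m) • T.b j + v' by rw [hv']; abel]
        exact Submodule.add_mem_sup hsum (Submodule.mem_span_singleton_self _)
      · exact Submodule.sub_mem _ (Submodule.mem_sup_right (Submodule.mem_span_singleton_self _))
          (Submodule.mem_sup_left hsum)
    rcases eq_or_ne v' 0 with h0 | h0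
    · refine ⟨⟨T.n, T.b, T.P, fun j => ?_, T.rat, T.int, T.delta, ?_⟩⟩
      · rw [hsucc]; exact Submodule.mem_sup_left (T.mem j)
      · rw [T.span, hsucc, hspan', h0, Submodule.span_zero_singleton, sup_bot_eq]
    -- the side of least valuation and a unit coefficient there
    obtain ⟨i₀, hi₀⟩ : ∃ i₀ : Fin 2, ∀ i, R.vs i₀ v' ≤ R.vs i v' := by
      rcases le_total (R.vs 0 v') (R.vs 1 v') with h | h
      · exact ⟨0, Fin.forall_fin_two.mpr ⟨le_rfl, h⟩⟩
      · exact ⟨1, Fin.forall_fin_two.mpr ⟨h, le_rfl⟩⟩
    obtain ⟨j₀, hj₀⟩ : ∃ j₀, (redSeries A π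
        (R.ϖ ^ (-R.vs i₀ v') • B.e i₀ v')).coeff j₀ ≠ 0 := by
      by_contra h
      push Not at h
      exact (R.isVal_vs i₀ hv'rat h0).2 (HahnSeries.ext (funext fun i => h i))
    set c := coord B (i₀, j₀) v' with hc
    have hmem : R.ϖ ^ (-R.vs i₀ v') * c ∈ A := by
      simpa [HahnSeries.coeff_smul, coord_apply, hc] using (R.isVal_vs i₀ hv'rat h0).1 j₀
    have hu : π ⟨R.ϖ ^ (-R.vs i₀ v') * c, hmem⟩ ≠ 0 := fun h => hj₀ (by
      rw [redSeries_coeff, HahnSeries.coeff_smul, smul_eq_mul,
        show R.ϖ ^ (-R.vs i₀ v') * (B.e i₀ v').coeff j₀ =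
          ((⟨R.ϖ ^ (-R.vs i₀ v') * c, hmem⟩ : A) : K) from rfl, redCoeff_coe, h])
    have hc0 : c ≠ 0 := fun h => hu (by
      rw [show (⟨R.ϖ ^ (-R.vs i₀ v') * c, hmem⟩ : A) = 0 from Subtype.ext (by simp [h]), map_zero])
    have hinv := residue_ne_zero_inv_mem R.π_surjective hmem hu
    set bn := c⁻¹ • v' with hbn
    have hbnrat : bn ∈ R.BL := hsmul _ (inv_mem (hcoordL _ _ hv'rat)) _ hv'rat
    have hbnint : ∀ i, IntSeries A (B.e i bn) := fun i => by
      have h1 := ((R.isVal_vs i hv'rat h0).1).mono R.toFrame (hi₀ i)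
      have h2 : B.e i bn =
          (R.ϖ ^ (-R.vs i₀ v') * c)⁻¹ • (R.ϖ ^ (-R.vs i₀ v') • B.e i v') := by
        have h3 := congrFun ((BadFibre.pair B).map_smul c⁻¹ v') i
        simp only [BadFibre.pair_apply, Pi.smul_apply] at h3
        rw [hbn, h3, smul_smul, mul_inv, mul_comm _ c⁻¹, mul_assoc,
          inv_mul_cancel₀ (zpow_ne_zero _ R.ϖ_ne_zero), mul_one]
      rw [h2]
      exact IntSeries.smul hinv h1
    have hbnpiv : ∀ l, coord B (T.P l) bn = 0 := fun l => by
      rw [hbn, map_smul, hv'piv, smul_zero]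
    have hbnone : coord B (i₀, j₀) bn = 1 := by
      rw [hbn, map_smul, smul_eq_mul, ← hc, inv_mul_cancel₀ hc0]
    set b' : Fin T.n → F := fun j => T.b j - coord B (i₀, j₀) (T.b j) • bn with hb'
    have hbnmem : bn ∈ W ⊔ Submodule.span K {v'} :=
      Submodule.mem_sup_right (Submodule.smul_mem _ _ (Submodule.mem_span_singleton_self _))
    have hmem' : ∀ j, (Fin.snoc b' bn : Fin (T.n + 1) → F) j ∈ W ⊔ Submodule.span K {v'} := by
      intro j
      refine Fin.lastCases ?_ (fun l => ?_) j
      · simpa using hbnmem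
      · rw [Fin.snoc_castSucc]
        exact Submodule.sub_mem _ (Submodule.mem_sup_left (T.mem l))
          (Submodule.smul_mem _ _ hbnmem)
    refine ⟨⟨T.n + 1, Fin.snoc b' bn, Fin.snoc T.P (i₀, j₀), fun j => ?_, fun j => ?_,
      fun j i => ?_, fun j l => ?_, ?_⟩⟩
    · rw [hsucc, hspan']; exact hmem' j
    · refine Fin.lastCases ?_ (fun l => ?_) j
      · simpa using hbnrat
      · rw [Fin.snoc_castSucc]
        exact sub_mem (T.rat l) (hsmul _ (hcoordL _ _ (T.rat l)) _ hbnrat)
    · refine Fin.lastCases ?_ (fun l => ?_) j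
      · simpa using hbnint i
      · rw [Fin.snoc_castSucc, hb']
        have h3 := congrFun ((BadFibre.pair B).map_smul (coord B (i₀, j₀) (T.b l)) bn) i
        simp only [BadFibre.pair_apply, Pi.smul_apply] at h3
        simp only [map_sub, h3]
        exact IntSeries.sub (T.int l i) (IntSeries.smul (T.int l i₀ j₀) (hbnint i))
    · refine Fin.lastCases ?_ (fun l' => ?_) j <;> refine Fin.lastCases ?_ (fun l'' => ?_) l
      · simp [hbnone]
      · simp [hbnpiv, (Fin.castSucc_lt_last l'').ne]
      · simp [hb', hbnone, (Fin.castSucc_lt_last l').ne']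
      · simp [hb', hbnpiv, T.delta]
    · rw [hsucc, hspan']
      refine le_antisymm (Submodule.span_le.mpr ?_)
        (sup_le (T.span.symm.le.trans (Submodule.span_le.mpr ?_))
          ((Submodule.span_singleton_le_iff_mem _ _).mpr ?_))
      · rintro x ⟨j, rfl⟩
        exact hmem' j
      · rintro x ⟨j, rfl⟩
        have h1 : b' j ∈ Submodule.span K (Set.range (Fin.snoc b' bn : Fin (T.n + 1) → F)) :=
          Submodule.subset_span ⟨Fin.castSucc j, by simp⟩
        have h2 : bn ∈ Submodule.span K (Set.range (Fin.snoc b' bn : Fin (T.n + 1) → F)) :=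
          Submodule.subset_span ⟨Fin.last _, by simp⟩
        have h3 := Submodule.add_mem _ h1
          (Submodule.smul_mem _ (coord B (i₀, j₀) (T.b j)) h2)
        simpa [hb'] using h3
      · have h2 : bn ∈ Submodule.span K (Set.range (Fin.snoc b' bn : Fin (T.n + 1) → F)) :=
          Submodule.subset_span ⟨Fin.last _, by simp⟩
        have h3 := Submodule.smul_mem _ c h2
        rwa [hbn, smul_smul, mul_inv_cancel₀ hc0, one_smul] at h3

theorem nonempty_pivotBasis (W : Submodule K F) [FiniteDimensional K W]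
    (hW : Submodule.span K {x : F | x ∈ W ∧ x ∈ R.BL} = W) :
    Nonempty (PivotBasis R W) := by
  classical
  obtain ⟨t, ht, htspan, hli⟩ := exists_linearIndependent K {x : F | x ∈ W ∧ x ∈ R.BL}
  rw [hW] at htspan
  have hfin : t.Finite := by
    have hli' : LinearIndependent K (fun x : t => (⟨x.1, (ht x.2).1⟩ : W)) :=
      LinearIndependent.of_comp W.subtype hli
    haveI := hli'.finite
    exact Set.toFinite t
  set l := hfin.toFinset.toList with hl
  let v : ℕ → F := fun j => l.getD j 0
  have hv : ∀ j, v j ∈ R.BL := fun j => by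
    by_cases h : j < l.length
    · have hm : v j ∈ t := by
        show l.getD j 0 ∈ t
        rw [List.getD_eq_getElem _ _ h]
        exact hfin.mem_toFinset.mp (Finset.mem_toList.mp (List.getElem_mem h))
      exact (ht hm).2
    · show l.getD j 0 ∈ R.BL
      rw [List.getD_eq_default _ _ (not_lt.mp h)]
      exact R.BL.zero_mem
  have himg : v '' Set.Iio l.length = t := by
    ext x
    constructor
    · rintro ⟨j, hj, rfl⟩
      show l.getD j 0 ∈ t
      rw [List.getD_eq_getElem _ _ hj]
      exact hfin.mem_toFinset.mp (Finset.mem_toList.mp (List.getElem_mem hj))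
    · intro hx
      obtain ⟨j, hj, rfl⟩ :=
        List.getElem_of_mem (Finset.mem_toList.mpr (hfin.mem_toFinset.mpr hx))
      exact ⟨j, hj, List.getD_eq_getElem _ _ hj⟩
  have h := R.nonempty_pivotBasis_span v hv l.length
  rwa [himg, htspan] at h

/-- Integral elements of a rationally spanned space reduce like rational integral elements. -/
theorem exists_rat_lift (W : Submodule K F) [FiniteDimensional K W]
    (hW : Submodule.span K {x : F | x ∈ W ∧ x ∈ R.BL} = W) {x : F} (hx : x ∈ W)
    (hint : ∀ i, IntSeries A (B.e i x)) :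
    ∃ x' ∈ W, x' ∈ R.BL ∧ (∀ i, IntSeries A (B.e i x')) ∧
      ∀ i, redSeries A π (B.e i x') = redSeries A π (B.e i x) := by
  classical
  obtain ⟨T⟩ := R.nonempty_pivotBasis W hW
  rw [← T.span, Submodule.mem_span_range_iff_exists_fun] at hx
  obtain ⟨c, rfl⟩ := hx
  have hc : ∀ j, c j ∈ A := fun j => by
    have h : coord B (T.P j) (∑ l, c l • T.b l) = c j := by
      rw [map_sum, Finset.sum_eq_single j]
      · rw [map_smul, T.delta, if_pos rfl, smul_eq_mul, mul_one]
      · intro l _ hl
        rw [map_smul, T.delta, if_neg hl.symm, smul_zero]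
      · exact fun h => absurd (Finset.mem_univ j) h
    exact h ▸ hint _ _
  choose u huL huπ using fun j => R.exists_lift (π ⟨c j, hc j⟩)
  have he : ∀ (d : Fin T.n → K) i,
      B.e i (∑ l, d l • T.b l) = ∑ l, d l • B.e i (T.b l) := fun d i => by
    rw [map_sum]
    refine Finset.sum_congr rfl fun l _ => ?_
    have h3 := congrFun ((BadFibre.pair B).map_smul (d l) (T.b l)) i
    simpa only [BadFibre.pair_apply, Pi.smul_apply] using h3
  refine ⟨∑ l, (u l : K) • T.b l, Submodule.sum_mem _ fun l _ => W.smul_mem _ (T.mem l),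
    sum_mem fun l _ => ?_, fun i => ?_, fun i => ?_⟩
  · rw [Algebra.smul_def]
    exact mul_mem (R.algebraMap_mem_BL (huL l)) (T.rat l)
  · rw [he]
    exact IntSeries.sum _ _ fun l _ => IntSeries.smul (u l).2 (T.int l i)
  · rw [he, he, redSeries_sum fun l _ => IntSeries.smul (u l).2 (T.int l i),
      redSeries_sum fun l _ => IntSeries.smul (hc l) (T.int l i)]
    refine Finset.sum_congr rfl fun l _ => ?_
    rw [redSeries_smul (u l).2 (T.int l i), redSeries_smul (hc l) (T.int l i)]
    exact congrArg (· • _) (huπ l)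

theorem smul_cusp (s : B.Sym) (i : Fin 2) : s.σ • B.P i = B.P i := by
  refine FLTA.Curves.place_ext_ord fun x => ?_
  rcases eq_or_ne x 0 with rfl | hx
  · simp
  have h := SemilinearAut.ord_smul s.σ (B.P i) (s.σ⁻¹ • x)
  rw [smul_inv_smul] at h
  rw [h]
  have hne : s.σ⁻¹ • x ≠ 0 := by
    intro h0
    apply hx
    have := congrArg (fun z => s.σ • z) h0
    simpa [smul_zero] using this
  rw [B.ord_P i hne, B.ord_P i hx]
  have key : ∀ y : F, y ≠ 0 → (B.e i (s.σ • y)).order = (B.e i y).order := by
    intro y hy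
    have hcoeff : ∀ j, (B.e i (s.σ • y)).coeff j =
        SemilinearAut.baseAut s.σ ((B.e i y).coeff j) := fun j => by
      fin_cases i
      · exact s.ex_σ y j
      · show (B.ex (B.w (s.σ • y))).coeff j = _
        rw [s.w_σ]
        exact s.ex_σ _ _
    have hyne : B.e i y ≠ 0 := (map_ne_zero _).mpr hy
    have hsne : B.e i (s.σ • y) ≠ 0 := (map_ne_zero _).mpr (fun h0 => hy (by
      have := congrArg (fun z => s.σ⁻¹ • z) h0
      simpa [smul_zero] using this))
    apply le_antisymm
    · refine HahnSeries.order_le_of_coeff_ne_zero ?_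
      rw [hcoeff]
      exact (map_ne_zero _).mpr (mt HahnSeries.coeff_order_eq_zero.mp hyne)
    · refine HahnSeries.order_le_of_coeff_ne_zero fun h0 => ?_
      exact mt HahnSeries.coeff_order_eq_zero.mp hsne (by rw [hcoeff, h0, map_zero])
  have := key _ hne
  rwa [smul_inv_smul, eq_comm] at this

theorem span_rat_cusp (m : ℕ) :
    Submodule.span K {x : F | x ∈ riemannRochSpace (B.cuspDiv m) ∧ x ∈ R.BL}
      = riemannRochSpace (B.cuspDiv m) := by
  have := B.rrF.finiteDimensional (B.cuspDiv m)
  have hst : ∀ s ∈ R.H, ∀ x ∈ riemannRochSpace (B.cuspDiv m),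
      s.σ • x ∈ riemannRochSpace (B.cuspDiv m) := fun s _ x hx => by
    rw [mem_riemannRochSpace_iff] at hx ⊢
    intro v
    rcases hx (s.σ⁻¹ • v) with h | h
    · exact Or.inl (by rw [h, smul_zero])
    · refine Or.inr ?_
      have h1 := SemilinearAut.ord_smul s.σ (s.σ⁻¹ • v) x
      rw [smul_inv_smul] at h1
      rw [h1]
      have h2 : s.σ • B.cuspDiv m = B.cuspDiv m := by
        rw [BadFibre.cuspDiv, smul_add, SemilinearAut.smul_single, SemilinearAut.smul_single,
          smul_cusp, smul_cusp]
      rwa [← SemilinearAut.divisor_smul_apply, h2] at h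
  conv_rhs => rw [← R.span_rat_eq _ hst]
  congr 1
  ext x
  exact ⟨fun h => ⟨h.1, R.BL_le h.2⟩, fun h => ⟨h.1, R.mem_BL_of_section h.2 h.1⟩⟩

end RatFrame

end FLTA.LevelLowering

end
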