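import Fermat.Agent.LevelLowering.EtaInstanceG
import Fermat.Agent.LevelLowering.LocalIneq
import Fermat.Agent.LevelLowering.RatBasis

/-!
# The eta quotient as `EtaData` of a modular `BadFibre`
-/

set_option autoImplicit false
set_option synthInstance.maxHeartbeats 400000
set_option linter.unusedSectionVars false
set_option linter.style.haveILetI false

noncomputable section

open AlgebraicCurve ModularCurve FLTA.BadRed

namespace FLTA.LevelLowering

local notation "Qb" => AlgebraicClosure ℚ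

section Generic

variable {K : Type*} [Field K] [CharZero K] {A : ValuationSubring K} {k : Type*} [Field k]
  {π : A →+* k} {q : ℕ} [NeZero q] [Fact q.Prime]
  {F : Type*} [Field F] [Algebra K F] {F' : Type*} [Field F'] [Algebra K F']
  {Fk : Type*} [Field Fk] [Algebra k Fk] {g gF : ℕ} {B : BadFibre A π q F F' Fk g gF}

/-- Away from the two cusps a place lies over a place different from `inf`. -/
theorem exists_under_ne_inf {v : Place K F} (h0 : v ≠ B.P 0) (h1 : v ≠ B.P 1) :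
    ∃ (u : Place K F') (e : ℕ), 0 < e ∧ u ≠ B.inf ∧
      ∀ z : F', v.ord (B.a z) = e * u.ord z := by
  have hq : 2 ≤ q := Nat.Prime.two_le Fact.out
  letI := algebraAlong B.a
  haveI := isScalarTower_along B.a
  haveI : Module.Finite F' F := B.finite_a
  haveI : Algebra.IsIntegral F' F := Algebra.IsIntegral.of_finite F' F
  refine ⟨v.restrict F', v.ramificationIndex F', v.ramificationIndex_pos, fun hu => ?_,
    fun z => v.ord_restrict z⟩
  obtain ⟨y, hy0, hy, hyo⟩ := B.rr'.exists_ord_eq_neg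
    (D := Finsupp.single B.inf ((2 * g + 1 : ℕ) : ℤ))
    (by rw [B.rr'.degree_single_eq]; omega) B.inf
  rw [Finsupp.single_eq_same] at hyo
  have hneg : v.ord (B.a y) < 0 := by
    rw [show v.ord (B.a y) = v.ramificationIndex F' * (v.restrict F').ord y from v.ord_restrict y,
      hu, hyo]
    have := v.ramificationIndex_pos (F := F')
    push_cast
    nlinarith
  rcases B.eq_P_of_ord_neg hq (x := y) (fun w hw => by
      simpa [Finsupp.single_eq_of_ne hw] using
        (FLTA.PlaceRed.RRCurve.mem_iff hy0).mp hy w) hneg with h | h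
  · exact h0 h
  · exact h1 h

theorem mem_secRing_of_ord_nonneg {z : F}
    (h : ∀ v : Place K F, v ≠ B.P 0 → v ≠ B.P 1 → 0 ≤ v.ord z) : z ∈ secRing B := by
  have hq : 2 ≤ q := Nat.Prime.two_le Fact.out
  rw [mem_secRing_iff]
  refine ⟨(max (-(B.P 0).ord z) (-(B.P 1).ord z)).toNat, ?_⟩
  rw [mem_riemannRochSpace_iff]
  intro v
  refine Or.inr ?_
  by_cases h0 : v = B.P 0
  · rw [h0, BadFibre.cuspDiv_apply B hq]; omega
  by_cases h1 : v = B.P 1
  · rw [h1, BadFibre.cuspDiv_apply B hq]; omega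
  rw [BadFibre.cuspDiv_apply_of_ne B _ h0 h1, neg_zero]
  exact h v h0 h1

theorem ord_frobq_smul_of_fixed {x : Fk} (hx : B.frobq • x = x) (Q : Place k Fk) :
    (B.frobq • Q).ord x = Q.ord x := ord_pt_of_fixed hx Q 1

/-- A rational section with the reduction of a given lift, vanishing at the poles of `j` away
from the cusps. -/
theorem exists_rat_section [IsAlgClosed K] [IsAlgClosed k] [CharP k q] (R : RatFrame B)
    {jF : F} {jF' : F'} (haj : B.a jF' = jF) (hj0 : ∀ s : B.Sym, s.σ • jF = jF) {w : ℤ}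
    (hw : 0 ≤ w) {l : ℕ} (x : B.R.O)
    (hxl : (x : F') ∈ riemannRochSpace (Finsupp.single B.inf (l : ℤ)))
    (hxv : ∀ v : Place K F', v ≠ B.inf → w * max (-v.ord jF') 0 ≤ v.ord (x : F'))
    (hb0 : B.R.red x ≠ 0) :
    ∃ φ ∈ R.BL, φ ≠ 0 ∧ (∀ i, R.vs i φ = 0) ∧ φ ∈ secRing B ∧ R.ld 0 φ = B.R.red x ∧
      R.ld 1 φ = B.iota (B.R.red x) ∧
      ∀ v : Place K F, v ≠ B.P 0 → v ≠ B.P 1 → w * max (-v.ord jF) 0 ≤ v.ord φ := by
  classical
  have hq : 2 ≤ q := Nat.Prime.two_le Fact.out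
  have hx0 : (x : F') ≠ 0 := B.R.coe_ne_zero hb0
  set P := ((B.rrF.poleDiv jF).erase (B.P 0)).erase (B.P 1) with hP
  have hPv : ∀ v, v ≠ B.P 0 → v ≠ B.P 1 → P v = max (-v.ord jF) 0 := fun v h0 h1 => by
    rw [hP, Finsupp.erase_ne h1, Finsupp.erase_ne h0, FLTA.PlaceRed.RRCurve.poleDiv_apply]
  have hP0 : 0 ≤ P := Finsupp.le_def.mpr fun v => by
    rw [hP, Finsupp.erase_apply, Finsupp.erase_apply, FLTA.PlaceRed.RRCurve.poleDiv_apply]
    split_ifs <;> simp
  have hPi : ∀ i, P (B.P i) = 0 := Fin.forall_fin_two.mpr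
    ⟨by rw [hP, Finsupp.erase_ne (BadFibre.P_zero_ne_P_one B hq), Finsupp.erase_same],
      by rw [hP, Finsupp.erase_same]⟩
  set D : Divisor K F :=
    B.cuspDiv (q * l) - w • P with hD
  have hDv : ∀ v, v ≠ B.P 0 → v ≠ B.P 1 →
      D v = -(w * max (-v.ord jF) 0) := fun v h0 h1 => by
    rw [hD, Finsupp.sub_apply, Finsupp.smul_apply, hPv v h0 h1,
      BadFibre.cuspDiv_apply_of_ne B _ h0 h1, smul_eq_mul, zero_sub]
  have hDle : D ≤ B.cuspDiv (q * l) := by
    rw [hD, sub_le_self_iff]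
    exact smul_nonneg hw hP0
  set W := riemannRochSpace D with hW
  haveI : FiniteDimensional K W := B.rrF.finiteDimensional D
  -- the lift lies in `W`
  have hφ₀ : B.a (x : F') ∈ W := by
    rw [hW, mem_riemannRochSpace_iff]
    intro v
    refine Or.inr ?_
    by_cases h0 : v = B.P 0
    · have h := (mem_riemannRochSpace_iff.mp (B.a_mem_riemannRochSpace hq hxl) v).resolve_left
        ((map_ne_zero B.a).mpr hx0)
      rw [h0] at h ⊢
      rwa [hD, Finsupp.sub_apply, Finsupp.smul_apply, hPi 0, smul_zero, sub_zero]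
    by_cases h1 : v = B.P 1
    · have h := (mem_riemannRochSpace_iff.mp (B.a_mem_riemannRochSpace hq hxl) v).resolve_left
        ((map_ne_zero B.a).mpr hx0)
      rw [h1] at h ⊢
      rwa [hD, Finsupp.sub_apply, Finsupp.smul_apply, hPi 1, smul_zero, sub_zero]
    obtain ⟨u, e, he, hu, hord⟩ := exists_under_ne_inf h0 h1
    rw [hDv v h0 h1, neg_neg, hord, ← haj, hord]
    have h := hxv u hu
    have hmax : max (-((e : ℤ) * u.ord jF')) 0 = e * max (-u.ord jF') 0 := by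
      rw [mul_max_of_nonneg _ _ (Int.natCast_nonneg e), mul_zero, mul_neg]
    rw [hmax, mul_left_comm]
    exact mul_le_mul_of_nonneg_left h (Int.natCast_nonneg e)
  -- `W` is rationally spanned
  have hWsec : ∀ z ∈ W, z ∈ secRing B := fun z hz =>
    ⟨q * l, FLTA.PlaceRed.RRCurve.space_mono hDle hz⟩
  have hspan : Submodule.span K {z | z ∈ W ∧ z ∈ R.BL} = W := by
    have hst : ∀ s ∈ R.H, ∀ z ∈ W, s.σ • z ∈ W := fun s _ z hz => by
      rw [hW, mem_riemannRochSpace_iff] at hz ⊢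
      intro v
      rcases hz (s.σ⁻¹ • v) with h | h
      · exact Or.inl (by rw [h, smul_zero])
      refine Or.inr ?_
      have h1 := SemilinearAut.ord_smul s.σ (s.σ⁻¹ • v) z
      rw [smul_inv_smul] at h1
      rw [h1]
      have hiff : ∀ i, s.σ⁻¹ • v = B.P i ↔ v = B.P i := fun i => by
        rw [inv_smul_eq_iff, RatFrame.smul_cusp]
      suffices D (s.σ⁻¹ • v) = D v by rwa [this] at h
      by_cases h0 : v = B.P 0
      · rw [(hiff 0).mpr h0, ← h0]
      by_cases h1' : v = B.P 1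
      · rw [(hiff 1).mpr h1', ← h1']
      rw [hDv v h0 h1', hDv _ (mt (hiff 0).mp h0) (mt (hiff 1).mp h1')]
      have hj := SemilinearAut.ord_smul s.σ (s.σ⁻¹ • v) jF
      rw [smul_inv_smul, hj0] at hj
      rw [hj]
    conv_rhs => rw [← R.span_rat_eq W hst]
    congr 1
    ext z
    exact ⟨fun h => ⟨h.1, R.BL_le h.2⟩,
      fun h => ⟨h.1, R.mem_BL_of_secRing h.2 (hWsec z h.1)⟩⟩
  obtain ⟨hint, hred⟩ := isRed_a_of_mem x hxl hb0
  obtain ⟨φ, hφW, hφBL, hφint, hφred⟩ := R.exists_rat_lift W hspan hφ₀ hint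
  set b := B.R.red x
  have hb : ∀ i, redSeries A π (B.e i φ) = B.exk (![b, B.iota b] i) := fun i => by
    rw [hφred i, hred i]
  have hbi : ∀ i, B.exk (![b, B.iota b] i) ≠ 0 := Fin.forall_fin_two.mpr
    ⟨(map_ne_zero B.exk).mpr hb0, (map_ne_zero B.exk).mpr ((map_ne_zero B.iota).mpr hb0)⟩
  have hval : ∀ i, R.toFrame.IsVal (B.e i φ) 0 ∧
      R.toFrame.lead (B.e i φ) = B.exk (![b, B.iota b] i) := fun i => by
    have h : R.toFrame.IsVal (B.e i φ) 0 :=
      ⟨(R.toFrame.ge_zero_iff _).mpr (hφint i), by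
        rw [neg_zero, zpow_zero, one_smul, hb]; exact hbi i⟩
    exact ⟨h, by rw [h.lead_eq R.toFrame, neg_zero, zpow_zero, one_smul, hb]⟩
  have hφ0 : φ ≠ 0 := fun h => by
    have := (hval 0).1.ne_zero R.toFrame
    rw [h, map_zero] at this
    exact this rfl
  have hld : ∀ i, R.ld i φ = ![b, B.iota b] i := fun i => by
    apply B.exk.toRingHom.injective
    show B.exk _ = B.exk _
    rw [R.exk_ld i hφBL hφ0, (hval i).2]
  refine ⟨φ, hφBL, hφ0, fun i => (hval i).1.val_eq R.toFrame, hWsec φ hφW, hld 0, hld 1,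
    fun v h0 h1 => ?_⟩
  have h := (FLTA.PlaceRed.RRCurve.mem_iff hφ0).mp hφW v
  rwa [hDv v h0 h1, neg_neg] at h

end Generic

variable {A : ValuationSubring Qb} {k : Type} [Field k] [IsAlgClosed k] {π : A →+* k} {q : ℕ}
  [NeZero q] [Fact q.Prime] [CharP k q] {N : ℕ} [NeZero N] {g gF : ℕ}
  {B : BadFibre A π q (modularFunctionFieldBar (N * q)) (modularFunctionFieldBar N)
      (modularFunctionFieldFullC k N) g gF}

namespace IsModularFibre

variable (hB : IsModularFibre B)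
include hB

local notation "GG" => etaUnit q (N * q) (dvd_mul_left q N)

theorem ne_infk_of_jFin {Q : Place k (modularFunctionFieldFullC k N)} (hQ : JFin Q) :
    Q ≠ B.infk := by
  rintro rfl
  have h : B.infk.ord (jK k N) = -1 := by
    rw [B.ord_infk _ fun h => jqModC_ne_zero_of_nontrivial k (congrArg Subtype.val h), hB.exk_eq]
    exact order_jqModC k
  unfold JFin at hQ
  omega

/-- A rational section clearing the poles of `G` and `w G`, with prescribed orders at two finite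
places of the reduced curve. -/
theorem exists_clearing (hqN : ¬ q ∣ N) (R : RatFrame B)
    {Q₀ Q₁ : Place k (modularFunctionFieldFullC k N)} (h₀ : Q₀ ≠ B.infk) (h₁ : Q₁ ≠ B.infk) :
    ∃ φ ∈ R.BL, φ ≠ 0 ∧ (∀ i, R.vs i φ = 0) ∧ φ ∈ secRing B ∧ φ * GG ∈ secRing B ∧
      φ * B.w GG ∈ secRing B ∧ ∃ b, R.ld 0 φ = b ∧ R.ld 1 φ = B.iota b ∧ b ≠ 0 ∧
        Q₀.ord b = ((q : ℤ) - 1) * max (-Q₀.ord (jK k N)) 0 ∧
        Q₁.ord b = ((q : ℤ) - 1) * max (-Q₁.ord (jK k N)) 0 := by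
  obtain ⟨l, x, hxl, hxv, hb0, hQ₀, hQ₁⟩ := hB.exists_lift_prescribed hqN h₀ h₁
  have hw : (0 : ℤ) ≤ (q : ℤ) - 1 := by have := NeZero.pos q; omega
  obtain ⟨φ, hφ, hφ0, hvs, hsec, hl0, hl1, hv⟩ :=
    exists_rat_section R hB.a_jBar hB.sym_smul_jBar hw x hxl hxv hb0
  have hprod : ∀ y, y ≠ 0 → (∀ v : Place Qb (modularFunctionFieldBar (N * q)),
      -(((q : ℤ) - 1) * max (-v.ord (jBar (N * q))) 0) ≤ v.ord y) → φ * y ∈ secRing B :=
    fun y hy0 hy => mem_secRing_of_ord_nonneg fun v h0 h1 => by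
      have h := hv v h0 h1
      have h' := hy v
      rw [v.ord_mul hφ0 hy0]
      linarith
  exact ⟨φ, hφ, hφ0, hvs, hsec,
    hprod _ (etaUnit_ne_zero q _ _) fun v => (hB.ord_G_bounds v).1,
    hprod _ ((map_ne_zero B.w).mpr (etaUnit_ne_zero q _ _)) fun v => (hB.ord_G_bounds v).2,
    B.R.red x, hl0, hl1, hb0, hQ₀, hQ₁⟩

/-- The glued places lie over finite `j`. -/
theorem jFin_of_mem (hqN : ¬ q ∣ N) (R : RatFrame B) {e : ℕ} (he : 0 < e) {u : A}
    (hu : π u ≠ 0) (hqe : (q : Qb) = R.ϖ ^ e * u)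
    {S : Finset (Place k (modularFunctionFieldFullC k N))} {m₀ : ℕ} (hS : B.IsGluing S m₀)
    {Q : Place k (modularFunctionFieldFullC k N)} (hQ : Q ∈ S) : JFin Q := by
  by_contra hneg
  have hne : Q ≠ B.infk := fun h => hS.infk_notMem (h ▸ hQ)
  obtain ⟨φ, hφ, hφ0, hvs, -, hG, -, b, hb, -, -, hord, -⟩ := hB.exists_clearing hqN R hne hne
  have hGBL := hB.G_mem_BL R
  have hG0 := etaUnit_ne_zero q (N * q) (dvd_mul_left q N)
  have h := R.ord_pos_of_glue hS (mul_mem hφ hGBL) (mul_ne_zero hφ0 hG0) hG (i := 0) (j := 1)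
    (by decide) (by rw [R.vs_mul 0 hφ hφ0 hGBL hG0, hvs, hB.vs_zero_G, add_zero])
    (by rw [R.vs_mul 1 hφ hφ0 hGBL hG0, hvs, hB.vs_one_G R hu hqe, zero_add]; omega) hQ
  rw [pt_zero, R.ld_mul 0 hφ hφ0 hGBL hG0,
    Place.ord_mul _ (R.ld_ne_zero 0 hφ hφ0) (R.ld_ne_zero 0 hGBL hG0), hb, hord,
    hB.ord_ld_zero_G_of_pole R hneg, max_eq_left (by unfold JFin at hneg; omega)] at h
  linarith

end IsModularFibre

/-- The eta quotient of a modular fibre over any frame. -/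
theorem exists_etaData (hB : IsModularFibre B) (hqN : ¬ q ∣ N) (R : RatFrame B) {e : ℕ}
    (he : 0 < e) {u : A} (huL : (u : Qb) ∈ R.L) (hu : π u ≠ 0) (hqe : (q : Qb) = R.ϖ ^ e * u)
    {S : Finset (Place k (modularFunctionFieldFullC k N))} {m₀ : ℕ} (hS : B.IsGluing S m₀) :
    ∃ E : EtaData R S, E.G = etaUnit q (N * q) (dvd_mul_left q N) ∧ E.e = e ∧ E.u = u ∧
      E.IsFin = JFin := by
  refine ⟨⟨etaUnit q (N * q) (dvd_mul_left q N), e, he, u, huL, hu, hqe, etaUnit_ne_zero q _ _,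
    hB.G_mem_BL R, hB.vs_zero_G R, (mul_comm _ _).trans hB.w_G_mul, hB.frobq_ld_zero_G R,
    JFin, fun Q hQ => hB.jFin_of_mem hqN R he hu hqe hS hQ,
    fun Q hQ => hB.ord_ld_zero_G_nonneg R hQ, fun Q hQ => ?_⟩, rfl, rfl, rfl, rfl⟩
  have hf : ∀ P : Place k (modularFunctionFieldFullC k N),
      (B.frobq • P).ord (jK k N) = P.ord (jK k N) := fun P =>
    ord_frobq_smul_of_fixed hB.frobq_jK P
  have hQ' : JFin (B.frobq • B.frobq • Q) := by
    unfold JFin
    rw [hf, hf]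
    exact hQ
  have hz : ∀ P : Place k (modularFunctionFieldFullC k N), JFin P →
      ((q : ℤ) - 1) * max (-P.ord (jK k N)) 0 = 0 := fun P hP => by
    unfold JFin at hP
    rw [max_eq_right (by omega), mul_zero]
  obtain ⟨φ, hφ, hφ0, hvs, hsec, hG, hwG, b, hb, hb', -, h₀, h₁⟩ :=
    hB.exists_clearing hqN R (hB.ne_infk_of_jFin hQ) (hB.ne_infk_of_jFin hQ')
  refine ⟨φ, hφ, hφ0, hvs, Fin.forall_fin_two.mpr ⟨?_, ?_⟩, hsec, hG, hwG⟩
  · rw [pt_zero, hb, h₀, hz Q hQ]
  · rw [pt_one, hb', B.ord_iota, h₁, hz _ hQ', mul_zero]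

end FLTA.LevelLowering

end
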