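import Fermat.Prelude.Def_ModularCurve_ModularUnit
import Fermat.Prelude.Def_ModularCurve_LaurentCoeff
import Fermat.Prelude.Def_ModularCurve_JqCoeff
import Fermat.Prelude.Thm_ModularCurve_coeffMap_qExpand
import Fermat.Agent.Congruence.Twist

/-!
# The series `Δ(q) / Δ(q ^ p)` over any commutative ring
-/

set_option autoImplicit false

noncomputable section

open ModularCurve HahnSeries

namespace FLTA.LevelLowering

variable (R : Type*) [CommRing R]

/-- The expansion of `Δ`. -/
def deltaLaurent : LaurentSeries R :=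
  HahnSeries.single (1 : ℤ) 1 *
    HahnSeries.ofPowerSeries ℤ R (dedekindEtaUnit.map (Int.castRingHom R))

/-- The expansion of `1 / Δ`. -/
def deltaLaurentInv : LaurentSeries R :=
  HahnSeries.single (-1 : ℤ) 1 *
    HahnSeries.ofPowerSeries ℤ R (dedekindEtaUnitInv.map (Int.castRingHom R))

/-- The expansion of `Δ(τ) / Δ(pτ)`. -/
def etaSeries (p : ℕ) [NeZero p] : LaurentSeries R :=
  deltaLaurent R * qExpand R p (deltaLaurentInv R)

/-- The expansion of `Δ(pτ) / Δ(τ)`. -/
def etaSeriesInv (p : ℕ) [NeZero p] : LaurentSeries R :=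
  deltaLaurentInv R * qExpand R p (deltaLaurent R)

variable {R}

theorem deltaLaurent_mul_inv : deltaLaurent R * deltaLaurentInv R = 1 := by
  rw [deltaLaurent, deltaLaurentInv, mul_mul_mul_comm, HahnSeries.single_mul_single, ← map_mul,
    ← map_mul, dedekindEtaUnit_mul_inv, map_one, map_one]
  simp

theorem etaSeries_mul_inv (p : ℕ) [NeZero p] : etaSeries R p * etaSeriesInv R p = 1 := by
  rw [etaSeries, etaSeriesInv, mul_mul_mul_comm, deltaLaurent_mul_inv, ← map_mul,
    mul_comm (deltaLaurentInv R), deltaLaurent_mul_inv, map_one, mul_one]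

theorem coeffMap_ofPowerSeries {S : Type*} [CommRing S] (f : R →+* S) (u : PowerSeries R) :
    coeffMap f (HahnSeries.ofPowerSeries ℤ R u) = HahnSeries.ofPowerSeries ℤ S (u.map f) := by
  ext k
  rw [coeffMap_coeff]
  rcases le_or_gt 0 k with hk | hk
  · lift k to ℕ using hk
    rw [HahnSeries.ofPowerSeries_apply_coeff, HahnSeries.ofPowerSeries_apply_coeff,
      PowerSeries.coeff_map]
  · rw [ofPowerSeries_coeff_of_neg _ hk, ofPowerSeries_coeff_of_neg _ hk, map_zero]

theorem map_intCast_powerSeries {S : Type*} [CommRing S] (f : R →+* S) (u : PowerSeries ℤ) :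
    (u.map (Int.castRingHom R)).map f = u.map (Int.castRingHom S) := by
  ext n
  simp

theorem coeffMap_deltaLaurent {S : Type*} [CommRing S] (f : R →+* S) :
    coeffMap f (deltaLaurent R) = deltaLaurent S := by
  rw [deltaLaurent, map_mul, coeffMap_single, map_one, coeffMap_ofPowerSeries,
    map_intCast_powerSeries, deltaLaurent]

theorem coeffMap_deltaLaurentInv {S : Type*} [CommRing S] (f : R →+* S) :
    coeffMap f (deltaLaurentInv R) = deltaLaurentInv S := by
  rw [deltaLaurentInv, map_mul, coeffMap_single, map_one, coeffMap_ofPowerSeries,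
    map_intCast_powerSeries, deltaLaurentInv]

/-- Base change of the eta quotient: its coefficients are in the image of `ℤ`. -/
theorem coeffMap_etaSeries {S : Type*} [CommRing S] (f : R →+* S) (p : ℕ) [NeZero p] :
    coeffMap f (etaSeries R p) = etaSeries S p := by
  rw [etaSeries, map_mul, ModularCurve.coeffMap_qExpand, coeffMap_deltaLaurent,
    coeffMap_deltaLaurentInv, etaSeries]

theorem coeffMap_etaSeriesInv {S : Type*} [CommRing S] (f : R →+* S) (p : ℕ) [NeZero p] :
    coeffMap f (etaSeriesInv R p) = etaSeriesInv S p := by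
  rw [etaSeriesInv, map_mul, ModularCurve.coeffMap_qExpand, coeffMap_deltaLaurent,
    coeffMap_deltaLaurentInv, etaSeriesInv]

theorem deltaLaurent_rat : deltaLaurent ℚ = deltaSeries := rfl

theorem etaSeries_rat (p : ℕ) [NeZero p] : etaSeries ℚ p = modularUnitSeries p := by
  have h : deltaLaurentInv ℚ = deltaSeries⁻¹ := by
    refine eq_inv_of_mul_eq_one_right ?_
    rw [← deltaLaurent_rat, deltaLaurent_mul_inv]
  rw [etaSeries, deltaLaurent_rat, h, map_inv₀, modularUnitSeries, deltaSeriesN]

theorem etaSeries_ne_zero [Nontrivial R] (p : ℕ) [NeZero p] : etaSeries R p ≠ 0 := fun h => by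
  simpa [h] using etaSeries_mul_inv (R := R) p

theorem coeff_etaSeries_eq_intCast (p : ℕ) [NeZero p] (i : ℤ) :
    (etaSeries R p).coeff i = (((etaSeries ℤ p).coeff i : ℤ) : R) := by
  conv_lhs => rw [← coeffMap_etaSeries (Int.castRingHom R) p]
  rfl

theorem intCast_coeff_etaSeries_int (p : ℕ) [NeZero p] (i : ℤ) :
    (((etaSeries ℤ p).coeff i : ℤ) : ℚ) = (modularUnitSeries p).coeff i := by
  rw [← etaSeries_rat, coeff_etaSeries_eq_intCast (R := ℚ)]

theorem coeff_etaSeries_self (p : ℕ) [NeZero p] : (etaSeries R p).coeff (1 - (p : ℤ)) = 1 := by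
  have h : (etaSeries ℤ p).coeff (1 - (p : ℤ)) = 1 := by
    have h1 := intCast_coeff_etaSeries_int p (1 - (p : ℤ))
    rw [coeff_modularUnitSeries_self] at h1
    exact_mod_cast h1
  rw [coeff_etaSeries_eq_intCast, h, Int.cast_one]

theorem coeff_etaSeries_of_lt (p : ℕ) [NeZero p] {i : ℤ} (hi : i < 1 - (p : ℤ)) :
    (etaSeries R p).coeff i = 0 := by
  have h : (etaSeries ℤ p).coeff i = 0 := by
    have h1 := intCast_coeff_etaSeries_int p i
    rw [coeff_modularUnitSeries_of_lt p hi] at h1
    exact_mod_cast h1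
  rw [coeff_etaSeries_eq_intCast, h, Int.cast_zero]

theorem order_etaSeries [Nontrivial R] (p : ℕ) [NeZero p] :
    (etaSeries R p).order = 1 - (p : ℤ) := by
  have hne : (etaSeries R p).coeff (1 - (p : ℤ)) ≠ 0 := by
    rw [coeff_etaSeries_self]; exact one_ne_zero
  refine le_antisymm (HahnSeries.order_le_of_coeff_ne_zero hne) ?_
  by_contra h
  rw [not_le] at h
  exact HahnSeries.coeff_order_eq_zero.not.mpr (etaSeries_ne_zero p) (coeff_etaSeries_of_lt p h)

end FLTA.LevelLowering

end
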