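import Mathlib
import Fermat.Agent.LevelLowering.GlobalDefs
import Fermat.Agent.LevelLowering.GlobalCurve
import Fermat.Prelude.Def_FreyPackage_IsConductorLevel

/-!
# The global step of level lowering at `p`
-/

set_option autoImplicit false

noncomputable section

open WeierstrassCurve WeierstrassCurve.Affine.Point ModularCurve
open FLTA.GaloisReps (FullHecke)

namespace FLTA.LevelLowering

theorem Δ_ne_zero_of_isIntegralModelOf {W : WeierstrassCurve ℤ} {E : WeierstrassCurve ℚ}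
    (h : W.IsIntegralModelOf E) (hE : E.Δ ≠ 0) : W.Δ ≠ 0 := fun h0 => by
  obtain ⟨C, hC⟩ := h
  have h1 := congrArg WeierstrassCurve.Δ hC
  rw [WeierstrassCurve.variableChange_Δ, WeierstrassCurve.map_Δ, h0, _root_.map_zero] at h1
  exact mul_ne_zero (pow_ne_zero _ (Units.ne_zero _)) hE h1

theorem nonempty_globalData (P : FreyPackage) {N M : ℕ} [NeZero N] [NeZero M]
    {E : WeierstrassCurve ℚ} (hE : P.freyCurveInt.map (Int.castRingHom ℚ) = E) (S : Finset ℕ)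
    (hpS : P.p ∈ S) (h2S : 2 ∈ S) (hlev : ∀ ℓ : ℕ, ℓ.Prime → ℓ ∣ N → ℓ ∈ S)
    (hbad : ∀ ℓ : ℕ, ℓ.Prime → ¬ P.freyCurveInt.IsGoodPrimeFor ℓ → ℓ ∈ S)
    (D : CurveGlobalData P.freyCurveInt P.p N M S) (h : E = P.freyCurve) :
    Nonempty (GlobalData P N M) := by
  obtain ⟨iota, hinj, hsmul, hhecke, t, ht1, ht0, hne⟩ := D
  revert iota
  rw [hE.trans h]
  intro iota hinj hsmul hhecke
  exact ⟨{
    S := S
    a := fun ℓ => P.freyCurveInt.apOfModel ℓ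
    a_eq := fun _ => rfl
    p_mem := hpS
    two_mem := h2S
    level_mem := hlev
    bad_mem := hbad
    iota := iota
    iota_injective := hinj
    iota_smul := hsmul
    hecke_iota := hhecke
    t := t
    t_eval := ht1
    t_old := ht0
    exists_not_eisenstein := hne }⟩

theorem modularRepOfLevel_of_system (P : FreyPackage) (M : ℕ) (S : Finset ℕ)
    (h : HasSystem P.p (fun ℓ => P.freyCurveInt.apOfModel ℓ) M S) : P.ModularRepOfLevel M := by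
  obtain ⟨f, 𝔪, hf, h𝔪, hp𝔪, hcong⟩ := h
  have hprod : (∏ ℓ ∈ S.filter Nat.Prime, ℓ) ≠ 0 :=
    Finset.prod_ne_zero_iff.2 fun ℓ hℓ => (Finset.mem_filter.1 hℓ).2.ne_zero
  refine ⟨f, scaleModel P.freyCurveInt (∏ ℓ ∈ S.filter Nat.Prime, ℓ), 𝔪, hf,
    scaleModel_isIntegralModelOf (FLTA.Wiring.freyCurveInt_isIntegralModelOf P) hprod, h𝔪, hp𝔪, ?_⟩
  intro ℓ hℓ hgood hℓM hℓp
  have hℓn : ¬ ℓ ∣ ∏ q ∈ S.filter Nat.Prime, q := fun h =>
    not_isGoodPrimeFor_scaleModel _ h hgood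
  have hℓS : ℓ ∉ S := fun h =>
    hℓn (Finset.dvd_prod_of_mem _ (Finset.mem_filter.2 ⟨h, hℓ⟩))
  rw [apOfModel_scaleModel _ hℓ hℓn]
  exact hcong ℓ hℓ hℓS

/-- Either the level can be lowered at the prime `q`, or `E[p]` lives in the `q`-new part. -/
theorem exists_embedding_or_lowered_at (P : FreyPackage) {N M q : ℕ} [NeZero N] [NeZero M]
    (hq : q.Prime) (hcond : P.IsConductorLevel N) (hNM : N = q * M)
    (hirr : GaloisRepIsIrreducible (K := AlgebraicClosure ℚ) ℚ P.freyCurve P.p)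
    (hmod : P.ModularRepOfLevel N) :
    (∃ L : ℕ, L ∣ N ∧ ¬ q ∣ L ∧ P.ModularRepOfLevel L) ∨ Nonempty (GlobalData P N M) := by
  classical
  haveI : Fact P.p.Prime := ⟨P.pp⟩
  have hp2 : P.p ≠ 2 := by have := P.hp5; omega
  have hMN : M ∣ N := ⟨q, by rw [hNM, mul_comm]⟩
  have hqM : ¬ q ∣ M := fun h => hcond.sq_not_dvd hq (by
    rw [hNM, pow_two]; exact mul_dvd_mul_left _ h)
  set W := P.freyCurveInt with hWdef
  have hΔ : W.Δ ≠ 0 := FLTA.Wiring.freyCurveInt_Δ_ne_zero P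
  have hWE : W.map (Int.castRingHom ℚ) = P.freyCurve := FLTA.Wiring.freyCurveInt_map_rat P
  obtain ⟨f, W₀, 𝔪, hf, hW₀, h𝔪, hp𝔪, hcong⟩ := hmod
  have hΔ₀ : W₀.Δ ≠ 0 := Δ_ne_zero_of_isIntegralModelOf hW₀ (by
    rw [← hWE, WeierstrassCurve.map_Δ]; simpa using hΔ)
  obtain ⟨T, hT⟩ :=
    exists_finset_apOfModel_eq hW₀ (FLTA.Wiring.freyCurveInt_isIntegralModelOf P)
  let S : Finset ℕ := {P.p, 2} ∪ N.primeFactors ∪ W.Δ.natAbs.primeFactors ∪
    W₀.Δ.natAbs.primeFactors ∪ T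
  have hpS : P.p ∈ S := by simp [S]
  have h2S : 2 ∈ S := by simp [S]
  have hlev : ∀ ℓ : ℕ, ℓ.Prime → ℓ ∣ N → ℓ ∈ S := fun ℓ hℓ h => by
    simp [S, Nat.mem_primeFactors, hℓ, h, NeZero.ne N]
  have hbad : ∀ ℓ : ℕ, ℓ.Prime → ¬ W.IsGoodPrimeFor ℓ → ℓ ∈ S := fun ℓ hℓ h => by
    have hd : ℓ ∣ W.Δ.natAbs := Int.natCast_dvd.1 (not_not.1 h)
    simp [S, Nat.mem_primeFactors, hℓ, hd, hΔ]
  have hgood₀ : ∀ ℓ : ℕ, ℓ.Prime → ℓ ∉ S → W₀.IsGoodPrimeFor ℓ := fun ℓ hℓ h hd =>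
    h (by simp [S, Nat.mem_primeFactors, hℓ, Int.natCast_dvd.1 hd, hΔ₀])
  have hSM : ∀ ℓ : ℕ, ℓ.Prime → ℓ ∣ M → ℓ ∈ S := fun ℓ hℓ h => hlev ℓ hℓ (h.trans hMN)
  have hirr' : GaloisRepIsIrreducible (K := AlgebraicClosure ℚ) ℚ
      (W.map (Int.castRingHom ℚ)) P.p := hWE.symm ▸ hirr
  have hsys : HasSystem P.p (fun ℓ => W.apOfModel ℓ) N S :=
    ⟨f, 𝔪, hf, h𝔪, hp𝔪, fun ℓ hℓ hℓS => by
      obtain ⟨c, hc, hca⟩ := hcong ℓ hℓ (hgood₀ ℓ hℓ hℓS) (fun h => hℓS (hlev ℓ hℓ h))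
        (fun h => hℓS (h ▸ hpS))
      refine ⟨c, hc, ?_⟩
      show c - ((W.apOfModel ℓ : ℤ) : integralClosure ℤ ℂ) ∈ 𝔪
      rw [hWdef, ← hT ℓ hℓ (fun h => hℓS (by simp [S, h]))]
      exact hca⟩
  rcases exists_curveData_or_eigenform W hΔ P.p hp2 hirr' N M hMN S hpS hlev hbad hsys with h | hD
  · exact Or.inl ⟨M, hMN, hqM, modularRepOfLevel_of_system P M S h⟩
  · obtain ⟨D⟩ := hD
    exact Or.inr (nonempty_globalData P hWE S hpS h2S hlev hbad D rfl)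

/-- Either the level can be lowered, or `E[p]` lives in the new part of `J₀(pM)[p]`. -/
theorem exists_embedding_or_lowered (P : FreyPackage) {N M : ℕ} [NeZero N] [NeZero M]
    (hcond : P.IsConductorLevel N) (hNM : N = P.p * M)
    (hirr : GaloisRepIsIrreducible (K := AlgebraicClosure ℚ) ℚ P.freyCurve P.p)
    (hmod : P.ModularRepOfLevel N) :
    (∃ L : ℕ, L ∣ N ∧ ¬ P.p ∣ L ∧ P.ModularRepOfLevel L) ∨ Nonempty (GlobalData P N M) :=
  exists_embedding_or_lowered_at P P.pp hcond hNM hirr hmod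

end FLTA.LevelLowering

end
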