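import Fermat.Agent.LevelLowering.Frame
import Fermat.Agent.LevelLowering.InertiaFrameUnram
import Fermat.Agent.Galois.Cyclotomic

/-!
# The frame of a normal open subgroup of inertia

For a place `A` of `ℚ̄` over `p` and a normal open subgroup `H` of the inertia group `I`, the fixed
field `L` of `H` is a `Frame`: its value group is infinite cyclic, `p = ϖ ^ e * unit` with
`e ∣ [I : H]`, and every residue lifts to a root of unity fixed by `I`.  An element of `I` of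
`p`-power order modulo `H` which moves `L` has a jump `i ≥ 1`.
-/

set_option autoImplicit false

open scoped Pointwise
open IsLocalRing

noncomputable section

namespace FLTA.LevelLowering

local notation "Qbar" => AlgebraicClosure ℚ
local notation "Γ" => AlgebraicClosure ℚ ≃ₐ[ℚ] AlgebraicClosure ℚ

/-- A normal open subgroup of the inertia group of `A`. -/
structure InertiaSub (A : ValuationSubring Qbar) where
  /-- the subgroup -/
  H : Subgroup Γ
  le : H ≤ A.inertiaSubgroupIn ℚ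
  conj_mem : ∀ σ ∈ A.inertiaSubgroupIn ℚ, ∀ τ ∈ H, σ * τ * σ⁻¹ ∈ H
  isOpen : ∃ N₀ : IntermediateField ℚ Qbar, FiniteDimensional ℚ N₀ ∧
    A.inertiaSubgroupIn ℚ ⊓ N₀.fixingSubgroup ≤ H

namespace InertiaSub

variable {A : ValuationSubring Qbar} (D : InertiaSub A)

/-- The fixed field of `H`. -/
def L : IntermediateField ℚ Qbar := IntermediateField.fixedField D.H

/-- The index of `H` in inertia. -/
def index : ℕ := D.H.relIndex (A.inertiaSubgroupIn ℚ)

theorem mem_L_iff {c : Qbar} : c ∈ D.L ↔ ∀ σ ∈ D.H, σ c = c := by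
  rw [L, IntermediateField.mem_fixedField_iff]

/-- `L` is stable under inertia. -/
theorem apply_mem_L {σ : Γ} (hσ : σ ∈ A.inertiaSubgroupIn ℚ) {c : Qbar} (hc : c ∈ D.L) :
    σ c ∈ D.L := by
  rw [D.mem_L_iff] at hc ⊢
  intro τ hτ
  have h := hc _ (D.conj_mem σ⁻¹ (inv_mem hσ) τ hτ)
  rw [inv_inv, AlgEquiv.mul_apply, AlgEquiv.mul_apply] at h
  have h' := congrArg σ h
  rwa [show σ (σ⁻¹ (τ (σ c))) = τ (σ c) from σ.apply_symm_apply _] at h'

theorem index_ne_zero : D.index ≠ 0 := by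
  obtain ⟨N₀, hN, hle⟩ := D.isOpen
  haveI := hN
  haveI : N₀.fixingSubgroup.FiniteIndex := ⟨by
    rw [← IntermediateField.finrank_eq_fixingSubgroup_index]; exact Module.finrank_pos.ne'⟩
  intro h
  apply Subgroup.FiniteIndex.index_ne_zero (H := N₀.fixingSubgroup.subgroupOf
    (A.inertiaSubgroupIn ℚ))
  exact Nat.eq_zero_of_zero_dvd (h ▸ Subgroup.index_dvd_of_le
    (H := N₀.fixingSubgroup.subgroupOf (A.inertiaSubgroupIn ℚ))
    (K := D.H.subgroupOf (A.inertiaSubgroupIn ℚ)) fun x hx => hle ⟨x.2, hx⟩)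

theorem index_pos : 0 < D.index := Nat.pos_of_ne_zero D.index_ne_zero

omit D in
/-- Valuations are invariant under inertia: the orbits are finite. -/
theorem valuation_apply {σ : Γ} (hσ : σ ∈ A.inertiaSubgroupIn ℚ) (c : Qbar) :
    A.valuation (σ c) = A.valuation c := by
  have hdec := (Galois.mem_inertiaSubgroupIn_iff.mp hσ).1
  have hlt : ∀ {x y : Qbar}, A.valuation x < A.valuation y →
      A.valuation (σ x) < A.valuation (σ y) := by
    intro x y h
    have hy : y ≠ 0 := by rintro rfl; simp at h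
    have hy' : (σ y) ≠ 0 := by simpa using hy
    have e : ∀ a b : Qbar, b ≠ 0 → (A.valuation a < A.valuation b ↔ a / b ∈ A.nonunits) :=
      fun a b hb => by
        rw [ValuationSubring.mem_nonunits_iff, map_div₀, div_lt_one₀ (A.valuation.pos_iff.mpr hb)]
    rw [e _ _ hy', ← map_div₀, Galois.apply_mem_nonunits_iff hdec, ← e _ _ hy]
    exact h
  have horb : (Set.range fun k : ℕ => (σ ^ k) c).Finite := by
    refine ((minpoly ℚ c).rootSet_finite Qbar).subset ?_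
    rintro _ ⟨k, rfl⟩
    refine (Polynomial.mem_rootSet_of_ne
      (minpoly.ne_zero (Algebra.IsIntegral.isIntegral c))).mpr ?_
    dsimp only
    rw [Polynomial.aeval_algHom_apply, minpoly.aeval, map_zero]
  by_contra hne
  have key : Function.Injective fun k : ℕ => A.valuation ((σ ^ k) c) := by
    have hs : ∀ k : ℕ, (σ ^ (k + 1)) c = σ ((σ ^ k) c) := fun k => by
      rw [pow_succ', AlgEquiv.mul_apply]
    rcases lt_or_gt_of_ne hne with h | h
    · refine (strictAnti_nat_of_succ_lt fun k => ?_).injective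
      induction k with
      | zero => simpa using h
      | succ k ih => simpa only [hs] using hlt ih
    · refine (strictMono_nat_of_lt_succ fun k => ?_).injective
      induction k with
      | zero => simpa using h
      | succ k ih => simpa only [hs] using hlt ih
  have hinj : Function.Injective fun k : ℕ => (σ ^ k) c := fun i j h =>
    key (congrArg A.valuation h)
  exact Set.infinite_range_of_injective hinj horb

/-- The powers `v c ^ index`, `c ∈ L`, are integral powers of `v p`. -/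
theorem exists_zpow_valuation {p : ℕ} (hp : p.Prime) (hA : A.LiesOverPrime p) {c : Qbar}
    (hc : c ∈ D.L) (hc0 : c ≠ 0) :
    ∃ n : ℤ, A.valuation c ^ D.index = A.valuation (p : Qbar) ^ n := by
  classical
  set I := A.inertiaSubgroupIn ℚ with hI
  haveI : (D.H.subgroupOf I).FiniteIndex := ⟨D.index_ne_zero⟩
  letI : Fintype (I ⧸ D.H.subgroupOf I) := Fintype.ofFinite _
  let N : Qbar := ∏ q : I ⧸ D.H.subgroupOf I, ((q.out : I) : Γ) c
  have hcoset : ∀ g : I, ((QuotientGroup.mk (s := D.H.subgroupOf I) g).out : Γ) c = (g : Γ) c := by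
    intro g
    obtain ⟨h, hh⟩ := QuotientGroup.mk_out_eq_mul (D.H.subgroupOf I) g
    rw [hh, Subgroup.coe_mul, AlgEquiv.mul_apply, D.mem_L_iff.mp hc ((h : I) : Γ) h.2]
  have hfix : ∀ σ ∈ I, σ N = N := by
    intro σ hσ
    rw [map_prod]
    refine Fintype.prod_equiv (MulAction.toPerm (⟨σ, hσ⟩ : I)) _ _ fun q => ?_
    show σ ((q.out : Γ) c) = (((⟨σ, hσ⟩ : I) • q).out : Γ) c
    conv_rhs => rw [← QuotientGroup.out_eq' q]
    exact (hcoset ((⟨σ, hσ⟩ : I) * q.out)).symm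
  have hN0 : N ≠ 0 := Finset.prod_ne_zero_iff.mpr fun q _ => by simpa using hc0
  obtain ⟨n, hn⟩ := exists_zpow_valuation_eq_of_fixed hp hA hN0 hfix
  refine ⟨n, ?_⟩
  rw [← hn, map_prod, Finset.prod_congr rfl fun q _ => valuation_apply q.out.2 c,
    Finset.prod_const, Finset.card_univ, ← Nat.card_eq_fintype_card]
  rfl

omit D in
/-- Every residue is the residue of an element fixed by inertia. -/
theorem exists_fixed_lift {p : ℕ} (hp : p.Prime) (hA : A.LiesOverPrime p) (x : ResidueField A) :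
    ∃ u : A, residue A u = x ∧ ∀ σ ∈ A.inertiaSubgroupIn ℚ, σ (u : Qbar) = u := by
  obtain ⟨k, hk, hx⟩ := Galois.exists_pow_card_eq_self hp hA x
  rcases eq_or_ne x 0 with rfl | hx0
  · exact ⟨0, map_zero _, fun σ _ => by simp⟩
  set n := p ^ k - 1 with hn
  have hpk : 1 < p ^ k := Nat.one_lt_pow hk.ne' hp.one_lt
  have hpn : ¬ p ∣ n := fun h => hp.one_lt.ne' (Nat.eq_one_of_dvd_one (by
    have h1 := Nat.dvd_sub (dvd_pow_self p hk.ne') h
    rwa [show p ^ k - n = 1 by omega] at h1))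
  have hxn : x ^ n = 1 := by
    have : x ^ n * x = 1 * x := by
      rw [← pow_succ, show n + 1 = p ^ k by omega, hx, one_mul]
    exact mul_right_cancel₀ hx0 this
  haveI : NeZero ((n : ℕ) : Qbar) := ⟨Nat.cast_ne_zero.mpr (by omega)⟩
  obtain ⟨ζ, hroot⟩ := IsAlgClosed.exists_root (Polynomial.cyclotomic n Qbar) (by
    rw [Polynomial.degree_cyclotomic]
    exact_mod_cast (Nat.totient_pos.mpr (by omega : 0 < n)).ne')
  have hζ : IsPrimitiveRoot ζ n := Polynomial.isRoot_cyclotomic_iff.mp hroot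
  have hζA : ζ ∈ A := Galois.mem_of_isIntegral (hζ.isIntegral (by omega))
  have hres : IsPrimitiveRoot (residue A ⟨ζ, hζA⟩) n := by
    refine IsPrimitiveRoot.mk_of_lt _ (by omega) ?_ fun l hl0 hln h => ?_
    · rw [← map_pow, show (⟨ζ, hζA⟩ : A) ^ n = 1 from Subtype.ext hζ.pow_eq_one, map_one]
    · refine hζ.pow_ne_one_of_pos_of_lt hl0.ne' hln
        (Galois.eq_of_sub_mem_nonunits_of_pow_eq_one hp hA hpn
          (by rw [← pow_mul, mul_comm, pow_mul, hζ.pow_eq_one, one_pow]) (one_pow n) ?_)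
      rw [← map_pow, ← map_one (residue A), Galois.residue_eq_iff_sub_mem_nonunits] at h
      exact h
  haveI : NeZero n := ⟨by omega⟩
  obtain ⟨i, -, hi⟩ := hres.eq_pow_of_pow_eq_one hxn
  refine ⟨⟨ζ, hζA⟩ ^ i, by rw [map_pow, hi], fun σ hσ => ?_⟩
  exact Galois.inertia_apply_rootOfUnity hp hA hσ hpn (by
    show ((⟨ζ, hζA⟩ ^ i : A) : Qbar) ^ n = 1
    rw [SubmonoidClass.coe_pow, ← pow_mul, mul_comm, pow_mul, hζ.pow_eq_one, one_pow])

/-- `L` is a frame, and `p = ϖ ^ e * unit` with `e ∣ [I : H]`. -/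
theorem exists_frame {p : ℕ} (hp : p.Prime) (hA : A.LiesOverPrime p) :
    ∃ (fr : Frame A (residue A)) (e : ℕ), fr.L = D.L.toSubfield ∧ 1 ≤ e ∧ e ∣ D.index ∧
      ∃ u : A, residue A u ≠ 0 ∧ (u : Qbar) ∈ fr.L ∧ (p : Qbar) = fr.ϖ ^ e * u := by
  set d := D.index with hd
  set vp := A.valuation (p : Qbar) with hvp
  have hp0 : (p : Qbar) ≠ 0 := Nat.cast_ne_zero.mpr hp.ne_zero
  have hvp0 : vp ≠ 0 := by simpa [hvp] using hp0
  have hvp1 : vp < 1 := by rw [hvp, ← ValuationSubring.mem_nonunits_iff]; exact hA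
  let G : AddSubgroup ℤ :=
    { carrier := {n | ∃ c ∈ D.L, c ≠ 0 ∧ A.valuation c ^ d = vp ^ n}
      add_mem' := by
        rintro a b ⟨x, hx, hx0, hxa⟩ ⟨y, hy, hy0, hyb⟩
        exact ⟨x * y, mul_mem hx hy, mul_ne_zero hx0 hy0, by
          rw [map_mul, mul_pow, hxa, hyb, zpow_add₀ hvp0]⟩
      zero_mem' := ⟨1, one_mem _, one_ne_zero, by simp⟩
      neg_mem' := by
        rintro a ⟨x, hx, hx0, hxa⟩
        exact ⟨x⁻¹, inv_mem hx, inv_ne_zero hx0, by rw [map_inv₀, inv_pow, hxa, zpow_neg]⟩ }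
  obtain ⟨g, hg⟩ := Int.subgroup_cyclic G
  set f := g.natAbs with hf
  have hGf : ∀ n : ℤ, n ∈ G ↔ (f : ℤ) ∣ n := fun n => by
    rw [hg, AddSubgroup.mem_closure_singleton, hf, Int.natAbs_dvd]
    exact ⟨fun ⟨z, hz⟩ => ⟨z, by rw [← hz, smul_eq_mul, mul_comm]⟩,
      fun ⟨z, hz⟩ => ⟨z, by rw [hz, smul_eq_mul, mul_comm]⟩⟩
  have hfd : f ∣ d := Int.natCast_dvd_natCast.mp ((hGf d).mp
    ⟨p, natCast_mem _ p, hp0, by rw [zpow_natCast]⟩)
  have hf0 : 0 < f := Nat.pos_of_dvd_of_pos hfd D.index_pos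
  obtain ⟨ϖ, hϖL, hϖ0, hϖv⟩ := (hGf f).mpr dvd_rfl
  rw [zpow_natCast] at hϖv
  have hϖ1 : A.valuation ϖ < 1 := by
    by_contra h
    have h1 : (1 : A.ValueGroup) ≤ vp ^ f := hϖv ▸ one_le_pow₀ (not_lt.mp h)
    exact absurd (pow_lt_one₀ zero_le hvp1 hf0.ne') (not_lt.mpr h1)
  have hϖA : ϖ ∈ A := (A.valuation_le_one_iff ϖ).mp hϖ1.le
  have hunit : ∀ w : Qbar, A.valuation w = 1 → ∃ hw : w ∈ A, residue A ⟨w, hw⟩ ≠ 0 :=
    fun w hw => ⟨(A.valuation_le_one_iff w).mp hw.le, by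
      rw [Ne, Galois.residue_eq_zero_iff_mem_nonunits, ValuationSubring.mem_nonunits_iff]
      exact hw.not_lt⟩
  have hdiv : ∀ c ∈ D.L, c ≠ 0 → ∀ m : ℤ, A.valuation c ^ d = vp ^ ((f : ℤ) * m) →
      A.valuation (c / ϖ ^ m) = 1 := by
    intro c _ hc0 m hm
    have h1 : A.valuation c ^ d = (A.valuation ϖ ^ m) ^ d := by
      rw [hm, zpow_mul, zpow_natCast, ← hϖv, ← zpow_natCast, ← zpow_natCast, ← zpow_mul,
        ← zpow_mul, mul_comm]
    rw [map_div₀, map_zpow₀, (pow_left_inj₀ zero_le zero_le D.index_ne_zero).mp h1,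
      div_self (zpow_ne_zero _ (by simpa using hϖ0))]
  let fr : Frame A (residue A) :=
    { L := D.L.toSubfield
      ϖ := ϖ
      ϖ_mem := hϖL
      ϖ_ne_zero := hϖ0
      ϖ_mem_A := hϖA
      π_ϖ := by
        rw [Galois.residue_eq_zero_iff_mem_nonunits, ValuationSubring.mem_nonunits_iff]
        exact hϖ1
      exists_unit := fun c hc hc0 => by
        obtain ⟨n, hn⟩ := D.exists_zpow_valuation hp hA hc hc0
        obtain ⟨m, hm⟩ := (hGf n).mp ⟨c, hc, hc0, hn⟩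
        obtain ⟨hw, hres⟩ := hunit _ (hdiv c hc hc0 m (hm ▸ hn))
        exact ⟨m, ⟨_, hw⟩, div_mem hc (zpow_mem hϖL m), hres,
          (mul_div_cancel₀ _ (zpow_ne_zero m hϖ0)).symm⟩
      exists_pow := fun c hc0 => by
        obtain ⟨y, hy, hyc⟩ :=
          ((IsFractionRing.isAlgebraic_iff ℤ ℚ Qbar).mpr
            (Galois.qbar_isAlgebraic.isAlgebraic c⁻¹)).exists_integral_multiple
        obtain ⟨j, m, hm, hjm⟩ :=
          Nat.exists_eq_pow_mul_and_not_dvd (Int.natAbs_ne_zero.mpr hy) p hp.one_lt.ne'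
        have hvy : A.valuation (y : Qbar) = vp ^ j := by
          have h1 : A.valuation (y : Qbar) = A.valuation ((y.natAbs : ℕ) : Qbar) := by
            rcases y.natAbs_eq with e | e
            · conv_lhs => rw [e, Int.cast_natCast]
            · conv_lhs => rw [e, Int.cast_neg, Int.cast_natCast, Valuation.map_neg]
          rw [h1, hjm, Nat.cast_mul, Nat.cast_pow, map_mul, map_pow,
            valuation_eq_one_of_not_mem_nonunits (natCast_mem A m)
              (fun h => hm ((Galois.natCast_mem_nonunits_iff hp hA m).mp h)), mul_one]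
        refine ⟨d * j, (A.valuation_le_one_iff _).mp ?_⟩
        have hyc' : A.valuation ((y : Qbar) * c⁻¹) ≤ 1 :=
          (A.valuation_le_one_iff _).mpr (Galois.mem_of_isIntegral (by
            simp only [zsmul_eq_mul] at hyc
            obtain ⟨P, h1, h2⟩ := hyc
            refine ⟨P, h1, ?_⟩
            convert h2 using 2
            exact RingHom.ext_int _ _))
        have e : ϖ ^ (d * j) / c = ϖ ^ (d * j) / (y : Qbar) * ((y : Qbar) * c⁻¹) := by
          have hy' : (y : Qbar) ≠ 0 := Int.cast_ne_zero.mpr hy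
          field_simp
        rw [e, map_mul, map_div₀, map_pow, pow_mul, hϖv, hvy, ← pow_mul]
        refine mul_le_one₀ ((div_le_one₀ (pow_pos (zero_lt_iff.mpr hvp0) _)).mpr ?_) zero_le hyc'
        exact pow_le_pow_of_le_one zero_le hvp1.le (Nat.le_mul_of_pos_left _ hf0)
      exists_lift := fun x => by
        obtain ⟨u, hu, hfix⟩ := exists_fixed_lift hp hA x
        exact ⟨u, D.mem_L_iff.mpr fun σ hσ => hfix σ (D.le hσ), hu⟩
      π_surjective := residue_surjective }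
  obtain ⟨e, he⟩ := hfd
  have hfe : (d : ℤ) = (f : ℤ) * (e : ℤ) := by exact_mod_cast he
  obtain ⟨hw, hres⟩ := hunit _ (hdiv p (natCast_mem _ p) hp0 e (by rw [← hfe, zpow_natCast]))
  refine ⟨fr, e, rfl, ?_, Dvd.intro_left f he.symm, ⟨_, hw⟩, hres,
    div_mem (natCast_mem _ p) (zpow_mem hϖL _), ?_⟩
  · rcases Nat.eq_zero_or_pos e with rfl | h
    · exact absurd (by simpa using he) D.index_ne_zero
    · exact h
  · show (p : Qbar) = ϖ ^ e * ((p : Qbar) / ϖ ^ (e : ℤ))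
    rw [zpow_natCast, mul_div_cancel₀ _ (pow_ne_zero _ hϖ0)]

/-- If `σ` moves `ϖ` only in degree `≥ m`, it moves every integral element of `L` so. -/
theorem sub_div_pow_mem {p : ℕ} (hp : p.Prime) (hA : A.LiesOverPrime p)
    (fr : Frame A (residue A)) (hfr : fr.L = D.L.toSubfield) {σ : Γ}
    (hσ : σ ∈ A.inertiaSubgroupIn ℚ) (m : ℕ) (hm : (σ fr.ϖ - fr.ϖ) / fr.ϖ ^ m ∈ A) {c : Qbar}
    (hc : c ∈ D.L) (hcA : c ∈ A) : (σ c - c) / fr.ϖ ^ m ∈ A := by
  have hdec := (Galois.mem_inertiaSubgroupIn_iff.mp hσ).1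
  have hσϖ : σ fr.ϖ / fr.ϖ ∈ A := (A.valuation_le_one_iff _).mp (by
    rw [map_div₀, valuation_apply hσ, div_self (by simpa using fr.ϖ_ne_zero)])
  suffices ∀ j : ℕ, j ≤ m → ∀ c, c ∈ D.L → c ∈ A → (σ c - c) / fr.ϖ ^ j ∈ A from
    this m le_rfl c hc hcA
  intro j
  induction j with
  | zero =>
    intro _ c _ hcA
    simpa using sub_mem (Galois.apply_mem_of_mem_decompositionSubgroup hdec hcA) hcA
  | succ j ih =>
    intro hj c hc hcA
    obtain ⟨r, hr, hrfix⟩ := exists_fixed_lift hp hA (residue A ⟨c, hcA⟩)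
    have hrL : (r : Qbar) ∈ D.L := D.mem_L_iff.mpr fun τ hτ => hrfix τ (D.le hτ)
    set c' := (c - r) / fr.ϖ with hc'
    have hc'L : c' ∈ D.L := div_mem (sub_mem hc hrL) (by
      have := fr.ϖ_mem
      rwa [hfr] at this)
    have hc'A : c' ∈ A := by
      rcases eq_or_ne (c - r) 0 with h0 | h0
      · rw [hc', h0, zero_div]; exact zero_mem A
      obtain ⟨n, u, -, hu, hn⟩ := fr.exists_unit (c - r) (hfr ▸ sub_mem hc hrL) h0
      have hnu : (c - r) ∈ A.nonunits :=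
        (Galois.residue_eq_iff_sub_mem_nonunits (⟨c, hcA⟩ : A) r).mp hr.symm
      have hn0 : 0 < n := by
        by_contra hle
        obtain ⟨l, rfl⟩ : ∃ l : ℕ, n = -(l : ℤ) := ⟨n.natAbs, by omega⟩
        have : (u : Qbar) ∈ A.nonunits := by
          have h1 := Galois.mul_mem_nonunits_of_mem hnu (pow_mem fr.ϖ_mem_A l)
          rwa [hn, zpow_neg, zpow_natCast, mul_assoc, mul_comm (u : Qbar), ← mul_assoc,
            inv_mul_cancel₀ (pow_ne_zero _ fr.ϖ_ne_zero), one_mul] at h1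
        exact hu ((Galois.residue_eq_zero_iff_mem_nonunits u).mpr this)
      obtain ⟨l, rfl⟩ : ∃ l : ℕ, n = (l : ℤ) + 1 := ⟨n.natAbs - 1, by omega⟩
      rw [hc', hn, zpow_add_one₀ fr.ϖ_ne_zero, zpow_natCast, mul_comm (fr.ϖ ^ l) fr.ϖ, mul_assoc,
        mul_div_cancel_left₀ _ fr.ϖ_ne_zero]
      exact mul_mem (pow_mem fr.ϖ_mem_A l) u.2
    have hce : c = r + fr.ϖ * c' := by
      rw [hc', mul_div_cancel₀ _ fr.ϖ_ne_zero, add_sub_cancel]
    have key : (σ c - c) / fr.ϖ ^ (j + 1) =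
        σ fr.ϖ / fr.ϖ * ((σ c' - c') / fr.ϖ ^ j) +
          (σ fr.ϖ - fr.ϖ) / fr.ϖ ^ m * fr.ϖ ^ (m - (j + 1)) * c' := by
      have hϖ := fr.ϖ_ne_zero
      have hsplit : fr.ϖ ^ m = fr.ϖ ^ (m - (j + 1)) * fr.ϖ ^ (j + 1) := by
        rw [← pow_add]; congr 1; omega
      rw [hce, map_add, map_mul, hrfix σ hσ, hsplit]
      field_simp
      ring
    rw [key]
    exact add_mem (mul_mem hσϖ (ih (by omega) c' hc'L hc'A))
      (mul_mem (mul_mem hm (pow_mem fr.ϖ_mem_A _)) hc'A)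

/-- An element of `p`-power order modulo `H` moving `L` has a jump `i ≥ 1`. -/
theorem exists_jump {p : ℕ} (hp : p.Prime) (hA : A.LiesOverPrime p) (fr : Frame A (residue A))
    (hfr : fr.L = D.L.toSubfield) {σ : Γ} (hσ : σ ∈ A.inertiaSubgroupIn ℚ) {n : ℕ}
    (hpow : σ ^ p ^ n ∈ D.H) (hmove : ∃ c ∈ D.L, σ c ≠ c) :
    ∃ i : ℕ, 1 ≤ i ∧ ∃ τ : A, (τ : Qbar) ∈ fr.L ∧ residue A τ ≠ 0 ∧
      σ fr.ϖ = fr.ϖ * (1 + τ * fr.ϖ ^ i) ∧
      ∀ c ∈ D.L, c ∈ A → (σ c - c) / fr.ϖ ^ (i + 1) ∈ A := by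
  have hϖ0 := fr.ϖ_ne_zero
  have hϖL : fr.ϖ ∈ D.L := by have := fr.ϖ_mem; rwa [hfr] at this
  have hdec := (Galois.mem_inertiaSubgroupIn_iff.mp hσ).1
  have hω : σ fr.ϖ / fr.ϖ ∈ A := (A.valuation_le_one_iff _).mp (by
    rw [map_div₀, valuation_apply hσ, div_self (by simpa using hϖ0)])
  set ω : A := ⟨_, hω⟩ with hωdef
  -- the residue of `σ ϖ / ϖ` is a `p`-power root of unity, hence `1`
  have hpows : ∀ k : ℕ, ∃ w : A, (σ ^ k) fr.ϖ = w * fr.ϖ ∧ residue A w = residue A ω ^ k := by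
    intro k
    induction k with
    | zero => exact ⟨1, by simp, by simp⟩
    | succ k ih =>
      obtain ⟨w, hw, hres⟩ := ih
      refine ⟨⟨σ w, Galois.apply_mem_of_mem_decompositionSubgroup hdec w.2⟩ * ω, ?_, ?_⟩
      · rw [pow_succ', AlgEquiv.mul_apply, hw, map_mul]
        show σ (w : Qbar) * σ fr.ϖ = σ (w : Qbar) * (σ fr.ϖ / fr.ϖ) * fr.ϖ
        rw [mul_assoc, div_mul_cancel₀ _ hϖ0]
      · rw [map_mul, pow_succ, ← hres]
        congr 1
        rw [Galois.residue_eq_iff_sub_mem_nonunits]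
        exact (Galois.mem_inertiaSubgroupIn_iff.mp hσ).2 _ w.2
  have hω1 : residue A ω = 1 := by
    obtain ⟨w, hw, hres⟩ := hpows (p ^ n)
    have h1 : (w : Qbar) = 1 := by
      have := D.mem_L_iff.mp hϖL _ hpow
      rw [hw] at this
      exact mul_right_cancel₀ hϖ0 (this.trans (one_mul _).symm)
    rw [show w = 1 from Subtype.ext h1, map_one] at hres
    haveI := Fact.mk hp
    haveI := Galois.charP_residueField hp hA
    haveI : ExpChar (ResidueField A) p := ExpChar.prime hp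
    have : (residue A ω - 1) ^ p ^ n = 0 := by rw [sub_pow_expChar_pow, ← hres]; simp
    exact sub_eq_zero.mp ((pow_eq_zero_iff (pow_ne_zero n hp.ne_zero)).mp this)
  -- `σ` moves `ϖ`
  have hne : σ fr.ϖ - fr.ϖ ≠ 0 := by
    intro h0
    obtain ⟨c, hc, hcne⟩ := hmove
    obtain ⟨a, b, ha, hb, hb0, rfl⟩ : ∃ a b : Qbar, (a ∈ D.L ∧ a ∈ A) ∧ (b ∈ D.L ∧ b ∈ A) ∧
        b ≠ 0 ∧ c = a / b := by
      rcases A.mem_or_inv_mem c with h | h
      · exact ⟨c, 1, ⟨hc, h⟩, ⟨one_mem _, one_mem A⟩, one_ne_zero, (div_one c).symm⟩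
      · rcases eq_or_ne c 0 with rfl | hc0
        · simp at hcne
        · exact ⟨1, c⁻¹, ⟨one_mem _, one_mem A⟩, ⟨inv_mem hc, h⟩, inv_ne_zero hc0, by simp⟩
    have hfix : ∀ x ∈ D.L, x ∈ A → σ x = x := by
      intro x hx hxA
      by_contra hne
      have hsub : σ x - x ∈ fr.L := by
        rw [hfr]; exact sub_mem (D.apply_mem_L hσ hx) hx
      obtain ⟨l, u, -, hu, hl⟩ := fr.exists_unit _ hsub (sub_ne_zero.mpr hne)
      have hmem := D.sub_div_pow_mem hp hA fr hfr hσ (l.toNat + 1) (by simp [h0]) hx hxA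
      have h1 : (u : Qbar) ∈ A.nonunits := by
        have e : (u : Qbar) = fr.ϖ * ((σ x - x) / fr.ϖ ^ (l.toNat + 1)) * fr.ϖ ^ ((l.toNat : ℤ) - l) := by
          rw [hl, zpow_sub₀ hϖ0, zpow_natCast, pow_succ]
          field_simp
        rw [e]
        refine Galois.mul_mem_nonunits_of_mem (Galois.mul_mem_nonunits_of_mem
          ((Galois.residue_eq_zero_iff_mem_nonunits _).mp fr.π_ϖ) hmem) ?_
        obtain ⟨w, hw⟩ : ∃ w : ℕ, (l.toNat : ℤ) - l = w := ⟨((l.toNat : ℤ) - l).toNat, by omega⟩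
        rw [hw, zpow_natCast]
        exact pow_mem fr.ϖ_mem_A w
      exact hu ((Galois.residue_eq_zero_iff_mem_nonunits u).mpr h1)
    exact hcne (by rw [map_div₀, hfix a ha.1 ha.2, hfix b hb.1 hb.2])
  have hsubL : σ fr.ϖ - fr.ϖ ∈ fr.L := by
    rw [hfr]; exact sub_mem (D.apply_mem_L hσ hϖL) hϖL
  obtain ⟨l, τ, hτL, hτ, hl⟩ := fr.exists_unit _ hsubL hne
  -- the degree `l` of the jump is at least `2`
  have hl2 : 2 ≤ l := by
    by_contra hlt
    obtain ⟨w, hw⟩ : ∃ w : ℕ, (1 : ℤ) - l = w := ⟨((1 : ℤ) - l).toNat, by omega⟩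
    refine hτ ((Galois.residue_eq_zero_iff_mem_nonunits τ).mpr ?_)
    have e : (τ : Qbar) = (((ω : A) : Qbar) - ((1 : A) : Qbar)) * fr.ϖ ^ ((1 : ℤ) - l) := by
      show _ = (σ fr.ϖ / fr.ϖ - 1) * _
      rw [div_sub_one hϖ0, hl, zpow_sub₀ hϖ0, zpow_one]
      field_simp
    rw [e]
    refine Galois.mul_mem_nonunits_of_mem
      ((Galois.residue_eq_iff_sub_mem_nonunits ω 1).mp (by rw [hω1, map_one])) ?_
    rw [hw, zpow_natCast]
    exact pow_mem fr.ϖ_mem_A w
  obtain ⟨i, hi1, rfl⟩ : ∃ i : ℕ, 1 ≤ i ∧ l = ((i + 1 : ℕ) : ℤ) := ⟨l.toNat - 1, by omega, by omega⟩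
  rw [zpow_natCast] at hl
  refine ⟨i, hi1, τ, hτL, hτ, ?_, fun c hc hcA => D.sub_div_pow_mem hp hA fr hfr hσ _ ?_ hc hcA⟩
  · rw [eq_add_of_sub_eq hl, pow_succ]; ring
  · rw [hl, mul_div_cancel_left₀ _ (pow_ne_zero _ hϖ0)]
    exact τ.2

end InertiaSub

end FLTA.LevelLowering

end
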