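import Fermat.Agent.LevelLowering.JumpDefs
import Fermat.Agent.LevelLowering.Sections

/-!
# Reductions of rational functions at a given level, and their motion under a jump
-/

set_option autoImplicit false

noncomputable section

open AlgebraicCurve FLTA.BadRed

namespace FLTA.LevelLowering

variable {K : Type*} [Field K] {A : ValuationSubring K}
  {k : Type*} [Field k] {π : A →+* k} {q : ℕ} [NeZero q]
  {F : Type*} [Field F] [Algebra K F] {F' : Type*} [Field F'] [Algebra K F']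
  {Fk : Type*} [Field Fk] [Algebra k Fk] {g gF : ℕ} {B : BadFibre A π q F F' Fk g gF}

/-- Symmetries act coefficientwise on both expansions. -/
theorem coeff_e_sym (s : B.Sym) (l : Fin 2) (x : F) (j : ℤ) :
    (B.e l (s.σ • x)).coeff j = SemilinearAut.baseAut s.σ ((B.e l x).coeff j) := by
  fin_cases l
  · exact s.ex_σ x j
  · show (B.ex (B.w (s.σ • x))).coeff j = SemilinearAut.baseAut s.σ ((B.ex (B.w x)).coeff j)
    rw [s.w_σ]
    exact s.ex_σ _ _

namespace RatFrame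

variable (R : RatFrame B)

/-- The valuation of the expansion `l` is at least `n`. -/
def GeL (l : Fin 2) (n : ℤ) (x : F) : Prop := R.toFrame.Ge (B.e l x) n

/-- The reduction at level `n`. -/
def lev (l : Fin 2) (n : ℤ) (x : F) : LaurentSeries k :=
  redSeries A π (R.ϖ ^ (-n) • B.e l x)

variable {R}

theorem GeL.mono {l : Fin 2} {n m : ℤ} {x : F} (h : R.GeL l n x) (hm : m ≤ n) : R.GeL l m x :=
  Frame.Ge.mono R.toFrame h hm

theorem GeL.add {l : Fin 2} {n : ℤ} {x y : F} (hx : R.GeL l n x) (hy : R.GeL l n y) :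
    R.GeL l n (x + y) := by
  show R.toFrame.Ge (B.e l (x + y)) n
  rw [map_add]
  exact Frame.Ge.add R.toFrame hx hy

theorem GeL.sub {l : Fin 2} {n : ℤ} {x y : F} (hx : R.GeL l n x) (hy : R.GeL l n y) :
    R.GeL l n (x - y) := by
  show R.toFrame.Ge (B.e l (x - y)) n
  rw [map_sub]
  exact Frame.Ge.sub R.toFrame hx hy

theorem GeL.mul {l : Fin 2} {n m : ℤ} {x y : F} (hx : R.GeL l n x) (hy : R.GeL l m y) :
    R.GeL l (n + m) (x * y) := by
  show R.toFrame.Ge (B.e l (x * y)) (n + m)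
  rw [map_mul]
  exact Frame.Ge.mul R.toFrame hx hy

variable (R)

theorem geL_zero_iff (l : Fin 2) (x : F) : R.GeL l 0 x ↔ IntSeries A (B.e l x) :=
  R.toFrame.ge_zero_iff _

theorem lev_zero (l : Fin 2) (x : F) : R.lev l 0 x = redSeries A π (B.e l x) := by
  rw [lev, neg_zero, zpow_zero, one_smul]

theorem lev_add {l : Fin 2} {n : ℤ} {x y : F} (hx : R.GeL l n x) (hy : R.GeL l n y) :
    R.lev l n (x + y) = R.lev l n x + R.lev l n y := by
  rw [lev, map_add, smul_add, redSeries_add hx hy]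
  rfl

theorem lev_sub {l : Fin 2} {n : ℤ} {x y : F} (hx : R.GeL l n x) (hy : R.GeL l n y) :
    R.lev l n (x - y) = R.lev l n x - R.lev l n y := by
  rw [lev, map_sub, smul_sub, redSeries_sub hx hy]
  rfl

theorem lev_mul {l : Fin 2} {n m : ℤ} {x y : F} (hx : R.GeL l n x) (hy : R.GeL l m y) :
    R.lev l (n + m) (x * y) = R.lev l n x * R.lev l m y := by
  rw [lev, lev, lev, ← redSeries_mul hx hy, Frame.smul_mul_smul', map_mul, ← zpow_add₀ R.ϖ_ne_zero,
    neg_add]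

theorem lev_eq_zero {l : Fin 2} {n m : ℤ} {x : F} (hx : R.GeL l m x) (hnm : n < m) :
    R.lev l n x = 0 :=
  R.toFrame.red_eq_zero_of_ge hx hnm

/-- Vanishing reduction at level `n` gives level `n + 1`. -/
theorem geL_succ {l : Fin 2} {n : ℤ} {x : F} (hxFL : x ∈ R.FL) (hx : R.GeL l n x)
    (h : R.lev l n x = 0) : R.GeL l (n + 1) x := by
  rcases eq_or_ne x 0 with rfl | hx0
  · show R.toFrame.Ge (B.e l 0) (n + 1)
    rw [map_zero]
    exact R.toFrame.ge_zero _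
  obtain ⟨m, hm⟩ := R.toFrame.exists_isVal (R.inL_e l hxFL) ((map_ne_zero (B.e l)).mpr hx0)
    ⟨R.ϖ ^ (-n), zpow_ne_zero _ R.ϖ_ne_zero, hx⟩
  have hnm := (hm.ge_iff R.toFrame).mp hx
  have hne : m ≠ n := fun e => hm.2 (e ▸ h)
  exact hm.1.mono R.toFrame (by omega)

/-- The constant `ϖ ^ n c`. -/
def cst (n : ℤ) (c : A) : F := algebraMap K F (R.ϖ ^ n * c)

theorem cst_mem {n : ℤ} {c : A} (hc : (c : K) ∈ R.L) : R.cst n c ∈ R.BL :=
  R.algebraMap_mem_BL (mul_mem (zpow_mem R.ϖ_mem n) hc)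

theorem geL_cst (l : Fin 2) (n : ℤ) (c : A) :
    R.GeL l n (R.cst n c) ∧ R.lev l n (R.cst n c) = HahnSeries.C (π c) := by
  have e : R.ϖ ^ (-n) • B.e l (R.cst n c) = (c : K) • (1 : LaurentSeries K) := by
    rw [cst, e_algebraMap, smul_eq_C_mul, smul_eq_C_mul, mul_one, ← map_mul, ← mul_assoc,
      ← zpow_add₀ R.ϖ_ne_zero, neg_add_cancel, zpow_zero, one_mul]
  refine ⟨?_, ?_⟩
  · show IntSeries A _
    rw [e]
    exact IntSeries.smul c.2 IntSeries.one
  · rw [lev, e, redSeries_smul c.2 IntSeries.one, redSeries_one, smul_eq_C_mul, mul_one]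

theorem lev_algebraMap_mul (l : Fin 2) (n : ℤ) {x : F} {c : A} (hx : R.GeL l 0 x) :
    R.GeL l n (R.cst n c * x) ∧
      R.lev l n (R.cst n c * x) = HahnSeries.C (π c) * R.lev l 0 x := by
  obtain ⟨h1, h2⟩ := R.geL_cst l n c
  have h3 := h1.mul hx
  have h4 := R.lev_mul h1 hx
  rw [add_zero] at h3 h4
  exact ⟨h3, by rw [h4, h2]⟩

theorem geL_vs (l : Fin 2) {x : F} (hx : x ∈ R.BL) (hx0 : x ≠ 0) :
    R.GeL l (R.vs l x) x :=
  (R.isVal_vs l hx hx0).1

section Lead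

variable [IsAlgClosed K] [CharZero K] [IsAlgClosed k] [Fact q.Prime] [CharP k q]

theorem exk_ld_eq_lev (l : Fin 2) {x : F} (hx : x ∈ R.BL) (hx0 : x ≠ 0) :
    B.exk (R.ld l x) = R.lev l (R.vs l x) x := by
  rw [R.exk_ld l hx hx0, (R.isVal_vs l hx hx0).lead_eq R.toFrame]
  rfl

/-- A nonzero reduction at level `n` is the leading part. -/
theorem vs_of_lev {l : Fin 2} {n : ℤ} {x : F} (hx : x ∈ R.BL) (hge : R.GeL l n x)
    (hne : R.lev l n x ≠ 0) :
    x ≠ 0 ∧ R.vs l x = n ∧ B.exk (R.ld l x) = R.lev l n x := by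
  have hv : R.toFrame.IsVal (B.e l x) n := ⟨hge, hne⟩
  have hx0 : x ≠ 0 := fun h => hv.ne_zero R.toFrame (by rw [h, map_zero])
  have h : R.vs l x = n := hv.val_eq R.toFrame
  exact ⟨hx0, h, h ▸ R.exk_ld_eq_lev l hx hx0⟩

end Lead

end RatFrame

namespace Jumping

variable {R : RatFrame B} (J : Jumping R)

theorem smul_algebraMap (c : K) :
    J.s.σ • algebraMap K F c = algebraMap K F (SemilinearAut.baseAut J.s.σ c) :=
  SemilinearAut.smul_algebraMap _ c

theorem geL_smul {l : Fin 2} {x : F} (hx : R.GeL l 0 x) : R.GeL l 0 (J.s.σ • x) := by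
  rw [R.geL_zero_iff] at hx ⊢
  intro j
  rw [coeff_e_sym]
  exact (J.s.mem_iff _).mpr (hx j)

theorem lev_smul {l : Fin 2} {x : F} (hx : R.GeL l 0 x) :
    R.lev l 0 (J.s.σ • x) = R.lev l 0 x := by
  rw [R.lev_zero, R.lev_zero]
  rw [R.geL_zero_iff] at hx
  ext j
  rw [redSeries_coeff, redSeries_coeff, coeff_e_sym]
  calc redCoeff A π (SemilinearAut.baseAut J.s.σ ((B.e l x).coeff j))
      = π ⟨_, (J.s.mem_iff _).mpr (hx j)⟩ := redCoeff_coe A π ⟨_, (J.s.mem_iff _).mpr (hx j)⟩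
    _ = SemilinearAut.baseAut J.s.σk (π ⟨_, hx j⟩) := J.s.π_comm ⟨_, hx j⟩
    _ = π ⟨_, hx j⟩ := J.isInertia _
    _ = redCoeff A π ((B.e l x).coeff j) := (redCoeff_coe A π ⟨_, hx j⟩).symm

/-- Integral rational functions move at level `i + 1`. -/
theorem geL_move {l : Fin 2} {x : F} (hxFL : x ∈ R.FL) (hx : R.GeL l 0 x) :
    R.GeL l (J.i + 1) (J.s.σ • x - x) := by
  intro j
  rw [R.geL_zero_iff] at hx
  have e : (R.ϖ ^ (-((J.i : ℤ) + 1)) • B.e l (J.s.σ • x - x)).coeff j =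
      (SemilinearAut.baseAut J.s.σ ((B.e l x).coeff j) - (B.e l x).coeff j) /
        R.ϖ ^ (J.i + 1) := by
    rw [HahnSeries.coeff_smul, map_sub, HahnSeries.coeff_sub, coeff_e_sym, smul_eq_mul,
      zpow_neg, ← Nat.cast_one (R := ℤ), ← Nat.cast_add, zpow_natCast, div_eq_inv_mul]
  rw [e]
  exact J.move _ (R.inL_e l hxFL j) (hx j)

theorem geL_smul_of_geL {l : Fin 2} {x : F} (hxB : x ∈ R.BL) {c : ℤ} (hx : R.GeL l c x) :
    R.GeL l c (J.s.σ • x) ∧
      R.GeL l (c + J.i) (J.s.σ • x - x) ∧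
      R.lev l (c + J.i) (J.s.σ • x - x) = HahnSeries.C ((c : k) * π J.τ) * R.lev l c x := by
  set x' := R.cst (-c) 1 * x with hx'
  have hgx' : R.GeL l 0 x' := by
    have h := (R.geL_cst l (-c) 1).1.mul hx
    rwa [neg_add_cancel] at h
  have hx'B : x' ∈ R.BL := mul_mem (R.cst_mem (one_mem R.L)) hxB
  have hxeq : x = R.cst c 1 * x' := by
    rw [hx', ← mul_assoc, RatFrame.cst, RatFrame.cst, ← map_mul, OneMemClass.coe_one, mul_one,
      mul_one, ← zpow_add₀ R.ϖ_ne_zero, add_neg_cancel, zpow_zero, map_one, one_mul]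
  have hlev : R.lev l c x = R.lev l 0 x' := by
    rw [hxeq, (R.lev_algebraMap_mul l c (c := (1 : A)) hgx').2, map_one, map_one, one_mul]
  set α : A := ⟨_, J.zpow c⟩ with hα
  set μ : A := (c : A) * J.τ + α * ⟨R.ϖ, R.ϖ_mem_A⟩ with hμ
  have hsc : SemilinearAut.baseAut J.s.σ (R.ϖ ^ c) = R.ϖ ^ c + R.ϖ ^ (c + J.i) * (μ : K) := by
    have hα' : (α : K) = (SemilinearAut.baseAut J.s.σ (R.ϖ ^ c) / R.ϖ ^ c - 1 -
        c * J.τ * R.ϖ ^ J.i) / R.ϖ ^ (J.i + 1) := rfl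
    have h1 := zpow_ne_zero c R.ϖ_ne_zero
    have h2 := pow_ne_zero (J.i + 1) R.ϖ_ne_zero
    rw [eq_div_iff h2] at hα'
    have h3 : SemilinearAut.baseAut J.s.σ (R.ϖ ^ c) =
        (1 + c * J.τ * R.ϖ ^ J.i + α * R.ϖ ^ (J.i + 1)) * R.ϖ ^ c := by
      rw [hα']
      field_simp
      ring
    rw [h3, zpow_add₀ R.ϖ_ne_zero, zpow_natCast, pow_succ]
    push_cast [hμ]
    ring
  have hσx : J.s.σ • x = R.cst c 1 * (J.s.σ • x') + R.cst (c + J.i) μ * (J.s.σ • x') := by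
    conv_lhs => rw [hxeq]
    rw [smul_mul', RatFrame.cst, RatFrame.cst, smul_algebraMap, ← add_mul, ← map_add]
    simp only [OneMemClass.coe_one, mul_one]
    rw [hsc]
  have hdiff : J.s.σ • x - x =
      R.cst (c + J.i) μ * (J.s.σ • x') + R.cst c 1 * (J.s.σ • x' - x') := by
    rw [hσx]
    conv_lhs => arg 2; rw [hxeq]
    ring
  have hσx' := J.geL_smul hgx'
  obtain ⟨hA1, hA2⟩ := R.lev_algebraMap_mul l (c + J.i) (c := μ) hσx'
  have hB1 : R.GeL l (c + J.i + 1) (R.cst c 1 * (J.s.σ • x' - x')) := by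
    have h := (R.geL_cst l c 1).1.mul (J.geL_move (R.BL_le hx'B) hgx')
    rwa [← add_assoc] at h
  refine ⟨?_, ?_, ?_⟩
  · rw [hσx]
    exact ((R.lev_algebraMap_mul l c hσx').1).add (hA1.mono (by omega))
  · rw [hdiff]
    exact hA1.add (hB1.mono (by omega))
  · rw [hdiff, R.lev_add hA1 (hB1.mono (by omega)), hA2, R.lev_eq_zero hB1 (by omega), add_zero,
      J.lev_smul hgx', hlev, hμ, map_add, map_mul, map_mul, map_intCast, R.π_ϖ, mul_zero, add_zero]

end Jumping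

end FLTA.LevelLowering

end
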