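import Fermat.Agent.LevelLowering.TopNormal
import Fermat.Agent.LevelLowering.JumpLevel
import Fermat.Agent.LevelLowering.Removal

/-!
# The trivialisation of the moved class

For a normalised datum `(D, f)` and a jump `σ`, the class of `D - σ D` has the Kummer function
`f / σ f`, whose expansions are power series units congruent to `1`; it has a trivialisation.
-/

set_option autoImplicit false

noncomputable section

open AlgebraicCurve FLTA.BadRed

namespace FLTA.LevelLowering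

variable {K : Type*} [Field K] [IsAlgClosed K] [CharZero K] {A : ValuationSubring K}
  {k : Type*} [Field k] [IsAlgClosed k] {π : A →+* k}
  {q : ℕ} [NeZero q] [Fact q.Prime] [CharP k q]
  {F : Type*} [Field F] [Algebra K F] {F' : Type*} [Field F'] [Algebra K F']
  {Fk : Type*} [Field Fk] [Algebra k Fk] {g gF : ℕ} {B : BadFibre A π q F F' Fk g gF}

namespace Datum

variable {R : RatFrame B} (X : Datum R) (J : Jumping R)

theorem smul_f_spec :
    J.s.σ • X.f ≠ 0 ∧ (∀ l, R.vs l (J.s.σ • X.f) = 0) ∧ ∀ l, R.ld l (J.s.σ • X.f) = X.fb l := by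
  have hm : J.s.σ • X.f ∈ R.BL := J.smul_mem _ X.mem
  have key : ∀ l, R.GeL l 0 (J.s.σ • X.f) ∧ R.lev l 0 (J.s.σ • X.f) = B.exk (X.fb l) := fun l => by
    have hge : R.GeL l 0 X.f := by
      have := R.geL_vs l X.mem X.f_ne_zero
      rwa [X.vs_f] at this
    refine ⟨J.geL_smul hge, ?_⟩
    rw [J.lev_smul hge, fb, R.exk_ld_eq_lev l X.mem X.f_ne_zero, X.vs_f]
  have h := fun l => R.vs_of_lev hm (key l).1
    (by rw [(key l).2]; exact (map_ne_zero B.exk).mpr (X.fb_ne_zero l))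
  refine ⟨(h 0).1, fun l => (h l).2.1, fun l => B.exk.toRingHom.injective ?_⟩
  show B.exk _ = B.exk _
  rw [(h l).2.2, (key l).2]

theorem kummer_smul :
    BadFibre.KummerFn q (J.s.σ • X.D) (J.s.σ • X.f) := by
  refine ⟨(X.smul_f_spec J).1, fun v => ?_⟩
  have h := SemilinearAut.ord_smul J.s.σ (J.s.σ⁻¹ • v) X.f
  rw [smul_inv_smul] at h
  rw [h, SemilinearAut.divisor_smul_apply, X.kummer.ord_eq]

/-- The auxiliary datum, with reduction the `q`-th power of that of `f`. -/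
theorem exists_aux : ∃ Z : Datum R, Z.f = X.f * (J.s.σ • X.f) ^ (q - 1) ∧
    Z.D = X.D + ((q : ℤ) - 1) • (J.s.σ • X.D) ∧ ∀ l, Z.fb l = X.fb l ^ q := by
  obtain ⟨hσ0, hσv, hσl⟩ := X.smul_f_spec J
  have hσm : J.s.σ • X.f ∈ R.BL := J.smul_mem _ X.mem
  have hp0 := pow_ne_zero (q - 1) hσ0
  have hpm := pow_mem hσm (q - 1)
  obtain ⟨b, hb⟩ := X.bound
  have hK : BadFibre.KummerFn q (X.D + ((q : ℤ) - 1) • (J.s.σ • X.D))
      (X.f * (J.s.σ • X.f) ^ (q - 1)) := by
    refine ⟨mul_ne_zero X.f_ne_zero hp0, fun v => ?_⟩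
    rw [Place.ord_mul _ X.f_ne_zero hp0, FLTA.Curves.ord_pow, ← X.kummer.ord_eq,
      ← (X.kummer_smul J).ord_eq, Nat.cast_sub (NeZero.pos q), Finsupp.add_apply,
      Finsupp.smul_apply, smul_eq_mul]
    push_cast
    ring
  refine ⟨⟨_, _, hK, mul_mem X.mem hpm, ⟨q * b, Finsupp.le_def.mpr fun v => ?_⟩, fun l => ?_⟩,
    rfl, rfl, fun l => ?_⟩
  · have h1 := Finsupp.le_def.mp hb v
    have h2 := Finsupp.le_def.mp hb (J.s.σ⁻¹ • v)
    have h3 : B.cuspDiv b (J.s.σ⁻¹ • v) = B.cuspDiv b v := by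
      rw [← SemilinearAut.divisor_smul_apply, RatFrame.smul_cuspDiv]
    rw [Finsupp.neg_apply] at h1 h2
    rw [h3] at h2
    rw [← BadFibre.natCast_smul_cuspDiv, Finsupp.neg_apply, Finsupp.smul_apply, Finsupp.add_apply,
      Finsupp.smul_apply, SemilinearAut.divisor_smul_apply, smul_eq_mul, smul_eq_mul]
    have : (1 : ℤ) ≤ q := by exact_mod_cast NeZero.pos q
    nlinarith
  · rw [R.vs_mul l X.mem X.f_ne_zero hpm hp0, R.vs_pow l hσm hσ0, X.vs_f, hσv, mul_zero, add_zero]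
  · show R.ld l (X.f * (J.s.σ • X.f) ^ (q - 1)) = _
    rw [R.ld_mul l X.mem X.f_ne_zero hpm hp0, R.ld_pow l hσm hσ0, hσl]
    exact mul_pow_sub_one (NeZero.ne q) _

variable {S : Finset (Place k Fk)} {m₀ : ℕ}

/-- The inverse of the reduction lies in the twisted space of the auxiliary datum. -/
theorem inv_mem_img (hS : B.IsGluing S m₀) (E : EtaData R S) (hne : S.Nonempty) {Z : Datum R}
    (hZ : ∀ l, Z.fb l = X.fb l ^ q) :
    ∃ M : ℕ, (fun l => (X.fb l)⁻¹) ∈ Z.img M := by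
  classical
  obtain ⟨M₀, hM⟩ := Z.exists_big S (2 * g + 1)
  set M := M₀ + m₀ + gF
  have hMq : m₀ ≤ q * M := le_trans (by omega) (Nat.le_mul_of_pos_left _ (NeZero.pos q))
  obtain ⟨hsur, hker⟩ := Z.full hS E hne hMq (by omega) fun i => by
    have := hM M (by omega) i
    push_cast at this
    omega
  have hq : (q : ℤ) ≠ 0 := by exact_mod_cast NeZero.ne q
  have hflr : ∀ l v, Z.flr l v = X.o l v := fun l v => by
    rw [flr_apply, o, hZ, FLTA.Curves.ord_pow]
    exact Int.mul_ediv_cancel_left _ hq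
  have hinv : ∀ l (v : Place k Fk), v.ord (X.fb l)⁻¹ = -Z.flr l v := fun l v => by
    rw [Place.ord_inv, hflr]; rfl
  obtain ⟨a, ha, ha0⟩ := hsur (X.fb 0)⁻¹ (by
    rw [mem_riemannRochSpace_iff]
    intro v
    refine Or.inr ?_
    rw [hinv, Finsupp.add_apply, Finsupp.single_apply]
    split_ifs <;> omega)
  have hc := (hS.mem_iff _ hMq _).mp (Z.pow_mul_mem ha)
  have hpow : ∀ l, (a ^ q * Z.fb) l = (a l * X.fb l) ^ q := fun l => by
    rw [Pi.mul_apply, Pi.pow_apply, hZ, mul_pow]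
  set u := a 1 * X.fb 1 with hu
  have hu1 : ∀ Q ∈ S, u ∈ (B.frobq • Q).toValuationSubring ∧
      BadFibre.placeVal (B.frobq • Q) u = 1 := by
    intro Q hQ
    have hmem := BadFibre.mem_of_mem_single (hc.1 1) (hS.smul_ne Q hQ)
    rw [hpow] at hmem
    have humem : u ∈ (B.frobq • Q).toValuationSubring := by
      rcases eq_or_ne u 0 with h | h
      · rw [h]; exact zero_mem _
      refine (FLTA.Curves.mem_iff_ord_nonneg _ h).mpr ?_
      have := FLTA.Curves.ord_nonneg_of_mem _ hmem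
      rw [FLTA.Curves.ord_pow] at this
      exact nonneg_of_mul_nonneg_right this (by exact_mod_cast NeZero.pos q)
    refine ⟨humem, frobenius_inj k q ?_⟩
    have h := hc.2 Q hQ
    rw [hpow, hpow, ha0, inv_mul_cancel₀ (X.fb_ne_zero 0), one_pow,
      BadFibre.placeVal_one (B.rrk.deg_eq_one _),
      BadFibre.placeVal_pow (B.rrk.deg_eq_one _) humem] at h
    rw [frobenius_def, frobenius_def, one_pow, ← h]
  obtain ⟨b, hb, hb0, hb1⟩ := hker ((X.fb 1)⁻¹ - a 1) (by
    rw [mem_riemannRochSpace_iff]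
    intro v
    by_cases hd : (X.fb 1)⁻¹ - a 1 = 0
    · exact Or.inl hd
    refine Or.inr ?_
    rcases Z.compDiv_apply hS M 1 v with ⟨-, h⟩ | ⟨Q, hQ, hQv, hv, h⟩ <;> rw [h]
    · have h1 : -(Z.flr 1 v + Finsupp.single B.infk (M : ℤ) v) ≤ v.ord (X.fb 1)⁻¹ := by
        rw [hinv, Finsupp.single_apply]
        split_ifs <;> omega
      rcases eq_or_ne (a 1) 0 with h0 | h0
      · rwa [h0, sub_zero]
      have h2 := (Z.ord_img hS hMq ha 1 h0 v).1
      have h3 := FLTA.Curves.min_ord_le_ord_add v (f := (X.fb 1)⁻¹) (g := -a 1)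
        (by rwa [← sub_eq_add_neg])
      rw [FLTA.Curves.ord_neg, ← sub_eq_add_neg] at h3
      omega
    · subst hQv
      have hQS := Z.cut_subset 1 hQ
      obtain ⟨humem, hval⟩ := hu1 Q hQS
      have e : (X.fb 1)⁻¹ - a 1 = (X.fb 1)⁻¹ * (1 + (-1 : k) • u) := by
        rw [neg_one_smul, hu]
        field_simp [X.fb_ne_zero 1]
        ring
      have hne1 : (1 + (-1 : k) • u) ≠ 0 := fun h' => hd (by rw [e, h', mul_zero])
      have hmem' : (-1 : k) • u ∈ (B.frobq • Q).toValuationSubring := by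
        rw [Algebra.smul_def]
        exact mul_mem ((B.frobq • Q).algebraMap_mem' _) humem
      have h0 : BadFibre.placeVal (B.frobq • Q) (1 + (-1 : k) • u) = 0 := by
        rw [BadFibre.placeVal_add (B.rrk.deg_eq_one _) (one_mem _) hmem',
          BadFibre.placeVal_smul (B.rrk.deg_eq_one _) _ humem,
          BadFibre.placeVal_one (B.rrk.deg_eq_one _), hval]
        ring
      rw [BadFibre.placeVal_eq_zero_iff (B.rrk.deg_eq_one _) (add_mem (one_mem _) hmem')] at h0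
      have hpos := h0.resolve_left hne1
      rw [e, Place.ord_mul _ (inv_ne_zero (X.fb_ne_zero 1)) hne1, hinv]
      rw [pt_one] at *
      omega)
  refine ⟨M, ?_⟩
  convert add_mem ha hb using 1
  funext l
  rcases (by decide : ∀ l : Fin 2, l = 0 ∨ l = 1) l with rfl | rfl
  · rw [Pi.add_apply, ha0, hb0, add_zero]
  · rw [Pi.add_apply, hb1, add_sub_cancel]

/-- **The trivialisation of the moved class.** -/
theorem IsTop.exists_trivialisation {X : Datum R} {m : ℕ} (hX : X.IsTop m) (J : Jumping R)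
    (hS : B.IsGluing S m₀) (E : EtaData R S) (hne : S.Nonempty) :
    ∃ fy θ : F, fy * (J.s.σ • X.f) = X.f ∧ BadFibre.KummerFn q (X.D - J.s.σ • X.D) fy ∧
      fy ∈ R.BL ∧ (∀ l, IntSeries A (B.e l fy)) ∧ (∀ l, ∀ j < (0 : ℤ), (B.e l fy).coeff j = 0) ∧
      (∀ l, redSeries A π (B.e l fy) = 1) ∧ IsTrivialisation R (X.D - J.s.σ • X.D) θ := by
  classical
  obtain ⟨hσ0, hσv, hσl⟩ := X.smul_f_spec J
  have hσm : J.s.σ • X.f ∈ R.BL := J.smul_mem _ X.mem
  have hint : ∀ l, IntSeries A (B.e l (J.s.σ • X.f)) := fun l =>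
    (R.geL_zero_iff l _).mp (J.geL_smul ((R.geL_zero_iff l _).mpr (hX.int l)))
  have hred : ∀ l, redSeries A π (B.e l (J.s.σ • X.f)) = redSeries A π (B.e l X.f) := fun l => by
    rw [← R.lev_zero, ← R.lev_zero, J.lev_smul ((R.geL_zero_iff l _).mpr (hX.int l))]
  have hlow : ∀ l, ∀ j < -((q * m : ℕ) : ℤ), (B.e l (J.s.σ • X.f)).coeff j = 0 := fun l j hj => by
    rw [coeff_e_sym, hX.low l j hj, map_zero]
  choose w hw hwe using fun l => exists_int_inverse R.π_surjective (hint l) (hlow l)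
    (by rw [hred]; exact hX.lead l)
  have hdiv : ∀ x : F, ∀ l, B.e l (x / (J.s.σ • X.f)) = B.e l x * w l := fun x l => by
    rw [map_div₀, div_eq_iff ((map_ne_zero (B.e l)).mpr hσ0), mul_assoc, mul_comm (w l), hwe,
      mul_one]
  set fy := X.f / (J.s.σ • X.f) with hfy
  have hfy0 : fy ≠ 0 := div_ne_zero X.f_ne_zero hσ0
  have hprod : fy * (J.s.σ • X.f) = X.f := div_mul_cancel₀ _ hσ0
  have hfyint : ∀ l, IntSeries A (B.e l fy) := fun l => by
    rw [hfy, hdiv]; exact (hX.int l).mul (hw l)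
  have hfyB : fy ∈ R.BL := by
    refine ⟨_root_.div_mem (R.BL_le X.mem) (R.BL_le hσm), fun l => ⟨1, one_ne_zero, ?_⟩⟩
    exact (hfyint l).smul A.one_mem
  have hfne : ∀ l, redSeries A π (B.e l X.f) ≠ 0 := fun l h => hX.lead l (by rw [h]; rfl)
  have hfyred : ∀ l, redSeries A π (B.e l fy) = 1 := fun l => by
    have h := congrArg (fun x => redSeries A π (B.e l x)) hprod
    simp only [map_mul, redSeries_mul (hfyint l) (hint l), hred] at h
    exact (mul_eq_right₀ (hfne l)).mp h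
  have hfyneg : ∀ l, ∀ j < (0 : ℤ), (B.e l fy).coeff j = 0 := fun l j hj => by
    have hexact : ∀ x : F, x ≠ 0 → (∀ j < -((q * m : ℕ) : ℤ), (B.e l x).coeff j = 0) →
        (redSeries A π (B.e l x)).coeff (-((q * m : ℕ) : ℤ)) ≠ 0 →
        (B.e l x).order = -((q * m : ℕ) : ℤ) := fun x hx h1 h2 => by
      refine le_antisymm (HahnSeries.order_le_of_coeff_ne_zero fun h => h2 ?_) ?_
      · rw [redSeries_coeff, h, show (0 : K) = ((0 : A) : K) from rfl, redCoeff_coe, map_zero]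
      · exact (HahnSeries.le_order_iff_forall ((map_ne_zero (B.e l)).mpr hx)).mpr h1
    have hord : (B.e l fy).order + (B.e l (J.s.σ • X.f)).order = (B.e l X.f).order := by
      rw [← HahnSeries.order_mul ((map_ne_zero (B.e l)).mpr hfy0) ((map_ne_zero (B.e l)).mpr hσ0),
        ← map_mul, hprod]
    rw [hexact _ hσ0 (hlow l) (by rw [hred]; exact hX.lead l),
      hexact _ X.f_ne_zero (hX.low l) (hX.lead l)] at hord
    exact HahnSeries.coeff_eq_zero_of_lt_order (by omega)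
  have hK : BadFibre.KummerFn q (X.D - J.s.σ • X.D) fy := ⟨hfy0, fun v => by
    rw [hfy, div_eq_mul_inv, Place.ord_mul _ X.f_ne_zero (inv_ne_zero hσ0), Place.ord_inv,
      ← X.kummer.ord_eq, ← (X.kummer_smul J).ord_eq, Finsupp.sub_apply]
    ring⟩
  obtain ⟨Z, hZf, hZD, hZb⟩ := X.exists_aux J
  obtain ⟨M, hM⟩ := X.inv_mem_img hS E hne hZb
  obtain ⟨z₀, hz₀, hp₀⟩ := Z.mem_img.mp hM
  obtain ⟨z, hzW, hzB, hp⟩ := Z.exists_rat_W hz₀ hp₀
  set θ := z * (J.s.σ • X.f) / Z.f with hθ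
  choose v hv hve using hX.exists_inverse
  have hzint : ∀ l, IntSeries A (B.e l z) := hp.1
  have hθser : ∀ l, B.e l θ = B.e l z * B.e l (J.s.σ • X.f) * (v l * w l ^ (q - 1)) := fun l => by
    rw [hθ, map_div₀, div_eq_iff ((map_ne_zero (B.e l)).mpr Z.f_ne_zero), hZf, map_mul, map_mul,
      map_pow]
    calc B.e l z * B.e l (J.s.σ • X.f)
        = B.e l z * B.e l (J.s.σ • X.f) *
          ((B.e l X.f * v l) * (B.e l (J.s.σ • X.f) * w l) ^ (q - 1)) := by
            rw [hve, hwe, one_pow, mul_one, mul_one]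
      _ = _ := by rw [mul_pow]; ring
  have hθint : ∀ l, IntSeries A (B.e l θ) := fun l => by
    rw [hθser]
    exact ((hzint l).mul (hint l)).mul ((hv l).mul ((hw l).pow _))
  have hθB : θ ∈ R.BL := by
    refine ⟨_root_.div_mem (mul_mem (R.BL_le hzB) (R.BL_le hσm)) (R.BL_le Z.mem),
      fun l => ⟨1, one_ne_zero, ?_⟩⟩
    exact (hθint l).smul A.one_mem
  have hθred : ∀ l, redSeries A π (B.e l θ) = 1 := fun l => by
    have hθZ : θ * Z.f = z * (J.s.σ • X.f) := div_mul_cancel₀ _ Z.f_ne_zero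
    have h := congrArg (fun x => redSeries A π (B.e l x)) hθZ
    have hZint : IntSeries A (B.e l Z.f) := by
      rw [hZf, map_mul, map_pow]; exact (hX.int l).mul ((hint l).pow _)
    have hZred : redSeries A π (B.e l Z.f) = B.exk (Z.fb l) := by
      rw [fb, R.exk_ld_eq_lev l Z.mem Z.f_ne_zero, Z.vs_f, R.lev_zero]
    have hσred : redSeries A π (B.e l (J.s.σ • X.f)) = B.exk (X.fb l) := by
      rw [hred, fb, R.exk_ld_eq_lev l X.mem X.f_ne_zero, X.vs_f, R.lev_zero]
    simp only [map_mul, redSeries_mul (hθint l) hZint, redSeries_mul (hzint l) (hint l), hZred,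
      hσred, ← hp.2 l] at h
    rw [← map_mul B.exk, Pi.mul_apply, mul_comm (X.fb l)⁻¹ (Z.fb l), mul_assoc,
      inv_mul_cancel₀ (X.fb_ne_zero l), mul_one] at h
    exact (mul_eq_right₀ ((map_ne_zero B.exk).mpr (Z.fb_ne_zero l))).mp h
  refine ⟨fy, θ, hprod, hK, hfyB, hfyint, hfyneg, hfyred, ⟨M, ?_⟩, hθB, hθint, hθred⟩
  rw [mem_riemannRochSpace_iff]
  intro u
  by_cases hθ0 : θ = 0
  · exact Or.inl hθ0
  refine Or.inr ?_
  have hz0 : z ≠ 0 := fun h => hθ0 (by rw [hθ, h, zero_mul, zero_div])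
  have h1 := (mem_riemannRochSpace_iff.mp hzW u).resolve_left hz0
  rw [hθ, div_eq_mul_inv, Place.ord_mul _ (mul_ne_zero hz0 hσ0) (inv_ne_zero Z.f_ne_zero),
    Place.ord_mul _ hz0 hσ0, Place.ord_inv, ← Z.kummer.ord_eq, ← (X.kummer_smul J).ord_eq]
  rw [twDiv, hZD, Finsupp.sub_apply, Finsupp.smul_apply, Finsupp.add_apply, Finsupp.smul_apply,
    smul_eq_mul, smul_eq_mul] at h1
  rw [hZD, Finsupp.add_apply, Finsupp.add_apply, Finsupp.sub_apply, Finsupp.smul_apply, smul_eq_mul]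
  linarith

end Datum

end FLTA.LevelLowering

end
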