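import Fermat.Prelude.Def_FLTPrelim_Modularity

/-!
# The local hypothesis at `p` for lowering `p` from the level of a semistable curve
-/

set_option autoImplicit false

namespace FLTA.LevelLowering

/-- At `p`, the curve is good ordinary, or multiplicative with `p ∣ v_p Δ`. -/
def IsOrdinaryOrPeuMult (W : WeierstrassCurve ℤ) (p : ℕ) : Prop :=
  (¬ (p : ℤ) ∣ W.Δ ∧ ¬ (p : ℤ) ∣ W.apOfModel p) ∨
    ((p : ℤ) ∣ W.Δ ∧ ¬ (p : ℤ) ∣ W.c₄ ∧ p ∣ W.Δ.natAbs.factorization p)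

end FLTA.LevelLowering
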