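import Fermat.Agent.LevelLowering.LocalCurveOmega
import Mathlib.AlgebraicGeometry.EllipticCurve.DivisionPolynomial.Degree
import Mathlib.RingTheory.MvPolynomial.Basic
import Mathlib.RingTheory.Polynomial.Basic
import Mathlib.Algebra.Polynomial.Eval.Degree
import Mathlib.FieldTheory.IsAlgClosed.Basic

/-!
# In characteristic `p` the `p`-division polynomial has degree at most `(p² - p) / 2`
-/

set_option autoImplicit false
set_option linter.unusedSectionVars false

open Polynomial WeierstrassCurve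

namespace FLTA.LevelLowering

variable {K : Type*} [Field K]

lemma natDegree_preΨ'_le_of_charP_elliptic {p : ℕ} [CharP K p] (hp : p.Prime) (hp2 : p ≠ 2)
    (W : WeierstrassCurve K) [W.IsElliptic] : (W.preΨ' p).natDegree ≤ (p ^ 2 - p) / 2 := by
  classical
  have hodd : ¬ Even p := Nat.not_even_iff_odd.mpr (hp.odd_of_ne_two hp2)
  have hB0 : W.ΨSq (p : ℤ) ≠ 0 := Omega.ΨSq_ne_zero_of_isElliptic W hp.ne_zero
  have hBle : (W.ΨSq (p : ℤ)).natDegree ≤ p ^ 2 - 1 := by simpa using W.natDegree_ΨSq_le (p : ℤ)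
  have hB2 : W.ΨSq (p : ℤ) = W.preΨ' p ^ 2 := by rw [W.ΨSq_ofNat, if_neg hodd, mul_one]
  have hcop : IsCoprime (W.ΨSq (p : ℤ)) (W.Φ (p : ℤ)) := by
    rw [← EuclideanDomain.gcd_isUnit_iff]
    by_contra hg
    have hg0 : EuclideanDomain.gcd (W.ΨSq (p : ℤ)) (W.Φ (p : ℤ)) ≠ 0 := fun h =>
      hB0 (EuclideanDomain.gcd_eq_zero_iff.mp h).1
    have hdeg : 0 < (EuclideanDomain.gcd (W.ΨSq (p : ℤ)) (W.Φ (p : ℤ))).natDegree := by
      by_contra h0
      exact hg (isUnit_iff_degree_eq_zero.mpr (by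
        rw [degree_eq_natDegree hg0, Nat.le_zero.mp (not_lt.mp h0), Nat.cast_zero]))
    set L := AlgebraicClosure K
    set ι := algebraMap K L
    obtain ⟨r, hr⟩ := IsAlgClosed.exists_root
      ((EuclideanDomain.gcd (W.ΨSq (p : ℤ)) (W.Φ (p : ℤ))).map ι)
      (by
        rw [degree_eq_natDegree (Polynomial.map_ne_zero hg0), natDegree_map]
        exact_mod_cast hdeg.ne')
    haveI : (W.map ι).IsElliptic := inferInstance
    obtain ⟨y, hy⟩ := EllTorsion.exists_point_x (W.map ι) r
    apply EllTorsion.mulVec_ne_zero hy (p : ℤ)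
    have h1 := IsRoot.dvd hr (Polynomial.map_dvd ι (EuclideanDomain.gcd_dvd_left _ _))
    have h2 := IsRoot.dvd hr (Polynomial.map_dvd ι (EuclideanDomain.gcd_dvd_right _ _))
    ext i
    fin_cases i
    · simp [EllTorsion.mulVec, map_Φ]; exact h2
    · simp only [EllTorsion.mulVec, map_ΨSq]; exact h1
  have hw := Omega.wronskian_eq_zero W (p := p) hp.ne_zero
  rw [sub_eq_zero] at hw
  have hdvd : W.ΨSq (p : ℤ) ∣ derivative (W.ΨSq (p : ℤ)) :=
    hcop.dvd_of_dvd_mul_left ⟨derivative (W.Φ (p : ℤ)), by rw [← hw, mul_comm]⟩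
  have hder : derivative (W.ΨSq (p : ℤ)) = 0 := by
    by_contra hne
    have h1 := natDegree_le_of_dvd hdvd hne
    have h2 : (W.ΨSq (p : ℤ)).natDegree ≠ 0 := fun h0 => hne (by
      rw [eq_C_of_natDegree_eq_zero h0, derivative_C])
    have := natDegree_derivative_lt h2
    omega
  have hpd : p ∣ (W.ΨSq (p : ℤ)).natDegree := by
    rcases Nat.eq_zero_or_pos (W.ΨSq (p : ℤ)).natDegree with h0 | hpos
    · rw [h0]; exact dvd_zero p
    · obtain ⟨d, hd⟩ : ∃ d, (W.ΨSq (p : ℤ)).natDegree = d + 1 := ⟨_, (Nat.succ_pred_eq_of_pos hpos).symm⟩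
      have := congrArg (fun P => P.coeff d) hder
      simp only [coeff_derivative, coeff_zero, mul_eq_zero] at this
      rw [← hd] at this
      rcases this with h | h
      · exact absurd h (leadingCoeff_ne_zero.mpr hB0)
      · rw [hd, ← CharP.cast_eq_zero_iff K p]
        push_cast
        exact h
  obtain ⟨c, hc⟩ := hpd
  have hle : (W.ΨSq (p : ℤ)).natDegree ≤ p ^ 2 - p := by
    have hc' : c < p := by
      by_contra h
      have : p * p ≤ p * c := Nat.mul_le_mul_left p (not_lt.mp h)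
      rw [← hc] at this
      have := hp.one_lt
      rw [sq] at hBle
      have : 0 < p * p := by positivity
      omega
    calc (W.ΨSq (p : ℤ)).natDegree = p * c := hc
      _ ≤ p * (p - 1) := Nat.mul_le_mul_left p (by omega)
      _ = p ^ 2 - p := by rw [Nat.mul_sub, sq, mul_one]
  rw [hB2, natDegree_pow] at hle
  omega

/-- `p ∣ coeff i (preΨ' p)` above degree `(p² - p) / 2`, for every integral Weierstrass curve. -/
theorem dvd_coeff_preΨ' {p : ℕ} (hp : p.Prime) (hp2 : p ≠ 2) (W : WeierstrassCurve ℤ) {i : ℕ}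
    (hi : (p ^ 2 - p) / 2 < i) : (p : ℤ) ∣ (W.preΨ' p).coeff i := by
  have : Fact p.Prime := ⟨hp⟩
  let R := MvPolynomial (Fin 5) (ZMod p)
  let U : WeierstrassCurve R :=
    ⟨MvPolynomial.X 0, MvPolynomial.X 1, MvPolynomial.X 2, MvPolynomial.X 3, MvPolynomial.X 4⟩
  let spec : R →+* ZMod p :=
    MvPolynomial.eval₂Hom (RingHom.id _) ![(W.a₁ : ZMod p), W.a₂, W.a₃, W.a₄, W.a₆]
  have hspec : U.map spec = W.map (Int.castRingHom (ZMod p)) := by
    ext <;> simp [U, spec, R, WeierstrassCurve.map]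
  have hΔ : U.Δ ≠ 0 := by
    intro h0
    let sT : R →+* (ZMod p)[X] := MvPolynomial.eval₂Hom C ![1, 0, 0, 0, X]
    have h1 := congrArg sT h0
    rw [← WeierstrassCurve.map_Δ, map_zero] at h1
    have h2 : (U.map sT).Δ = -X - C 432 * X ^ 2 := by
      simp [U, sT, R, WeierstrassCurve.map, WeierstrassCurve.Δ, b₂, b₄, b₆, b₈]
      rw [map_ofNat C]; ring
    rw [h2] at h1
    have := congrArg (fun P => P.coeff 1) h1
    simp at this
  let F := FractionRing R
  let j := algebraMap R F
  have : CharP R p := inferInstance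
  have : CharP F p := charP_of_injective_algebraMap (IsFractionRing.injective R F) p
  have : (U.map j).IsElliptic := ⟨by
    rw [WeierstrassCurve.map_Δ, isUnit_iff_ne_zero]
    exact fun h => hΔ (IsFractionRing.injective R F (h.trans (map_zero _).symm))⟩
  have hdeg := natDegree_preΨ'_le_of_charP_elliptic hp hp2 (U.map j)
  rw [map_preΨ', natDegree_map_eq_of_injective (IsFractionRing.injective R F)] at hdeg
  rw [← ZMod.intCast_zmod_eq_zero_iff_dvd, ← eq_intCast (Int.castRingHom (ZMod p)), ← coeff_map,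
    ← map_preΨ', ← hspec, map_preΨ', coeff_map, coeff_eq_zero_of_natDegree_lt (by omega), map_zero]

end FLTA.LevelLowering
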