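import Fermat.Agent.LevelLowering.LocalCurveHasse
import Fermat.Agent.LevelLowering.LocalCurveDegree
import Fermat.Agent.EllReduction.Api
import Fermat.Agent.EllTorsion.CardCount
import Mathlib.Algebra.Polynomial.Splits

/-!
# Valuations of the abscissae of `p`-torsion at an ordinary or multiplicative place over `p`
-/

set_option autoImplicit false

open scoped Classical

open Polynomial WeierstrassCurve FLTA.EllReduction FLTA.EllReduction.FreyAux

open scoped WeierstrassCurve.Affine

namespace FLTA.LevelLowering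

section Shape

variable {L : Type*} [Field L] [CharZero L] [IsAlgClosed L] {A : ValuationSubring L} {p : ℕ}
  {w : L → ℚ}

omit [CharZero L] [IsAlgClosed L] in
/-- A product of `X - a`, no `a` integral, is a constant times a polynomial congruent to `1`. -/
theorem exists_reversed_prod {M : Multiset L} (hM : ∀ a ∈ M, a ∉ A) :
    ∃ q : A[X], (∀ i, 1 ≤ i → ((q.coeff i : A) : L) ∈ A.nonunits) ∧
      (M.map fun a => X - C a).prod = C (M.map fun a => -a).prod * q.map A.subtype := by
  induction M using Multiset.induction_on with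
  | empty =>
    refine ⟨1, fun i hi => ?_, by simp⟩
    rw [coeff_one, if_neg (by omega)]
    simp
  | cons a M ih =>
    obtain ⟨q, hq, he⟩ := ih fun b hb => hM b (Multiset.mem_cons_of_mem hb)
    have ha := hM a (Multiset.mem_cons_self _ _)
    have ha0 : a ≠ 0 := fun h => ha (h ▸ zero_mem A)
    have hlt : A.valuation a⁻¹ < 1 := by
      rw [map_inv₀]; exact inv_lt_one_of_one_lt₀ (one_lt_valuation_of_notMem ha)
    set c : A := ⟨a⁻¹, mem_of_valuation_lt_one hlt⟩
    refine ⟨q * (1 - C c * X), fun i hi => ?_, ?_⟩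
    · obtain ⟨j, rfl⟩ : ∃ j, i = j + 1 := ⟨i - 1, by omega⟩
      rw [mul_sub, mul_one, coeff_sub, ← mul_assoc, coeff_mul_X, coeff_mul_C]
      push_cast
      refine valuation_sub_lt_one (hq _ hi) ?_
      rw [mul_comm]
      exact valuation_mul_lt_one hlt (q.coeff j).2
    · rw [Multiset.map_cons, Multiset.map_cons, Multiset.prod_cons, Multiset.prod_cons, he]
      simp only [Polynomial.map_mul, Polynomial.map_sub, Polynomial.map_one, map_C, map_X, map_mul,
        map_neg]
      have h1 : C a * C (A.subtype c) = (1 : L[X]) := by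
        rw [← map_mul]; show C (a * a⁻¹) = 1; rw [mul_inv_cancel₀ ha0, map_one]
      linear_combination -(C (M.map fun b => -b).prod * q.map A.subtype * X) * h1

/-- Root valuations for an integral polynomial of degree `d` and leading coefficient `p` whose
coefficients above `d'` are divisible by `p`, some non-constant one being prime to `p`. -/
theorem roots_shape_of_ordinary (hw : IsRatVal A p w) (hp : p.Prime) {f : ℤ[X]} {d d' : ℕ}
    (hdeg : f.natDegree = d) (hlead : f.coeff d = p)
    (hex : ∃ i, 1 ≤ i ∧ ¬ (p : ℤ) ∣ f.coeff i) (hdiv : ∀ i, d' < i → (p : ℤ) ∣ f.coeff i) :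
    (∃ x, (f.map (Int.castRingHom L)).eval x = 0 ∧ x ∉ A) ∧
    (∃ x, (f.map (Int.castRingHom L)).eval x = 0 ∧ x ∈ A) ∧
    (∀ x, (f.map (Int.castRingHom L)).eval x = 0 → x ∉ A → -w x * ((d : ℚ) - d') ≤ 1) := by
  set g := f.map (Int.castRingHom L) with hg
  have hgdeg : g.natDegree = d := by
    rw [hg, natDegree_map_eq_of_injective Int.cast_injective, hdeg]
  have hglead : g.leadingCoeff = (p : L) := by
    rw [leadingCoeff, hgdeg, hg, coeff_map, hlead]; simp
  have hg0 : g ≠ 0 := fun h => by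
    rw [h, leadingCoeff_zero] at hglead
    exact hw.q_ne hglead.symm
  have hprod : g = C (p : L) * (g.roots.map fun a => X - C a).prod := by
    rw [← hglead]
    exact (IsAlgClosed.splits g).eq_prod_roots
  have hroot : ∀ x, x ∈ g.roots ↔ g.eval x = 0 := fun x => mem_roots hg0
  obtain ⟨i, hi1, hi⟩ := hex
  have hcw : ((f.coeff i : ℤ) : L) ≠ 0 ∧ w ((f.coeff i : ℤ) : L) = 0 :=
    hw.map_intCast_of_not_dvd hp hi
  refine ⟨?_, ?_, ?_⟩
  · by_contra hno
    push Not at hno
    have hmem : ∀ x ∈ g.roots, x ∈ A := fun x hx => hno x ((hroot x).mp hx)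
    set q : A[X] := (g.roots.pmap (fun a ha => X - C (⟨a, ha⟩ : A)) hmem).prod with hq
    have hqg : g = C (p : L) * q.map A.subtype := by
      rw [hq, Polynomial.map_multiset_prod, Multiset.map_pmap]
      conv_lhs => rw [hprod]
      congr 2
      rw [← Multiset.pmap_eq_map _ _ _ hmem]
      refine Multiset.pmap_congr _ fun a _ h1 h2 => ?_
      simp
    have h1 : g.coeff i = (p : L) * ((q.coeff i : A) : L) := by
      rw [hqg, coeff_C_mul, coeff_map]; rfl
    rw [hg, coeff_map, eq_intCast] at h1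
    have hq0 : ((q.coeff i : A) : L) ≠ 0 := fun h => hcw.1 (by rw [h1, h, mul_zero])
    have h2 := hcw.2
    rw [h1, hw.map_mul hw.q_ne hq0, hw.map_q] at h2
    have := (hw.mem_iff hq0).mp (q.coeff i).2
    linarith
  · by_contra hno
    push Not at hno
    have hneg : ∀ x ∈ g.roots, x ∉ A := fun x hx => hno x ((hroot x).mp hx)
    obtain ⟨q, hqi, hq⟩ := exists_reversed_prod (M := g.roots) hneg
    have hc : g = C ((p : L) * (g.roots.map fun a => -a).prod) * q.map A.subtype := by
      conv_lhs => rw [hprod, hq]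
      rw [map_mul, mul_assoc]
    have h0 : g.coeff 0 = (p : L) * (g.roots.map fun a => -a).prod := by
      conv_lhs => rw [hprod]
      rw [coeff_C_mul, coeff_zero_eq_eval_zero, eval_multiset_prod, Multiset.map_map]
      congr 2
      exact Multiset.map_congr rfl fun a _ => by simp
    have h1 : g.coeff i = g.coeff 0 * ((q.coeff i : A) : L) := by
      rw [h0]
      conv_lhs => rw [hc, coeff_C_mul, coeff_map]
      rfl
    rw [hg, coeff_map, coeff_map, eq_intCast, eq_intCast] at h1
    have hf0 : ((f.coeff 0 : ℤ) : L) ≠ 0 := fun h => hcw.1 (by rw [h1, h, zero_mul])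
    have hq0 : ((q.coeff i : A) : L) ≠ 0 := fun h => hcw.1 (by rw [h1, h, mul_zero])
    have h2 := hcw.2
    rw [h1, hw.map_mul hf0 hq0] at h2
    have hpos := (hw.mem_nonunits_iff.mp (hqi i hi1)).resolve_left hq0
    linarith [(hw.intCast_nonneg (f.coeff 0)).resolve_left hf0]
  · intro x hx hxA
    have hx0 : x ≠ 0 := fun h => hxA (h ▸ zero_mem A)
    have hneg : w x < 0 := not_le.mp fun h => hxA ((hw.mem_iff hx0).mpr h)
    by_contra hgt
    rw [not_le] at hgt
    have hterm : ∀ j < d, (f.coeff j : L) * x ^ j = 0 ∨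
        1 + (d : ℚ) * w x < w ((f.coeff j : L) * x ^ j) := by
      intro j hj
      rcases eq_or_ne (f.coeff j) 0 with h0 | h0
      · left; simp [h0]
      right
      have hc0 : (f.coeff j : L) ≠ 0 := Int.cast_ne_zero.mpr h0
      rw [hw.map_mul hc0 (pow_ne_zero _ hx0), hw.map_pow hx0]
      have hc0' := (hw.intCast_nonneg (f.coeff j)).resolve_left hc0
      rcases le_or_gt j d' with hjd | hjd
      · have : (j : ℚ) ≤ d' := by exact_mod_cast hjd
        nlinarith
      · have hid : (j : ℚ) + 1 ≤ d := by exact_mod_cast hj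
        obtain ⟨k, hk⟩ := hdiv j hjd
        have hk0 : (k : L) ≠ 0 := Int.cast_ne_zero.mpr (by rintro rfl; exact h0 (by simpa using hk))
        have : 1 ≤ w (f.coeff j : L) := by
          rw [hk]; push_cast
          rw [hw.map_mul hw.q_ne hk0, hw.map_q]
          linarith [(hw.intCast_nonneg k).resolve_left hk0]
        nlinarith
    have hsum : ∀ n, n ≤ d → ∑ j ∈ Finset.range n, (f.coeff j : L) * x ^ j = 0 ∨
        1 + (d : ℚ) * w x < w (∑ j ∈ Finset.range n, (f.coeff j : L) * x ^ j) := by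
      intro n
      induction n with
      | zero => intro _; left; simp
      | succ n ih =>
        intro hn
        rw [Finset.sum_range_succ]
        rcases hterm n hn with h1 | h1
        · rw [h1, add_zero]; exact ih (by omega)
        rcases ih (by omega) with h2 | h2
        · rw [h2, zero_add]; exact .inr h1
        · by_cases h : ∑ j ∈ Finset.range n, (f.coeff j : L) * x ^ j + (f.coeff n : L) * x ^ n = 0
          · exact .inl h
          · exact .inr (lt_of_lt_of_le (lt_min h2 h1)
              (hw.le_add h (.inr (min_le_left _ _)) (.inr (min_le_right _ _))))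
    rw [eval_eq_sum_range, hgdeg, Finset.sum_range_succ, add_comm] at hx
    simp only [hg, coeff_map, eq_intCast] at hx
    have hwlead : w ((f.coeff d : L) * x ^ d) = 1 + (d : ℚ) * w x := by
      rw [hlead]; push_cast
      rw [hw.map_mul hw.q_ne (pow_ne_zero _ hx0), hw.map_q, hw.map_pow hx0]
    have hne : (f.coeff d : L) * x ^ d ≠ 0 := by
      rw [hlead]; push_cast; exact mul_ne_zero hw.q_ne (pow_ne_zero _ hx0)
    exact (hw.add_eq_left hne ((hsum d le_rfl).imp_right fun h => hwlead ▸ h)).1 hx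

end Shape

/-- The three facts about `p`-torsion abscissae at an ordinary or multiplicative place over `p`:
some lie outside `A`, some inside, and those outside have valuation at least `-2 / (p - 1)`. -/
theorem torsion_shape_curve (W : WeierstrassCurve ℤ) (hΔ : W.Δ ≠ 0) {p : ℕ} [Fact p.Prime]
    (hp2 : p ≠ 2)
    (hloc : (¬ (p : ℤ) ∣ W.Δ ∧ ¬ (p : ℤ) ∣ W.apOfModel p) ∨ ((p : ℤ) ∣ W.Δ ∧ ¬ (p : ℤ) ∣ W.c₄))
    {A : ValuationSubring (AlgebraicClosure ℚ)} {w : AlgebraicClosure ℚ → ℚ}
    (hw : IsRatVal A p w) :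
    (∃ T : GeomPoint W, T ≠ 0 ∧ p • T = 0 ∧ T ∈ E1Z W A) ∧
    (∃ T : GeomPoint W, p • T = 0 ∧ T ∉ E1Z W A) ∧
    (∀ (x y : AlgebraicClosure ℚ) (h : (geomCurve W).Nonsingular x y),
      p • (Affine.Point.some x y h : GeomPoint W) = 0 → x ∉ A → -w x * ((p : ℚ) - 1) ≤ 2) := by
  have hp : p.Prime := Fact.out
  have hodd : Odd p := hp.odd_of_ne_two hp2
  have hpZ : ((p : ℕ) : ℤ) ≠ 0 := Int.natCast_ne_zero.mpr hp.ne_zero
  have hne : ¬ Even p := Nat.not_even_iff_odd.mpr hodd
  have hdeg : (W.preΨ' p).natDegree = (p ^ 2 - 1) / 2 := by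
    rw [W.natDegree_preΨ' hpZ, if_neg hne]
  have hlead : (W.preΨ' p).coeff ((p ^ 2 - 1) / 2) = p := by
    have := W.coeff_preΨ' p
    simp only [if_neg hne] at this
    exact this
  obtain ⟨hout, hin, hb⟩ := roots_shape_of_ordinary hw hp hdeg hlead
    (exists_coeff_not_dvd hp2 W hloc) (d' := (p ^ 2 - p) / 2)
    (fun i hi => dvd_coeff_preΨ' hp hp2 W hi)
  have : (geomCurve W).IsElliptic :=
    ⟨by rw [geomCurve_Δ, isUnit_iff_ne_zero]; exact Int.cast_ne_zero.mpr hΔ⟩
  have hroot : ∀ {x y : AlgebraicClosure ℚ} (h : (geomCurve W).Nonsingular x y),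
      p • (Affine.Point.some x y h : GeomPoint W) = 0 ↔
        ((W.preΨ' p).map (Int.castRingHom (AlgebraicClosure ℚ))).eval x = 0 := by
    intro x y h
    rw [← map_preΨ', ← geomCurve_eq]
    exact EllTorsion.nsmul_eq_zero_iff_of_odd (W := geomCurve W) h hodd
  refine ⟨?_, ?_, fun x y h hpT hxA => ?_⟩
  · obtain ⟨x, hx, hxA⟩ := hout
    obtain ⟨y, hy⟩ := EllTorsion.exists_point_x (geomCurve W) x
    exact ⟨.some x y hy, Affine.Point.some_ne_zero hy, (hroot hy).mpr hx, hxA⟩
  · obtain ⟨x, hx, hxA⟩ := hin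
    obtain ⟨y, hy⟩ := EllTorsion.exists_point_x (geomCurve W) x
    exact ⟨.some x y hy, (hroot hy).mpr hx, fun h => h hxA⟩
  · have h2 := hb x ((hroot h).mp hpT) hxA
    obtain ⟨k, hk⟩ := hodd
    have e1 : (p ^ 2 - 1) / 2 = 2 * k ^ 2 + 2 * k := by
      rw [hk, show (2 * k + 1) ^ 2 - 1 = 2 * (2 * k ^ 2 + 2 * k) by
        rw [Nat.sub_eq_iff_eq_add] <;> nlinarith]
      omega
    have e2 : (p ^ 2 - p) / 2 = 2 * k ^ 2 + k := by
      rw [hk, show (2 * k + 1) ^ 2 - (2 * k + 1) = 2 * (2 * k ^ 2 + k) by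
        rw [Nat.sub_eq_iff_eq_add] <;> nlinarith]
      omega
    rw [e1, e2] at h2
    rw [hk]
    push_cast at h2 ⊢
    linarith

end FLTA.LevelLowering
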