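import Fermat.Agent.EllReduction.FreyCore

/-!
# Torsion points of `Y² = X(X - e)(X - f)` off the kernel of reduction, `p = ` residue characteristic

The arguments of `FLTA.EllReduction.FreyAux.Setup` repeated for `q = p`: integrality of the
`X`-coordinates of the multiples becomes a hypothesis.
-/

set_option autoImplicit false

namespace FLTA.LevelLowering

open FLTA.EllReduction.FreyAux

variable {G : Type*} [AddCommGroup G] {L : Type*} [Field L] {e f : L}

/-- Running hypotheses: a place over `p` where the roots `0` and `e` collide. -/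
structure PlaceSetup (C : FreyCoord G L e f) (A : ValuationSubring L) (p m : ℕ) (w : L → ℚ) :
    Prop where
  hw : IsRatVal A p w
  hp : p.Prime
  hp5 : 5 ≤ p
  he : e ≠ 0
  we : w e = (p : ℚ) * m
  hm : 0 < m
  hf : f ≠ 0
  wf : w f = 0
  hef : e - f ≠ 0
  wef : w (e - f) = 0

/-- All non-zero multiples below `p` have integral `X`. -/
def IntMult (C : FreyCoord G L e f) (p : ℕ) (w : L → ℚ) (T : G) : Prop :=
  ∀ k, 1 ≤ k → k < p → 0 ≤ w (C.X (k • T))

theorem IntMult.X_nonneg' {C : FreyCoord G L e f} {p : ℕ} {w : L → ℚ} {T : G}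
    (hI : IntMult C p w T) (_ : p • T = 0) (_ : T ≠ 0) {k : ℕ} (h1 : 1 ≤ k) (h2 : k < p) :
    0 ≤ w (C.X (k • T)) := hI k h1 h2

theorem IntMult.self {C : FreyCoord G L e f} {p : ℕ} {w : L → ℚ} {T : G}
    (hI : IntMult C p w T) (hp : 1 < p) : 0 ≤ w (C.X T) := by simpa using hI 1 le_rfl hp

theorem IntMult.smul {C : FreyCoord G L e f} {p : ℕ} {w : L → ℚ} {T : G} (hI : IntMult C p w T)
    (hp : p.Prime) (hpT : p • T = 0) {j : ℕ} (h1 : 1 ≤ j) (h2 : j < p) :
    IntMult C p w (j • T) := by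
  intro k hk1 hk2
  rw [← mul_nsmul', ← Nat.div_add_mod (k * j) p, add_nsmul, mul_comm p, mul_nsmul', hpT,
    nsmul_zero, zero_add]
  refine hI _ (Nat.one_le_iff_ne_zero.mpr fun h => ?_) (Nat.mod_lt _ hp.pos)
  rcases hp.dvd_mul.mp (Nat.dvd_of_mod_eq_zero h) with h | h <;>
    have := Nat.le_of_dvd (by omega) h <;> omega

theorem IntMult.add_self {C : FreyCoord G L e f} {p : ℕ} {w : L → ℚ} {T : G}
    (hI : IntMult C p w T) (hp : p.Prime) (hp5 : 5 ≤ p) (hpT : p • T = 0) :
    IntMult C p w (T + T) := by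
  rw [← two_nsmul]
  exact hI.smul hp hpT (by norm_num) (by omega)

namespace PlaceSetup

variable {C : FreyCoord G L e f} {A : ValuationSubring L} {p m : ℕ} {w : L → ℚ}
  (S : PlaceSetup C A p m w)

include S

theorem p_ne_two : p ≠ 2 := by have := S.hp5; omega

theorem n_nonneg : 0 ≤ w e := by rw [S.we]; positivity

theorem mul_ef : e * f ≠ 0 ∧ w (e * f) = w e := by
  refine ⟨mul_ne_zero S.he S.hf, ?_⟩
  rw [S.hw.map_mul S.he S.hf, S.wf, add_zero]

theorem two_unit : (2 : L) ≠ 0 ∧ w 2 = 0 := by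
  have := S.hw.map_intCast_of_not_dvd S.hp (n := 2) (fun h => S.p_ne_two ?_)
  · simpa using this
  · exact_mod_cast (Nat.prime_dvd_prime_iff_eq S.hp Nat.prime_two).mp (by exact_mod_cast h)

theorem four_unit : (4 : L) ≠ 0 ∧ w 4 = 0 := by
  obtain ⟨h, h'⟩ := S.two_unit
  have e4 : (4 : L) = 2 * 2 := by norm_num
  exact ⟨by rw [e4]; exact mul_ne_zero h h, by rw [e4, S.hw.map_mul h h, h', add_zero]⟩



variable {T : G}

theorem zsmul_ne (hpT : p • T = 0) (hT : T ≠ 0) {k : ℤ} (hk : ¬ (p : ℤ) ∣ k) : k • T ≠ 0 := by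
  intro h
  obtain ⟨a, b, hab⟩ := (Nat.prime_iff_prime_int.mp S.hp).coprime_iff_not_dvd.mpr hk
  apply hT
  rw [← one_zsmul T, ← hab, add_zsmul, mul_zsmul, mul_zsmul, natCast_zsmul, hpT, h, zsmul_zero,
    zsmul_zero, add_zero]

theorem nsmul_ne (hpT : p • T = 0) (hT : T ≠ 0) {k : ℕ} (h1 : 1 ≤ k) (h2 : k < p) :
    k • T ≠ 0 := by
  rw [← natCast_zsmul]
  refine S.zsmul_ne hpT hT fun h => ?_
  have := Nat.le_of_dvd (by omega) (Int.natCast_dvd_natCast.mp h)
  omega

theorem torsion_smul (hpT : p • T = 0) (k : ℕ) : p • (k • T) = 0 := by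
  rw [← mul_nsmul', mul_comm, mul_nsmul', hpT, nsmul_zero]

theorem add_self_ne (hpT : p • T = 0) (hT : T ≠ 0) : T + T ≠ 0 := by
  rw [← two_nsmul]
  exact S.nsmul_ne hpT hT (by norm_num) (by linarith [S.hp5])

theorem Y_ne (hpT : p • T = 0) (hT : T ≠ 0) : C.Y T ≠ 0 := fun h =>
  S.add_self_ne hpT hT (C.two_torsion T hT h)

theorem X_ne (hpT : p • T = 0) (hT : T ≠ 0) :
    C.X T ≠ 0 ∧ C.X T - e ≠ 0 ∧ C.X T - f ≠ 0 := by
  have h := pow_ne_zero 2 (S.Y_ne hpT hT)
  rw [C.on_curve T hT] at h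
  exact ⟨left_ne_zero_of_mul (left_ne_zero_of_mul h), right_ne_zero_of_mul (left_ne_zero_of_mul h),
    right_ne_zero_of_mul h⟩

theorem wY (hpT : p • T = 0) (hT : T ≠ 0) :
    2 * w (C.Y T) = w (C.X T) + w (C.X T - e) + w (C.X T - f) := by
  obtain ⟨hx, hxe, hxf⟩ := S.X_ne hpT hT
  have := congrArg w (C.on_curve T hT)
  rw [S.hw.map_pow (S.Y_ne hpT hT), S.hw.map_mul (mul_ne_zero hx hxe) hxf,
    S.hw.map_mul hx hxe] at this
  exact_mod_cast this

theorem double_val (hpT : p • T = 0) (hT : T ≠ 0) :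
    C.X T ^ 2 - e * f ≠ 0 ∧
      w (C.X (T + T)) = 2 * w (C.X T ^ 2 - e * f) - 2 * w (C.Y T) := by
  obtain ⟨hne, hd⟩ := C.double T hT (S.Y_ne hpT hT)
  have h2 : p • (T + T) = 0 := by rw [nsmul_add, hpT, add_zero]
  obtain ⟨hx2, -, -⟩ := S.X_ne h2 hne
  obtain ⟨h4, h4'⟩ := S.four_unit
  have hY2 : (4 : L) * C.Y T ^ 2 ≠ 0 := mul_ne_zero h4 (pow_ne_zero _ (S.Y_ne hpT hT))
  have hne' : C.X T ^ 2 - e * f ≠ 0 := by
    intro h
    rw [h, zero_pow two_ne_zero] at hd
    exact mul_ne_zero hx2 hY2 hd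
  refine ⟨hne', ?_⟩
  have hv := congrArg w hd
  rw [S.hw.map_mul hx2 hY2, S.hw.map_mul h4 (pow_ne_zero _ (S.Y_ne hpT hT)),
    S.hw.map_pow (S.Y_ne hpT hT), S.hw.map_pow hne', h4'] at hv
  push_cast at hv
  linarith

theorem X_eq_dvd (hpT : p • T = 0) (hT : T ≠ 0) {j k : ℕ} (hj : 1 ≤ j) (hj' : j < p)
    (hk : 1 ≤ k) (hk' : k < p) (h : C.X (j • T) = C.X (k • T)) : j = k ∨ j + k = p := by
  rcases C.eq_or_neg _ _ (S.nsmul_ne hpT hT hj hj') (S.nsmul_ne hpT hT hk hk') h with h | h
  · left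
    rcases lt_trichotomy j k with hlt | he | hgt
    · exact absurd (show (k - j) • T = 0 by rw [sub_nsmul T hlt.le, h, add_neg_cancel])
        (S.nsmul_ne hpT hT (by omega) (by omega))
    · exact he
    · exact absurd (show (j - k) • T = 0 by rw [sub_nsmul T hgt.le, h, add_neg_cancel])
        (S.nsmul_ne hpT hT (by omega) (by omega))
  · right
    have h0 : (j + k) • T = 0 := by rw [add_nsmul, h, neg_add_cancel]
    rcases lt_trichotomy (j + k) p with hlt | he | hgt
    · exact absurd h0 (S.nsmul_ne hpT hT (by omega) hlt)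
    · exact he
    · exfalso
      apply S.nsmul_ne hpT hT (k := j + k - p) (by omega) (by omega)
      rw [sub_nsmul T hgt.le, h0, hpT, neg_zero, add_zero]

theorem step_val (hpT : p • T = 0) (hT : T ≠ 0) {k : ℕ} (hk2 : 2 ≤ k) (hkp : k + 2 ≤ p) :
    C.X (k • T) - C.X T ≠ 0 ∧
    C.X (k • T) * C.X T - e * f ≠ 0 ∧
    w (C.X ((k + 1) • T)) + w (C.X ((k - 1) • T)) + 2 * w (C.X (k • T) - C.X T) =
      2 * w (C.X (k • T) * C.X T - e * f) ∧
    C.X ((k + 1) • T) * C.X ((k - 1) • T) * (C.X (k • T) - C.X T) ^ 2 =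
      (C.X (k • T) * C.X T - e * f) ^ 2 := by
  have hne : C.X (k • T) ≠ C.X T := by
    intro h
    rw [← one_nsmul T, ← mul_nsmul', mul_one] at h
    have := S.X_eq_dvd hpT hT (by omega : 1 ≤ k) (by omega) le_rfl (by linarith [S.hp5]) h
    omega
  have hd : C.X (k • T) - C.X T ≠ 0 := sub_ne_zero.mpr hne
  have hform := C.prod_formula (S.nsmul_ne hpT hT (by omega : 1 ≤ k) (by omega)) hT hne
  have e1 : k • T + T = (k + 1) • T := (succ_nsmul T k).symm
  have e2 : k • T - T = (k - 1) • T := by rw [sub_nsmul T (by omega : 1 ≤ k), one_nsmul, sub_eq_add_neg]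
  rw [e1, e2] at hform
  have hA := (S.X_ne (S.torsion_smul hpT (k + 1))
    (S.nsmul_ne hpT hT (by omega : 1 ≤ k + 1) (by omega))).1
  have hB := (S.X_ne (S.torsion_smul hpT (k - 1))
    (S.nsmul_ne hpT hT (by omega : 1 ≤ k - 1) (by omega))).1
  have hn : C.X (k • T) * C.X T - e * f ≠ 0 := by
    intro h
    rw [h, zero_pow two_ne_zero] at hform
    exact mul_ne_zero (mul_ne_zero hA hB) (pow_ne_zero _ hd) hform
  refine ⟨hd, hn, ?_, hform⟩
  have hv := congrArg w hform
  rw [S.hw.map_mul (mul_ne_zero hA hB) (pow_ne_zero _ hd), S.hw.map_mul hA hB,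
    S.hw.map_pow hd, S.hw.map_pow hn] at hv
  push_cast at hv
  linarith

/-- No nonzero `p`-torsion in the kernel of reduction: one extreme step. -/theorem Y_unit_of_X_unit (hpT : p • T = 0) (hT : T ≠ 0) (hI : IntMult C p w T)
    (h0 : w (C.X T) = 0) :
    w (C.Y T) = 0 := by
  obtain ⟨hx, hxe, hxf⟩ := S.X_ne hpT hT
  have hY := S.wY hpT hT
  rw [h0, zero_add] at hY
  have ge_e : 0 ≤ w (C.X T - e) := S.hw.le_sub hxe (.inr h0.ge) (.inr S.n_nonneg)
  have ge_f : 0 ≤ w (C.X T - f) := S.hw.le_sub hxf (.inr h0.ge) (.inr S.wf.ge)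
  by_contra hY0
  have hpos : 0 < w (C.Y T) := lt_of_le_of_ne (by linarith) (Ne.symm hY0)
  obtain ⟨-, h2⟩ := S.double_val hpT hT
  have h2' : 0 ≤ w (C.X (T + T)) := by
    rw [← two_nsmul]
    exact hI.X_nonneg' hpT hT (by norm_num) (by linarith [S.hp5])
  have unit_ef : 0 < w (C.X T - e) ∨ 0 < w (C.X T - f) := by
    by_contra hc
    rw [not_or, not_lt, not_lt] at hc
    linarith
  have key : w (C.X T ^ 2 - e * f) = 0 := by
    rcases unit_ef with hE | hF
    · have wn : w e = 0 := by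
        by_contra hne
        have hn : 0 < w e := lt_of_le_of_ne S.n_nonneg (Ne.symm hne)
        have := (S.hw.sub_eq_left hx (y := e) (.inr (by linarith))).2
        linarith
      have hid : C.X T ^ 2 - e * f = e * (e - f) + (C.X T - e) * (C.X T + e) := by ring
      rw [hid]
      have h1 : w (e * (e - f)) = 0 := by rw [S.hw.map_mul S.he S.hef, S.wef, wn, add_zero]
      rw [(S.hw.add_eq_left (mul_ne_zero S.he S.hef) ?_).2, h1]
      rcases eq_or_ne (C.X T + e) 0 with hz | hz
      · exact .inl (by rw [hz, mul_zero])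
      · refine .inr ?_
        rw [h1, S.hw.map_mul hxe hz]
        have := S.hw.le_add hz (.inr h0.ge) (.inr S.n_nonneg)
        linarith
    · have hfe : f - e ≠ 0 := fun h => S.hef (by linear_combination -h)
      have hid : C.X T ^ 2 - e * f = f * (f - e) + (C.X T - f) * (C.X T + f) := by ring
      rw [hid]
      have h1 : w (f * (f - e)) = 0 := by
        rw [S.hw.map_mul S.hf hfe, ← neg_sub, S.hw.map_neg, S.wef, S.wf, add_zero]
      rw [(S.hw.add_eq_left (mul_ne_zero S.hf hfe) ?_).2, h1]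
      rcases eq_or_ne (C.X T + f) 0 with hz | hz
      · exact .inl (by rw [hz, mul_zero])
      · refine .inr ?_
        rw [h1, S.hw.map_mul hxf hz]
        have := S.hw.le_add hz (.inr h0.ge) (.inr S.wf.ge)
        linarith
  linarith

theorem closure_zero (hpT : p • T = 0) (hT : T ≠ 0) (hI : IntMult C p w T) (hn : 0 < w e)
    (h0 : w (C.X T) = 0)
    {k : ℕ} (h1 : 1 ≤ k) (hk : k < p) : w (C.X (k • T)) = 0 := by
  obtain ⟨hx, -, -⟩ := S.X_ne hpT hT
  induction k, h1 using Nat.le_induction with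
  | base => rwa [one_nsmul]
  | succ k h1 ih =>
    have hk' := ih (by omega)
    rcases eq_or_lt_of_le h1 with rfl | h2
    · rw [show (1 : ℕ) + 1 = 2 from rfl, two_nsmul, (S.double_val hpT hT).2,
        S.Y_unit_of_X_unit hpT hT hI h0]
      have hx2 : w (C.X T ^ 2) = 0 := by rw [S.hw.map_pow hx, h0]; norm_num
      rw [(S.hw.sub_eq_left (pow_ne_zero _ hx) (.inr (by rw [hx2, S.mul_ef.2]; exact hn))).2, hx2]
      ring
    · obtain ⟨hd, -, hval, -⟩ := S.step_val hpT hT (k := k) h2 (by omega)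
      have hK := (S.X_ne (S.torsion_smul hpT k) (S.nsmul_ne hpT hT h1 (by omega))).1
      have hwp : w (C.X (k • T) * C.X T) = 0 := by rw [S.hw.map_mul hK hx, hk', h0, add_zero]
      rw [(S.hw.sub_eq_left (mul_ne_zero hK hx)
        (.inr (by rw [hwp, S.mul_ef.2]; exact hn))).2, hwp] at hval
      have := S.hw.le_sub hd (.inr hk'.ge) (.inr h0.ge)
      have := hI.X_nonneg' hpT hT (k := k - 1) (by omega) (by omega)
      have := hI.X_nonneg' hpT hT (k := k + 1) (by omega) (by omega)
      linarith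

theorem half_smul (hpT : p • T = 0) : ((p + 1) / 2) • (T + T) = T := by
  obtain ⟨t, ht⟩ := S.hp.odd_of_ne_two (by linarith [S.hp5])
  rw [← two_nsmul, ← mul_nsmul, show 2 * ((p + 1) / 2) = p + 1 by omega, succ_nsmul, hpT,
    zero_add]

theorem dichotomy (hpT : p • T = 0) (hT : T ≠ 0) (hI : IntMult C p w T) : w (C.X T) = 0 ∨ w (C.X T) < w e := by
  by_contra hc
  rw [not_or, not_lt] at hc
  obtain ⟨h0, hge⟩ := hc
  have hpos : 0 < w (C.X T) := lt_of_le_of_ne (hI.self S.hp.one_lt) (Ne.symm h0)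
  obtain ⟨hx, hxe, hxf⟩ := S.X_ne hpT hT
  have hn := S.n_nonneg
  have hY := S.wY hpT hT
  rw [(S.hw.sub_eq_right (x := C.X T) S.hf (.inr (by rw [S.wf]; exact hpos))).2, S.wf] at hY
  have he : w e ≤ w (C.X T - e) := S.hw.le_sub hxe (.inr hge) (.inr le_rfl)
  obtain ⟨-, h2⟩ := S.double_val hpT hT
  have hsq : w (C.X T ^ 2) = 2 * w (C.X T) := by rw [S.hw.map_pow hx]; norm_num
  rw [(S.hw.sub_eq_right (x := C.X T ^ 2) S.mul_ef.1
    (.inr (by rw [S.mul_ef.2, hsq]; linarith))).2, S.mul_ef.2] at h2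
  have h2nn : 0 ≤ w (C.X (2 • T)) := hI.X_nonneg' hpT hT (by norm_num) (by linarith [S.hp5])
  rw [two_nsmul] at h2nn
  have h20 : w (C.X (T + T)) = 0 := le_antisymm (by linarith) h2nn
  rcases eq_or_lt_of_le hn with hn0 | hn0
  · linarith
  · have := S.closure_zero (T := T + T) (by rw [nsmul_add, hpT, add_zero])
      (S.add_self_ne hpT hT) (hI.add_self S.hp S.hp5 hpT) hn0 h20
      (k := (p + 1) / 2) (by have := S.hp5; omega) (by have := S.hp5; omega)
    rw [S.half_smul hpT] at this
    exact h0 this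

theorem multiples (hpT : p • T = 0) (hT : T ≠ 0) (hI : IntMult C p w T) (h0 : w (C.X T) ≠ 0) {k : ℕ} (h1 : 1 ≤ k)
    (hk : k < p) : 0 < w (C.X (k • T)) ∧ w (C.X (k • T)) < w e := by
  have hn : 0 < w e := by
    rcases S.dichotomy hpT hT hI with h | h
    · exact absurd h h0
    · linarith [hI.self S.hp.one_lt]
  have hne : w (C.X (k • T)) ≠ 0 := by
    intro hz
    obtain ⟨j, hj1, hj⟩ : ∃ j : ℕ, j < p ∧ (j * k) % p = 1 := by
      have hco : Nat.Coprime k p := (S.hp.coprime_iff_not_dvd.mpr fun h => by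
        have := Nat.le_of_dvd (by omega) h; omega).symm
      obtain ⟨j, hj1, hj⟩ := Nat.exists_mul_mod_eq_one_of_coprime hco S.hp.one_lt
      exact ⟨j, hj1, by rw [mul_comm]; exact hj⟩
    have hjk : j • (k • T) = T := by
      rw [← mul_nsmul', ← Nat.div_add_mod (j * k) p, hj, add_nsmul, one_nsmul, mul_comm,
        mul_nsmul', hpT, nsmul_zero, zero_add]
    have hjpos : 1 ≤ j := by
      rcases Nat.eq_zero_or_pos j with rfl | h
      · simp at hj
      · exact h
    have := S.closure_zero (S.torsion_smul hpT k) (S.nsmul_ne hpT hT h1 hk)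
      (hI.smul S.hp hpT h1 hk) hn hz hjpos hj1
    rw [hjk] at this
    exact h0 this
  refine ⟨lt_of_le_of_ne (hI.X_nonneg' hpT hT h1 hk) (Ne.symm hne), ?_⟩
  exact (S.dichotomy (S.torsion_smul hpT k) (S.nsmul_ne hpT hT h1 hk) (hI.smul S.hp hpT h1 hk)).resolve_left hne

/-- The valuation of `X` of a `p`-torsion point is an integer. -/
theorem X_int (hpT : p • T = 0) (hT : T ≠ 0) (hI : IntMult C p w T) : ∃ i : ℤ, w (C.X T) = i := by
  by_cases h0 : w (C.X T) = 0
  · exact ⟨0, by simpa using h0⟩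
  set n := w e with hn
  set α := w (C.X T) with hα
  obtain ⟨hx, -, -⟩ := S.X_ne hpT hT
  have hp5 := S.hp5
  have key : ∀ k, 2 ≤ k → k + 1 ≤ p → ∃ j : ℤ,
      (w (C.X (k • T)) = k * α + 2 * j * n ∧
        w (C.X ((k - 1) • T)) = |w (C.X (k • T)) - α|) ∨
      (w (C.X (k • T)) = -(k * α + 2 * j * n) ∧
        w (C.X ((k - 1) • T)) = min (w (C.X (k • T)) + α) (2 * n - w (C.X (k • T)) - α)) := by
    intro k hk2
    induction k, hk2 using Nat.le_induction with
    | base =>
      intro _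
      obtain ⟨hn', h2⟩ := S.double_val hpT hT
      obtain ⟨hlo, hhi⟩ := S.multiples hpT hT hI h0 (k := 1) le_rfl (by omega)
      rw [one_nsmul, ← hα] at hlo hhi
      have hY := S.wY hpT hT
      rw [(S.hw.sub_eq_left (y := e) hx (.inr hhi)).2,
        (S.hw.sub_eq_right (x := C.X T) S.hf (.inr (by rw [S.wf]; exact hlo))).2, S.wf] at hY
      obtain ⟨hlo2, hhi2⟩ := S.multiples hpT hT hI h0 (k := 2) (by norm_num) (by omega)
      have hsq : w (C.X T ^ 2) = 2 * α := by rw [S.hw.map_pow hx, hα]; norm_num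
      have h21 : (2 : ℕ) - 1 = 1 := rfl
      rw [h21, one_nsmul]
      rw [two_nsmul] at hlo2 hhi2 ⊢
      rcases lt_trichotomy (2 * α) n with hlt | he | hgt
      · rw [(S.hw.sub_eq_left (pow_ne_zero _ hx) (.inr (by rw [hsq, S.mul_ef.2]; exact hlt))).2,
          hsq] at h2
        refine ⟨0, .inl ⟨by push_cast; linarith, ?_⟩⟩
        rw [abs_of_nonneg] <;> linarith
      · exfalso
        have := S.hw.le_sub (r := n) hn' (.inr (by rw [hsq, he])) (.inr S.mul_ef.2.ge)
        linarith
      · rw [(S.hw.sub_eq_right (x := C.X T ^ 2) S.mul_ef.1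
          (.inr (by rw [hsq, S.mul_ef.2]; exact hgt))).2, S.mul_ef.2] at h2
        refine ⟨-1, .inr ⟨by push_cast; linarith, ?_⟩⟩
        rw [min_eq_right] <;> linarith
    | succ k hk2 ih =>
      intro hkp
      obtain ⟨j, hj⟩ := ih (by omega)
      obtain ⟨hd, hnum, hval, -⟩ := S.step_val hpT hT hk2 (by omega)
      obtain ⟨hlo, hhi⟩ := S.multiples hpT hT hI h0 (k := 1) le_rfl (by omega)
      rw [one_nsmul, ← hα] at hlo hhi
      obtain ⟨ha, ha'⟩ := S.multiples hpT hT hI h0 (k := k) (by omega) (by omega)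
      obtain ⟨hb, hb'⟩ := S.multiples hpT hT hI h0 (k := k - 1) (by omega) (by omega)
      obtain ⟨hc, hc'⟩ := S.multiples hpT hT hI h0 (k := k + 1) (by omega) (by omega)
      rw [Nat.add_sub_cancel]
      have hK := (S.X_ne (S.torsion_smul hpT k) (S.nsmul_ne hpT hT (by omega) (by omega))).1
      have hprod : w (C.X (k • T) * C.X T) = w (C.X (k • T)) + α := S.hw.map_mul hK hx
      set a := w (C.X (k • T)) with hA
      -- valuation of the difference
      have hdiff : a ≠ α → w (C.X (k • T) - C.X T) = min a α := by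
        intro hne
        rcases lt_or_gt_of_ne hne with h | h
        · rw [(S.hw.sub_eq_left hK (.inr h)).2, min_eq_left h.le]
        · rw [(S.hw.sub_eq_right hx (.inr h)).2, min_eq_right h.le]
      have hdiff' : a = α → α ≤ w (C.X (k • T) - C.X T) := fun he =>
        S.hw.le_sub hd (.inr (by rw [← hA, he])) (.inr le_rfl)
      have hnum' : a + α ≠ n → w (C.X (k • T) * C.X T - e * f) = min (a + α) n := by
        intro hne
        rcases lt_or_gt_of_ne hne with h | h
        · rw [(S.hw.sub_eq_left (mul_ne_zero hK hx)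
            (.inr (by rw [hprod, S.mul_ef.2]; exact h))).2, hprod, min_eq_left h.le]
        · rw [(S.hw.sub_eq_right (x := C.X (k • T) * C.X T) S.mul_ef.1
            (.inr (by rw [hprod, S.mul_ef.2]; exact h))).2, S.mul_ef.2, min_eq_right h.le]
      have hnum'' : a + α = n → n ≤ w (C.X (k • T) * C.X T - e * f) := fun he =>
        S.hw.le_sub hnum (.inr (by rw [hprod, he])) (.inr S.mul_ef.2.ge)
      rcases hj with ⟨hja, hjb⟩ | ⟨hja, hjb⟩
      · have hne1 : a ≠ α := by
          intro he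
          rw [he, sub_self, abs_zero] at hjb
          linarith
        have hne2 : a + α ≠ n := by
          intro he
          have := hdiff hne1
          have := hnum'' he
          rcases lt_or_gt_of_ne hne1 with h | h
          · rw [abs_of_nonpos (by linarith)] at hjb
            rw [min_eq_left h.le] at *
            linarith
          · rw [abs_of_nonneg (by linarith)] at hjb
            rw [min_eq_right h.le] at *
            linarith
        rw [hdiff hne1, hnum' hne2, hjb] at hval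
        rcases lt_or_gt_of_ne hne1 with h | h
        · rw [min_eq_left h.le, abs_of_nonpos (by linarith)] at hval
          rcases lt_or_gt_of_ne hne2 with g | g
          · rw [min_eq_left g.le] at hval
            refine ⟨j, .inl ⟨by push_cast; linarith, ?_⟩⟩
            rw [abs_of_nonneg] <;> linarith
          · rw [min_eq_right g.le] at hval
            refine ⟨j - 1, .inr ⟨by push_cast; linarith, ?_⟩⟩
            rw [min_eq_right] <;> linarith
        · rw [min_eq_right h.le, abs_of_nonneg (by linarith)] at hval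
          rcases lt_or_gt_of_ne hne2 with g | g
          · rw [min_eq_left g.le] at hval
            refine ⟨j, .inl ⟨by push_cast; linarith, ?_⟩⟩
            rw [abs_of_nonneg] <;> linarith
          · rw [min_eq_right g.le] at hval
            refine ⟨j - 1, .inr ⟨by push_cast; linarith, ?_⟩⟩
            rw [min_eq_right] <;> linarith
      · have hne2 : a + α ≠ n := by
          intro he
          rw [min_eq_left (by linarith)] at hjb
          linarith
        have hne1 : a ≠ α := by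
          intro he
          have := hdiff' he
          rw [hnum' hne2, hjb] at hval
          rcases lt_or_gt_of_ne hne2 with g | g
          · rw [min_eq_left g.le, min_eq_left (by linarith)] at hval
            linarith
          · rw [min_eq_right g.le, min_eq_right (by linarith)] at hval
            linarith
        rw [hdiff hne1, hnum' hne2, hjb] at hval
        rcases lt_or_gt_of_ne hne2 with g | g
        · rw [min_eq_left g.le, min_eq_left (by linarith)] at hval
          rcases lt_or_gt_of_ne hne1 with h | h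
          · rw [min_eq_left h.le] at hval
            refine ⟨j, .inl ⟨by push_cast; linarith, ?_⟩⟩
            rw [abs_of_nonpos] <;> linarith
          · rw [min_eq_right h.le] at hval
            refine ⟨j, .inr ⟨by push_cast; linarith, ?_⟩⟩
            rw [min_eq_left] <;> linarith
        · rw [min_eq_right g.le, min_eq_right (by linarith)] at hval
          rcases lt_or_gt_of_ne hne1 with h | h
          · rw [min_eq_left h.le] at hval
            refine ⟨j, .inl ⟨by push_cast; linarith, ?_⟩⟩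
            rw [abs_of_nonpos] <;> linarith
          · rw [min_eq_right h.le] at hval
            refine ⟨j, .inr ⟨by push_cast; linarith, ?_⟩⟩
            rw [min_eq_left] <;> linarith
  obtain ⟨j, hj⟩ := key (p - 1) (by omega) (by omega)
  have hXe : C.X ((p - 1) • T) = C.X T := by
    rw [sub_nsmul T (by omega : 1 ≤ p), hpT, zero_add, one_nsmul, C.X_neg]
  obtain ⟨hb, -⟩ := S.multiples hpT hT hI h0 (k := p - 1 - 1) (by omega) (by omega)
  rw [hXe, ← hα] at hj
  rcases hj with ⟨-, hjb⟩ | ⟨hja, -⟩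
  · rw [sub_self, abs_zero] at hjb
    linarith
  · refine ⟨-2 * j * m, ?_⟩
    rw [Nat.cast_sub (by omega : 1 ≤ p), hn, S.we] at hja
    have hp0 : (p : ℚ) ≠ 0 := Nat.cast_ne_zero.mpr S.hp.ne_zero
    apply mul_left_cancel₀ hp0
    push_cast at hja ⊢
    linarith

/-- The common integral valuation of `X` and `Y`. -/
theorem XY_int (hpT : p • T = 0) (hT : T ≠ 0) (hI : IntMult C p w T) :
    ∃ i : ℤ, w (C.X T) = i ∧ w (C.Y T) = i := by
  obtain ⟨i, hi⟩ := S.X_int hpT hT hI
  refine ⟨i, hi, ?_⟩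
  by_cases h0 : w (C.X T) = 0
  · rw [S.Y_unit_of_X_unit hpT hT hI h0, ← hi, h0]
  · obtain ⟨hx, hxe, hxf⟩ := S.X_ne hpT hT
    have hlt := (S.dichotomy hpT hT hI).resolve_left h0
    have hpos : 0 < w (C.X T) := lt_of_le_of_ne (hI.self S.hp.one_lt) (Ne.symm h0)
    have h := S.wY hpT hT
    rw [(S.hw.sub_eq_left (y := e) hx (.inr hlt)).2,
      (S.hw.sub_eq_right (x := C.X T) S.hf (.inr (by rw [S.wf]; exact hpos))).2, S.wf] at h
    linarith

end PlaceSetup

end FLTA.LevelLowering
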