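import Fermat.Agent.EllReduction.FreyVal
import Fermat.Agent.LevelLowering.LocalFreyNodal
import Mathlib.Algebra.Polynomial.Splits
import Mathlib.AlgebraicGeometry.EllipticCurve.DivisionPolynomial.Degree

/-!
# Valuations of the roots of an integral polynomial congruent to `c X ^ d'` modulo `p`
-/

set_option autoImplicit false

open Polynomial FLTA.EllReduction.FreyAux

namespace FLTA.LevelLowering

variable {L : Type*} [Field L] [CharZero L] [IsAlgClosed L] {A : ValuationSubring L} {p : ℕ}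
  {w : L → ℚ}

/-- Root valuations: some root is non-integral, some is integral, and a non-integral root `x` has
`-w x * (d - d') ≤ 1`. -/
theorem roots_shape (hw : IsRatVal A p w) (hp : p.Prime) {f : ℤ[X]} {d d' : ℕ}
    (hdd : d' < d) (hd' : 0 < d') (hdeg : f.natDegree = d) (hlead : f.coeff d = p)
    (hc : ¬ (p : ℤ) ∣ f.coeff d') (hdiv : ∀ i, i ≠ d' → (p : ℤ) ∣ f.coeff i) :
    (∃ x, (f.map (Int.castRingHom L)).eval x = 0 ∧ x ≠ 0 ∧ w x < 0) ∧
    (∃ x, (f.map (Int.castRingHom L)).eval x = 0 ∧ x ∈ A) ∧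
    (∀ x, (f.map (Int.castRingHom L)).eval x = 0 → x ≠ 0 → w x < 0 →
      -w x * ((d : ℚ) - d') ≤ 1) := by
  classical
  set g := f.map (Int.castRingHom L) with hg
  have hgdeg : g.natDegree = d := by
    rw [hg, natDegree_map_eq_of_injective Int.cast_injective, hdeg]
  have hglead : g.leadingCoeff = (p : L) := by
    rw [leadingCoeff, hgdeg, hg, coeff_map, hlead]; simp
  have hg0 : g ≠ 0 := fun h => by
    rw [h, leadingCoeff_zero] at hglead
    exact hw.q_ne hglead.symm
  have hprod : g = C (p : L) * (g.roots.map fun a => X - C a).prod := by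
    rw [← hglead]
    exact (IsAlgClosed.splits g).eq_prod_roots
  have hroot : ∀ x, x ∈ g.roots ↔ g.eval x = 0 := fun x => mem_roots hg0
  have hcw : ((f.coeff d' : ℤ) : L) ≠ 0 ∧ w ((f.coeff d' : ℤ) : L) = 0 :=
    hw.map_intCast_of_not_dvd hp hc
  refine ⟨?_, ?_, ?_⟩
  · by_contra hno
    push Not at hno
    have hmem : ∀ x ∈ g.roots, x ∈ A := fun x hx => by
      rcases eq_or_ne x 0 with rfl | hx0
      · exact zero_mem A
      · exact (hw.mem_iff hx0).mpr (hno x ((hroot x).mp hx) hx0)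
    set q : A[X] := (g.roots.pmap (fun a ha => X - C (⟨a, ha⟩ : A)) hmem).prod with hq
    have hqg : g = C (p : L) * q.map A.subtype := by
      rw [hq, Polynomial.map_multiset_prod, Multiset.map_pmap]
      conv_lhs => rw [hprod]
      congr 2
      rw [← Multiset.pmap_eq_map _ _ _ hmem]
      refine Multiset.pmap_congr _ fun a _ h1 h2 => ?_
      simp
    have h1 : g.coeff d' = (p : L) * ((q.coeff d' : A) : L) := by
      rw [hqg, coeff_C_mul, coeff_map]; rfl
    rw [hg, coeff_map, eq_intCast] at h1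
    have hq0 : ((q.coeff d' : A) : L) ≠ 0 := fun h => hcw.1 (by rw [h1, h, mul_zero])
    have h2 := hcw.2
    rw [h1, hw.map_mul hw.q_ne hq0, hw.map_q] at h2
    have := (hw.mem_iff hq0).mp (q.coeff d').2
    linarith
  · by_contra hno
    push Not at hno
    have hneg : ∀ x ∈ g.roots, x ≠ 0 ∧ w x < 0 := fun x hx => by
      have hA := hno x ((hroot x).mp hx)
      have hx0 : x ≠ 0 := fun h => hA (h ▸ zero_mem A)
      exact ⟨hx0, not_le.mp fun h => hA ((hw.mem_iff hx0).mpr h)⟩
    have h0 : g.coeff 0 = (p : L) * (g.roots.map fun a => -a).prod := by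
      conv_lhs => rw [hprod]
      rw [coeff_C_mul, coeff_zero_eq_eval_zero, eval_multiset_prod, Multiset.map_map]
      congr 2
      exact Multiset.map_congr rfl fun a _ => by simp
    have hind : ∀ M : Multiset L, (∀ x ∈ M, x ≠ 0 ∧ w x < 0) →
        (M.map fun a => -a).prod ≠ 0 ∧ w ((M.map fun a => -a).prod) ≤ 0 ∧
          (M ≠ 0 → w ((M.map fun a => -a).prod) < 0) := by
      intro M
      induction M using Multiset.induction_on with
      | empty => intro _; simp [hw.map_one]
      | cons a M ih =>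
        intro h
        obtain ⟨ha, ha'⟩ := h a (Multiset.mem_cons_self _ _)
        obtain ⟨i1, i2, -⟩ := ih fun x hx => h x (Multiset.mem_cons_of_mem hx)
        rw [Multiset.map_cons, Multiset.prod_cons]
        have hv := hw.map_mul (neg_ne_zero.mpr ha) i1
        rw [hw.map_neg] at hv
        exact ⟨mul_ne_zero (neg_ne_zero.mpr ha) i1, by linarith, fun _ => by linarith⟩
    obtain ⟨hne, -, hlt⟩ := hind g.roots hneg
    have hroots : g.roots ≠ 0 := by
      obtain ⟨x, hx⟩ := IsAlgClosed.exists_root g (by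
        rw [degree_eq_natDegree hg0, hgdeg]; exact_mod_cast (by omega : d ≠ 0))
      exact fun h => by simpa [h] using (hroot x).mpr hx
    obtain ⟨k, hk⟩ := hdiv 0 (by omega)
    rw [hg, coeff_map, eq_intCast, hk] at h0
    push_cast at h0
    have hk' := mul_left_cancel₀ hw.q_ne h0
    have := (hw.intCast_nonneg k).resolve_left (by rw [hk']; exact hne)
    rw [hk'] at this
    linarith [hlt hroots]
  · intro x hx hx0 hneg
    by_contra hgt
    rw [not_le] at hgt
    have hterm : ∀ i < d, (f.coeff i : L) * x ^ i = 0 ∨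
        1 + (d : ℚ) * w x < w ((f.coeff i : L) * x ^ i) := by
      intro i hi
      rcases eq_or_ne (f.coeff i) 0 with h0 | h0
      · left; simp [h0]
      right
      have hc0 : (f.coeff i : L) ≠ 0 := Int.cast_ne_zero.mpr h0
      rw [hw.map_mul hc0 (pow_ne_zero _ hx0), hw.map_pow hx0]
      have hc0' := (hw.intCast_nonneg (f.coeff i)).resolve_left hc0
      have hid : (i : ℚ) + 1 ≤ d := by exact_mod_cast hi
      rcases eq_or_ne i d' with rfl | hid'
      · nlinarith
      · obtain ⟨k, hk⟩ := hdiv i hid'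
        have hk0 : (k : L) ≠ 0 := Int.cast_ne_zero.mpr (by rintro rfl; exact h0 (by simpa using hk))
        have : 1 ≤ w (f.coeff i : L) := by
          rw [hk]; push_cast
          rw [hw.map_mul hw.q_ne hk0, hw.map_q]
          linarith [(hw.intCast_nonneg k).resolve_left hk0]
        nlinarith
    have hsum : ∀ n, n ≤ d → ∑ i ∈ Finset.range n, (f.coeff i : L) * x ^ i = 0 ∨
        1 + (d : ℚ) * w x < w (∑ i ∈ Finset.range n, (f.coeff i : L) * x ^ i) := by
      intro n
      induction n with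
      | zero => intro _; left; simp
      | succ n ih =>
        intro hn
        rw [Finset.sum_range_succ]
        rcases hterm n hn with h1 | h1
        · rw [h1, add_zero]; exact ih (by omega)
        rcases ih (by omega) with h2 | h2
        · rw [h2, zero_add]; exact .inr h1
        · by_cases h : ∑ i ∈ Finset.range n, (f.coeff i : L) * x ^ i + (f.coeff n : L) * x ^ n = 0
          · exact .inl h
          · exact .inr (lt_of_lt_of_le (lt_min h2 h1)
              (hw.le_add h (.inr (min_le_left _ _)) (.inr (min_le_right _ _))))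
    rw [eval_eq_sum_range, hgdeg, Finset.sum_range_succ, add_comm] at hx
    simp only [hg, coeff_map, eq_intCast] at hx
    have hwlead : w ((f.coeff d : L) * x ^ d) = 1 + (d : ℚ) * w x := by
      rw [hlead]; push_cast
      rw [hw.map_mul hw.q_ne (pow_ne_zero _ hx0), hw.map_q, hw.map_pow hx0]
    have hne : (f.coeff d : L) * x ^ d ≠ 0 := by
      rw [hlead]; push_cast; exact mul_ne_zero hw.q_ne (pow_ne_zero _ hx0)
    exact (hw.add_eq_left hne ((hsum d le_rfl).imp_right fun h => hwlead ▸ h)).1 hx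

/-- The shape for a nodal reduction: `b₂` a unit and `b₄, b₆, b₈ ≡ 0` modulo `p`. -/
theorem preΨ'_shape {p : ℕ} (hp : p.Prime) (hp2 : p ≠ 2) (W : WeierstrassCurve ℤ)
    (h₂ : ¬ (p : ℤ) ∣ W.b₂) (h₄ : (p : ℤ) ∣ W.b₄) (h₆ : (p : ℤ) ∣ W.b₆) (h₈ : (p : ℤ) ∣ W.b₈) :
    (W.preΨ' p).natDegree = (p ^ 2 - 1) / 2 ∧ (W.preΨ' p).coeff ((p ^ 2 - 1) / 2) = p ∧
      ¬ (p : ℤ) ∣ (W.preΨ' p).coeff ((p ^ 2 - p) / 2) ∧
      ∀ i, i ≠ (p ^ 2 - p) / 2 → (p : ℤ) ∣ (W.preΨ' p).coeff i := by
  have : Fact p.Prime := ⟨hp⟩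
  have hodd : ¬ Even p := Nat.not_even_iff_odd.mpr (hp.odd_of_ne_two hp2)
  have hpZ : ((p : ℕ) : ℤ) ≠ 0 := Int.natCast_ne_zero.mpr hp.ne_zero
  set φ := Int.castRingHom (ZMod p)
  have key := preΨ'_nodal hp hp2 (W.map φ)
    (by rw [WeierstrassCurve.map_b₂]; exact fun h => h₂ ((ZMod.intCast_zmod_eq_zero_iff_dvd _ _).mp h))
    (by rw [WeierstrassCurve.map_b₄]; exact (ZMod.intCast_zmod_eq_zero_iff_dvd _ _).mpr h₄)
    (by rw [WeierstrassCurve.map_b₆]; exact (ZMod.intCast_zmod_eq_zero_iff_dvd _ _).mpr h₆)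
    (by rw [WeierstrassCurve.map_b₈]; exact (ZMod.intCast_zmod_eq_zero_iff_dvd _ _).mpr h₈)
  rw [WeierstrassCurve.map_preΨ'] at key
  have hcoef : ∀ i, ((W.preΨ' p).coeff i : ZMod p) =
      if i = (p ^ 2 - p) / 2 then (W.map φ).b₂ ^ ((p - 1) / 2) else 0 := fun i => by
    rw [← eq_intCast φ, ← coeff_map, key, coeff_C_mul, coeff_X_pow]
    split_ifs <;> simp
  refine ⟨by rw [W.natDegree_preΨ' hpZ, if_neg hodd], ?_, ?_, fun i hi => ?_⟩
  · have := W.coeff_preΨ' p
    simp only [if_neg hodd] at this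
    exact this
  · intro h
    have := (ZMod.intCast_zmod_eq_zero_iff_dvd _ _).mpr h
    rw [hcoef, if_pos rfl, pow_eq_zero_iff', WeierstrassCurve.map_b₂] at this
    exact h₂ ((ZMod.intCast_zmod_eq_zero_iff_dvd _ _).mp this.1)
  · rw [← ZMod.intCast_zmod_eq_zero_iff_dvd, hcoef, if_neg hi]

end FLTA.LevelLowering
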