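import Fermat.Agent.EllReduction.FreyUnramified
import Fermat.Agent.EllReduction.Hom
import Fermat.Agent.EllIsogeny.VarChange
import Fermat.Agent.EllTorsion.MulFormula
import Fermat.Agent.LevelLowering.LocalFreyCore
import Fermat.Agent.LevelLowering.LocalFreyRoots

/-!
# `p`-torsion of the Frey curve at a place over `p ∣ abc`
-/

set_option autoImplicit false

open WeierstrassCurve

open scoped WeierstrassCurve.Affine

namespace FLTA.LevelLowering

open FLTA.EllReduction.FreyAux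

local notation "Qbar" => AlgebraicClosure ℚ

/-- `p`-torsion geometric points of the Frey curve. -/
abbrev FreyPt (P : FreyPackage) : Type := (P.freyCurve⁄(AlgebraicClosure ℚ)).Point

/-- The two roots that collide modulo `p`, when `p ∣ abc`. -/
theorem exists_collidingRoots (P : FreyPackage) (hdvd : (P.p : ℤ) ∣ P.a * P.b * P.c) :
    ∃ t e f : ℤ, P.b ^ P.p - P.a ^ P.p = -(3 * t + e + f) ∧
      -(P.a ^ P.p * P.b ^ P.p) = t * (t + e) + t * (t + f) + (t + e) * (t + f) ∧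
      t * (t + e) * (t + f) = 0 ∧ e ≠ 0 ∧ ¬ (P.p : ℤ) ∣ f ∧ ¬ (P.p : ℤ) ∣ e - f ∧
      (P.p : ℤ) ∣ e ∧ P.p ∣ padicValInt P.p e := by
  obtain ⟨t, e, f, h2, h4, h0, he, hf, hef, hv⟩ := exists_roots P P.pp
  refine ⟨t, e, f, h2, h4, h0, he, hf, hef, ?_, hv⟩
  have hpi := Nat.prime_iff_prime_int.mp P.pp
  have key : (e * f * (e - f)) ^ 2 = (P.a ^ P.p * P.b ^ P.p * P.c ^ P.p) ^ 2 := by
    have h1 : (P.a ^ P.p * P.b ^ P.p * P.c ^ P.p) ^ 2 =
        (-(P.a ^ P.p * P.b ^ P.p)) ^ 2 *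
          ((P.b ^ P.p - P.a ^ P.p) ^ 2 - 4 * (-(P.a ^ P.p * P.b ^ P.p))) := by
      rw [← P.hFLT]; ring
    rw [h1, h4, h2]
    rcases mul_eq_zero.mp h0 with h | h
    · rcases mul_eq_zero.mp h with h | h
      · rw [h]; ring
      · rw [show e = -t by linear_combination h]; ring
    · rw [show f = -t by linear_combination h]; ring
  have hd : (P.p : ℤ) ∣ (e * f * (e - f)) ^ 2 := by
    rw [key, ← mul_pow, ← mul_pow]
    exact dvd_pow (dvd_pow hdvd P.hp0) two_ne_zero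
  rcases hpi.dvd_mul.mp (hpi.dvd_of_dvd_pow hd) with h | h
  · exact (hpi.dvd_mul.mp h).resolve_right hf
  · exact absurd h hef

/-- Everything needed about a place over `p`. -/
structure FreyPlace (P : FreyPackage) (A : ValuationSubring (AlgebraicClosure ℚ)) where
  t : ℤ
  e : ℤ
  f : ℤ
  m : ℕ
  w : AlgebraicClosure ℚ → ℚ
  he : (P.p : ℤ) ∣ e
  hf : ¬ (P.p : ℤ) ∣ f
  hΔ : e * f * (e - f) ≠ 0
  C : FreyCoord (FreyPt P) (AlgebraicClosure ℚ) (e : AlgebraicClosure ℚ) (f : AlgebraicClosure ℚ)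
  coord_X : ∀ (x y : AlgebraicClosure ℚ) (h : (P.freyCurve⁄(AlgebraicClosure ℚ)).Nonsingular x y),
    C.X (.some x y h) = 4 * x - t
  coord_Y : ∀ (x y : AlgebraicClosure ℚ) (h : (P.freyCurve⁄(AlgebraicClosure ℚ)).Nonsingular x y),
    C.Y (.some x y h) = 8 * y + 4 * x
  S : PlaceSetup C A P.p m w
  h₂ : 4 * (P.freyCurve⁄(AlgebraicClosure ℚ)).a₂ + 1 =
    -(3 * (t : AlgebraicClosure ℚ) + e + f)
  h₄ : 16 * (P.freyCurve⁄(AlgebraicClosure ℚ)).a₄ =
    (t : AlgebraicClosure ℚ) * (t + e) + t * (t + f) + (t + e) * (t + f)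
  h₀ : (t : AlgebraicClosure ℚ) * (t + e) * (t + f) = 0

theorem exists_freyPlace (P : FreyPackage) (hdvd : (P.p : ℤ) ∣ P.a * P.b * P.c)
    (A : ValuationSubring (AlgebraicClosure ℚ)) (hA : A.LiesOverPrime P.p) :
    Nonempty (FreyPlace P A) := by
  haveI : Algebra.IsAlgebraic ℚ (AlgebraicClosure ℚ) := by
    convert! AlgebraicClosure.isAlgebraic ℚ
  obtain ⟨w, hw⟩ := exists_isRatVal A P.pp hA
  obtain ⟨t, e, f, h2, h4, h0, he, hf, hef, hpe, hv⟩ := exists_collidingRoots P hdvd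
  obtain ⟨m, hm⟩ := hv
  have ha2 : 4 * (P.freyCurve⁄(AlgebraicClosure ℚ)).a₂ + 1 =
      -(3 * (t : AlgebraicClosure ℚ) + e + f) := by
    show 4 * algebraMap ℚ (AlgebraicClosure ℚ) (((P.b : ℚ) ^ P.p - 1 - (P.a : ℚ) ^ P.p) / 4) + 1 = _
    rw [map_div₀, map_ofNat, mul_div_cancel₀ _ (by norm_num)]
    simp only [map_sub, map_pow, map_intCast, map_one]
    have := congrArg (Int.cast : ℤ → AlgebraicClosure ℚ) h2
    push_cast at this
    linear_combination this
  have ha4 : 16 * (P.freyCurve⁄(AlgebraicClosure ℚ)).a₄ =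
      (t : AlgebraicClosure ℚ) * (t + e) + t * (t + f) + (t + e) * (t + f) := by
    show 16 * algebraMap ℚ (AlgebraicClosure ℚ) (-((P.a : ℚ) ^ P.p) * (P.b : ℚ) ^ P.p / 16) = _
    rw [map_div₀, map_ofNat, mul_div_cancel₀ _ (by norm_num)]
    simp only [map_mul, map_neg, map_pow, map_intCast]
    have := congrArg (Int.cast : ℤ → AlgebraicClosure ℚ) h4
    push_cast at this
    linear_combination this
  have h0' : (t : AlgebraicClosure ℚ) * (t + e) * (t + f) = 0 := by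
    exact_mod_cast congrArg (Int.cast : ℤ → AlgebraicClosure ℚ) h0
  let C := coordOf (P.freyCurve⁄(AlgebraicClosure ℚ)).toAffine (e := (e : AlgebraicClosure ℚ))
    (f := (f : AlgebraicClosure ℚ)) (t := (t : AlgebraicClosure ℚ))
    (map_one _) (map_zero _) (map_zero _) ha2 ha4 h0'
  obtain ⟨hfL, wf⟩ := hw.map_intCast_of_not_dvd P.pp hf
  obtain ⟨hefL, wef⟩ := hw.map_intCast_of_not_dvd P.pp hef
  have hm0 : 0 < m := by
    rcases Nat.eq_zero_or_pos m with rfl | h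
    · exfalso
      have : Fact P.p.Prime := ⟨P.pp⟩
      have h1 : (P.p : ℤ) ^ 1 ∣ e := by simpa using hpe
      rw [padicValInt_dvd_iff] at h1
      rcases h1 with h1 | h1
      · exact he h1
      · rw [hm] at h1; simp at h1
    · exact h
  exact ⟨{
    t := t, e := e, f := f, m := m, w := w, he := hpe, hf := hf
    hΔ := mul_ne_zero (mul_ne_zero he (fun h => hf (by rw [h]; exact dvd_zero _)))
      (fun h => hef (by rw [h]; exact dvd_zero _))
    C := C
    coord_X := fun _ _ _ => rfl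
    coord_Y := fun _ _ _ => rfl
    S := { hw := hw, hp := P.pp, hp5 := P.hp5, he := Int.cast_ne_zero.mpr he
           we := by rw [hw.map_intCast P.pp he, hm]; push_cast; ring
           hm := hm0, hf := hfL, wf := wf, hef := by simpa using hefL
           wef := by simpa using wef }
    h₂ := ha2, h₄ := ha4, h₀ := h0' }⟩

namespace FreyPlace

variable {P : FreyPackage} {A : ValuationSubring (AlgebraicClosure ℚ)} (D : FreyPlace P A)

include D

/-- The model `y² = x (x - e) (x - f)`. -/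
def model : WeierstrassCurve ℤ := ⟨0, -(D.e + D.f), 0, D.e * D.f, 0⟩

/-- The change of variables to the model. -/
noncomputable def change : VariableChange (AlgebraicClosure ℚ) :=
  ⟨Units.mk0 (1 / 2) (by norm_num), D.t / 4, -1 / 2, -D.t / 8⟩

theorem change_smul :
    D.change • (P.freyCurve⁄(AlgebraicClosure ℚ)) =
      D.model.map (Int.castRingHom (AlgebraicClosure ℚ)) := by
  have h1 : (P.freyCurve⁄(AlgebraicClosure ℚ)).a₁ = 1 := map_one _
  have h3 : (P.freyCurve⁄(AlgebraicClosure ℚ)).a₃ = 0 := map_zero _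
  have h6 : (P.freyCurve⁄(AlgebraicClosure ℚ)).a₆ = 0 := map_zero _
  ext <;>
    simp only [variableChange_def, change, model, WeierstrassCurve.map, eq_intCast,
      Units.val_inv_eq_inv_val, Units.val_mk0, h1, h3, h6] <;>
    push_cast <;> field_simp
  · ring
  · linear_combination 4 * D.h₂
  · ring
  · linear_combination 128 * D.h₄ + 256 * (D.t : AlgebraicClosure ℚ) * D.h₂
  · linear_combination 4096 * (D.t : AlgebraicClosure ℚ) * D.h₄ +
      4096 * (D.t : AlgebraicClosure ℚ) ^ 2 * D.h₂ + 4096 * D.h₀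

theorem model_map_isElliptic :
    (D.model.map (Int.castRingHom (AlgebraicClosure ℚ))).IsElliptic := by
  refine ⟨?_⟩
  rw [WeierstrassCurve.map_Δ, isUnit_iff_ne_zero, eq_intCast, Int.cast_ne_zero]
  have h : D.model.Δ = 16 * (D.e * D.f * (D.e - D.f)) ^ 2 := by
    simp only [model, WeierstrassCurve.Δ, WeierstrassCurve.b₂, WeierstrassCurve.b₄,
      WeierstrassCurve.b₆, WeierstrassCurve.b₈]
    ring
  rw [h]
  exact mul_ne_zero (by norm_num) (pow_ne_zero _ D.hΔ)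

/-- Roots of the `p`-division polynomial of the model are exactly the `X`-coordinates of
non-zero `p`-torsion points. -/
theorem root_iff (x : AlgebraicClosure ℚ) :
    ((D.model.preΨ' P.p).map (Int.castRingHom (AlgebraicClosure ℚ))).eval x = 0 ↔
      ∃ T : FreyPt P, T ≠ 0 ∧ P.p • T = 0 ∧ D.C.X T = x := by
  haveI := D.model_map_isElliptic
  set W2 := (D.model.map (Int.castRingHom (AlgebraicClosure ℚ))).toAffine with hW2
  set φ := FLTA.EllIsogeny.vcPointEquivOfEq (W := (P.freyCurve⁄(AlgebraicClosure ℚ)))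
    (C := D.change) (W' := W2) D.change_smul
  have hX : ∀ (x' y' : AlgebraicClosure ℚ) (h : W2.Nonsingular x' y'),
      φ (.some x' y' h) ≠ 0 ∧ D.C.X (φ (.some x' y' h)) = x' := by
    intro x' y' h
    rw [FLTA.EllIsogeny.vcPointEquivOfEq_some]
    refine ⟨Affine.Point.some_ne_zero _, ?_⟩
    rw [D.coord_X]
    simp only [FLTA.EllIsogeny.vcX, change, Units.val_mk0]
    ring
  have hodd : Odd P.p := P.hp_odd
  rw [← WeierstrassCurve.map_preΨ']
  constructor
  · intro h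
    obtain ⟨y, hy⟩ := IsAlgClosed.exists_pow_nat_eq
      (x ^ 3 + W2.a₂ * x ^ 2 + W2.a₄ * x + W2.a₆) (n := 2) two_pos
    have hns : W2.Nonsingular x y := by
      refine Affine.equation_iff_nonsingular.mp ((Affine.equation_iff x y).mpr ?_)
      rw [show W2.a₁ = 0 by simp [hW2, model], show W2.a₃ = 0 by simp [hW2, model]]
      linear_combination hy
    obtain ⟨h1, h2⟩ := hX x y hns
    refine ⟨φ (.some x y hns), h1, ?_, h2⟩
    rw [← map_nsmul, (FLTA.EllTorsion.nsmul_eq_zero_iff_of_odd hns hodd).mpr h, map_zero]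
  · rintro ⟨T, hT, hpT, rfl⟩
    obtain ⟨R, rfl⟩ := φ.surjective T
    rcases R with _ | ⟨x', y', h'⟩
    · exact absurd (map_zero φ) hT
    · rw [(hX x' y' h').2]
      refine (FLTA.EllTorsion.nsmul_eq_zero_iff_of_odd h' hodd).mp (φ.injective ?_)
      rw [map_nsmul, hpT, map_zero]

/-- The valuation facts about non-zero `p`-torsion. -/
theorem torsion_shape :
    (∃ T : FreyPt P, T ≠ 0 ∧ P.p • T = 0 ∧ D.w (D.C.X T) < 0) ∧
    (∃ T : FreyPt P, T ≠ 0 ∧ P.p • T = 0 ∧ 0 ≤ D.w (D.C.X T)) ∧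
    (∀ T : FreyPt P, T ≠ 0 → P.p • T = 0 → D.w (D.C.X T) < 0 →
      -D.w (D.C.X T) * ((P.p : ℚ) - 1) ≤ 2) := by
  have hp := P.pp
  have hp2 : P.p ≠ 2 := D.S.p_ne_two
  have hpi := Nat.prime_iff_prime_int.mp hp
  obtain ⟨hdeg, hlead, hc, hdiv⟩ := preΨ'_shape hp hp2 D.model
    (by
      simp only [model, WeierstrassCurve.b₂]
      intro h
      have h4 : (P.p : ℤ) ∣ 4 * (D.e + D.f) := by
        rw [show (4 : ℤ) * (D.e + D.f) = -(0 ^ 2 + 4 * -(D.e + D.f)) by ring]; exact dvd_neg.mpr h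
      rcases hpi.dvd_mul.mp h4 with h4 | h4
      · have := Int.le_of_dvd (by norm_num) h4
        have := P.hp5
        omega
      · exact D.hf (by simpa using dvd_sub h4 D.he))
    (by simp only [model, WeierstrassCurve.b₄]
        exact dvd_add (dvd_mul_of_dvd_right (dvd_mul_of_dvd_left D.he _) _) (by simp))
    (by simp [model, WeierstrassCurve.b₆])
    (by simp only [model, WeierstrassCurve.b₈]
        have h : (P.p : ℤ) ∣ (D.e * D.f) ^ 2 :=
          dvd_pow (dvd_mul_of_dvd_left D.he _) two_ne_zero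
        simpa using h)
  obtain ⟨k, hk⟩ := P.hp_odd
  have hk2 : 2 ≤ k := by have := P.hp5; omega
  have e1 : (P.p ^ 2 - 1) / 2 = 2 * k ^ 2 + 2 * k := by
    rw [hk, show (2 * k + 1) ^ 2 - 1 = 2 * (2 * k ^ 2 + 2 * k) by
      rw [Nat.sub_eq_iff_eq_add] <;> nlinarith]
    omega
  have e2 : (P.p ^ 2 - P.p) / 2 = 2 * k ^ 2 + k := by
    rw [hk, show (2 * k + 1) ^ 2 - (2 * k + 1) = 2 * (2 * k ^ 2 + k) by
      rw [Nat.sub_eq_iff_eq_add] <;> nlinarith]
    omega
  rw [e1] at hdeg hlead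
  rw [e2] at hc hdiv
  obtain ⟨⟨x, hx, -, hxn⟩, ⟨x', hx', hx'A⟩, hb⟩ :=
    roots_shape D.S.hw hp (d' := 2 * k ^ 2 + k) (by omega) (by nlinarith) hdeg hlead hc hdiv
  refine ⟨?_, ?_, ?_⟩
  · obtain ⟨T, h1, h2, rfl⟩ := (D.root_iff x).mp hx
    exact ⟨T, h1, h2, hxn⟩
  · obtain ⟨T, h1, h2, rfl⟩ := (D.root_iff x').mp hx'
    exact ⟨T, h1, h2, (D.S.hw.mem_iff (D.S.X_ne h2 h1).1).mp hx'A⟩
  · intro T h1 h2 h3
    have := hb _ ((D.root_iff _).mpr ⟨T, h1, h2, rfl⟩) (D.S.X_ne h2 h1).1 h3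
    rw [hk]
    push_cast at this ⊢
    linarith

theorem integralAt : FLTA.EllReduction.IntegralAt A (P.freyCurve⁄(AlgebraicClosure ℚ)) := by
  have h2 := D.S.two_unit
  have h4 := D.S.four_unit
  have mem : ∀ (n : ℤ) (u : AlgebraicClosure ℚ), u ≠ 0 → D.w u = 0 →
      (n : AlgebraicClosure ℚ) / u ∈ A := by
    intro n u hu hu0
    refine D.S.hw.mem_of_nonneg ?_
    rcases eq_or_ne (n : AlgebraicClosure ℚ) 0 with h | h
    · left; rw [h, zero_div]
    · right
      rw [D.S.hw.map_div h hu, hu0, sub_zero]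
      exact (D.S.hw.intCast_nonneg n).resolve_left h
  refine ⟨?_, ?_, ?_, ?_, ?_⟩
  · show algebraMap ℚ (AlgebraicClosure ℚ) 1 ∈ A
    rw [map_one]; exact one_mem A
  · show algebraMap ℚ (AlgebraicClosure ℚ) (((P.b : ℚ) ^ P.p - 1 - (P.a : ℚ) ^ P.p) / 4) ∈ A
    have := mem (P.b ^ P.p - 1 - P.a ^ P.p) 4 h4.1 h4.2
    simpa using this
  · show algebraMap ℚ (AlgebraicClosure ℚ) 0 ∈ A
    rw [map_zero]; exact zero_mem A
  · show algebraMap ℚ (AlgebraicClosure ℚ) (-((P.a : ℚ) ^ P.p) * (P.b : ℚ) ^ P.p / 16) ∈ A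
    have h16 : (16 : AlgebraicClosure ℚ) = 4 * 4 := by norm_num
    have := mem (-(P.a ^ P.p) * P.b ^ P.p) 16 (by norm_num)
      (by rw [h16, D.S.hw.map_mul h4.1 h4.1, h4.2, add_zero])
    simpa using this
  · show algebraMap ℚ (AlgebraicClosure ℚ) 0 ∈ A
    rw [map_zero]; exact zero_mem A

/-- The kernel of reduction. -/
theorem mem_kernel_iff {T : FreyPt P} (hT : T ≠ 0) (hpT : P.p • T = 0) :
    T ∈ FLTA.EllReduction.E1 D.integralAt ↔ D.w (D.C.X T) < 0 := by
  rcases T with _ | ⟨x, y, h⟩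
  · exact absurd rfl hT
  · rw [FLTA.EllReduction.mem_E1]
    show x ∉ A ↔ _
    have hX := (D.S.X_ne hpT hT).1
    rw [← not_le, ← D.S.hw.mem_iff hX, not_iff_not, D.coord_X]
    obtain ⟨h4, w4⟩ := D.S.four_unit
    have h4A : (4 : AlgebraicClosure ℚ)⁻¹ ∈ A :=
      D.S.hw.mem_of_nonneg (.inr (by rw [D.S.hw.map_inv h4, w4, neg_zero]))
    constructor
    · exact fun hx => sub_mem (mul_mem (natCast_mem A 4) hx) (intCast_mem A D.t)
    · intro hx
      have := mul_mem h4A (add_mem hx (intCast_mem A D.t))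
      rwa [sub_add_cancel, inv_mul_cancel_left₀ h4] at this

/-- Galois acts on the coordinates. -/
theorem coord_smul (σ : AlgebraicClosure ℚ ≃ₐ[ℚ] AlgebraicClosure ℚ) {T : FreyPt P} (hT : T ≠ 0) :
    D.C.X (σ • T) = σ (D.C.X T) ∧ D.C.Y (σ • T) = σ (D.C.Y T) := by
  rcases T with _ | ⟨x, y, h⟩
  · exact absurd rfl hT
  · constructor
    · rw [D.coord_X, map_sub, map_mul, map_ofNat, map_intCast]
      exact D.coord_X _ _ _
    · rw [D.coord_Y, map_add, map_mul, map_mul, map_ofNat, map_ofNat]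
      exact D.coord_Y _ _ _

/-- The key computation: for `T` off the kernel, moved by an inertia element, the difference
lies in the kernel and its `X`-valuation records how far `X` moved. -/
theorem move {σ : AlgebraicClosure ℚ ≃ₐ[ℚ] AlgebraicClosure ℚ} (hσ : σ ∈ A.inertiaSubgroupIn ℚ)
    {T : FreyPt P} (hpT : P.p • T = 0) (hT : T ≠ 0) (hI : IntMult D.C P.p D.w T)
    (hpT' : P.p • (σ • T) = 0) (hne : σ • T ≠ T) :
    ∃ i : ℤ, D.w (D.C.X T) = i ∧ D.C.X (σ • T) - D.C.X T ≠ 0 ∧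
      σ • T - T ≠ 0 ∧ D.w (D.C.X (σ • T - T)) < 0 ∧
      D.w (D.C.X (σ • T - T)) = 2 * (i - D.w (D.C.X (σ • T) - D.C.X T)) := by
  obtain ⟨i, hi, hwY⟩ := D.S.XY_int hpT hT hI
  obtain ⟨hx, -, -⟩ := D.S.X_ne hpT hT
  have hT' : σ • T ≠ 0 := fun h => hT (Affine.Point.map_injective (f := σ.toAlgHom) (h.trans (map_zero _).symm))
  obtain ⟨hsX, hsY⟩ := D.coord_smul σ hT
  have hw := D.S.hw
  set π : AlgebraicClosure ℚ := (P.p : AlgebraicClosure ℚ) ^ i with hπ
  have hπ0 : π ≠ 0 := zpow_ne_zero _ hw.q_ne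
  have hwπ : D.w π = i := by rw [hπ, hw.map_zpow hw.q_ne, hw.map_q, mul_one]
  have hsπ : σ π = π := by rw [hπ, map_zpow₀, map_natCast]
  have congr_unit : ∀ z : AlgebraicClosure ℚ, z ≠ 0 → D.w z = i →
      σ z - z = 0 ∨ (i : ℚ) < D.w (σ z - z) := by
    intro z hz hwz
    have hu : z / π ∈ A :=
      (hw.mem_iff (div_ne_zero hz hπ0)).mpr (by rw [hw.map_div hz hπ0, hwz, hwπ, sub_self])
    rcases eq_or_ne (σ z - z) 0 with h | h
    · exact .inl h
    · right
      have := hw.mem_nonunits_iff.mp (inertia_sub_mem A hσ hu)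
      rw [map_div₀, hsπ, ← sub_div] at this
      have := this.resolve_left (div_ne_zero h hπ0)
      rw [hw.map_div h hπ0, hwπ] at this
      linarith
  have hy := D.S.Y_ne hpT hT
  have hYsum : D.C.Y (σ • T) + D.C.Y T ≠ 0 ∧ D.w (D.C.Y (σ • T) + D.C.Y T) = i := by
    have h2 : D.C.Y (σ • T) + D.C.Y T = 2 * D.C.Y T + (σ (D.C.Y T) - D.C.Y T) := by
      rw [hsY]; ring
    obtain ⟨t2, t2'⟩ := D.S.two_unit
    have hw2 : D.w (2 * D.C.Y T) = i := by rw [hw.map_mul t2 hy, t2', hwY, zero_add]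
    obtain ⟨h3, h4⟩ := hw.add_eq_left (x := 2 * D.C.Y T) (y := σ (D.C.Y T) - D.C.Y T)
      (mul_ne_zero t2 hy) (by rw [hw2]; exact congr_unit _ hy hwY)
    rw [h2]
    exact ⟨h3, h4.trans hw2⟩
  have hXne : D.C.X (σ • T) ≠ D.C.X T := by
    intro h
    rcases D.C.eq_or_neg _ _ hT' hT h with h | h
    · exact hne h
    · apply hYsum.1
      rw [h, D.C.Y_neg, neg_add_cancel]
  have hd : D.C.X (σ • T) - D.C.X T ≠ 0 := sub_ne_zero.mpr hXne
  refine ⟨i, hi, hd, sub_ne_zero.mpr hne, ?_⟩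
  obtain ⟨-, hXU⟩ := D.C.secant (σ • T) (-T) hT' (neg_ne_zero.mpr hT) (by rwa [D.C.X_neg])
  rw [D.C.X_neg, D.C.Y_neg, sub_neg_eq_add, ← sub_eq_add_neg] at hXU
  have hwd : (i : ℚ) < D.w (D.C.X (σ • T) - D.C.X T) := by
    rw [hsX] at hd ⊢
    exact (congr_unit _ hx hi).resolve_left hd
  set lam := (D.C.Y (σ • T) + D.C.Y T) / (D.C.X (σ • T) - D.C.X T) with hlam
  have hlam0 : lam ≠ 0 := div_ne_zero hYsum.1 hd
  have hwlam : D.w lam = i - D.w (D.C.X (σ • T) - D.C.X T) := by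
    rw [hlam, hw.map_div hYsum.1 hd, hYsum.2]
  have hwl2 : D.w (lam ^ 2) = 2 * (i - D.w (D.C.X (σ • T) - D.C.X T)) := by
    rw [hw.map_pow hlam0, hwlam]; push_cast; ring
  have hXT : D.C.X (σ • T) ∈ A := by
    rw [hsX]
    have hTA : D.C.X T ∈ A := hw.mem_of_nonneg (.inr (hI.self D.S.hp.one_lt))
    have := add_mem (A.nonunits_le (inertia_sub_mem A hσ hTA)) hTA
    rwa [sub_add_cancel] at this
  have htail : (D.e : AlgebraicClosure ℚ) + D.f - D.C.X (σ • T) - D.C.X T = 0 ∨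
      0 ≤ D.w ((D.e : AlgebraicClosure ℚ) + D.f - D.C.X (σ • T) - D.C.X T) :=
    or_iff_not_imp_left.mpr fun h => (hw.mem_iff h).mp
      (sub_mem (sub_mem (add_mem (intCast_mem A _) (intCast_mem A _)) hXT)
        (hw.mem_of_nonneg (.inr (hI.self D.S.hp.one_lt))))
  have hneg : D.w (lam ^ 2) < 0 := by rw [hwl2]; linarith
  have := (hw.add_eq_left (pow_ne_zero 2 hlam0)
    (htail.imp_right fun h => lt_of_lt_of_le hneg h)).2
  rw [show lam ^ 2 + ((D.e : AlgebraicClosure ℚ) + D.f - D.C.X (σ • T) - D.C.X T) =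
    lam ^ 2 + D.e + D.f - D.C.X (σ • T) - D.C.X T by ring, ← hXU] at this
  exact ⟨this ▸ hneg, this.trans hwl2⟩

end FreyPlace

end FLTA.LevelLowering
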