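import Fermat.Agent.LevelLowering.Frame
import Fermat.Agent.BadRed.Residue
import Fermat.Agent.BadRed.Cusps

/-!
# Rational functions over a frame: valuations and leading reductions on both components
-/

set_option autoImplicit false

noncomputable section

open AlgebraicCurve FLTA.BadRed

namespace FLTA.LevelLowering

variable {K : Type*} [Field K] {A : ValuationSubring K}
  {k : Type*} [Field k] {π : A →+* k} {q : ℕ} [NeZero q]
  {F : Type*} [Field F] [Algebra K F] {F' : Type*} [Field F'] [Algebra K F']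
  {Fk : Type*} [Field Fk] [Algebra k Fk] {g gF : ℕ}

/-- A frame whose subfield is the fixed field of a set of symmetries. -/
structure RatFrame (B : BadFibre A π q F F' Fk g gF) extends Frame A π where
  /-- the symmetries -/
  H : Set B.Sym
  mem_L_iff : ∀ c : K, c ∈ toFrame.L ↔ ∀ s ∈ H, SemilinearAut.baseAut s.σ c = c

namespace RatFrame

variable {B : BadFibre A π q F F' Fk g gF} (R : RatFrame B)

/-- The rational functions. -/
def FL : Subfield F where
  carrier := {x | ∀ s ∈ R.H, s.σ • x = x}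
  mul_mem' := fun {x y} hx hy s hs => by rw [smul_mul', hx s hs, hy s hs]
  one_mem' := fun s _ => smul_one s.σ
  add_mem' := fun {x y} hx hy s hs => by rw [smul_add, hx s hs, hy s hs]
  zero_mem' := fun s _ => smul_zero s.σ
  neg_mem' := fun {x} hx s hs => by rw [smul_neg, hx s hs]
  inv_mem' := fun x hx s hs => by rw [smul_inv'', hx s hs]

theorem mem_FL_iff {x : F} : x ∈ R.FL ↔ ∀ s ∈ R.H, s.σ • x = x := Iff.rfl

theorem algebraMap_mem {c : K} (hc : c ∈ R.L) : algebraMap K F c ∈ R.FL := fun s hs => by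
  rw [SemilinearAut.smul_algebraMap, (R.mem_L_iff c).mp hc s hs]

theorem w_mem {x : F} (hx : x ∈ R.FL) : B.w x ∈ R.FL := fun s hs => by rw [← s.w_σ, hx s hs]

theorem inL_e (i : Fin 2) {x : F} (hx : x ∈ R.FL) : R.toFrame.InL (B.e i x) := by
  have h : ∀ y ∈ R.FL, R.toFrame.InL (B.ex y) := fun y hy j =>
    (R.mem_L_iff _).mpr fun s hs => by rw [← s.ex_σ, hy s hs]
  fin_cases i
  · exact h x hx
  · exact h _ (R.w_mem hx)

/-- Rational functions with bounded expansions at both cusps. -/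
def BL : Subring F where
  carrier := {x | x ∈ R.FL ∧ ∀ i, ∃ c : A, (c : K) ≠ 0 ∧ IntSeries A ((c : K) • B.e i x)}
  mul_mem' := fun {x y} hx hy => ⟨mul_mem hx.1 hy.1, fun i => by
    obtain ⟨c, hc, hx'⟩ := hx.2 i
    obtain ⟨d, hd, hy'⟩ := hy.2 i
    refine ⟨c * d, mul_ne_zero hc hd, ?_⟩
    rw [map_mul, MulMemClass.coe_mul, ← Frame.smul_mul_smul']
    exact IntSeries.mul hx' hy'⟩
  one_mem' := ⟨R.FL.one_mem, fun i => ⟨1, one_ne_zero, by
    rw [map_one]
    exact IntSeries.smul A.one_mem IntSeries.one⟩⟩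
  add_mem' := fun {x y} hx hy => ⟨add_mem hx.1 hy.1, fun i => by
    obtain ⟨c, hc, hx'⟩ := hx.2 i
    obtain ⟨d, hd, hy'⟩ := hy.2 i
    refine ⟨c * d, mul_ne_zero hc hd, ?_⟩
    rw [map_add, smul_add, MulMemClass.coe_mul]
    refine IntSeries.add ?_ ?_
    · rw [mul_comm, ← smul_smul]
      exact IntSeries.smul d.2 hx'
    · rw [← smul_smul]
      exact IntSeries.smul c.2 hy'⟩
  zero_mem' := ⟨R.FL.zero_mem, fun i => ⟨1, one_ne_zero, by
    rw [map_zero, smul_zero]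
    exact IntSeries.zero⟩⟩
  neg_mem' := fun {x} hx => ⟨neg_mem hx.1, fun i => by
    obtain ⟨c, hc, hx'⟩ := hx.2 i
    refine ⟨c, hc, ?_⟩
    rw [map_neg, smul_neg]
    exact IntSeries.neg hx'⟩

theorem BL_le {x : F} (hx : x ∈ R.BL) : x ∈ R.FL := hx.1

theorem exists_bdd (i : Fin 2) {m : ℕ} {x : F} (hx : x ∈ riemannRochSpace (B.cuspDiv m)) :
    ∃ c : A, (c : K) ≠ 0 ∧ IntSeries A ((c : K) • B.e i x) := by
  have key : ∀ y ∈ riemannRochSpace (B.cuspDiv m),
      ∃ c : A, (c : K) ≠ 0 ∧ IntSeries A ((c : K) • B.ex y) := fun y hy => by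
    obtain ⟨c, hc, hint⟩ := B.bdd_cusp m y hy
    rcases A.mem_or_inv_mem c with h | h
    · exact ⟨⟨c, h⟩, hc, hint⟩
    · refine ⟨1, one_ne_zero, ?_⟩
      have h' := IntSeries.smul h hint
      rwa [smul_smul, inv_mul_cancel₀ hc] at h'
  fin_cases i
  · exact key x hx
  · exact key _ (BadFibre.w_mem_riemannRochSpace B hx)

theorem mem_BL_of_section {m : ℕ} {x : F} (hx : x ∈ R.FL)
    (hm : x ∈ riemannRochSpace (B.cuspDiv m)) : x ∈ R.BL :=
  ⟨hx, fun i => exists_bdd i hm⟩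

theorem algebraMap_mem_BL {c : K} (hc : c ∈ R.L) : algebraMap K F c ∈ R.BL := by
  refine ⟨R.algebraMap_mem hc, fun i => ?_⟩
  have e : ∀ d : K, d • B.e i (algebraMap K F c) = (d * c) • (1 : LaurentSeries K) := fun d => by
    rw [smul_eq_C_mul, smul_eq_C_mul, AlgHom.commutes,
      ModularCurve.algebraMap_laurentSeries_eq_single, mul_one, map_mul]
    rfl
  rcases A.mem_or_inv_mem c with h | h
  · exact ⟨1, one_ne_zero, by rw [e]; exact IntSeries.smul (mul_mem A.one_mem h) IntSeries.one⟩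
  · rcases eq_or_ne c 0 with rfl | hc0
    · exact ⟨1, one_ne_zero, by rw [e]; exact IntSeries.smul (by simp) IntSeries.one⟩
    · exact ⟨⟨c⁻¹, h⟩, inv_ne_zero hc0, by
        rw [e]; exact IntSeries.smul (by rw [inv_mul_cancel₀ hc0]; exact A.one_mem) IntSeries.one⟩

theorem exists_isVal_e (i : Fin 2) {x : F} (hx : x ∈ R.BL) (hx0 : x ≠ 0) :
    ∃ n, R.toFrame.IsVal (B.e i x) n := by
  obtain ⟨c, hc, hint⟩ := hx.2 i
  exact R.toFrame.exists_isVal (R.inL_e i hx.1) ((map_ne_zero (B.e i)).mpr hx0) ⟨c, hc, hint⟩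

/-- The valuation on the component `i`. -/
def vs (i : Fin 2) (x : F) : ℤ := R.toFrame.val (B.e i x)

open Classical in
/-- The leading reduction on the component `i`. -/
def ld (i : Fin 2) (x : F) : Fk :=
  if h : ∃ p : Fk, B.exk p = R.toFrame.lead (B.e i x) then h.choose else 0

theorem isVal_vs (i : Fin 2) {x : F} (hx : x ∈ R.BL) (hx0 : x ≠ 0) :
    R.toFrame.IsVal (B.e i x) (R.vs i x) := by
  obtain ⟨n, hn⟩ := R.exists_isVal_e i hx hx0
  rwa [vs, hn.val_eq]

theorem ge_iff_le_vs (i : Fin 2) {x : F} (hx : x ∈ R.BL) (hx0 : x ≠ 0) {m : ℤ} :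
    R.toFrame.Ge (B.e i x) m ↔ m ≤ R.vs i x :=
  (R.isVal_vs i hx hx0).ge_iff R.toFrame

theorem vs_mul (i : Fin 2) {x y : F} (hx : x ∈ R.BL) (hx0 : x ≠ 0) (hy : y ∈ R.BL) (hy0 : y ≠ 0) :
    R.vs i (x * y) = R.vs i x + R.vs i y := by
  have h := ((R.isVal_vs i hx hx0).mul R.toFrame (R.isVal_vs i hy hy0)).1
  rw [← map_mul] at h
  exact h.val_eq R.toFrame

theorem vs_one (i : Fin 2) : R.vs i 1 = 0 := by
  have h := (R.toFrame.isVal_zpow 0).1
  rw [zpow_zero, map_one, ← map_one (B.e i)] at h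
  exact h.val_eq R.toFrame

theorem vs_pow (i : Fin 2) {x : F} (hx : x ∈ R.BL) (hx0 : x ≠ 0) (n : ℕ) :
    R.vs i (x ^ n) = n * R.vs i x := by
  induction n with
  | zero => simp [vs_one]
  | succ n ih =>
    rw [pow_succ, R.vs_mul i (pow_mem hx n) (pow_ne_zero n hx0) hx hx0, ih]
    push_cast
    ring

theorem vs_algebraMap_zpow (i : Fin 2) (n : ℤ) : R.vs i (algebraMap K F (R.ϖ ^ n)) = n := by
  have h := (R.toFrame.isVal_zpow n).1
  have e : B.e i (algebraMap K F (R.ϖ ^ n)) = HahnSeries.C (R.ϖ ^ n) := by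
    rw [AlgHom.commutes, ModularCurve.algebraMap_laurentSeries_eq_single]
    rfl
  rw [← e] at h
  exact h.val_eq R.toFrame

section Lead

variable [IsAlgClosed K] [CharZero K] [IsAlgClosed k] [Fact q.Prime] [CharP k q]

theorem exk_ld (i : Fin 2) {x : F} (hx : x ∈ R.BL) (hx0 : x ≠ 0) :
    B.exk (R.ld i x) = R.toFrame.lead (B.e i x) := by
  have h := R.isVal_vs i hx hx0
  obtain ⟨p, hp⟩ := B.exists_exk_eq_redSeries i h.1
  have hex : ∃ p : Fk, B.exk p = R.toFrame.lead (B.e i x) :=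
    ⟨p, by rw [h.lead_eq R.toFrame]; exact hp⟩
  rw [ld, dif_pos hex]
  exact hex.choose_spec

theorem ld_ne_zero (i : Fin 2) {x : F} (hx : x ∈ R.BL) (hx0 : x ≠ 0) : R.ld i x ≠ 0 := by
  intro h0
  apply (R.isVal_vs i hx hx0).lead_ne_zero R.toFrame
  rw [← R.exk_ld i hx hx0, h0, map_zero]

theorem ld_mul (i : Fin 2) {x y : F} (hx : x ∈ R.BL) (hx0 : x ≠ 0) (hy : y ∈ R.BL) (hy0 : y ≠ 0) :
    R.ld i (x * y) = R.ld i x * R.ld i y := by
  have hx' := R.isVal_vs i hx hx0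
  have hy' := R.isVal_vs i hy hy0
  obtain ⟨h, hred⟩ := hx'.mul R.toFrame hy'
  apply B.exk.toRingHom.injective
  show B.exk _ = B.exk _
  rw [map_mul, R.exk_ld i (mul_mem hx hy) (mul_ne_zero hx0 hy0), R.exk_ld i hx hx0,
    R.exk_ld i hy hy0, map_mul, h.lead_eq R.toFrame, hred, hx'.lead_eq R.toFrame,
    hy'.lead_eq R.toFrame]

theorem ld_one (i : Fin 2) : R.ld i 1 = 1 := by
  have h := R.ld_mul i R.BL.one_mem one_ne_zero R.BL.one_mem one_ne_zero
  rw [one_mul] at h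
  have hne := R.ld_ne_zero i R.BL.one_mem one_ne_zero
  exact (mul_eq_left₀ hne).mp h.symm

theorem ld_pow (i : Fin 2) {x : F} (hx : x ∈ R.BL) (hx0 : x ≠ 0) (n : ℕ) :
    R.ld i (x ^ n) = R.ld i x ^ n := by
  induction n with
  | zero => simp [ld_one]
  | succ n ih =>
    rw [pow_succ, R.ld_mul i (pow_mem hx n) (pow_ne_zero n hx0) hx hx0, ih, pow_succ]

theorem ld_algebraMap_zpow (i : Fin 2) (n : ℤ) : R.ld i (algebraMap K F (R.ϖ ^ n)) = 1 := by
  obtain ⟨-, h⟩ := R.toFrame.isVal_zpow n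
  apply B.exk.toRingHom.injective
  show B.exk _ = B.exk _
  rw [R.exk_ld i (R.algebraMap_mem_BL (zpow_mem R.ϖ_mem n))
    ((map_ne_zero (algebraMap K F)).mpr (zpow_ne_zero n R.ϖ_ne_zero)), map_one, AlgHom.commutes,
    ModularCurve.algebraMap_laurentSeries_eq_single]
  exact h

theorem isRed_of_vs_nonneg {x : F} (hx : x ∈ R.BL) (hx0 : x ≠ 0) (h : ∀ i, 0 ≤ R.vs i x) :
    B.IsRed x fun i => if R.vs i x = 0 then R.ld i x else 0 := by
  have hge : ∀ i, R.toFrame.Ge (B.e i x) 0 := fun i => (R.ge_iff_le_vs i hx hx0).mpr (h i)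
  have hint : ∀ i, IntSeries A (B.e i x) := fun i => (R.toFrame.ge_zero_iff _).mp (hge i)
  refine ⟨hint, fun i => ?_⟩
  have e : R.ϖ ^ (-(0 : ℤ)) • B.e i x = B.e i x := by rw [neg_zero, zpow_zero, one_smul]
  dsimp only
  split_ifs with h0
  · have hv := R.isVal_vs i hx hx0
    rw [h0] at hv
    rw [R.exk_ld i hx hx0, hv.lead_eq R.toFrame, e]
  · have hpos : (0 : ℤ) < R.vs i x := lt_of_le_of_ne (h i) (Ne.symm h0)
    rw [map_zero, ← R.toFrame.red_eq_zero_of_ge ((R.isVal_vs i hx hx0).1) hpos, e]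

end Lead

end RatFrame

end FLTA.LevelLowering

end
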