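import Fermat.Agent.LevelLowering.Datum

/-!
# The reduced twisted space of a Kummer datum

For a datum `(D, f)`, the space `W m = f L(D + m (∞ + 0)) = L(m (∞ + 0) - (q - 1) D)` reduces to the
pairs `a * f̄` with `a ∈ img m`; for such `a` the pair `a ^ q * f̄` is a reduced section.
-/

set_option autoImplicit false

noncomputable section

open AlgebraicCurve FLTA.BadRed

namespace FLTA.LevelLowering

variable {K : Type*} [Field K] [IsAlgClosed K] [CharZero K] {A : ValuationSubring K}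
  {k : Type*} [Field k] [IsAlgClosed k] {π : A →+* k}
  {q : ℕ} [NeZero q] [Fact q.Prime] [CharP k q]
  {F : Type*} [Field F] [Algebra K F] {F' : Type*} [Field F'] [Algebra K F']
  {Fk : Type*} [Field Fk] [Algebra k Fk] {g gF : ℕ} {B : BadFibre A π q F F' Fk g gF}

/-- The reductions of the integral elements of `W`. -/
def redOf (B : BadFibre A π q F F' Fk g gF) (W : Submodule K F) : Submodule k (Fin 2 → Fk) where
  carrier := {p | ∃ z ∈ W, B.IsRed z p}
  add_mem' := by
    rintro _ _ ⟨z, hz, h⟩ ⟨z', hz', h'⟩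
    exact ⟨z + z', add_mem hz hz', BadFibre.isRed_add B h h'⟩
  zero_mem' := ⟨0, zero_mem _, fun i => by
    show IntSeries A (B.e i 0)
    rw [map_zero]
    exact IntSeries.zero, fun i => by rw [Pi.zero_apply, map_zero, map_zero, redSeries_zero]⟩
  smul_mem' := by
    rintro c p ⟨z, hz, h⟩
    obtain ⟨a, rfl⟩ := B.R.π_surjective c
    exact ⟨(a : K) • z, W.smul_mem _ hz, BadFibre.isRed_smul B h a⟩

theorem mem_redOf {W : Submodule K F} {p : Fin 2 → Fk} :
    p ∈ redOf B W ↔ ∃ z ∈ W, B.IsRed z p := Iff.rfl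

theorem finrank_redOf {W : Submodule K F} {M : ℕ} (hW : W ≤ riemannRochSpace (B.cuspDiv M)) :
    FiniteDimensional k (redOf B W) ∧ Module.finrank k (redOf B W) = Module.finrank K W := by
  classical
  haveI := B.rrF.finiteDimensional (B.cuspDiv M)
  haveI : FiniteDimensional K W := Submodule.finiteDimensional_of_le hW
  haveI : FiniteDimensional K (W.map B.pair) := Module.Finite.map _ _
  have hinj : Function.Injective B.pair := fun x y h => (B.e 0).injective (congrFun h 0)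
  have hsc : Scalable π (W.map B.pair) := by
    rintro _ ⟨G, hG, rfl⟩ hne
    exact exists_primitive_multiple B.discrete hne (fun i => B.bddSeries_e i (hW hG))
      (fun i => B.fgSeries_e i G)
  obtain ⟨hset, hfin, hrank⟩ := finrank_span_redSet B.R.π_surjective _ hsc
  have himg : (redOf B W).map B.exkPair = Submodule.span k (redSet π (W.map B.pair)) := by
    apply SetLike.coe_injective
    rw [hset]
    ext z
    constructor
    · rintro ⟨p, ⟨G, hG, hp⟩, rfl⟩
      exact ⟨B.pair G, Submodule.mem_map_of_mem hG, hp.1, hp.2⟩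
    · rintro ⟨_, ⟨G, hG, rfl⟩, hint, hz⟩
      obtain ⟨p, hp⟩ := B.exists_isRed (G := G) hint
      exact ⟨p, ⟨G, hG, hp⟩, funext fun i => (hp.2 i).trans (hz i).symm⟩
  haveI := hfin
  have heq := (Submodule.equivMapOfInjective _ B.exkPair_injective (redOf B W)).trans
    (LinearEquiv.ofEq _ _ himg)
  refine ⟨heq.symm.finiteDimensional, ?_⟩
  rw [heq.finrank_eq, hrank, ← (Submodule.equivMapOfInjective _ hinj W).finrank_eq]

namespace Datum

variable {R : RatFrame B} (X : Datum R)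

/-- The reduction of `f`. -/
def fb (i : Fin 2) : Fk := R.ld i X.f

theorem fb_ne_zero (i : Fin 2) : X.fb i ≠ 0 := R.ld_ne_zero i X.mem X.f_ne_zero

/-- The divisor of the twisted space. -/
def twDiv (m : ℕ) : Divisor K F := B.cuspDiv m - ((q : ℤ) - 1) • X.D

theorem exists_twDiv_le (m : ℕ) : ∃ M, X.twDiv m ≤ B.cuspDiv M := by
  obtain ⟨b, hb⟩ := X.bound
  refine ⟨m + (q - 1) * b, Finsupp.le_def.mpr fun v => ?_⟩
  have h := Finsupp.le_def.mp hb v
  rw [Finsupp.neg_apply] at h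
  have hq : ((q - 1 : ℕ) : ℤ) = (q : ℤ) - 1 := by have := NeZero.pos q; omega
  rw [BadFibre.cuspDiv_add, Finsupp.add_apply, ← BadFibre.natCast_smul_cuspDiv, twDiv,
    Finsupp.sub_apply, Finsupp.smul_apply, Finsupp.smul_apply, hq, smul_eq_mul, smul_eq_mul]
  have : (0 : ℤ) ≤ (q : ℤ) - 1 := by omega
  nlinarith

/-- `f L(D + m (∞ + 0))`. -/
def W (m : ℕ) : Submodule K F := riemannRochSpace (X.twDiv m)

theorem finrank_W {m : ℕ} (hm : gF ≤ m) :
    (Module.finrank K (X.W m) : ℤ) = 2 * m + 1 - gF := by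
  have hdeg : Divisor.degree (X.twDiv m) = 2 * m := by
    rw [twDiv, map_sub, map_zsmul, X.degree_eq_zero, BadFibre.degree_cuspDiv, smul_zero, sub_zero]
  rw [W, B.rrF.finrank_eq _ (by rw [hdeg]; omega), hdeg]

theorem exists_rat_W {m : ℕ} {z : F} (hz : z ∈ X.W m) {p : Fin 2 → Fk} (hp : B.IsRed z p) :
    ∃ z' ∈ X.W m, z' ∈ R.BL ∧ B.IsRed z' p := by
  obtain ⟨M, hM⟩ := X.exists_twDiv_le m
  have := B.rrF.finiteDimensional (X.twDiv m)
  have hst : ∀ s ∈ R.H, s.σ • X.twDiv m = X.twDiv m := fun s hs => by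
    rw [twDiv, smul_sub, RatFrame.smul_cuspDiv,
      (DistribSMul.toAddMonoidHom (Divisor K F) s.σ).map_zsmul ((q : ℤ) - 1) X.D |> fun h => (show
        s.σ • (((q : ℤ) - 1) • X.D) = ((q : ℤ) - 1) • (s.σ • X.D) from h), X.smul_D hs]
  obtain ⟨z', hz', hrat, hint, heq⟩ :=
    R.exists_rat_lift _ (R.span_rat_of_stable hM hst) hz hp.1
  exact ⟨z', hz', hrat, hint, fun i => (hp.2 i).trans (heq i).symm⟩

/-- The pairs `a` with `a * f̄` a reduction from `W m`. -/
def img (m : ℕ) : Submodule k (Fin 2 → Fk) :=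
  (redOf B (X.W m)).comap (LinearMap.mulRight k X.fb)

theorem mem_img {m : ℕ} {a : Fin 2 → Fk} :
    a ∈ X.img m ↔ ∃ z ∈ X.W m, B.IsRed z (a * X.fb) := Iff.rfl

theorem finrank_img {m : ℕ} (hm : gF ≤ m) :
    FiniteDimensional k (X.img m) ∧ (Module.finrank k (X.img m) : ℤ) = 2 * m + 1 - gF := by
  obtain ⟨M, hM⟩ := X.exists_twDiv_le m
  obtain ⟨hfin, hrk⟩ := finrank_redOf (B := B) (FLTA.Curves.riemannRochSpace_mono hM)
  have hinj : Function.Injective (LinearMap.mulRight k X.fb) := fun a b h => funext fun i =>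
    mul_right_cancel₀ (X.fb_ne_zero i) (congrFun h i)
  have hsurj : Function.Surjective (LinearMap.mulRight k X.fb) := fun p =>
    ⟨fun i => p i / X.fb i, funext fun i => div_mul_cancel₀ _ (X.fb_ne_zero i)⟩
  have hmap : (X.img m).map (LinearMap.mulRight k X.fb) = redOf B (X.W m) :=
    Submodule.map_comap_eq_of_surjective hsurj _
  have heq := (Submodule.equivMapOfInjective _ hinj (X.img m)).trans (LinearEquiv.ofEq _ _ hmap)
  haveI : FiniteDimensional k (redOf B (X.W m)) := hfin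
  refine ⟨heq.symm.finiteDimensional, ?_⟩
  rw [heq.finrank_eq, show redOf B (X.W m) = redOf B (riemannRochSpace (X.twDiv m)) from rfl, hrk]
  exact X.finrank_W hm

/-- For `z` in `W m`, the function `z ^ q / f ^ (q - 1)` is a section. -/
theorem powDiv_spec {m : ℕ} {z : F} (hzW : z ∈ X.W m) (hzB : z ∈ R.BL) (hz0 : z ≠ 0) :
    ∃ y : F, y ≠ 0 ∧ y * X.f ^ (q - 1) = z ^ q ∧ y ∈ riemannRochSpace (B.cuspDiv (q * m)) ∧
      y ∈ R.BL ∧ (∀ i, R.vs i y = q * R.vs i z) ∧
      ∀ i, R.ld i y * X.fb i ^ (q - 1) = R.ld i z ^ q := by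
  have hq1 : 1 ≤ q := NeZero.pos q
  set y := z ^ q / X.f ^ (q - 1) with hy
  have hfq0 : X.f ^ (q - 1) ≠ 0 := pow_ne_zero _ X.f_ne_zero
  have hy0 : y ≠ 0 := div_ne_zero (pow_ne_zero _ hz0) hfq0
  have hym : y ∈ riemannRochSpace (B.cuspDiv (q * m)) := by
    rw [mem_riemannRochSpace_iff]
    intro v
    refine Or.inr ?_
    have h1 := (mem_riemannRochSpace_iff.mp hzW v).resolve_left hz0
    rw [twDiv, Finsupp.sub_apply, Finsupp.smul_apply, smul_eq_mul] at h1
    rw [hy, div_eq_mul_inv, Place.ord_mul _ (pow_ne_zero _ hz0) (inv_ne_zero hfq0),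
      FLTA.Curves.ord_pow, Place.ord_inv, FLTA.Curves.ord_pow, ← X.kummer.ord_eq,
      ← BadFibre.natCast_smul_cuspDiv, Finsupp.smul_apply, smul_eq_mul, Nat.cast_sub hq1]
    push_cast
    nlinarith [Int.natCast_nonneg q]
  have hyB : y ∈ R.BL := R.mem_BL_of_section
    (div_mem (pow_mem (R.BL_le hzB) q) (pow_mem (R.BL_le X.mem) (q - 1))) hym
  have hprod : y * X.f ^ (q - 1) = z ^ q := div_mul_cancel₀ _ hfq0
  refine ⟨y, hy0, hprod, hym, hyB, fun i => ?_, fun i => ?_⟩
  · have h := R.vs_mul i hyB hy0 (pow_mem X.mem (q - 1)) hfq0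
    rw [hprod, R.vs_pow i hzB hz0, R.vs_pow i X.mem X.f_ne_zero, X.vs_f, mul_zero, add_zero] at h
    exact h.symm
  · have h := R.ld_mul i hyB hy0 (pow_mem X.mem (q - 1)) hfq0
    rw [hprod, R.ld_pow i hzB hz0, R.ld_pow i X.mem X.f_ne_zero] at h
    exact h.symm

/-- For `a ∈ img m`, the pair `a ^ q * f̄` is a reduced section. -/
theorem pow_mul_mem {m : ℕ} {a : Fin 2 → Fk} (ha : a ∈ X.img m) :
    a ^ q * X.fb ∈ B.fibreSections (q * m) := by
  obtain ⟨z₀, hz₀, hp₀⟩ := X.mem_img.mp ha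
  obtain ⟨z, hzW, hzB, hp⟩ := X.exists_rat_W hz₀ hp₀
  rcases eq_or_ne z 0 with rfl | hz0
  · refine ⟨0, zero_mem _, hp.1, fun i => ?_⟩
    have h : B.exk ((a * X.fb) i) = 0 := by rw [hp.2 i, map_zero, redSeries_zero]
    have h' : a i = 0 := (mul_eq_zero.mp
      ((map_eq_zero_iff _ B.exk.toRingHom.injective).mp h)).resolve_right (X.fb_ne_zero i)
    rw [Pi.mul_apply, Pi.pow_apply, h', zero_pow (NeZero.ne q), zero_mul, map_zero, map_zero,
      redSeries_zero]
  obtain ⟨y, hy0, -, hym, hyB, hvy, hly⟩ := X.powDiv_spec hzW hzB hz0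
  have hnn : ∀ i, 0 ≤ R.vs i z := fun i =>
    (R.ge_iff_le_vs i hzB hz0).mp ((R.toFrame.ge_zero_iff _).mpr (hp.1 i))
  have hred := R.isRed_of_vs_nonneg hyB hy0 fun i => by
    rw [hvy]; exact mul_nonneg (Int.natCast_nonneg q) (hnn i)
  suffices hpair : (fun i => if R.vs i y = 0 then R.ld i y else 0) = a ^ q * X.fb from
    hpair ▸ ⟨y, hym, hred⟩
  funext i
  rw [Pi.mul_apply, Pi.pow_apply]
  obtain ⟨h1, h2⟩ := R.of_isRed hzB hz0 hp i
  rcases eq_or_ne (a i) 0 with hai | hai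
  · have := h2 (by rw [Pi.mul_apply, hai, zero_mul])
    have hpos : 0 < R.vs i y := by
      rw [hvy]
      exact mul_pos (Int.natCast_pos.mpr (NeZero.pos q)) this
    rw [if_neg hpos.ne', hai, zero_pow (NeZero.ne q), zero_mul]
  · obtain ⟨hv, hl⟩ := h1 (by rw [Pi.mul_apply]; exact mul_ne_zero hai (X.fb_ne_zero i))
    rw [if_pos (by rw [hvy, hv, mul_zero])]
    apply mul_right_cancel₀ (pow_ne_zero (q - 1) (X.fb_ne_zero i))
    rw [hly, hl, Pi.mul_apply, mul_pow, mul_assoc, mul_pow_sub_one (NeZero.ne q)]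

end Datum

end FLTA.LevelLowering

end
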