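import Fermat.Agent.LevelLowering.RemovalKey
import Fermat.Agent.BadRed.Toric.Twist

/-!
# One step of the removal of polar parts

From `(1 + ϖ ^ i ε) ^ q` congruent to a section times power series modulo `ϖ ^ (e + i + 1)`, the
levels below `e + i` are cleared, so the reduction of `ε` is a reduced section plus power series.
-/

set_option autoImplicit false

noncomputable section

open AlgebraicCurve FLTA.BadRed

namespace FLTA.LevelLowering.Removal

variable {K : Type*} [Field K] [IsAlgClosed K] [CharZero K] {A : ValuationSubring K}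
  {k : Type*} [Field k] [IsAlgClosed k] {π : A →+* k}
  {q : ℕ} [NeZero q] [Fact q.Prime] [CharP k q]
  {F : Type*} [Field F] [Algebra K F] {F' : Type*} [Field F'] [Algebra K F']
  {Fk : Type*} [Field Fk] [Algebra k Fk] {g gF : ℕ} {B : BadFibre A π q F F' Fk g gF}

omit [IsAlgClosed K] [IsAlgClosed k] [CharP k q] in
/-- The reduction of `ε` splits. -/
theorem isSplit_of_pow {R R₀ : RatFrame B} (hsub : ∀ s ∈ R.H, s ∈ R₀.H)
    (hpw₀ : pw R₀.toFrame = (q : Ser A)) {e : ℕ} {u : A}
    (hqe : (q : Ser A) = pw R.toFrame ^ e * cst u) (hdvd : q ∣ e)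
    {S : Finset (Place k Fk)} {m₀ : ℕ} (hS : B.IsGluing S m₀) (hne : S.Nonempty)
    {i₀ : ℕ} (h1 : 1 ≤ i₀) (hi : i₀ < q) {ε z₀ v : Ser A} (hε : ε ∈ coefS R.L)
    (hz₀ : z₀ ∈ secS R) (hz₀1 : red2 π z₀ = 1) (hv : v ∈ powS A)
    (hcong : pw R.toFrame ^ (e + i₀ + 1) ∣ z₀ * v - (1 + pw R.toFrame ^ i₀ * ε) ^ q) :
    IsSplit B (red2 π (cst u * ε)) := by
  have hq : q.Prime := Fact.out
  set P := pw R.toFrame with hP
  set N := e + i₀ with hN
  set M := N + 1 with hM
  set δ := P ^ N * (cst u * ε) with hδ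
  have hredP : ∀ {n : ℕ}, 1 ≤ n → red2 π P ^ n = 0 := fun {n} hn => by
    rw [hP, red2_pw, zero_pow (by omega)]
  have hqN : ¬ q ∣ N := fun h => by
    have h' : q ∣ i₀ := (Nat.dvd_add_right hdvd).mp h
    have := Nat.le_of_dvd (by omega) h'
    omega
  have hPL : P ∈ coefS R.L := pw_mem_coefS R.toFrame
  have key : ∀ J, 1 ≤ J → J ≤ N → ∃ z ∈ secS R, red2 π z = 1 ∧ ∃ w ∈ powS A,
      ∃ r ∈ dig R.toFrame R₀.toFrame q M, r ∈ coefS R.L ∧ P ^ J ∣ r ∧
        P ^ M ∣ z * w - (1 + r + δ) := by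
    intro J hJ
    induction J, hJ using Nat.le_induction with
    | base =>
      intro _
      refine ⟨z₀, hz₀, hz₀1, v, hv, (P ^ i₀ * ε) ^ q,
        pow_mem_dig R.toFrame R₀.toFrame (L_mono hsub) q M hqe hq h1 (by omega) hε,
        pow_mem (mul_mem (pow_mem hPL _) hε) _,
        by
          rw [pow_one]
          exact dvd_pow ((dvd_pow_self P (by omega)).mul_right ε) hq.ne_zero, ?_⟩
      have h2 : P ^ M ∣ (q : Ser A) * (P ^ i₀ * ε) ^ 2 := by
        refine ⟨P ^ (i₀ - 1) * (cst u * ε ^ 2), ?_⟩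
        rw [hqe, mul_pow, ← pow_mul, ← mul_assoc (P ^ M), ← pow_add,
          show M + (i₀ - 1) = e + i₀ * 2 by omega, pow_add]
        ring
      have h3 := dvd_add hcong (h2.trans (dvd_one_add_pow_sub hq (P ^ i₀ * ε)))
      have e' : z₀ * v - (1 + P ^ i₀ * ε) ^ q +
          ((1 + P ^ i₀ * ε) ^ q - (1 + (P ^ i₀ * ε) ^ q + (q : Ser A) * (P ^ i₀ * ε))) =
          z₀ * v - (1 + (P ^ i₀ * ε) ^ q + δ) := by
        rw [hqe, hδ, hN, pow_add]
        ring
      rwa [e'] at h3
    | succ J hJ ih =>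
      intro hJN
      obtain ⟨z, hz, hz1, w, hw, r, hr, hrL, hJr, c, hc⟩ := ih (by omega)
      by_cases hqJ : q ∣ J
      swap
      · exact ⟨z, hz, hz1, w, hw, r, hr, hrL,
          dig_key R.toFrame R₀.toFrame q M hqe hpw₀ hq.one_lt.le (by omega) hr hJr (by omega) hqJ,
          c, hc⟩
      obtain ⟨n, hn⟩ := hqJ
      have hn1 : 1 ≤ n := Nat.pos_of_ne_zero (by rintro rfl; simp at hn; omega)
      obtain ⟨r', hr'⟩ := hJr
      have hr'L : r' ∈ coefS R.L := coefS_of_pw_mul R.toFrame (n := J) (hr' ▸ hrL)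
      have hM' : P ^ M = P ^ J * P ^ (M - J) := by rw [← pow_add]; congr 1; omega
      have hN' : P ^ N = P ^ J * P ^ (N - J) := by rw [← pow_add]; congr 1; omega
      have hsplit : IsSplit B (red2 π r') := by
        have h := isSplit_of_mul (d := r' + P ^ (N - J) * (cst u * ε) + P ^ (M - J) * c) hS hne
          (by omega : 1 ≤ J) hz hz1 hw (by
            rw [← hP]
            linear_combination hc + hr' + (cst u * ε) * hN' + c * hM')
        simpa only [map_add, map_mul, map_pow, hredP (show 1 ≤ N - J by omega),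
          hredP (show 1 ≤ M - J by omega), zero_mul, add_zero] using h
      obtain ⟨s, hs, p, hp, hpL, hsp⟩ := exists_split_lift R₀ hsplit
      have hsR := secS_mono hsub hs
      have hs₀ : s ∈ coefS R₀.L := secS_le_coefS R₀ hs
      set a : Ser A := -(P ^ J * s) - P ^ J * p + P ^ J * s * (P ^ J * p) with ha
      have haD : a ∈ dig R.toFrame R₀.toFrame q M := by
        have hgs : P ^ J * s ∈ dig R.toFrame R₀.toFrame q M := by
          rw [hn]
          exact gen_mem_dig R.toFrame R₀.toFrame q M hn1 hs₀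
        have hgp : P ^ J * p ∈ dig R.toFrame R₀.toFrame q M := by
          rw [hn]
          exact gen_mem_dig R.toFrame R₀.toFrame q M hn1 hpL
        exact add_mem (sub_mem (neg_mem hgs) hgp) (mul_mem_dig _ _ q M hgs hgp)
      have hsL : s ∈ coefS R.L := coefS_mono (L_mono hsub) hs₀
      have hpL' : p ∈ coefS R.L := coefS_mono (L_mono hsub) hpL
      have haL : a ∈ coefS R.L :=
        add_mem (sub_mem (neg_mem (mul_mem (pow_mem hPL J) hsL)) (mul_mem (pow_mem hPL J) hpL'))
          (mul_mem (mul_mem (pow_mem hPL J) hsL) (mul_mem (pow_mem hPL J) hpL'))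
      refine ⟨z * (1 - P ^ J * s),
        mul_mem hz (sub_mem (one_mem _) (mul_mem (pow_mem (pw_mem_secS R) J) hsR)), ?_,
        w * (1 - P ^ J * p),
        mul_mem hw (sub_mem (one_mem _) (mul_mem (pow_mem (cst_mem_powS _) J) hp)),
        r + a + r * a, add_mem (add_mem hr haD) (mul_mem_dig _ _ q M hr haD),
        add_mem (add_mem hrL haL) (mul_mem hrL haL), ?_, ?_⟩
      · rw [map_mul, map_sub, map_one, map_mul, map_pow, hredP hJ, zero_mul, sub_zero, hz1,
          mul_one]
      · obtain ⟨x, hx⟩ := pw_dvd_of_red2 R.toFrame (sub_mem (sub_mem hr'L hsL) hpL')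
          (by rw [map_sub, map_sub, ← hsp]; abel)
        have hPJ : P ^ J = P * P ^ (J - 1) := by rw [← pow_succ']; congr 1; omega
        refine ⟨x + P ^ (J - 1) * (s * p - r' * s - r' * p + P ^ J * (r' * s * p)), ?_⟩
        rw [pow_succ, hr', ha]
        linear_combination P ^ J * hx +
          P ^ J * (s * p - r' * s - r' * p + P ^ J * (r' * s * p)) * hPJ
      · refine dvd_trans (dvd_add (Dvd.intro (c * (1 + a)) rfl)
          ((pow_dvd_pow P (show M ≤ N + J by omega)).trans
            (show P ^ (N + J) ∣ δ * a from ?_))) (dvd_of_eq ?_)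
        · refine ⟨(cst u * ε) * (-s - p + s * (P ^ J * p)), ?_⟩
          rw [pow_add, hδ, ha]
          ring
        · linear_combination -(1 + a) * hc - (1 + r + δ) * ha + (z * w) * ha
  obtain ⟨z, hz, hz1, w, hw, r, hr, -, hJr, c, hc⟩ := key N (by omega) le_rfl
  obtain ⟨r₁, hr₁⟩ := dig_key R.toFrame R₀.toFrame q M hqe hpw₀ hq.one_lt.le (by omega) hr hJr
    (by omega) hqN
  have h := isSplit_of_mul (d := cst u * ε + P * (r₁ + c)) hS hne
    (by omega : 1 ≤ N) hz hz1 hw (by
      rw [← hP]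
      rw [hM, pow_succ] at hc
      rw [← hP, pow_succ] at hr₁
      linear_combination hc + hr₁)
  rwa [map_add (red2 π), map_mul (red2 π) P, show red2 π P = 0 from red2_pw R.toFrame, zero_mul,
    add_zero] at h

end FLTA.LevelLowering.Removal

end
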