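import Fermat.Agent.LevelLowering.RemovalSeries
import Fermat.Agent.LevelLowering.RatBasis
import Fermat.Agent.LevelLowering.Sections
import Fermat.Agent.BadRed.Fibre

/-!
# Reductions of products of a section and a pair of power series

If a rational section times a pair of power series is `1` modulo `ϖ ^ J`, the reduction at level
`J` is the sum of a reduced section and a pair of power series: a pair which is both is constant,
as the glued points identify the two constants.
-/

set_option autoImplicit false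

noncomputable section

open AlgebraicCurve FLTA.BadRed

namespace FLTA.LevelLowering.Removal

variable {K : Type*} [Field K] {A : ValuationSubring K}
  {k : Type*} [Field k] {π : A →+* k} {q : ℕ} [NeZero q]
  {F : Type*} [Field F] [Algebra K F] {F' : Type*} [Field F'] [Algebra K F']
  {Fk : Type*} [Field Fk] [Algebra k Fk] {g gF : ℕ} {B : BadFibre A π q F F' Fk g gF}

variable (B) in
/-- Both expansions, as a ring map. -/
def pairHom : F →+* (Fin 2 → LaurentSeries K) := RingHom.pi fun l => (B.e l).toRingHom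

theorem pairHom_apply (x : F) (l : Fin 2) : pairHom B x l = B.e l x := rfl

/-- The integral expansions of rational functions with poles only at the cusps. -/
def secS (R : RatFrame B) : Subring (Ser A) :=
  ((R.FL.toSubring ⊓ secRing B).map (pairHom B)).comap (emb A)

theorem mem_secS {R : RatFrame B} {y : Ser A} :
    y ∈ secS R ↔ ∃ z, (z ∈ R.FL ∧ z ∈ secRing B) ∧ pairHom B z = emb A y := Iff.rfl

theorem secS_le_coefS (R : RatFrame B) : secS R ≤ coefS R.L := by
  rintro y ⟨z, ⟨hz, -⟩, h⟩ l i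
  have h1 := R.inL_e l hz i
  rwa [← pairHom_apply, h, emb_coeff] at h1

theorem FL_mono {R R₀ : RatFrame B} (hsub : ∀ s ∈ R.H, s ∈ R₀.H) : R₀.FL ≤ R.FL :=
  fun _ hx s hs => hx s (hsub s hs)

theorem L_mono {R R₀ : RatFrame B} (hsub : ∀ s ∈ R.H, s ∈ R₀.H) : R₀.L ≤ R.L :=
  fun c hc => (R.mem_L_iff c).mpr fun s hs => (R₀.mem_L_iff c).mp hc s (hsub s hs)

theorem secS_mono {R R₀ : RatFrame B} (hsub : ∀ s ∈ R.H, s ∈ R₀.H) : secS R₀ ≤ secS R := by
  rintro y ⟨z, ⟨hz, hz'⟩, h⟩
  exact ⟨z, ⟨FL_mono hsub hz, hz'⟩, h⟩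

theorem cst_mem_secS {R : RatFrame B} {c : A} (hc : (c : K) ∈ R.L) : cst c ∈ secS R := by
  refine mem_secS.mpr ⟨algebraMap K F c, ⟨R.algebraMap_mem hc, algebraMap_mem_secRing B c⟩,
    funext fun l => ?_⟩
  rw [pairHom_apply, RatFrame.e_algebraMap]
  show HahnSeries.single 0 (c : K) = ModularCurve.coeffMap A.subtype (HahnSeries.single 0 c)
  rw [ModularCurve.coeffMap_single]
  rfl

theorem pw_mem_secS (R : RatFrame B) : pw R.toFrame ∈ secS R := cst_mem_secS R.ϖ_mem

theorem secS_of_pw_mul {R : RatFrame B} {y : Ser A} (h : pw R.toFrame * y ∈ secS R) :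
    y ∈ secS R := by
  obtain ⟨z, ⟨hz, hz'⟩, hzy⟩ := mem_secS.mp h
  refine mem_secS.mpr ⟨algebraMap K F R.ϖ⁻¹ * z,
    ⟨mul_mem (R.algebraMap_mem (inv_mem R.ϖ_mem)) hz, mul_mem (algebraMap_mem_secRing B _) hz'⟩,
    funext fun l => HahnSeries.ext (funext fun i => ?_)⟩
  rw [map_mul, Pi.mul_apply, hzy, pairHom_apply, RatFrame.e_algebraMap, HahnSeries.C_mul_eq_smul,
    HahnSeries.coeff_smul, emb_coeff, emb_coeff, smul_eq_mul, ← pow_one (pw R.toFrame),
    coeff_pw_pow_mul, pow_one, ← mul_assoc, inv_mul_cancel₀ R.ϖ_ne_zero, one_mul]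

variable [IsAlgClosed K] [CharZero K] [IsAlgClosed k] [Fact q.Prime] [CharP k q]

omit [IsAlgClosed K] [IsAlgClosed k] [CharP k q] in
theorem exists_inBar {R : RatFrame B} {y : Ser A} (hy : y ∈ secS R) :
    ∃ p, B.InBar p ∧ ∀ l, B.exk (p l) = red2 π y l := by
  obtain ⟨z, ⟨-, m, hm⟩, h⟩ := mem_secS.mp hy
  have hint : IntPair A (B.pair z) := fun l i => by
    show (B.e l z).coeff i ∈ A
    rw [← pairHom_apply, h, emb_coeff]
    exact ((y l).coeff i).2
  obtain ⟨p, hp⟩ := B.exists_isRed hint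
  refine ⟨p, ⟨m, z, hm, hp⟩, fun l => ?_⟩
  rw [hp.2 l, ← pairHom_apply, h, redSeries_emb]

variable (B) in
/-- The pair is a reduced section plus a pair of power series. -/
def IsSplit (c : Fin 2 → LaurentSeries k) : Prop :=
  ∃ p, B.InBar p ∧ ∀ l, ∀ j < (0 : ℤ), (c l).coeff j = (B.exk (p l)).coeff j

omit [IsAlgClosed K] [CharZero K] [IsAlgClosed k] [Fact q.Prime] [CharP k q] in
/-- A reduced section without polar part is a constant. -/
theorem exists_const {S : Finset (Place k Fk)} {m₀ : ℕ} (hS : B.IsGluing S m₀)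
    (hne : S.Nonempty) {p : Fin 2 → Fk} (hp : B.InBar p)
    (hpow : ∀ l, ∀ j < (0 : ℤ), (B.exk (p l)).coeff j = 0) :
    ∃ γ : k, ∀ l, p l = algebraMap k Fk γ := by
  obtain ⟨m, hm⟩ := hp
  obtain ⟨hL, hglue⟩ := (hS.mem_iff _ (le_max_right m m₀) p).mp
    (B.secs_mono (le_max_left m m₀) hm)
  have hdeg := B.rrk.deg_eq_one B.infk
  have hconst : ∀ l, p l = algebraMap k Fk (BadFibre.placeVal B.infk (p l)) := fun l => by
    have hreg := B.mem_regFk_of_mem (hL l)
    have hmem : p l ∈ B.infk.toValuationSubring := by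
      rcases eq_or_ne (p l) 0 with h0 | h0
      · rw [h0]; exact zero_mem _
      refine (FLTA.Curves.mem_iff_ord_nonneg _ h0).mpr ?_
      rw [B.ord_infk _ h0]
      by_contra hlt
      exact (mt HahnSeries.coeff_order_eq_zero.mp ((map_ne_zero B.exk).mpr h0))
        (hpow l _ (not_le.mp hlt))
    set γ := BadFibre.placeVal B.infk (p l) with hγ
    have hmem' : p l + algebraMap k Fk (-γ) ∈ B.infk.toValuationSubring :=
      add_mem hmem (B.infk.algebraMap_mem' _)
    have h0 : BadFibre.placeVal B.infk (p l + algebraMap k Fk (-γ)) = 0 := by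
      rw [BadFibre.placeVal_add hdeg hmem (B.infk.algebraMap_mem' _),
        BadFibre.placeVal_algebraMap hdeg, ← hγ, add_neg_cancel]
    rcases (BadFibre.placeVal_eq_zero_iff hdeg hmem').mp h0 with h | h
    · rwa [map_neg, ← sub_eq_add_neg, sub_eq_zero] at h
    · exfalso
      have hne' : p l + algebraMap k Fk (-γ) ≠ 0 := fun he => by
        rw [he, Place.ord_zero] at h
        omega
      have := B.ord_infk_nonpos (B.regFk.add_mem hreg (B.regFk.algebraMap_mem _)) hne'
      omega
  obtain ⟨Q, hQ⟩ := hne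
  have h01 := hglue Q hQ
  rw [hconst 0, hconst 1, BadFibre.placeVal_algebraMap (B.rrk.deg_eq_one _),
    BadFibre.placeVal_algebraMap (B.rrk.deg_eq_one _)] at h01
  exact ⟨BadFibre.placeVal B.infk (p 0),
    Fin.forall_fin_two.mpr ⟨hconst 0, by rw [h01]; exact hconst 1⟩⟩

omit [IsAlgClosed K] [IsAlgClosed k] [CharP k q] in
/-- A section congruent to the inverse of a pair of power series modulo `ϖ ^ J` is congruent to a
constant, and the level `J` reductions differ by a pair of power series. -/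
theorem exists_cst_add {S : Finset (Place k Fk)} {m₀ : ℕ} (hS : B.IsGluing S m₀)
    (hne : S.Nonempty) {R : RatFrame B} {J : ℕ} (hJ : 1 ≤ J) {z w d : Ser A}
    (hz : z ∈ secS R) (hz1 : red2 π z = 1) (hw : w ∈ powS A)
    (h : z * w = 1 + pw R.toFrame ^ J * d) :
    ∃ c : A, π c = 1 ∧ (c : K) ∈ R.L ∧ ∃ z' ∈ secS R, z = cst c + pw R.toFrame ^ J * z' ∧
      ∀ l, ∀ i < (0 : ℤ), (red2 π d l).coeff i = (red2 π z' l).coeff i := by
  set P := pw R.toFrame with hP
  have hP0 : ∀ {n : ℕ}, 1 ≤ n → red2 π P ^ n = 0 := fun {n} hn => by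
    rw [hP, red2_pw, zero_pow (by omega)]
  have hw1 : red2 π w = 1 := by
    have h' := congrArg (red2 π) h
    rwa [map_mul, map_add, map_mul, map_pow, map_one, hP0 hJ, hz1, one_mul, zero_mul,
      add_zero] at h'
  have claim : ∀ j, 1 ≤ j → j ≤ J →
      ∃ c : A, (c : K) ∈ R.L ∧ ∃ z' ∈ secS R, z = cst c + P ^ j * z' := by
    intro j hj
    induction j, hj using Nat.le_induction with
    | base =>
      intro _
      obtain ⟨z', hz'⟩ := pw_dvd_of_red2 R.toFrame
        (secS_le_coefS R (sub_mem hz (one_mem _))) (by rw [map_sub, hz1, map_one, sub_self])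
      refine ⟨1, R.L.one_mem, z', secS_of_pw_mul (hz' ▸ sub_mem hz (one_mem _)), ?_⟩
      rw [map_one, hP, pow_one, ← hz']
      ring
    | succ j hj ih =>
      intro hjJ
      obtain ⟨c, hc, z', hz', hzc⟩ := ih (by omega)
      have hb : P ^ (J - j) * d - z' * w ∈ powS A := powS_of_pw_mul R.toFrame (n := j) (by
        have e : P ^ j * (P ^ (J - j) * d - z' * w) = cst c * w - 1 := by
          have e2 : P ^ j * P ^ (J - j) = P ^ J := by
            rw [← pow_add]
            congr 1
            omega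
          linear_combination d * e2 - h + w * hzc
        rw [e]
        exact sub_mem (mul_mem (cst_mem_powS c) hw) (one_mem _))
      obtain ⟨p, hp, hpr⟩ := exists_inBar hz'
      obtain ⟨γ, hγ⟩ := exists_const hS hne hp fun l i hi => by
        rw [hpr l, red2_coeff]
        have h1 : π (((P ^ (J - j) * d - z' * w : Ser A) l).coeff i) = 0 := by
          rw [hb l i hi, map_zero]
        rw [← red2_coeff, map_sub, map_mul, map_mul, map_pow, hP0 (by omega), zero_mul, hw1,
          mul_one, zero_sub, Pi.neg_apply, HahnSeries.coeff_neg, neg_eq_zero, red2_coeff] at h1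
        exact h1
      obtain ⟨c', hc'L, hc'⟩ := R.exists_lift γ
      have hmem : z' - cst c' ∈ secS R := sub_mem hz' (cst_mem_secS hc'L)
      obtain ⟨z'', hz''⟩ := pw_dvd_of_red2 R.toFrame (secS_le_coefS R hmem) (by
        rw [map_sub, red2_cst, hc', sub_eq_zero]
        funext l
        rw [← hpr l, hγ l, AlgHom.commutes, ModularCurve.algebraMap_laurentSeries_eq_single]
        rfl)
      refine ⟨c + ⟨R.ϖ, R.ϖ_mem_A⟩ ^ j * c', ?_, z'', secS_of_pw_mul (hz'' ▸ hmem), ?_⟩
      · push_cast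
        exact add_mem hc (mul_mem (pow_mem R.ϖ_mem j) hc'L)
      · rw [map_add, map_mul, map_pow, hzc, pow_succ]
        change cst c + P ^ j * z' = cst c + P ^ j * cst c' + P ^ j * P * z''
        linear_combination P ^ j * hz''
  obtain ⟨c, hc, z', hz', hzc⟩ := claim J hJ le_rfl
  have hb : d - z' * w ∈ powS A := powS_of_pw_mul R.toFrame (n := J) (by
    have e : P ^ J * (d - z' * w) = cst c * w - 1 := by linear_combination -h + w * hzc
    rw [e]
    exact sub_mem (mul_mem (cst_mem_powS c) hw) (one_mem _))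
  have hc1 : π c = 1 := by
    have h' := congrArg (red2 π) hzc
    rw [hz1, map_add, map_mul, map_pow, hP0 hJ, zero_mul, add_zero, red2_cst] at h'
    exact HahnSeries.C_injective ((congrFun h' 0).symm.trans (map_one HahnSeries.C).symm)
  refine ⟨c, hc1, hc, z', hz', hzc, fun l i hi => ?_⟩
  have h1 : π (((d - z' * w : Ser A) l).coeff i) = 0 := by rw [hb l i hi, map_zero]
  rwa [← red2_coeff, map_sub, map_mul, hw1, mul_one, Pi.sub_apply, HahnSeries.coeff_sub,
    sub_eq_zero] at h1

omit [IsAlgClosed K] [IsAlgClosed k] [CharP k q] in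
/-- **The key lemma.** -/
theorem isSplit_of_mul {S : Finset (Place k Fk)} {m₀ : ℕ} (hS : B.IsGluing S m₀)
    (hne : S.Nonempty) {R : RatFrame B} {J : ℕ} (hJ : 1 ≤ J) {z w d : Ser A}
    (hz : z ∈ secS R) (hz1 : red2 π z = 1) (hw : w ∈ powS A)
    (h : z * w = 1 + pw R.toFrame ^ J * d) : IsSplit B (red2 π d) := by
  obtain ⟨c, -, -, z', hz', -, hd⟩ := exists_cst_add hS hne hJ hz hz1 hw h
  obtain ⟨p, hp, hpr⟩ := exists_inBar hz'
  exact ⟨p, hp, fun l i hi => by rw [hpr l, hd l i hi]⟩

omit [IsAlgClosed K] [CharZero K] [IsAlgClosed k] [Fact q.Prime] [CharP k q] in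
/-- Rational lift of a split pair. -/
theorem exists_split_lift (R₀ : RatFrame B) {c : Fin 2 → LaurentSeries k} (hc : IsSplit B c) :
    ∃ s ∈ secS R₀, ∃ p ∈ powS A, p ∈ coefS R₀.L ∧ red2 π s + red2 π p = c := by
  obtain ⟨r, ⟨m, G, hG, hr⟩, hneg⟩ := hc
  have := B.rrF.finiteDimensional (B.cuspDiv m)
  obtain ⟨x, hxW, hxR, hxint, hxred⟩ :=
    R₀.exists_rat_lift _ (R₀.span_rat_cusp m) hG fun i => hr.1 i
  choose s hs using fun l => exists_coeffMap_eq (hxint l)
  have hsmem : (s : Ser A) ∈ secS R₀ :=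
    mem_secS.mpr ⟨x, ⟨R₀.BL_le hxR, m, hxW⟩, funext fun l => (hs l).symm⟩
  have hsr : ∀ l, red2 π s l = B.exk (r l) := fun l => by
    rw [hr.2 l, ← hxred l, ← hs l, redSeries_coeffMap]
    rfl
  obtain ⟨p, hpL, hpr, hp0⟩ := exists_liftSer R₀.toFrame (c - red2 π s)
  refine ⟨s, hsmem, p, fun l i hi => hp0 l i ?_, hpL, ?_⟩
  · rw [Pi.sub_apply, HahnSeries.coeff_sub, hneg l i hi, hsr, sub_self]
  · rw [hpr]
    abel

end FLTA.LevelLowering.Removal

end
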