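import Fermat.Agent.LevelLowering.Frame
import Mathlib.Algebra.CharP.Lemmas
import Mathlib.Algebra.Ring.GeomSum

/-!
# Pairs of integral series modulo powers of the uniformizer

Pairs of Laurent series over `A`, the subrings cut out by the coefficients, and the subgroup of
series which are sums of levels divisible by `q` with coefficients in a subfield with uniformizer
`q`.
-/

set_option autoImplicit false

noncomputable section

open FLTA.BadRed

namespace FLTA.LevelLowering.Removal

section Ring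

variable {R : Type*} [CommRing R] {q : ℕ}

theorem dvd_sum_pow_sub (hq : q.Prime) {ι : Type*} (s : Finset ι) (x : ι → R) :
    (q : R) ∣ (∑ t ∈ s, x t) ^ q - ∑ t ∈ s, x t ^ q := by
  classical
  induction s using Finset.induction_on with
  | empty => simp [zero_pow hq.ne_zero]
  | insert a s ha ih =>
    obtain ⟨c, hc⟩ := ih
    obtain ⟨r, hr⟩ := exists_add_pow_prime_eq hq (x a) (∑ t ∈ s, x t)
    refine ⟨c + x a * (∑ t ∈ s, x t) * r, ?_⟩
    rw [Finset.sum_insert ha, Finset.sum_insert ha, hr]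
    linear_combination hc

theorem dvd_one_add_pow_sub (hq : q.Prime) (a : R) :
    (q : R) * a ^ 2 ∣ (1 + a) ^ q - (1 + a ^ q + (q : R) * a) := by
  classical
  have h1 : 1 ∈ Finset.Ioo 0 q := Finset.mem_Ioo.mpr ⟨one_pos, hq.one_lt⟩
  rw [add_comm (1 : R) a, add_pow_prime_eq hq, ← Finset.add_sum_erase _ _ h1, Nat.sub_self,
    pow_zero, Nat.choose_one_right, Nat.div_self hq.pos, Nat.cast_one]
  simp only [one_pow, mul_one]
  have h2 : a ∣ ∑ k ∈ (Finset.Ioo 0 q).erase 1, a ^ (k - 1) * ((q.choose k / q : ℕ) : R) :=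
    Finset.dvd_sum fun k hk => Dvd.dvd.mul_right (dvd_pow_self a (by
      obtain ⟨hk1, hk2⟩ := Finset.mem_erase.mp hk
      have := (Finset.mem_Ioo.mp hk2).1
      omega)) _
  obtain ⟨c, hc⟩ := h2
  refine ⟨c, ?_⟩
  rw [hc]
  ring

/-- Series with coefficients in a subring. -/
def coeffRing (T : Subring R) : Subring (LaurentSeries R) where
  carrier := {y | ∀ i, y.coeff i ∈ T}
  mul_mem' := fun hx hy i => by
    rw [HahnSeries.coeff_mul]
    exact sum_mem fun p _ => mul_mem (hx p.1) (hy p.2)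
  one_mem' i := by
    rw [HahnSeries.coeff_one]
    split_ifs
    exacts [one_mem T, zero_mem T]
  add_mem' := fun {x y} hx hy i => by
    rw [HahnSeries.coeff_add]
    exact add_mem (hx i) (hy i)
  zero_mem' i := by simp
  neg_mem' := fun {x} hx i => by
    rw [HahnSeries.coeff_neg]
    exact neg_mem (hx i)

/-- Series without negative coefficients. -/
def powRing (R : Type*) [CommRing R] : Subring (LaurentSeries R) where
  carrier := {y | ∀ i < (0 : ℤ), y.coeff i = 0}
  mul_mem' := fun {x y} hx hy i hi => by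
    rw [HahnSeries.coeff_mul]
    refine Finset.sum_eq_zero fun p hp => ?_
    have h := (Finset.mem_antidiagonal.mp hp).2.2
    rcases lt_or_ge p.1 0 with h1 | h1
    · rw [hx p.1 h1, zero_mul]
    · rw [hy p.2 (by omega), mul_zero]
  one_mem' i hi := by
    rw [HahnSeries.coeff_one, if_neg hi.ne]
  add_mem' := fun {x y} hx hy i hi => by
    rw [HahnSeries.coeff_add, hx i hi, hy i hi, add_zero]
  zero_mem' i _ := by simp
  neg_mem' := fun {x} hx i hi => by
    rw [HahnSeries.coeff_neg, hx i hi, neg_zero]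

end Ring

variable {K : Type*} [Field K] {A : ValuationSubring K} {k : Type*} [Field k] {π : A →+* k}

variable (A) in
/-- Pairs of integral series. -/
abbrev Ser : Type _ := Fin 2 → LaurentSeries A

variable (A) in
/-- A pair of integral series as a pair of series over the field. -/
def emb : Ser A →+* (Fin 2 → LaurentSeries K) :=
  RingHom.pi fun l => (ModularCurve.coeffMap A.subtype).comp (Pi.evalRingHom _ l)

theorem emb_coeff (y : Ser A) (l : Fin 2) (i : ℤ) : (emb A y l).coeff i = (y l).coeff i := rfl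

variable (π) in
/-- Reduction of pairs. -/
def red2 : Ser A →+* (Fin 2 → LaurentSeries k) :=
  RingHom.pi fun l => (ModularCurve.coeffMap π).comp (Pi.evalRingHom _ l)

theorem red2_coeff (y : Ser A) (l : Fin 2) (i : ℤ) :
    (red2 π y l).coeff i = π ((y l).coeff i) := rfl

theorem redSeries_emb (y : Ser A) (l : Fin 2) : redSeries A π (emb A y l) = red2 π y l :=
  redSeries_coeffMap (y l)

theorem emb_injective : Function.Injective (emb A) := fun _ _ h => funext fun l =>
  HahnSeries.ext (funext fun i => Subtype.ext (congrArg (fun z => (z l).coeff i) h))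

/-- Constant pairs. -/
def cst : A →+* Ser A := RingHom.pi fun _ => HahnSeries.C

theorem coeff_cst_mul (c : A) (y : Ser A) (l : Fin 2) (i : ℤ) :
    ((cst c * y) l).coeff i = c * (y l).coeff i := by
  show ((HahnSeries.C c : LaurentSeries A) * y l).coeff i = _
  rw [HahnSeries.C_mul_eq_smul, HahnSeries.coeff_smul, smul_eq_mul]

theorem red2_cst (c : A) : red2 π (cst c) = fun _ => HahnSeries.C (π c) := funext fun _ => by
  show ModularCurve.coeffMap π (HahnSeries.single 0 c) = _
  rw [ModularCurve.coeffMap_single]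
  rfl

/-- Pairs with coefficients in a subfield. -/
def coefS (L : Subfield K) : Subring (Ser A) where
  carrier := {y | ∀ l, y l ∈ coeffRing (L.toSubring.comap A.subtype)}
  mul_mem' := fun hx hy l => mul_mem (hx l) (hy l)
  one_mem' _ := one_mem _
  add_mem' := fun hx hy l => add_mem (hx l) (hy l)
  zero_mem' _ := zero_mem _
  neg_mem' := fun hx l => neg_mem (hx l)

theorem mem_coefS {L : Subfield K} {y : Ser A} :
    y ∈ coefS L ↔ ∀ l i, ((y l).coeff i : K) ∈ L := Iff.rfl

theorem coefS_mono {L L' : Subfield K} (h : L ≤ L') : coefS (A := A) L ≤ coefS L' :=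
  fun _ hy l i => h (hy l i)

theorem cst_mem_coefS {L : Subfield K} {c : A} (hc : (c : K) ∈ L) : cst c ∈ coefS L := by
  intro l i
  show (((HahnSeries.single 0 c : LaurentSeries A)).coeff i : K) ∈ L
  rw [HahnSeries.coeff_single]
  split_ifs
  exacts [hc, L.zero_mem]

variable (A) in
/-- Pairs without negative coefficients. -/
def powS : Subring (Ser A) where
  carrier := {y | ∀ l, y l ∈ powRing A}
  mul_mem' := fun hx hy l => mul_mem (hx l) (hy l)
  one_mem' _ := one_mem _
  add_mem' := fun hx hy l => add_mem (hx l) (hy l)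
  zero_mem' _ := zero_mem _
  neg_mem' := fun hx l => neg_mem (hx l)

theorem mem_powS {y : Ser A} : y ∈ powS A ↔ ∀ l, ∀ i < (0 : ℤ), (y l).coeff i = 0 := Iff.rfl

theorem cst_mem_powS (c : A) : cst c ∈ powS A := by
  intro l i hi
  show ((HahnSeries.single 0 c : LaurentSeries A)).coeff i = 0
  rw [HahnSeries.coeff_single_of_ne hi.ne]

variable (fr : Frame A π)

/-- The uniformizer as a constant pair. -/
def pw : Ser A := cst ⟨fr.ϖ, fr.ϖ_mem_A⟩

theorem red2_pw : red2 π (pw fr) = 0 := by
  rw [pw, red2_cst, fr.π_ϖ]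
  exact funext fun _ => map_zero _

theorem coeff_pw_pow_mul (n : ℕ) (y : Ser A) (l : Fin 2) (i : ℤ) :
    (((pw fr ^ n * y) l).coeff i : K) = fr.ϖ ^ n * (y l).coeff i := by
  rw [pw, ← map_pow, coeff_cst_mul]
  push_cast
  rfl

theorem pw_pow_cancel {n : ℕ} {x y : Ser A} (h : pw fr ^ n * x = pw fr ^ n * y) : x = y :=
  funext fun l => HahnSeries.ext (funext fun i => Subtype.ext
    (mul_left_cancel₀ (pow_ne_zero n fr.ϖ_ne_zero) (by
      rw [← coeff_pw_pow_mul, h, coeff_pw_pow_mul])))

theorem pw_mem_coefS : pw fr ∈ coefS fr.L := cst_mem_coefS fr.ϖ_mem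

theorem coefS_of_pw_mul {n : ℕ} {y : Ser A} (h : pw fr ^ n * y ∈ coefS fr.L) : y ∈ coefS fr.L :=
  fun l i => by
    have h' : fr.ϖ ^ n * ((y l).coeff i : K) ∈ fr.L := by
      rw [← coeff_pw_pow_mul]
      exact h l i
    have h2 := mul_mem (inv_mem (pow_mem fr.ϖ_mem n)) h'
    rwa [← mul_assoc, inv_mul_cancel₀ (pow_ne_zero n fr.ϖ_ne_zero), one_mul] at h2

theorem powS_of_pw_mul {n : ℕ} {y : Ser A} (h : pw fr ^ n * y ∈ powS A) : y ∈ powS A :=
  fun l i hi => Subtype.ext (by
    have h' : fr.ϖ ^ n * ((y l).coeff i : K) = 0 := by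
      rw [← coeff_pw_pow_mul, h l i hi]
      rfl
    exact (mul_eq_zero_iff_left (pow_ne_zero n fr.ϖ_ne_zero)).mp h')

theorem red2_of_pw_dvd {y : Ser A} (h : pw fr ∣ y) : red2 π y = 0 := by
  obtain ⟨z, rfl⟩ := h
  rw [map_mul, red2_pw, zero_mul]

/-- A coefficient with residue zero is divisible by the uniformizer. -/
theorem div_mem_of_residue {c : A} (hc : (c : K) ∈ fr.L) (h : π c = 0) :
    (c : K) / fr.ϖ ∈ A := by
  rcases eq_or_ne (c : K) 0 with h0 | h0
  · rw [h0, zero_div]
    exact A.zero_mem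
  obtain ⟨n, u, -, hu, hcu⟩ := fr.exists_unit _ hc h0
  rcases le_or_gt n 0 with hn | hn
  · exfalso
    rcases hn.eq_or_lt with rfl | hn
    · rw [zpow_zero, one_mul] at hcu
      exact hu (by rw [← h, show u = c from Subtype.ext hcu.symm])
    · have e : u = ⟨fr.ϖ ^ (-n), fr.zpow_mem (by omega)⟩ * c := Subtype.ext (by
        show (u : K) = fr.ϖ ^ (-n) * (c : K)
        rw [hcu, ← mul_assoc, ← zpow_add₀ fr.ϖ_ne_zero, neg_add_cancel, zpow_zero, one_mul])
      exact hu (by rw [e, map_mul, fr.π_zpow (by omega), zero_mul])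
  · rw [hcu, mul_div_right_comm, div_eq_mul_inv, ← zpow_sub_one₀ fr.ϖ_ne_zero]
    exact mul_mem (fr.zpow_mem (by omega)) u.2

theorem pw_dvd_of_red2 {y : Ser A} (hy : y ∈ coefS fr.L) (h : red2 π y = 0) : pw fr ∣ y := by
  have hd : ∀ l i, ((y l).coeff i : K) / fr.ϖ ∈ A := fun l i =>
    div_mem_of_residue fr (hy l i) (by rw [← red2_coeff, h]; rfl)
  refine ⟨fun l =>
    { coeff := fun i => ⟨_, hd l i⟩
      isPWO_support' := (y l).isPWO_support'.mono fun i hi h0 => hi (Subtype.ext (by
        show ((y l).coeff i : K) / fr.ϖ = 0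
        rw [h0, ZeroMemClass.coe_zero, zero_div])) },
    funext fun l => HahnSeries.ext (funext fun i => Subtype.ext ?_)⟩
  rw [← pow_one (pw fr), coeff_pw_pow_mul, pow_one]
  exact (mul_div_cancel₀ _ fr.ϖ_ne_zero).symm

/-- A lift of a reduced pair with coefficients in `fr.L`, keeping the vanishing coefficients. -/
theorem exists_liftSer (c : Fin 2 → LaurentSeries k) :
    ∃ w ∈ coefS fr.L, red2 π w = c ∧ ∀ l i, (c l).coeff i = 0 → (w l).coeff i = 0 := by
  classical
  choose d hdL hd using fr.exists_lift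
  refine ⟨fun l =>
    { coeff := fun i => if (c l).coeff i = 0 then 0 else d ((c l).coeff i)
      isPWO_support' := (c l).isPWO_support'.mono fun i hi h0 => hi (if_pos h0) },
    fun l i => ?_, funext fun l => HahnSeries.ext (funext fun i => ?_),
    fun l i h => if_pos h⟩
  · show (((if (c l).coeff i = 0 then (0 : A) else d ((c l).coeff i) : A)) : K) ∈ fr.L
    split_ifs
    exacts [fr.L.zero_mem, hdL _]
  · show π (if (c l).coeff i = 0 then (0 : A) else d ((c l).coeff i)) = _
    split_ifs with h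
    · rw [map_zero, h]
    · exact hd _

section Digits

variable {fr} (fr₀ : Frame A π) (hL : fr₀.L ≤ fr.L)

include hL in
theorem exists_digits {y : Ser A} (hy : y ∈ coefS fr.L) (T : ℕ) :
    ∃ w : ℕ → Ser A, (∀ t, w t ∈ coefS fr₀.L) ∧
      pw fr ^ T ∣ y - ∑ t ∈ Finset.range T, pw fr ^ t * w t := by
  induction T with
  | zero => exact ⟨0, fun _ => zero_mem _, by simp⟩
  | succ T ih =>
    obtain ⟨w, hw, z, hz⟩ := ih
    have hzL : z ∈ coefS fr.L := coefS_of_pw_mul fr (n := T) (by
      rw [← hz]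
      exact sub_mem hy (sum_mem fun t _ =>
        mul_mem (pow_mem (pw_mem_coefS fr) t) (coefS_mono hL (hw t))))
    obtain ⟨x, hxL, hxr, -⟩ := exists_liftSer fr₀ (red2 π z)
    obtain ⟨z', hz'⟩ := pw_dvd_of_red2 fr (sub_mem hzL (coefS_mono hL hxL))
      (by rw [map_sub, hxr, sub_self])
    refine ⟨Function.update w T x, fun t => ?_, z', ?_⟩
    · rcases eq_or_ne t T with rfl | ht
      · rwa [Function.update_self]
      · rw [Function.update_of_ne ht]
        exact hw t
    · rw [Finset.sum_range_succ, Function.update_self, Finset.sum_congr rfl fun t ht => by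
        rw [Function.update_of_ne (Finset.mem_range.mp ht).ne]]
      rw [pow_succ]
      linear_combination hz + pw fr ^ T * hz'

variable (fr) (q M : ℕ)

/-- Generators of the levels divisible by `q`. -/
def digGen : Set (Ser A) :=
  {y | ∃ n : ℕ, 1 ≤ n ∧ ∃ w ∈ coefS fr₀.L, y = pw fr ^ (q * n) * w} ∪ {y | pw fr ^ M ∣ y}

/-- Sums of levels divisible by `q`, modulo `ϖ ^ M`. -/
def dig : AddSubgroup (Ser A) := AddSubgroup.closure (digGen fr fr₀ q M)

theorem gen_mem_dig {n : ℕ} (hn : 1 ≤ n) {w : Ser A} (hw : w ∈ coefS fr₀.L) :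
    pw fr ^ (q * n) * w ∈ dig fr fr₀ q M :=
  AddSubgroup.subset_closure (Or.inl ⟨n, hn, w, hw, rfl⟩)

theorem small_mem_dig {y : Ser A} (hy : pw fr ^ M ∣ y) : y ∈ dig fr fr₀ q M :=
  AddSubgroup.subset_closure (Or.inr hy)

theorem mul_mem_dig {x y : Ser A} (hx : x ∈ dig fr fr₀ q M) (hy : y ∈ dig fr fr₀ q M) :
    x * y ∈ dig fr fr₀ q M := by
  induction hx using AddSubgroup.closure_induction with
  | mem x hx =>
    induction hy using AddSubgroup.closure_induction with
    | mem y hy =>
      rcases hx with ⟨n, hn, w, hw, rfl⟩ | hx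
      · rcases hy with ⟨n', -, w', hw', rfl⟩ | hy
        · rw [mul_mul_mul_comm, ← pow_add, ← mul_add]
          exact gen_mem_dig fr fr₀ q M (by omega) (mul_mem hw hw')
        · exact small_mem_dig fr fr₀ q M (hy.mul_left _)
      · exact small_mem_dig fr fr₀ q M (hx.mul_right _)
    | zero => simp
    | add a b _ _ ha hb => rw [mul_add]; exact add_mem ha hb
    | neg a _ ha => exact (show x * -a = -(x * a) by ring) ▸ neg_mem ha
  | zero => simp
  | add a b _ _ ha hb => rw [add_mul]; exact add_mem ha hb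
  | neg a _ ha => exact (show -a * y = -(a * y) by ring) ▸ neg_mem ha

theorem dig_normal {y : Ser A} (hy : y ∈ dig fr fr₀ q M) (hq : 1 ≤ q) :
    ∃ w : ℕ → Ser A, (∀ n, w n ∈ coefS fr₀.L) ∧
      pw fr ^ M ∣ y - ∑ n ∈ Finset.range M, pw fr ^ (q * (n + 1)) * w n := by
  classical
  induction hy using AddSubgroup.closure_induction with
  | mem y hy =>
    rcases hy with ⟨n, hn, w, hw, rfl⟩ | hy
    · rcases le_or_gt n M with hnM | hnM
      · obtain ⟨j, rfl⟩ : ∃ j, n = j + 1 := ⟨n - 1, by omega⟩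
        refine ⟨fun t => if t = j then w else 0, fun t => ?_, ?_⟩
        · show (if t = j then w else 0) ∈ _
          split_ifs
          exacts [hw, zero_mem _]
        · simp only [mul_ite, mul_zero]
          rw [Finset.sum_ite_eq' (Finset.range M), if_pos (Finset.mem_range.mpr (by omega)),
            sub_self]
          exact dvd_zero _
      · refine ⟨0, fun _ => zero_mem _, ?_⟩
        simp only [Pi.zero_apply, mul_zero, Finset.sum_const_zero, sub_zero]
        exact Dvd.dvd.mul_right (pow_dvd_pow _ (by nlinarith)) _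
    · exact ⟨0, fun _ => zero_mem _, by simpa using hy⟩
  | zero => exact ⟨0, fun _ => zero_mem _, by simp⟩
  | add a b _ _ ha hb =>
    obtain ⟨v, hv, hav⟩ := ha
    obtain ⟨w, hw, hbw⟩ := hb
    refine ⟨v + w, fun n => add_mem (hv n) (hw n), ?_⟩
    rw [show (∑ n ∈ Finset.range M, pw fr ^ (q * (n + 1)) * (v + w) n) =
        (∑ n ∈ Finset.range M, pw fr ^ (q * (n + 1)) * v n) +
          ∑ n ∈ Finset.range M, pw fr ^ (q * (n + 1)) * w n by
      rw [← Finset.sum_add_distrib]
      exact Finset.sum_congr rfl fun n _ => mul_add _ _ _,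
      show ∀ c d : Ser A, a + b - (c + d) = (a - c) + (b - d) from fun c d => by ring]
    exact dvd_add hav hbw
  | neg a _ ha =>
    obtain ⟨v, hv, hav⟩ := ha
    refine ⟨-v, fun n => neg_mem (hv n), ?_⟩
    rw [show (∑ n ∈ Finset.range M, pw fr ^ (q * (n + 1)) * (-v) n) =
        -∑ n ∈ Finset.range M, pw fr ^ (q * (n + 1)) * v n by
      rw [← Finset.sum_neg_distrib]
      refine Finset.sum_congr rfl fun n _ => ?_
      rw [Pi.neg_apply]
      ring,
      show ∀ c : Ser A, -a - -c = (a - c) * -1 from fun c => by ring]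
    exact hav.mul_right _

variable {e : ℕ} {u : A} (hqe : (q : Ser A) = pw fr ^ e * cst u)
  (hpw₀ : pw fr₀ = (q : Ser A))

include hqe in
theorem pw_pow_dvd_q : pw fr ^ e ∣ (q : Ser A) := ⟨cst u, hqe⟩

include hqe hpw₀ in
/-- The first level of an element of `dig` is divisible by `q`. -/
theorem dig_key (hq : 1 ≤ q) (hM : M ≤ q + e) {y : Ser A} (hy : y ∈ dig fr fr₀ q M) {J : ℕ}
    (hJ : pw fr ^ J ∣ y) (hJM : J < M) (hqJ : ¬ q ∣ J) : pw fr ^ (J + 1) ∣ y := by
  classical
  obtain ⟨w, hw, hyw⟩ := dig_normal fr fr₀ q M hy hq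
  have claim : ∀ n, n < M → q * (n + 1) < J → pw fr ^ M ∣ pw fr ^ (q * (n + 1)) * w n := by
    intro n
    induction n using Nat.strong_induction_on with
    | _ n ih =>
      intro hn hnJ
      set N := q * (n + 1) with hN
      have hS : pw fr ^ (N + 1) ∣ ∑ t ∈ Finset.range M, pw fr ^ (q * (t + 1)) * w t := by
        have h1 : pw fr ^ (N + 1) ∣ y := (pow_dvd_pow _ (by omega)).trans hJ
        have h2 : pw fr ^ (N + 1) ∣ y - _ := (pow_dvd_pow _ (by omega)).trans hyw
        simpa using dvd_sub h1 h2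
      rw [← Finset.add_sum_erase _ _ (Finset.mem_range.mpr hn)] at hS
      have hrest : pw fr ^ (N + 1) ∣
          ∑ t ∈ (Finset.range M).erase n, pw fr ^ (q * (t + 1)) * w t := by
        refine Finset.dvd_sum fun t ht => ?_
        obtain ⟨htn, htM⟩ := Finset.mem_erase.mp ht
        rcases Nat.lt_or_ge t n with h | h
        · exact (pow_dvd_pow _ (by omega)).trans
            (ih t h (Finset.mem_range.mp htM) (lt_of_le_of_lt (by
              rw [hN]; exact Nat.mul_le_mul_left q (by omega)) hnJ))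
        · have hlt : N + 1 ≤ q * (t + 1) := by
            rw [hN]
            exact Nat.succ_le_of_lt (Nat.mul_lt_mul_of_pos_left (by omega) hq)
          exact Dvd.dvd.mul_right (pow_dvd_pow _ hlt) _
      obtain ⟨z, hz⟩ := (dvd_add_left hrest).mp hS
      have hwn : w n = pw fr * z := pw_pow_cancel fr (n := N) (by rw [hz, pow_succ]; ring)
      obtain ⟨z₀, hz₀⟩ := pw_dvd_of_red2 fr₀ (hw n) (red2_of_pw_dvd fr ⟨z, hwn⟩)
      rw [hz₀, hpw₀, hqe]
      refine ⟨pw fr ^ (N + e - M) * (cst u * z₀), ?_⟩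
      rw [← mul_assoc (pw fr ^ M), ← pow_add,
        show M + (N + e - M) = N + e by
          have : q ≤ N := by rw [hN]; exact Nat.le_mul_of_pos_right q (by omega)
          omega, pow_add]
      ring
  have hsum : pw fr ^ (J + 1) ∣ ∑ t ∈ Finset.range M, pw fr ^ (q * (t + 1)) * w t := by
    refine Finset.dvd_sum fun t ht => ?_
    rcases Nat.lt_or_ge (q * (t + 1)) J with h | h
    · exact (pow_dvd_pow _ (by omega)).trans (claim t (Finset.mem_range.mp ht) h)
    · have hne : q * (t + 1) ≠ J := fun he => hqJ ⟨t + 1, he.symm⟩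
      exact Dvd.dvd.mul_right (pow_dvd_pow _ (by omega)) _
  have h2 : pw fr ^ (J + 1) ∣ y - _ := (pow_dvd_pow _ (by omega)).trans hyw
  simpa using dvd_add h2 hsum

include hqe hL in
/-- The `q`-th power of a series of positive level lies in `dig`. -/
theorem pow_mem_dig (hq : q.Prime) {i₀ : ℕ} (hi : 1 ≤ i₀) (hM : M ≤ e + 2 * i₀) {ε : Ser A}
    (hε : ε ∈ coefS fr.L) : (pw fr ^ i₀ * ε) ^ q ∈ dig fr fr₀ q M := by
  obtain ⟨w, hw, hεw⟩ := exists_digits fr₀ hL hε M
  set a := ∑ t ∈ Finset.range M, pw fr ^ t * w t with ha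
  have hsplit : (pw fr ^ i₀ * ε) ^ q =
      ∑ t ∈ Finset.range M, pw fr ^ (q * (i₀ + t)) * w t ^ q +
      (pw fr ^ (q * i₀) * (a ^ q - ∑ t ∈ Finset.range M, (pw fr ^ t * w t) ^ q) +
        pw fr ^ (q * i₀) * (ε ^ q - a ^ q)) := by
    have h : ∀ t, pw fr ^ (q * (i₀ + t)) * w t ^ q =
        pw fr ^ (q * i₀) * (pw fr ^ t * w t) ^ q := fun t => by
      rw [mul_pow, ← mul_assoc, ← pow_mul, ← pow_add, mul_add, mul_comm t q]
    simp only [h, ← Finset.mul_sum]
    rw [mul_pow, ← pow_mul, mul_comm i₀ q]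
    ring
  rw [hsplit]
  refine add_mem (sum_mem fun t _ => gen_mem_dig fr fr₀ q M (by omega) (pow_mem (hw t) q))
    (small_mem_dig fr fr₀ q M (dvd_add ?_ ?_))
  · refine (pow_dvd_pow (pw fr) (show M ≤ q * i₀ + e from ?_)).trans ?_
    · have := Nat.mul_le_mul_right i₀ hq.two_le
      omega
    · rw [pow_add]
      exact mul_dvd_mul_left _ ((pw_pow_dvd_q fr q hqe).trans (dvd_sum_pow_sub hq _ _))
  · exact (hεw.trans (sub_dvd_pow_sub_pow ε a q)).mul_left _

end Digits

end FLTA.LevelLowering.Removal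

end
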