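import Fermat.Agent.LevelLowering.RatBasis
import Fermat.Agent.LevelLowering.Sections
import Fermat.Agent.BadRed.Residue
import Fermat.Agent.Curves.RRMult

/-!
# Rational lifts of reduced sections, and regularity of leading parts away from the glued points
-/

set_option autoImplicit false

noncomputable section

open AlgebraicCurve FLTA.BadRed

namespace FLTA.LevelLowering

variable {K : Type*} [Field K] {A : ValuationSubring K}
  {k : Type*} [Field k] {π : A →+* k} {q : ℕ} [NeZero q]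
  {F : Type*} [Field F] [Algebra K F] {F' : Type*} [Field F'] [Algebra K F']
  {Fk : Type*} [Field Fk] [Algebra k Fk] {g gF : ℕ} {B : BadFibre A π q F F' Fk g gF}

namespace RatFrame

variable (R : RatFrame B)

theorem vs_add_of_lt (i : Fin 2) {x y : F} (hx : x ∈ R.BL) (hx0 : x ≠ 0) (hy : y ∈ R.BL)
    (hy0 : y ≠ 0) (h : R.vs i x < R.vs i y) :
    x + y ≠ 0 ∧ R.vs i (x + y) = R.vs i x := by
  have hx' := R.isVal_vs i hx hx0
  have hy' := R.isVal_vs i hy hy0
  have hge : R.toFrame.Ge (B.e i (x + y)) (R.vs i x) := by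
    rw [map_add]
    exact hx'.1.add R.toFrame (hy'.1.mono R.toFrame h.le)
  have hred : redSeries A π (R.ϖ ^ (-R.vs i x) • B.e i (x + y)) ≠ 0 := by
    rw [map_add, smul_add, redSeries_add hx'.1 (hy'.1.mono R.toFrame h.le),
      R.toFrame.red_eq_zero_of_ge hy'.1 h, add_zero]
    exact hx'.2
  have hv : R.toFrame.IsVal (B.e i (x + y)) (R.vs i x) := ⟨hge, hred⟩
  exact ⟨fun h0 => hv.ne_zero R.toFrame (by rw [h0, map_zero]), hv.val_eq R.toFrame⟩

end RatFrame

variable [IsAlgClosed K] [CharZero K] [IsAlgClosed k] [Fact q.Prime] [CharP k q]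

/-- The degree of a divisor is the sum of its coefficients. -/
theorem degree_eq_finsuppSum {L E : Type*} [Field L] [Field E] [Algebra L E] {γ : ℕ}
    (rr : FLTA.PlaceRed.RRCurve L E γ) (D : Divisor L E) :
    Divisor.degree D = D.sum fun _ n => n := by
  rw [Divisor.degree, Finsupp.liftAddHom_apply]
  exact Finsupp.sum_congr fun v _ => by simp [rr.deg_eq_one v]

namespace RatFrame

variable (R : RatFrame B)

theorem of_isRed {G : F} (hG : G ∈ R.BL) (hG0 : G ≠ 0) {p : Fin 2 → Fk} (hp : B.IsRed G p)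
    (i : Fin 2) :
    (p i ≠ 0 → R.vs i G = 0 ∧ R.ld i G = p i) ∧ (p i = 0 → 0 < R.vs i G) := by
  have hv := R.isVal_vs i hG hG0
  have hge : 0 ≤ R.vs i G :=
    (R.ge_iff_le_vs i hG hG0).mp ((R.toFrame.ge_zero_iff _).mpr (hp.1 i))
  have e : R.ϖ ^ (-(0 : ℤ)) • B.e i G = B.e i G := by rw [neg_zero, zpow_zero, one_smul]
  refine ⟨fun hne => ?_, fun h0 => ?_⟩
  · have h : R.vs i G = 0 := by
      by_contra hvn
      have hpos : (0 : ℤ) < R.vs i G := lt_of_le_of_ne hge (Ne.symm hvn)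
      apply hne
      apply B.exk.toRingHom.injective
      show B.exk _ = B.exk _
      rw [map_zero, hp.2 i, ← e]
      exact R.toFrame.red_eq_zero_of_ge hv.1 hpos
    refine ⟨h, B.exk.toRingHom.injective ?_⟩
    show B.exk _ = B.exk _
    rw [R.exk_ld i hG hG0, hv.lead_eq R.toFrame, h, e, hp.2 i]
  · refine lt_of_le_of_ne hge fun h => hv.2 ?_
    rw [← h, e, ← hp.2 i, h0, map_zero]

/-- Reduced sections are reductions of rational sections. -/
theorem exists_rat_section {m : ℕ} {p : Fin 2 → Fk} (hp : p ∈ B.fibreSections m) :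
    ∃ G ∈ riemannRochSpace (B.cuspDiv m), G ∈ R.BL ∧ B.IsRed G p := by
  obtain ⟨G, hG, hred⟩ := hp
  have := B.rrF.finiteDimensional (B.cuspDiv m)
  obtain ⟨G', hG', hrat, hint, heq⟩ := R.exists_rat_lift _ (R.span_rat_cusp m) hG hred.1
  exact ⟨G', hG', hrat, hint, fun i => (hred.2 i).trans (heq i).symm⟩

/-- A leading part of a section is regular away from the glued points and the cusp. -/
theorem ord_nonneg_off {S : Finset (Place k Fk)} {m₀ : ℕ} (hS : B.IsGluing S m₀) {z : F}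
    (hz : z ∈ R.BL) (hz0 : z ≠ 0) (hsec : z ∈ secRing B) (i : Fin 2) {Q : Place k Fk}
    (hQ : Q ≠ B.infk) (hoff : ∀ Q' ∈ S, pt B Q' i ≠ Q) : 0 ≤ Q.ord (R.ld i z) := by
  classical
  have hne : ∀ Q' ∈ S, ∀ l, pt B Q' l ≠ B.infk := fun Q' hQ' l => by
    fin_cases l
    · exact fun h => hS.infk_notMem (h ▸ hQ')
    · exact hS.smul_ne Q' hQ'
  set T := S.image fun Q' => pt B Q' i with hT
  set m := max m₀ (2 * g + T.card) with hm
  set Db : Divisor k Fk := Finsupp.single B.infk (m : ℤ) - ∑ P ∈ T, Finsupp.single P 1 with hDb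
  have hDbdeg : Divisor.degree Db = m - T.card := by
    simp [hDb, map_sum, B.rrk.deg_eq_one]
  obtain ⟨b, hb, hb0, hbQ⟩ := FLTA.Curves.rrMult_exists_exact (g : ℤ) B.rrk.finiteDimensional
    B.rrk.finrank_eq B.rrk.deg_eq_one (D := Db) (by rw [hDbdeg]; omega) Q
  have hTsum : ∀ v, (∑ P ∈ T, Finsupp.single P (1 : ℤ)) v = if v ∈ T then 1 else 0 := fun v => by
    rw [Finsupp.finsetSum_apply, Finset.sum_congr rfl fun P _ => Finsupp.single_apply,
      Finset.sum_ite_eq']
  have hbm : b ∈ riemannRochSpace (Finsupp.single B.infk (m : ℤ)) := by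
    refine FLTA.Curves.riemannRochSpace_mono (Finsupp.le_def.mpr fun v => ?_) hb
    rw [hDb, Finsupp.sub_apply, hTsum]
    split_ifs <;> omega
  have hbQ0 : Q.ord b = 0 := by
    rw [hbQ, hDb, Finsupp.sub_apply, hTsum, Finsupp.single_eq_of_ne hQ, if_neg]
    · simp
    · simp only [hT, Finset.mem_image, not_exists, not_and]
      exact hoff
  have hbT : ∀ Q' ∈ S, BadFibre.placeVal (pt B Q' i) b = 0 := fun Q' hQ' => by
    rw [BadFibre.placeVal_eq_zero_iff (B.rrk.deg_eq_one _)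
      (BadFibre.mem_of_mem_single hbm (hne Q' hQ' i))]
    refine Or.inr ?_
    have h := (mem_riemannRochSpace_iff.mp hb (pt B Q' i)).resolve_left hb0
    rw [hDb, Finsupp.sub_apply, hTsum, Finsupp.single_eq_of_ne (hne Q' hQ' i),
      if_pos (Finset.mem_image_of_mem _ hQ')] at h
    omega
  set p : Fin 2 → Fk := fun l => if l = i then b else 0 with hp
  have hpmem : p ∈ B.fibreSections m := by
    rw [hS.mem_iff m (le_max_left _ _)]
    refine ⟨fun l => ?_, fun Q' hQ' => ?_⟩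
    · simp only [hp]
      split_ifs
      · exact hbm
      · exact zero_mem _
    · have h := hbT Q' hQ'
      fin_cases i <;>
        simp_all [BadFibre.placeVal_zero (B.rrk.deg_eq_one _)]
  obtain ⟨G, hGm, hGBL, hGred⟩ := R.exists_rat_section hpmem
  have hpi : p i = b := by simp [hp]
  have hG0 : G ≠ 0 := by
    rintro rfl
    apply hb0
    apply B.exk.toRingHom.injective
    show B.exk _ = B.exk _
    rw [← hpi, hGred.2 i, map_zero, map_zero, redSeries_zero]
  obtain ⟨hGi, hGld⟩ := (R.of_isRed hGBL hG0 hGred i).1 (hpi ▸ hb0)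
  rw [hpi] at hGld
  have hGj : ∀ l, l ≠ i → 1 ≤ R.vs l G := fun l hl => by
    have := (R.of_isRed hGBL hG0 hGred l).2 (by simp [hp, hl])
    omega
  obtain ⟨N, hN⟩ : ∃ N : ℕ, ∀ l, R.vs i z - R.vs l z ≤ N :=
    ⟨(R.vs i z - R.vs 0 z).natAbs + (R.vs i z - R.vs 1 z).natAbs, Fin.forall_fin_two.mpr
      ⟨by omega, by omega⟩⟩
  have hc : algebraMap K F (R.ϖ ^ (-R.vs i z)) ∈ R.BL :=
    R.algebraMap_mem_BL (zpow_mem R.ϖ_mem _)
  have hc0 : algebraMap K F (R.ϖ ^ (-R.vs i z)) ≠ 0 :=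
    (map_ne_zero _).mpr (zpow_ne_zero _ R.ϖ_ne_zero)
  set y := G ^ N * z * algebraMap K F (R.ϖ ^ (-R.vs i z)) with hy
  have hGN := pow_mem hGBL N
  have hGN0 : G ^ N ≠ 0 := pow_ne_zero N hG0
  have hyB : y ∈ R.BL := mul_mem (mul_mem hGN hz) hc
  have hy0 : y ≠ 0 := mul_ne_zero (mul_ne_zero hGN0 hz0) hc0
  have hvy : ∀ l, R.vs l y = N * R.vs l G + R.vs l z - R.vs i z := fun l => by
    rw [hy, R.vs_mul l (mul_mem hGN hz) (mul_ne_zero hGN0 hz0) hc hc0,
      R.vs_mul l hGN hGN0 hz hz0, R.vs_pow l hGBL hG0, R.vs_algebraMap_zpow]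
    ring
  have hyi : R.vs i y = 0 := by rw [hvy, hGi]; ring
  have hnn : ∀ l, 0 ≤ R.vs l y := fun l => by
    rcases eq_or_ne l i with rfl | hl
    · rw [hyi]
    · have h1 : (N : ℤ) ≤ N * R.vs l G := le_mul_of_one_le_right (by positivity) (hGj l hl)
      have h2 := hN l
      rw [hvy]
      omega
  have hysec : y ∈ secRing B :=
    mul_mem (mul_mem (pow_mem ((mem_secRing_iff B).mpr ⟨m, hGm⟩) N) hsec) (algebraMap_mem_secRing B _)
  obtain ⟨M, hM⟩ := hysec
  have hmem := ((hS.mem_iff _ (le_max_right M m₀) _).mp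
    ⟨y, mem_riemannRochSpace_mono B (le_max_left _ _) hM, R.isRed_of_vs_nonneg hyB hy0 hnn⟩).1 i
  rw [if_pos hyi] at hmem
  have h := ((mem_riemannRochSpace_iff).mp hmem Q).resolve_left (R.ld_ne_zero i hyB hy0)
  rw [Finsupp.single_eq_of_ne hQ, neg_zero, hy, R.ld_mul i (mul_mem hGN hz)
    (mul_ne_zero hGN0 hz0) hc hc0, R.ld_algebraMap_zpow, mul_one, R.ld_mul i hGN hGN0 hz hz0,
    R.ld_pow i hGBL hG0, hGld, Place.ord_mul _ (pow_ne_zero N hb0) (R.ld_ne_zero i hz hz0),
    FLTA.Curves.ord_pow, hbQ0, mul_zero, zero_add] at h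
  exact h

end RatFrame

end FLTA.LevelLowering

end
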