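import Fermat.Agent.LevelLowering.ToricTriv
import Fermat.Agent.LevelLowering.Removal
import Fermat.Agent.LevelLowering.SettingFrame
import Fermat.Agent.BadRed.Ordinary.Field

/-!
# Inertia acts through the cyclotomic character on toric classes with trivial norms

`q` is the residue characteristic and is odd, `y` is killed by `q`, toric and both its norms are
trivial.  Then `γ • y = cycloExp q γ • y` for `γ` in inertia: a representative of the class is near
at the level `e / (q - 1)` by the norms, the twist by `γ` is near beyond it, hence trivial.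
-/

set_option autoImplicit false
set_option linter.unusedSectionVars false

noncomputable section

open IsLocalRing AlgebraicCurve FLTA.BadRed ModularCurve

namespace FLTA.LevelLowering

local notation "Qbar" => AlgebraicClosure ℚ
local notation "Γ" => AlgebraicClosure ℚ ≃ₐ[ℚ] AlgebraicClosure ℚ

/-- The inertia elements fixing a finite set of numbers and their conjugates. -/
theorem InertiaSub.exists_of_finset (A : ValuationSubring Qbar) (T : Finset Qbar) :
    ∃ D : InertiaSub A, ∀ a ∈ T, a ∈ D.L := by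
  classical
  set T' : Set Qbar := ⋃ a ∈ T, (minpoly ℚ a).rootSet Qbar with hT'
  have hfin : T'.Finite := Set.Finite.biUnion T.finite_toSet fun a _ =>
    (minpoly ℚ a).rootSet_finite Qbar
  have hconj : ∀ (σ : Γ), ∀ a ∈ T', σ a ∈ T' := by
    intro σ a ha
    simp only [hT', Set.mem_iUnion] at ha ⊢
    obtain ⟨b, hb, hab⟩ := ha
    refine ⟨b, hb, ?_⟩
    rw [Polynomial.mem_rootSet] at hab ⊢
    exact ⟨hab.1, by rw [Polynomial.aeval_algHom_apply, hab.2, map_zero]⟩
  haveI : FiniteDimensional ℚ (IntermediateField.adjoin ℚ T') := by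
    haveI := hfin.to_subtype
    exact IntermediateField.finiteDimensional_adjoin fun x _ => Algebra.IsIntegral.isIntegral x
  refine ⟨{
    H :=
      { carrier := {σ | σ ∈ A.inertiaSubgroupIn ℚ ∧ ∀ a ∈ T', σ a = a}
        mul_mem' := fun {σ τ} hσ hτ => ⟨mul_mem hσ.1 hτ.1, fun a ha => by
          rw [AlgEquiv.mul_apply, hτ.2 a ha, hσ.2 a ha]⟩
        one_mem' := ⟨one_mem _, fun a _ => rfl⟩
        inv_mem' := fun {σ} hσ => ⟨inv_mem hσ.1, fun a ha => by
          conv_lhs => rw [← hσ.2 a ha]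
          exact σ.symm_apply_apply a⟩ }
    le := fun _ h => h.1
    conj_mem := fun σ hσ τ hτ => ⟨mul_mem (mul_mem hσ hτ.1) (inv_mem hσ), fun a ha => by
      rw [AlgEquiv.mul_apply, AlgEquiv.mul_apply, hτ.2 _ (hconj σ⁻¹ a ha)]
      exact σ.apply_symm_apply a⟩
    isOpen := ⟨IntermediateField.adjoin ℚ T', inferInstance, fun σ hσ => ⟨hσ.1, fun a ha =>
      (IntermediateField.mem_fixingSubgroup_iff _ _).mp hσ.2 a
        (IntermediateField.subset_adjoin ℚ T' ha)⟩⟩ }, fun a ha => ?_⟩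
  rw [InertiaSub.mem_L_iff]
  refine fun σ hσ => hσ.2 a ?_
  simp only [hT', Set.mem_iUnion]
  exact ⟨a, ha, Polynomial.mem_rootSet.mpr
    ⟨minpoly.ne_zero (Algebra.IsIntegral.isIntegral a), minpoly.aeval ℚ a⟩⟩

namespace Removal

section Root

variable {A : ValuationSubring Qbar} {q : ℕ} [Fact q.Prime] [CharP (ResidueField A) q]

/-- `q` is a unit times `(ζ - 1) ^ (q - 1)`. -/
theorem exists_q_eq_pow {ζ : A} (hζ : IsPrimitiveRoot ζ q) :
    ∃ v : A, residue A v ≠ 0 ∧ (q : A) = (ζ - 1) ^ (q - 1) * v := by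
  classical
  have hq : q.Prime := Fact.out
  have hζ1 : residue A ζ = 1 := by
    haveI : ExpChar (ResidueField A) q := ExpChar.prime hq
    refine frobenius_inj (ResidueField A) q ?_
    rw [frobenius_def, frobenius_def, ← map_pow, hζ.pow_eq_one, map_one, one_pow]
  have hμ : ∀ μ ∈ primitiveRoots q A, ∃ v : A, residue A v ≠ 0 ∧ 1 - μ = (ζ - 1) * v := by
    intro μ hμ
    rw [mem_primitiveRoots hq.pos] at hμ
    obtain ⟨b, hb, rfl⟩ := hζ.eq_pow_of_pow_eq_one hμ.pow_eq_one
    refine ⟨-∑ j ∈ Finset.range b, ζ ^ j, ?_, ?_⟩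
    · rw [map_neg, neg_ne_zero, map_sum]
      simp only [map_pow, hζ1, one_pow, Finset.sum_const, Finset.card_range, nsmul_eq_mul, mul_one]
      rw [Ne, CharP.cast_eq_zero_iff (ResidueField A) q]
      intro hd
      rw [Nat.eq_zero_of_dvd_of_lt hd hb, pow_zero] at hμ
      exact hq.one_lt.ne' (IsPrimitiveRoot.one.unique hμ).symm
    · rw [mul_neg, mul_geom_sum]
      ring
  choose! v hv hve using hμ
  refine ⟨∏ μ ∈ primitiveRoots q A, v μ, ?_, ?_⟩
  · rw [map_prod]
    exact Finset.prod_ne_zero_iff.mpr fun μ hμ => hv μ hμ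
  · conv_lhs => rw [← Polynomial.eval_one_cyclotomic_prime (R := A) (p := q),
      Polynomial.cyclotomic_eq_prod_X_sub_primitiveRoots hζ, Polynomial.eval_prod]
    rw [Finset.prod_congr rfl fun μ hμ => by
      rw [Polynomial.eval_sub, Polynomial.eval_X, Polynomial.eval_C, hve μ hμ],
      Finset.prod_mul_distrib, Finset.prod_const, hζ.card_primitiveRoots, Nat.totient_prime hq]

end Root

variable {A : ValuationSubring Qbar} {q : ℕ} [NeZero q] [Fact q.Prime]
  [CharP (ResidueField A) q] [IsAlgClosed (ResidueField A)]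
  {F : Type*} [Field F] [Algebra Qbar F] {F' : Type*} [Field F'] [Algebra Qbar F']
  {Fk : Type*} [Field Fk] [Algebra (ResidueField A) Fk] {g gF : ℕ}
  {B : BadFibre A (residue A) q F F' Fk g gF}
  (I : Ordinary.InertiaData B (A.inertiaSubgroupIn ℚ))

/-- Powers of a representative. -/
theorem exists_repData_pow {y : Pic0 Qbar F} (d : Ordinary.RepData B y) (n : ℕ) :
    ∃ d' : Ordinary.RepData B ((n + 1) • y), d'.x = d.x ^ (n + 1) := by
  induction n with
  | zero => rw [zero_add, one_smul]; exact ⟨d, (pow_one _).symm⟩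
  | succ n ih =>
    obtain ⟨d', hd'⟩ := ih
    rw [succ_nsmul]
    exact ⟨d'.mul d, by rw [Ordinary.RepData.mul_x, hd', ← pow_succ]⟩

include I in
/-- **Inertia is cyclotomic on toric classes with trivial norms.** -/
theorem toric_inertia_cyclo (hA : A.LiesOverPrime q) (hq2 : q ≠ 2)
    {S : Finset (Place (ResidueField A) Fk)} {m₀ : ℕ} (hS : B.IsGluing S m₀) (hne : S.Nonempty)
    {y : Pic0 Qbar F} (hqy : q • y = 0) (hy : B.IsToric q y) (hN : B.NormsTrivial q y)
    (γ : A.inertiaSubgroupIn ℚ) :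
    (I.sy γ).σ • y = ExtCitation.cycloExp q (γ : Γ) • y := by
  classical
  have hq : q.Prime := Fact.out
  obtain ⟨d, -⟩ := Ordinary.exists_repData hS hy
  -- a root of unity
  haveI : NeZero (q : Qbar) := ⟨Nat.cast_ne_zero.mpr hq.ne_zero⟩
  obtain ⟨ζ₀, hζ₀⟩ := HasEnoughRootsOfUnity.exists_primitiveRoot Qbar q
  have hζA : ζ₀ ∈ A := by
    rcases A.mem_or_inv_mem ζ₀ with h | h
    · exact h
    · rw [← inv_inv ζ₀, show (ζ₀⁻¹)⁻¹ = ζ₀⁻¹ ^ (q - 1) by
        rw [inv_inv, inv_pow, ← eq_inv_of_mul_eq_one_left (a := ζ₀)]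
        rw [← pow_succ', Nat.sub_add_cancel hq.pos, hζ₀.pow_eq_one]]
      exact pow_mem h _
  set ζ : A := ⟨ζ₀, hζA⟩ with hζdef
  have hζ : IsPrimitiveRoot ζ q := IsPrimitiveRoot.of_map_of_injective (f := A.subtype)
    (by exact hζ₀) Subtype.coe_injective
  -- the frame
  choose s hs using fun x : F => B.coeff_fg x
  obtain ⟨D, hD⟩ := InertiaSub.exists_of_finset A
    ({ζ₀} ∪ s d.f ∪ s d.G₁ ∪ s d.G₂ ∪ s d.G₃)
  obtain ⟨R, e, u, hL, hH, he, -, huL, hu, hqe⟩ := SettingFrame.exists_ratFrame I hA D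
  have hLmem : ∀ a : Qbar, a ∈ D.L → a ∈ R.L := fun a ha => by rw [hL]; exact ha
  have hrat : ∀ x : F, (∀ a ∈ s x, a ∈ D.L) → x ∈ R.FL := fun x hx => by
    rw [SettingFrame.mem_FL_iff_coeff I R hL hH]
    intro j
    refine (Subfield.closure_le (t := R.L)).mpr (fun a ha => hLmem a (hx a ha)) (hs x j)
  have hfF : d.f ∈ R.FL := hrat _ fun a ha => hD a (by simp [ha])
  have hG1F : d.G₁ ∈ R.FL := hrat _ fun a ha => hD a (by simp [ha])
  have hG2F : d.G₂ ∈ R.FL := hrat _ fun a ha => hD a (by simp [ha])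
  have hG3F : d.G₃ ∈ R.FL := hrat _ fun a ha => hD a (by simp [ha])
  have hxF : d.x ∈ R.FL := div_mem (mul_mem hG1F hG3F) hG2F
  set f1 := d.G₁ ^ q * d.f with hf1
  set ρF := d.G₃ ^ q / (d.G₂ ^ q * d.f) with hρF
  have hρred : ∀ l, Ordinary.ExactRed (residue A) (B.e l ρF) 1 := fun l => by
    have h := ((d.exact₃ l).pow q).div B.R.π_surjective (d.exact₂ l)
    rwa [map_pow B.exk, div_self (pow_ne_zero _ ((map_ne_zero B.exk).mpr (d.exact l).1)),
      ← map_pow, ← map_div₀] at h
  obtain ⟨xs, hxs⟩ := exists_emb_eq (B := B) (x := d.x) fun l => d.x_isRed.1 l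
  obtain ⟨fs, hfs⟩ := exists_emb_eq (B := B) (x := f1) fun l => d.red₁.1 l
  obtain ⟨ρs, hρs⟩ := exists_emb_eq (B := B) (x := ρF) fun l => (hρred l).int
  have hcoef : ∀ {x : F} {t : Ser A}, x ∈ R.FL → emb A t = pairHom B x → t ∈ coefS R.L :=
    fun {x t} hx ht l j => by
      have h := R.inL_e l hx j
      rwa [← pairHom_apply, ← ht, emb_coeff] at h
  have hpow : xs ^ q = fs * ρs := emb_injective (by
    rw [map_pow, map_mul, hxs, hfs, hρs, ← map_pow, ← map_mul, hf1, hρF, Ordinary.RepData.x,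
      div_pow, mul_pow]
    refine congrArg _ ?_
    have := d.kummer.ne_zero
    have := d.G₂_ne
    field_simp)
  have hxred : red2 (residue A) xs = 1 := funext fun l => by
    rw [← redSeries_emb, hxs, pairHom_apply, ← d.x_isRed.2 l, Pi.one_apply, map_one, Pi.one_apply]
  have hfred : red2 (residue A) fs = 1 := funext fun l => by
    rw [← redSeries_emb, hfs, pairHom_apply, ← d.red₁.2 l, Pi.one_apply, map_one, Pi.one_apply]
  have hρpow : ρs ∈ powS A := fun l j hj => Subtype.ext (by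
    rw [← emb_coeff, hρs, pairHom_apply]
    exact (hρred l).coeff_eq_zero (by rw [HahnSeries.order_one]; exact hj))
  have hfsec : fs ∈ secS R := by
    refine mem_secS.mpr ⟨f1, ⟨mul_mem (pow_mem hG1F q) hfF, q * d.m, ?_⟩, hfs.symm⟩
    have h := Ordinary.mixed_mem d.kummer d.mem₁ d.mem₁
    rwa [← mul_assoc, ← pow_succ', Nat.sub_add_cancel hq.one_le] at h
  have hroot : IsRoot R xs :=
    ⟨hxred, hcoef hxF hxs, fs, ρs, hfsec, hfred, hρpow, hpow⟩
  -- the norms
  have hNorm : NormPow B f1 := by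
    obtain ⟨D', f', hf'0, hmk, hord, hn1, hn2⟩ := hN
    have hprin : ((d.D - D' : Divisor.degZero (K := Qbar) (F := F)) : Divisor Qbar F) ∈
        Divisor.principal (K := Qbar) (F := F) := by
      have h0 : Pic0.mk (d.D - D') = 0 := by
        rw [show Pic0.mk (d.D - D') = Pic0.mk d.D - Pic0.mk D' from rfl, d.mk_eq, hmk, sub_self]
      exact (QuotientAddGroup.eq_zero_iff (d.D - D')).mp h0
    obtain ⟨w, hw0, hw⟩ := hprin
    obtain ⟨c, hc⟩ := B.exists_eq_algebraMap_of_ord_eq_zero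
      (u := d.f * (f' * w ^ q)⁻¹)
      (mul_ne_zero d.kummer.ne_zero (inv_ne_zero (mul_ne_zero hf'0 (pow_ne_zero _ hw0)))) fun v => by
        rw [v.ord_mul d.kummer.ne_zero (inv_ne_zero (mul_ne_zero hf'0 (pow_ne_zero _ hw0))),
          v.ord_inv, v.ord_mul hf'0 (pow_ne_zero _ hw0), FLTA.Curves.ord_pow, ← d.kummer.ord_eq,
          ← hord, ← hw v, AddSubgroupClass.coe_sub, Finsupp.sub_apply]
        ring
    rw [mul_inv_eq_iff_eq_mul₀ (mul_ne_zero hf'0 (pow_ne_zero _ hw0))] at hc
    rw [hf1, hc]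
    exact (normPow_pow d.G₁).mul ((normPow_algebraMap c).mul
      ((show NormPow B f' from ⟨hn1, hn2⟩).mul (normPow_pow w)))
  -- the level `e / (q - 1)`
  obtain ⟨v, hv, hqv⟩ := exists_q_eq_pow hζ
  have hlL : ((ζ - 1 : A) : Qbar) ∈ R.L := by
    push_cast
    exact sub_mem (hLmem _ (hD _ (by simp [hζdef]))) R.L.one_mem
  have hζne : ζ - 1 ≠ 0 := sub_ne_zero.mpr (hζ.ne_one hq.one_lt)
  have hl0 : ((ζ - 1 : A) : Qbar) ≠ 0 := fun h => hζne (Subtype.ext h)
  obtain ⟨n, w, hwL, hw, hlw⟩ := R.exists_unit _ hlL hl0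
  have hζ1 : residue A (ζ - 1) = 0 := by
    haveI : ExpChar (ResidueField A) q := ExpChar.prime hq
    rw [map_sub, map_one, sub_eq_zero]
    refine frobenius_inj (ResidueField A) q ?_
    rw [frobenius_def, frobenius_def, ← map_pow, hζ.pow_eq_one, map_one, one_pow]
  have hn : 1 ≤ n := by
    by_contra hcon
    have hn0 : 0 ≤ -n := by omega
    have e1 : (w : A) = (ζ - 1) * ⟨R.ϖ ^ (-n), R.zpow_mem hn0⟩ := Subtype.ext (by
      rw [MulMemClass.coe_mul, hlw, mul_comm (R.ϖ ^ n) (w : Qbar), mul_assoc,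
        ← zpow_add₀ R.ϖ_ne_zero, add_neg_cancel, zpow_zero, mul_one])
    exact hw (by rw [e1, map_mul, hζ1, zero_mul])
  obtain ⟨i, rfl⟩ : ∃ i : ℕ, n = i := ⟨n.toNat, by omega⟩
  rw [zpow_natCast] at hlw
  set P : A := ⟨R.ϖ, R.ϖ_mem_A⟩ with hP
  have hlA : ζ - 1 = P ^ i * w := Subtype.ext (by rw [hlw, MulMemClass.coe_mul]; rfl)
  have hPu : (q : A) = P ^ e * u := Subtype.ext (by push_cast; exact hqe)
  have hei : e = i * (q - 1) := by
    have hwv : residue A (w ^ (q - 1) * v) ≠ 0 := by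
      rw [map_mul, map_pow]
      exact mul_ne_zero (pow_ne_zero _ hw) hv
    have h1 : P ^ e * u = P ^ (i * (q - 1)) * (w ^ (q - 1) * v) := by
      rw [← hPu, hqv, hlA, mul_pow, ← pow_mul]
      ring
    have hP0 : P ≠ 0 := fun h => R.ϖ_ne_zero (congrArg Subtype.val h)
    rcases lt_trichotomy e (i * (q - 1)) with h | h | h
    · exfalso
      obtain ⟨j, hj⟩ : ∃ j, i * (q - 1) = e + (j + 1) := ⟨i * (q - 1) - e - 1, by omega⟩
      rw [hj, pow_add, mul_assoc] at h1
      refine hu ?_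
      rw [mul_left_cancel₀ (pow_ne_zero _ hP0) h1, map_mul, map_pow, hP, R.π_ϖ,
        zero_pow (by omega), zero_mul]
    · exact h
    · exfalso
      obtain ⟨j, hj⟩ : ∃ j, e = i * (q - 1) + (j + 1) := ⟨e - i * (q - 1) - 1, by omega⟩
      rw [hj, pow_add, mul_assoc] at h1
      refine hwv ?_
      rw [← mul_left_cancel₀ (pow_ne_zero _ hP0) h1, map_mul, map_pow, hP, R.π_ϖ,
        zero_pow (by omega), zero_mul]
  have hqi : q * i = e + i := by
    rw [hei, ← Nat.mul_succ, Nat.succ_eq_add_one, Nat.sub_add_cancel hq.one_le, mul_comm]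
  set ζu : Aˣ := (hζ.isUnit hq.ne_zero).unit
  have hζu : IsPrimitiveRoot ζu q := IsPrimitiveRoot.coe_units_iff.mp hζ
  have hnear : ∀ j, 1 ≤ j → j ≤ i → Near R j xs := by
    intro j hj
    induction j, hj using Nat.le_induction with
    | base => exact fun _ => near_one hroot
    | succ j hj ih =>
      intro hji
      refine near_succ_small hS hne hqe hζu hfsec hfred hρpow hpow hfs.symm hNorm hroot.mem hj ?_
        (ih (by omega))
      have : j * (q - 1) < i * (q - 1) :=
        Nat.mul_lt_mul_of_pos_right (by omega) (by have := hq.two_le; omega)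
      have e2 : q * j = j * (q - 1) + j := by
        rw [← Nat.mul_succ, Nat.succ_eq_add_one, Nat.sub_add_cancel hq.one_le, mul_comm]
      omega
  -- the twist
  set a := ExtCitation.cycloExp q (γ : Γ) with ha
  let c : A →+* A :=
    { toFun := fun x => ⟨γ • (x : Qbar), I.smul_mem γ x.2⟩
      map_one' := Subtype.ext (smul_one γ)
      map_zero' := Subtype.ext (smul_zero γ)
      map_mul' := fun x y => Subtype.ext (smul_mul' γ (x : Qbar) y)
      map_add' := fun x y => Subtype.ext (smul_add γ (x : Qbar) y) }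
  have hembc : ∀ {x : F} {t : Ser A}, emb A t = pairHom B x →
      emb A (conjS c t) = pairHom B ((I.sy γ).σ • x) := fun {x t} ht =>
    funext fun l => HahnSeries.ext (funext fun j => by
      rw [pairHom_apply, I.coeff_e, ← pairHom_apply, ← ht, emb_coeff, emb_coeff, conjS_coeff]
      rfl)
  have hc : IsConj R c := by
    refine ⟨fun x => I.residue_smul γ x, fun x hx => ?_, fun t ht => ?_⟩
    · show γ • (x : Qbar) ∈ R.L
      rw [hL] at hx ⊢
      exact D.apply_mem_L γ.2 hx
    · obtain ⟨z, ⟨hz, m, hm⟩, hzt⟩ := mem_secS.mp ht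
      refine mem_secS.mpr ⟨(I.sy γ).σ • z, ⟨SettingFrame.smul_mem_FL I R hL hH γ hz, m, ?_⟩,
        (hembc hzt.symm).symm⟩
      have h := I.smul_mem_riemannRochSpace γ hm
      rwa [I.smul_cuspDiv] at h
  have hcζ : c ζ = ζ ^ a := Subtype.ext (by
    rw [SubmonoidClass.coe_pow]
    show (γ : Γ) ζ₀ = ζ₀ ^ a
    exact modularCyclotomicCharacter.spec Qbar (ExtCitation.card_rootsOfUnity_eq_self q)
      ((γ : Γ) : Qbar ≃+* Qbar) (rootsOfUnity.mkOfPowEq ζ₀ hζ₀.pow_eq_one).2)
  have hcw : residue A (c w) ≠ 0 := by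
    rw [show residue A (c w) = residue A w from hc.residue w]
    exact hw
  obtain ⟨cw', hcw'⟩ := (isUnit_of_residue_ne_zero R.π_surjective hcw).exists_right_inv
  set t : A := cw' * (w * ∑ j ∈ Finset.range a, ζ ^ j) with ht
  have hct : c (P ^ i) = P ^ i * t := by
    have h1 : c (P ^ i) * c w = P ^ i * (w * ∑ j ∈ Finset.range a, ζ ^ j) := by
      rw [← map_mul, ← hlA, map_sub, map_one, hcζ, ← mul_geom_sum, hlA, mul_assoc]
    calc c (P ^ i) = c (P ^ i) * c w * cw' := by rw [mul_assoc, hcw', mul_one]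
      _ = P ^ i * t := by rw [h1, ht]; ring
  have htres : residue A t = (a : ResidueField A) := by
    have h1 : residue A cw' * residue A (c w) = 1 := by rw [← map_mul, mul_comm, hcw', map_one]
    have h2 : residue A ζ = 1 := by rwa [map_sub, map_one, sub_eq_zero] at hζ1
    rw [ht, map_mul, map_mul, map_sum, ← mul_assoc, show residue A cw' * residue A w = 1 by
      rw [← show residue A (c w) = residue A w from hc.residue w]; exact h1, one_mul]
    simp only [map_pow, h2, one_pow, Finset.sum_const, Finset.card_range, nsmul_eq_mul, mul_one]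
  set N := a * (q - 1) + (q - 1) + 1 with hNdef
  have haN : (a : ResidueField A) + (N : ResidueField A) = 0 := by
    rw [← Nat.cast_add, CharP.cast_eq_zero_iff (ResidueField A) q]
    exact ⟨a + 1, by
      rw [hNdef, mul_add, mul_one]
      have := hq.one_le
      have : q * a = a * (q - 1) + a := by
        rw [← Nat.mul_succ, Nat.succ_eq_add_one, Nat.sub_add_cancel hq.one_le, mul_comm]
      omega⟩
  obtain ⟨dN, hdN⟩ : ∃ d' : Ordinary.RepData B (N • y), d'.x = d.x ^ N :=
    exists_repData_pow d (a * (q - 1) + (q - 1))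
  have hx' : emb A (conjS c xs * xs ^ N) = pairHom B ((d.conj I γ).mul dN).x := by
    rw [Ordinary.RepData.mul_x, Ordinary.RepData.conj_x, hdN, map_mul, map_mul, map_pow, map_pow,
      hembc hxs, hxs]
  have hall := near_all hS hne hu huL hqe ((hroot.conj hc).mul (hroot.pow N))
    (Nat.le_add_left 1 i) (j := i + 1) (by
      have := hq.two_le
      rw [mul_add, mul_one]
      omega)
    (near_twist hc hct (by rw [htres]; exact haN) (by omega) hroot.mem (hnear i (by omega) le_rfl))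
  have hK := Ordinary.inertiaField_bar hq hA
  have h0 := eq_zero_of_near hS hne I ⟨hK.unram.p_ne_zero, hK.rankOne⟩ hu hqe hK.exists_pow_mul_mem
    ((d.conj I γ).mul dN) hx' hall
  rw [eq_neg_of_add_eq_zero_left h0]
  refine (eq_neg_of_add_eq_zero_left ?_).symm
  show a • y + N • y = 0
  obtain ⟨b, hb⟩ := (CharP.cast_eq_zero_iff (ResidueField A) q (a + N)).mp
    (by rw [Nat.cast_add]; exact haN)
  rw [← add_nsmul, hb, mul_comm, mul_nsmul', hqy, nsmul_zero]

end Removal

end FLTA.LevelLowering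

end
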