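import Fermat.Agent.LevelLowering.ToricRoot

/-!
# Splitting a root of a section times a pair of power series, level by level

`xs` is a pair whose `q`-th power is a section times a pair of power series.  It is near at level
`i` if it is itself so modulo `ϖ ^ i`.  Below `e / (q - 1)` a trivial norm improves the level,
above it the level improves by itself; an automorphism acting on `ϖ ^ i` by the residue `a`
improves the level of `σ xs * xs ^ N` when `a + N = 0`.
-/

set_option autoImplicit false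

noncomputable section

open AlgebraicCurve FLTA.BadRed ModularCurve

namespace FLTA.LevelLowering.Removal

variable {K : Type*} [Field K] {A : ValuationSubring K}
  {k : Type*} [Field k] {π : A →+* k} {q : ℕ} [NeZero q]
  {F : Type*} [Field F] [Algebra K F] {F' : Type*} [Field F'] [Algebra K F']
  {Fk : Type*} [Field Fk] [Algebra k Fk] {g gF : ℕ} {B : BadFibre A π q F F' Fk g gF}

/-- The `q`-th power is a section times a pair of power series, and all reduce to `1`. -/
structure IsRoot (R : RatFrame B) (xs : Ser A) : Prop where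
  red : red2 π xs = 1
  mem : xs ∈ coefS R.L
  exists_eq : ∃ f ρ : Ser A, f ∈ secS R ∧ red2 π f = 1 ∧ ρ ∈ powS A ∧ xs ^ q = f * ρ

/-- A section times a pair of power series modulo `ϖ ^ i`. -/
def Near (R : RatFrame B) (i : ℕ) (xs : Ser A) : Prop :=
  ∃ s p : Ser A, s ∈ secS R ∧ red2 π s = 1 ∧ p ∈ powS A ∧ p ∈ coefS R.L ∧ red2 π p = 1 ∧
    pw R.toFrame ^ i ∣ xs * s * p - 1

variable {R : RatFrame B} {xs ys : Ser A} {i : ℕ}

theorem IsRoot.mul (hx : IsRoot R xs) (hy : IsRoot R ys) : IsRoot R (xs * ys) := by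
  obtain ⟨f, ρ, hf, hf1, hρ, e⟩ := hx.exists_eq
  obtain ⟨f', ρ', hf', hf1', hρ', e'⟩ := hy.exists_eq
  exact ⟨by rw [map_mul, hx.red, hy.red, one_mul], mul_mem hx.mem hy.mem, f * f', ρ * ρ',
    mul_mem hf hf', by rw [map_mul, hf1, hf1', one_mul], mul_mem hρ hρ', by
      rw [mul_pow, e, e', mul_mul_mul_comm]⟩

theorem IsRoot.pow (hx : IsRoot R xs) (n : ℕ) : IsRoot R (xs ^ n) := by
  obtain ⟨f, ρ, hf, hf1, hρ, e⟩ := hx.exists_eq
  exact ⟨by rw [map_pow, hx.red, one_pow], pow_mem hx.mem n, f ^ n, ρ ^ n, pow_mem hf n,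
    by rw [map_pow, hf1, one_pow], pow_mem hρ n, by rw [← pow_mul, mul_comm, pow_mul, e, mul_pow]⟩

theorem near_one (hx : IsRoot R xs) : Near R 1 xs :=
  ⟨1, 1, one_mem _, map_one _, one_mem _, one_mem _, map_one _, by
    rw [mul_one, mul_one, pow_one]
    exact pw_dvd_of_red2 R.toFrame (sub_mem hx.mem (one_mem _))
      (by rw [map_sub, hx.red, map_one, sub_self])⟩

theorem Near.mono {j : ℕ} (h : Near R j xs) (hij : i ≤ j) : Near R i xs := by
  obtain ⟨s, p, hs, hs1, hp, hpL, hp1, hd⟩ := h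
  exact ⟨s, p, hs, hs1, hp, hpL, hp1, (pow_dvd_pow _ hij).trans hd⟩

theorem exists_one_add_pow {T : Type*} [CommRing T] (x : T) (n : ℕ) :
    ∃ r : T, (1 + x) ^ n = 1 + (n : T) * x + x ^ 2 * r := by
  induction n with
  | zero => exact ⟨0, by simp⟩
  | succ n ih =>
    obtain ⟨r, hr⟩ := ih
    exact ⟨r * (1 + x) + n, by rw [pow_succ, hr]; push_cast; ring⟩

variable (c : A →+* A)

/-- Coefficientwise map of pairs. -/
def conjS : Ser A →+* Ser A := RingHom.pi fun l => (coeffMap c).comp (Pi.evalRingHom _ l)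

theorem conjS_coeff (y : Ser A) (l : Fin 2) (j : ℤ) :
    ((conjS c y) l).coeff j = c ((y l).coeff j) := rfl

theorem conjS_cst (a : A) : conjS c (cst a) = cst (c a) := funext fun _ => by
  show coeffMap c (HahnSeries.single 0 a) = HahnSeries.single 0 (c a)
  rw [coeffMap_single]

theorem conjS_powS {y : Ser A} (hy : y ∈ powS A) : conjS c y ∈ powS A := fun l j hj => by
  rw [conjS_coeff, hy l j hj, map_zero]

/-- A residually trivial automorphism preserving the rational data. -/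
structure IsConj (R : RatFrame B) (c : A →+* A) : Prop where
  residue : ∀ a, π (c a) = π a
  mem_L : ∀ a : A, (a : K) ∈ R.L → (c a : K) ∈ R.L
  mem_secS : ∀ y ∈ secS R, conjS c y ∈ secS R

variable {c}

theorem IsConj.red2_conjS (hc : IsConj R c) (y : Ser A) : red2 π (conjS c y) = red2 π y :=
  funext fun l => HahnSeries.ext (funext fun j => hc.residue _)

theorem IsConj.coefS (hc : IsConj R c) {y : Ser A} (hy : y ∈ Removal.coefS R.L) :
    conjS c y ∈ Removal.coefS R.L := fun l j => hc.mem_L _ (hy l j)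

theorem IsRoot.conj (hc : IsConj R c) (hx : IsRoot R xs) : IsRoot R (conjS c xs) := by
  obtain ⟨f, ρ, hf, hf1, hρ, e⟩ := hx.exists_eq
  exact ⟨by rw [hc.red2_conjS, hx.red], hc.coefS hx.mem, conjS c f, conjS c ρ, hc.mem_secS f hf,
    by rw [hc.red2_conjS, hf1], conjS_powS c hρ, by rw [← map_pow, e, map_mul]⟩

variable [IsAlgClosed K] [CharZero K] [IsAlgClosed k] [Fact q.Prime] [CharP k q]

omit [IsAlgClosed K] [CharZero K] [IsAlgClosed k] [Fact q.Prime] [CharP k q] in
/-- A split reduction at level `i` improves the level. -/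
theorem near_succ_of_split (hi : 1 ≤ i) (hxs : xs ∈ coefS R.L) {s p ε : Ser A}
    (hs : s ∈ secS R) (hs1 : red2 π s = 1) (hp : p ∈ powS A) (hpL : p ∈ coefS R.L)
    (hp1 : red2 π p = 1) (hε : xs * s * p - 1 = pw R.toFrame ^ i * ε) {u : A} (hu : π u ≠ 0)
    (huL : (u : K) ∈ R.L) (hsplit : IsSplit B (red2 π (cst u * ε))) : Near R (i + 1) xs := by
  set P := pw R.toFrame with hP
  have hεL : ε ∈ coefS R.L := coefS_of_pw_mul R.toFrame (n := i)
    (hε ▸ sub_mem (mul_mem (mul_mem hxs (secS_le_coefS R hs)) hpL) (one_mem _))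
  obtain ⟨s₁, hs₁, p₁, hp₁, hp₁L, hsp⟩ := exists_split_lift R hsplit
  have hu0 : (u : K) ≠ 0 := fun h => hu (by rw [show u = 0 from Subtype.ext h, map_zero])
  set w : A := ⟨(u : K)⁻¹, residue_ne_zero_inv_mem R.π_surjective u.2 hu⟩ with hw
  have hwu : w * u = 1 := Subtype.ext (inv_mul_cancel₀ hu0)
  have hwL : (w : K) ∈ R.L := inv_mem huL
  set X := cst w * s₁ with hX
  set Y := cst w * p₁ with hY
  have hXS : X ∈ secS R := mul_mem (cst_mem_secS hwL) hs₁
  have hYL : Y ∈ coefS R.L := mul_mem (cst_mem_coefS hwL) hp₁L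
  have hP0 : red2 π P ^ i = 0 := by rw [hP, red2_pw, zero_pow (by omega)]
  refine ⟨s * (1 - P ^ i * X), p * (1 - P ^ i * Y),
    mul_mem hs (sub_mem (one_mem _) (mul_mem (pow_mem (pw_mem_secS R) i) hXS)),
    by rw [map_mul, hs1, one_mul, map_sub, map_one, map_mul, map_pow, hP0, zero_mul, sub_zero],
    mul_mem hp (sub_mem (one_mem _) (mul_mem (pow_mem (cst_mem_powS _) i)
      (mul_mem (cst_mem_powS w) hp₁))),
    mul_mem hpL (sub_mem (one_mem _) (mul_mem (pow_mem (pw_mem_coefS R.toFrame) i) hYL)),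
    by rw [map_mul, hp1, one_mul, map_sub, map_one, map_mul, map_pow, hP0, zero_mul, sub_zero], ?_⟩
  obtain ⟨x, hx⟩ := pw_dvd_of_red2 R.toFrame
    (sub_mem (sub_mem hεL (secS_le_coefS R hXS)) hYL) (by
      have hone : red2 π (cst w) * red2 π (cst u) = 1 := by
        rw [← map_mul, ← map_mul, hwu, map_one, map_one]
      rw [map_sub, map_sub, hX, hY, map_mul, map_mul, sub_sub, ← mul_add, hsp, map_mul, ← mul_assoc,
        hone, one_mul, sub_self])
  have hPi : P ^ i = P * P ^ (i - 1) := by rw [← pow_succ']; congr 1; omega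
  refine ⟨x + P ^ (i - 1) * (X * Y - ε * X - ε * Y + P ^ i * (ε * X * Y)), ?_⟩
  rw [pow_succ]
  linear_combination (1 - P ^ i * X) * (1 - P ^ i * Y) * hε + P ^ i * hx +
    P ^ i * (X * Y - ε * X - ε * Y + P ^ i * (ε * X * Y)) * hPi

/-- Below `e / (q - 1)` trivial norms improve the level. -/
theorem near_succ_small {S : Finset (Place k Fk)} {m₀ : ℕ} (hS : B.IsGluing S m₀)
    (hne : S.Nonempty) {e : ℕ} {u : A} (hqe : (q : K) = R.ϖ ^ e * u) {ζ : Aˣ}
    (hζ : IsPrimitiveRoot ζ q) {f ρ : Ser A} (hf : f ∈ secS R) (hf1 : red2 π f = 1)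
    (hρ : ρ ∈ powS A) (hxf : xs ^ q = f * ρ) {fF : F} (hfF : pairHom B fF = emb A f)
    (hN : NormPow B fF) (hxs : xs ∈ coefS R.L) (hi : 1 ≤ i) (hlt : q * i < e + i)
    (h : Near R i xs) : Near R (i + 1) xs := by
  classical
  have hq : q.Prime := Fact.out
  obtain ⟨s, p, hs, hs1, hp, hpL, hp1, ε, hε⟩ := h
  set P := pw R.toFrame with hP
  have hqe' : (q : Ser A) = P ^ e * cst u := by
    rw [hP, pw, ← map_pow, ← map_mul, ← map_natCast (cst : A →+* Ser A) q]
    exact congrArg cst (Subtype.ext (by push_cast; exact hqe))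
  obtain ⟨r, hr⟩ := dvd_one_add_pow_sub hq (P ^ i * ε)
  obtain ⟨sF, ⟨-, -⟩, hsF⟩ := mem_secS.mp hs
  refine near_succ_of_split hi hxs hs hs1 hp hpL hp1 hε (u := 1) (by simp) R.L.one_mem ?_
  rw [map_one, one_mul]
  have hpow : P ^ e * P ^ i = P ^ (q * i) * P ^ (e + i - q * i) := by
    rw [← pow_add, ← pow_add]
    congr 1
    omega
  refine isSplit_of_norm hS hne hqe hζ hi hlt (z := f * s ^ q) (w := ρ * p ^ q)
    (d := ε ^ q + P ^ (e + i - q * i) * (cst u * ε * (1 + P ^ i * ε * r)))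
    (mul_mem hf (pow_mem hs q)) (by rw [map_mul, map_pow, hf1, hs1, one_pow, one_mul])
    (mul_mem hρ (pow_mem hp q)) ?_ ?_ (zF := fF * sF ^ q)
    (by rw [map_mul, map_pow, map_mul, map_pow, hfF, hsF]) (hN.mul (normPow_pow sF))
  · have h1 : f * s ^ q * (ρ * p ^ q) = (1 + P ^ i * ε) ^ q := by
      rw [show 1 + P ^ i * ε = xs * s * p by linear_combination -hε]
      rw [mul_pow, mul_pow, hxf]
      ring
    rw [h1, mul_add, ← mul_assoc (P ^ (q * i)) (P ^ _), ← hpow, mul_comm q i, pow_mul, ← mul_pow]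
    linear_combination hr + (P ^ i * ε + (P ^ i * ε) ^ 2 * r) * hqe'
  · rw [map_add, map_mul, map_pow, map_pow, hP, red2_pw, zero_pow (by omega), zero_mul, add_zero]

omit [IsAlgClosed K] [IsAlgClosed k] in
/-- Above `e / (q - 1)` the level improves by itself. -/
theorem near_succ_large {S : Finset (Place k Fk)} {m₀ : ℕ} (hS : B.IsGluing S m₀)
    (hne : S.Nonempty) {e : ℕ} {u : A} (hu : π u ≠ 0) (huL : (u : K) ∈ R.L)
    (hqe : (q : K) = R.ϖ ^ e * u) (hx : IsRoot R xs) (hi : 1 ≤ i) (hlt : e + i < q * i)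
    (h : Near R i xs) : Near R (i + 1) xs := by
  classical
  have hq : q.Prime := Fact.out
  obtain ⟨f, ρ, hf, hf1, hρ, hxf⟩ := hx.exists_eq
  obtain ⟨s, p, hs, hs1, hp, hpL, hp1, ε, hε⟩ := h
  set P := pw R.toFrame with hP
  have hqe' : (q : Ser A) = P ^ e * cst u := by
    rw [hP, pw, ← map_pow, ← map_mul, ← map_natCast (cst : A →+* Ser A) q]
    exact congrArg cst (Subtype.ext (by push_cast; exact hqe))
  obtain ⟨r, hr⟩ := dvd_one_add_pow_sub hq (P ^ i * ε)
  refine near_succ_of_split hi hx.mem hs hs1 hp hpL hp1 hε hu huL ?_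
  have hpow : P ^ (q * i) = P ^ (e + i) * P ^ (q * i - (e + i)) := by
    rw [← pow_add]
    congr 1
    omega
  have hd : red2 π (P ^ (q * i - (e + i)) * ε ^ q + cst u * ε * (1 + P ^ i * ε * r)) =
      red2 π (cst u * ε) := by
    simp only [map_add, map_mul, map_pow, map_one, hP, red2_pw, zero_pow (show i ≠ 0 by omega),
      zero_pow (show q * i - (e + i) ≠ 0 by omega), zero_mul, zero_add, add_zero, mul_one]
  rw [← hd]
  refine isSplit_of_mul hS hne (R := R) (show 1 ≤ e + i by omega) (z := f * s ^ q) (w := ρ * p ^ q)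
    (mul_mem hf (pow_mem hs q)) (by rw [map_mul, map_pow, hf1, hs1, one_pow, one_mul])
    (mul_mem hρ (pow_mem hp q)) ?_
  have h1 : f * s ^ q * (ρ * p ^ q) = (1 + P ^ i * ε) ^ q := by
    rw [show 1 + P ^ i * ε = xs * s * p by linear_combination -hε]
    rw [mul_pow, mul_pow, hxf]
    ring
  rw [h1, mul_add, ← mul_assoc (P ^ (e + i)) (P ^ _), ← hpow, mul_comm q i, pow_mul, ← mul_pow,
    pow_add]
  linear_combination hr + (P ^ i * ε + (P ^ i * ε) ^ 2 * r) * hqe'

omit [IsAlgClosed K] [IsAlgClosed k] in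
/-- Beyond `e / (q - 1)` every level is reached. -/
theorem near_all {S : Finset (Place k Fk)} {m₀ : ℕ} (hS : B.IsGluing S m₀)
    (hne : S.Nonempty) {e : ℕ} {u : A} (hu : π u ≠ 0) (huL : (u : K) ∈ R.L)
    (hqe : (q : K) = R.ϖ ^ e * u) (hx : IsRoot R xs) {j : ℕ} (hj : 1 ≤ j) (hlt : e + j < q * j)
    (h : Near R j xs) (n : ℕ) : Near R n xs := by
  suffices h' : ∀ d, Near R (j + d) xs from (h' n).mono (Nat.le_add_left n j)
  intro d
  induction d with
  | zero => exact h
  | succ d ih =>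
    refine near_succ_large hS hne hu huL hqe hx (hj.trans (Nat.le_add_right j d)) ?_ ih
    have h2 := (Fact.out : q.Prime).two_le
    have : q * j + d ≤ q * (j + d) := by
      rw [mul_add]
      exact Nat.add_le_add_left (Nat.le_mul_of_pos_left d (by omega)) _
    show e + (j + d) < q * (j + d)
    omega

omit [IsAlgClosed K] [CharZero K] [IsAlgClosed k] [Fact q.Prime] [CharP k q] in
/-- **The twisted product.** -/
theorem near_twist (hc : IsConj R c) {t : A}
    (ht : c (⟨R.ϖ, R.ϖ_mem_A⟩ ^ i) = ⟨R.ϖ, R.ϖ_mem_A⟩ ^ i * t) {N : ℕ} (hN : π t + (N : k) = 0)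
    (hi : 1 ≤ i) (hxs : xs ∈ Removal.coefS R.L) (h : Near R i xs) :
    Near R (i + 1) (conjS c xs * xs ^ N) := by
  obtain ⟨s, p, hs, hs1, hp, hpL, hp1, ε, hε⟩ := h
  set P := pw R.toFrame with hP
  refine ⟨conjS c s * s ^ N, conjS c p * p ^ N, mul_mem (hc.mem_secS s hs) (pow_mem hs N),
    by rw [map_mul, map_pow, hc.red2_conjS, hs1, one_pow, one_mul],
    mul_mem (conjS_powS c hp) (pow_mem hp N), mul_mem (hc.coefS hpL) (pow_mem hpL N),
    by rw [map_mul, map_pow, hc.red2_conjS, hp1, one_pow, one_mul], ?_⟩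
  have hcP : conjS c (P ^ i) = P ^ i * cst t := by
    rw [hP, pw, ← map_pow, conjS_cst, ht, map_mul]
  have hcε : conjS c (xs * s * p) = 1 + P ^ i * cst t * conjS c ε := by
    rw [← hcP, ← map_mul, ← hε, map_sub, map_one]
    ring
  obtain ⟨r, hr⟩ := exists_one_add_pow (P ^ i * ε) N
  set δ : Ser A := cst t * conjS c ε + (N : Ser A) * ε +
    P ^ i * (ε ^ 2 * r + cst t * conjS c ε * ((N : Ser A) * ε + P ^ i * ε ^ 2 * r)) with hδ
  have he : conjS c xs * xs ^ N * (conjS c s * s ^ N) * (conjS c p * p ^ N) - 1 = P ^ i * δ := by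
    have h1 : conjS c xs * xs ^ N * (conjS c s * s ^ N) * (conjS c p * p ^ N) =
        conjS c (xs * s * p) * (1 + P ^ i * ε) ^ N := by
      rw [show 1 + P ^ i * ε = xs * s * p by linear_combination -hε, map_mul, map_mul, mul_pow,
        mul_pow]
      ring
    rw [h1, hcε, hr, hδ]
    ring
  rw [he, pow_succ]
  refine mul_dvd_mul_left _ (pw_dvd_of_red2 R.toFrame ?_ ?_)
  · refine coefS_of_pw_mul R.toFrame (n := i) (he ▸ sub_mem (mul_mem (mul_mem
      (mul_mem (hc.coefS hxs) (pow_mem hxs N)) (mul_mem (hc.coefS (secS_le_coefS R hs))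
        (pow_mem (secS_le_coefS R hs) N))) (mul_mem (hc.coefS hpL) (pow_mem hpL N))) (one_mem _))
  · have hPi : red2 π (P ^ i) = 0 := by rw [map_pow, hP, red2_pw, zero_pow (by omega)]
    rw [hδ, map_add, map_mul _ (P ^ i), hPi, zero_mul, add_zero, map_add, map_mul, map_mul,
      hc.red2_conjS, map_natCast, ← add_mul,
      show red2 π (cst t) + (N : Fin 2 → LaurentSeries k) = 0 from funext fun l => ?_, zero_mul]
    rw [Pi.add_apply, red2_cst, Pi.natCast_apply, Pi.zero_apply,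
      ← map_natCast (HahnSeries.C : k →+* LaurentSeries k) N, ← map_add, hN, map_zero]

end FLTA.LevelLowering.Removal

end
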