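import Fermat.Agent.LevelLowering.RemovalKey
import Fermat.Agent.Congruence.Twist
import Fermat.Agent.Congruence.FrobeniusField
import Fermat.Agent.BadRed.Kummer
import Mathlib.RingTheory.Norm.Transitivity

/-!
# The expansion of the norm to level `N'` and `q`-th roots of reductions

The norm along `a` is the product of the expansion at `∞` and the conjugates of the expansion at
`0`.  So for a section `z` congruent to a constant modulo `ϖ ^ (q i)` whose norm is a constant
times a `q`-th power, the reduction at level `q i` is a `q`-th power in the reduced field.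
-/

set_option autoImplicit false

noncomputable section

open AlgebraicCurve FLTA.BadRed ModularCurve FLTA.Congruence

namespace FLTA.LevelLowering.Removal

variable {K : Type*} [Field K] {A : ValuationSubring K}
  {k : Type*} [Field k] {π : A →+* k} {q : ℕ} [NeZero q]
  {F : Type*} [Field F] [Algebra K F] {F' : Type*} [Field F'] [Algebra K F']
  {Fk : Type*} [Field Fk] [Algebra k Fk] {g gF : ℕ} (B : BadFibre A π q F F' Fk g gF)

/-- The embeddings of `F` over `F'` into series in `t`, `t ^ q` the uniformizer. -/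
def conjEmb (ζ : Kˣ) : Option (Fin q) → (F →+* LaurentSeries K)
  | none => (qExpand K q).comp (B.e 0).toRingHom
  | some b => (scaleHom (ζ ^ (b : ℕ))).comp (B.e 1).toRingHom

theorem conjEmb_a {ζ : Kˣ} (hζ : ζ ^ q = 1) (c : Option (Fin q)) (x : F') :
    conjEmb B ζ c (B.a x) = qExpand K q (B.e 0 (B.a x)) := by
  rcases c with _ | b
  · rfl
  · show scaleHom (ζ ^ (b : ℕ)) (B.ex (B.w (B.a x))) = _
    rw [B.ex_w_a, scaleHom_qExpand _ _ (by rw [← pow_mul, mul_comm, pow_mul, hζ, one_pow])]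
    rfl

variable [IsAlgClosed K] [CharZero K] [IsAlgClosed k] [Fact q.Prime] [CharP k q]

omit [IsAlgClosed K] [CharZero K] [IsAlgClosed k] [CharP k q] in
theorem conjEmb_injective {ζ : Kˣ} (hζ : IsPrimitiveRoot ζ q) :
    Function.Injective (conjEmb B ζ) := by
  have hq : q.Prime := Fact.out
  obtain ⟨y, hy0, hy⟩ := FLTA.Curves.exists_ord_eq_one B.inf
  rw [B.ord_inf y hy0] at hy
  have hay : B.ex (B.a y) ≠ 0 := (map_ne_zero B.ex).mpr ((map_ne_zero B.a).mpr hy0)
  have hc : (B.ex (B.a y)).coeff 1 ≠ 0 := by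
    rw [← hy]
    exact mt HahnSeries.coeff_order_eq_zero.mp hay
  have he1 : B.e 1 (B.w (B.a y)) = B.ex (B.a y) := congrArg B.ex (B.w_w _)
  have hsome : ∀ b : Fin q, (conjEmb B ζ (some b) (B.w (B.a y))).coeff 1 =
      ((ζ ^ (b : ℕ) : Kˣ) : K) * (B.ex (B.a y)).coeff 1 := fun b => by
    show (scaleHom (ζ ^ (b : ℕ)) (B.e 1 (B.w (B.a y)))).coeff 1 = _
    rw [he1, scaleHom_coeff, zpow_one]
  have hnone : (conjEmb B ζ none (B.w (B.a y))).coeff 1 = 0 :=
    qExpand_coeff_of_not_dvd q _ fun hd => hq.one_lt.ne'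
      (by exact_mod_cast Int.eq_one_of_dvd_one (Int.natCast_nonneg q) hd)
  rintro (_ | b) (_ | b') h
  · rfl
  · exfalso
    have h' := congrArg (fun f : F →+* LaurentSeries K => (f (B.w (B.a y))).coeff 1) h
    simp only [hnone, hsome] at h'
    exact mul_ne_zero (Units.ne_zero _) hc h'.symm
  · exfalso
    have h' := congrArg (fun f : F →+* LaurentSeries K => (f (B.w (B.a y))).coeff 1) h
    simp only [hnone, hsome] at h'
    exact mul_ne_zero (Units.ne_zero _) hc h'
  · have h' := congrArg (fun f : F →+* LaurentSeries K => (f (B.w (B.a y))).coeff 1) h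
    simp only [hsome] at h'
    exact congrArg some (Fin.ext (hζ.pow_inj b.2 b'.2 (Units.ext (mul_right_cancel₀ hc h'))))

omit [IsAlgClosed K] [IsAlgClosed k] [CharP k q] in
/-- **The expansion of the norm.** -/
theorem qExpand_normA {ζ : Kˣ} (hζ : IsPrimitiveRoot ζ q) (f : F) :
    qExpand K q (B.ex (B.a (B.normA f))) =
      qExpand K q (B.e 0 f) * ∏ b ∈ Finset.range q, scaleHom (ζ ^ b) (B.e 1 f) := by
  classical
  letI := algebraAlong B.a
  haveI : Module.Finite F' F := B.finite_a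
  haveI : FiniteDimensional F' F := B.finite_a
  haveI : CharZero F' := charZero_of_injective_algebraMap (algebraMap K F').injective
  set E := AlgebraicClosure (LaurentSeries K)
  set ι : LaurentSeries K →+* E := algebraMap (LaurentSeries K) E with hι
  letI aE : Algebra F' E :=
    ((ι.comp (qExpand K q)).comp ((B.e 0).toRingHom.comp B.a.toRingHom)).toAlgebra
  let label : Option (Fin q) → (F →ₐ[F'] E) := fun c =>
    { toRingHom := ι.comp (conjEmb B ζ c)
      commutes' := fun x => congrArg ι (conjEmb_a B hζ.pow_eq_one c x) }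
  have hinj : Function.Injective label := fun c c' h => conjEmb_injective B hζ
    (RingHom.ext fun x => ι.injective (congrArg (fun s : F →ₐ[F'] E => s x) h))
  have hbij : Function.Bijective label := by
    refine (Fintype.bijective_iff_injective_and_card label).mpr ⟨hinj, ?_⟩
    rw [AlgHom.card, Fintype.card_option, Fintype.card_fin]
    exact B.finrank_a.symm
  apply ι.injective
  show algebraMap F' E (Algebra.norm F' f) = _
  rw [Algebra.norm_eq_prod_embeddings]
  refine (Fintype.prod_bijective label hbij (fun c => ι (conjEmb B ζ c f)) _ fun c => rfl).symm.trans ?_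
  rw [Fintype.prod_option, map_mul, map_prod,
    ← Fin.prod_univ_eq_prod_range (fun b => ι (scaleHom (ζ ^ b) (B.e 1 f))) q]
  rfl

section Congruence

variable {R : Type*} [CommRing R]

theorem sq_dvd_prod_add (c ε : R) (x : ℕ → R) (m : ℕ) :
    ε ^ 2 ∣ ∏ b ∈ Finset.range (m + 1), (c + ε * x b) -
      (c ^ (m + 1) + c ^ m * ε * ∑ b ∈ Finset.range (m + 1), x b) := by
  induction m with
  | zero => simp
  | succ m ih =>
    obtain ⟨d, hd⟩ := ih
    refine ⟨c ^ m * x (m + 1) * (∑ b ∈ Finset.range (m + 1), x b) +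
      d * (c + ε * x (m + 1)), ?_⟩
    rw [Finset.prod_range_succ _ (m + 1), Finset.sum_range_succ _ (m + 1)]
    linear_combination (c + ε * x (m + 1)) * hd

theorem sum_scaleHom_dvd [IsDomain R] {l : ℕ} {z : Rˣ} (hz : IsPrimitiveRoot z l)
    (x : LaurentSeries R) :
    (l : LaurentSeries R) ∣ ∑ b ∈ Finset.range l, scaleHom (z ^ b) x := by
  classical
  refine ⟨{ coeff := fun i => if (l : ℤ) ∣ i then x.coeff i else 0
            isPWO_support' := x.isPWO_support'.mono fun i hi h0 => hi (by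
              show (if (l : ℤ) ∣ i then x.coeff i else 0) = 0
              rw [h0, ite_self]) }, ?_⟩
  rw [← nsmul_eq_mul]
  ext i
  rw [HahnSeries.coeff_sum, HahnSeries.coeff_nsmul, Pi.smul_apply, nsmul_eq_mul]
  simp only [scaleHom_coeff]
  rw [← Finset.sum_mul]
  have e : ∀ b : ℕ, (((z ^ b) ^ i : Rˣ) : R) = ((z ^ i : Rˣ) : R) ^ b := fun b => by
    rw [← Units.val_pow_eq_pow_val, ← zpow_natCast, ← zpow_natCast, ← zpow_mul, ← zpow_mul,
      mul_comm]
  simp only [e]
  by_cases hd : (l : ℤ) ∣ i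
  · rw [if_pos hd, (hz.zpow_eq_one_iff_dvd i).mpr hd]
    simp
  · rw [if_neg hd, mul_zero]
    refine mul_eq_zero_of_left ?_ _
    have hne : ((z ^ i : Rˣ) : R) - 1 ≠ 0 := by
      rw [sub_ne_zero, Ne, ← Units.val_one, Units.val_inj]
      exact fun h => hd ((hz.zpow_eq_one_iff_dvd i).mp h)
    refine (mul_eq_zero.mp ?_).resolve_right hne
    rw [geom_sum_mul, ← Units.val_pow_eq_pow_val, ← zpow_natCast, ← zpow_mul, mul_comm, zpow_mul,
      zpow_natCast, hz.pow_eq_one, one_zpow, Units.val_one, sub_self]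

end Congruence

omit [IsAlgClosed K] [IsAlgClosed k] [CharP k q] in
/-- The norm of a pair congruent to a constant. -/
theorem exists_norm_congr (fr : Frame A π) (hq : pw fr ∣ (q : Ser A)) {ζ : Aˣ}
    (hζ : IsPrimitiveRoot ζ q) {J : ℕ} (hJ : 1 ≤ J) {z : F} {c : A} {z' : Ser A}
    (hz : emb A (cst c + pw fr ^ J * z') = pairHom B z) :
    ∃ Y d : LaurentSeries A, coeffMap A.subtype Y = B.ex (B.a (B.normA z)) ∧
      Y = HahnSeries.C (c ^ (q + 1)) +
        HahnSeries.C ⟨fr.ϖ, fr.ϖ_mem_A⟩ ^ J * (HahnSeries.C (c ^ q) * z' 0) +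
        HahnSeries.C ⟨fr.ϖ, fr.ϖ_mem_A⟩ ^ (J + 1) * d := by
  classical
  set P : LaurentSeries A := HahnSeries.C ⟨fr.ϖ, fr.ϖ_mem_A⟩ with hP
  set C : LaurentSeries A := HahnSeries.C c with hC
  set ζK : Kˣ := Units.map (A.subtype : A →* K) ζ with hζK
  have hζK' : IsPrimitiveRoot ζK q :=
    hζ.map_of_injective (Units.map_injective Subtype.coe_injective)
  have he : ∀ l, B.e l z = coeffMap A.subtype (C + P ^ J * z' l) := fun l =>
    (congrFun hz l).symm
  have hX : coeffMap A.subtype (qExpand A q (C + P ^ J * z' 0) *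
      ∏ b ∈ Finset.range q, scaleHom (ζ ^ b) (C + P ^ J * z' 1)) =
      qExpand K q (B.ex (B.a (B.normA z))) := by
    rw [qExpand_normA B hζK', map_mul, map_prod, coeffMap_qExpand, he 0, he 1]
    refine congrArg₂ (· * ·) rfl (Finset.prod_congr rfl fun b _ => ?_)
    rw [coeffMap_scaleHom, hζK, map_pow]
  obtain ⟨Y, hYX, hY⟩ := exists_qExpand_eq (f := A.subtype) Subtype.coe_injective q hX
  have hsC : ∀ b : ℕ, scaleHom (ζ ^ b) (C + P ^ J * z' 1) =
      C + P ^ J * scaleHom (ζ ^ b) (z' 1) := fun b => by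
    rw [map_add, map_mul, map_pow, hC, hP, HahnSeries.C_apply, HahnSeries.C_apply, scaleHom_single,
      scaleHom_single, zpow_zero, Units.val_one, one_mul, one_mul]
  obtain ⟨m, hm⟩ : ∃ m, q = m + 1 := ⟨q - 1, by have := (Fact.out : q.Prime).pos; omega⟩
  obtain ⟨d₂, hd₂⟩ := sq_dvd_prod_add C (P ^ J) (fun b => scaleHom (ζ ^ b) (z' 1)) m
  rw [← hm] at hd₂
  obtain ⟨w, hw⟩ := sum_scaleHom_dvd hζ (z' 1)
  obtain ⟨u, hu⟩ : P ∣ (q : LaurentSeries A) := by
    obtain ⟨v, hv⟩ := hq
    exact ⟨v 0, congrFun hv 0⟩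
  have hqC : qExpand A q C = C := by rw [hC, qExpand_C]
  have hqP : qExpand A q P = P := by rw [hP, qExpand_C]
  have key : ∃ D, qExpand A q (Y - (C ^ (q + 1) + P ^ J * (C ^ q * z' 0))) = P ^ (J + 1) * D := by
    refine ⟨(C + P ^ J * qExpand A q (z' 0)) * (C ^ m * (u * w) + P ^ (J - 1) * d₂), ?_⟩
    have hJ2 : (P ^ J) ^ 2 = P ^ (J + 1) * P ^ (J - 1) := by
      rw [← pow_mul, ← pow_add]
      congr 1
      omega
    rw [map_sub, hYX, Finset.prod_congr rfl fun b _ => hsC b]
    simp only [map_add, map_mul, map_pow, hqC, hqP, pow_succ C q]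
    linear_combination (C + P ^ J * qExpand A q (z' 0)) * hd₂ +
      (C + P ^ J * qExpand A q (z' 0)) * C ^ m * P ^ J * hw +
      (C + P ^ J * qExpand A q (z' 0)) * C ^ m * P ^ J * w * hu +
      (C + P ^ J * qExpand A q (z' 0)) * d₂ * hJ2
  obtain ⟨D, hD⟩ := key
  set T := Y - (C ^ (q + 1) + P ^ J * (C ^ q * z' 0)) with hT
  have hDK : coeffMap A.subtype D =
      qExpand K q (HahnSeries.C (fr.ϖ ^ (J + 1))⁻¹ * coeffMap A.subtype T) := by
    rw [map_mul, qExpand_C, ← coeffMap_qExpand, hD, map_mul, map_pow, hP,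
      HahnSeries.C_apply, HahnSeries.C_apply, coeffMap_single, ← HahnSeries.C_apply,
      ← HahnSeries.C_apply, ← map_pow, ← mul_assoc, ← map_mul]
    show _ = HahnSeries.C ((fr.ϖ ^ (J + 1))⁻¹ * fr.ϖ ^ (J + 1)) * _
    rw [inv_mul_cancel₀ (pow_ne_zero _ fr.ϖ_ne_zero), map_one, one_mul]
  obtain ⟨d, hd, -⟩ := exists_qExpand_eq (f := A.subtype) Subtype.coe_injective q hDK
  refine ⟨Y, d, hY, ?_⟩
  have hT' : T = P ^ (J + 1) * d := qExpand_injective q (by
    rw [hD, map_mul, map_pow, hqP, hd])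
  rw [map_pow, map_pow, ← hC, ← hT', hT]
  abel

end FLTA.LevelLowering.Removal

end
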