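import Fermat.Agent.LevelLowering.ToricNorm

/-!
# `q`-th roots of reductions from trivial norms

If a section is congruent to a constant modulo `ϖ ^ (q i)`, `q i < e + i`, and its norm to level
`N'` is a constant times a `q`-th power, its reduction at level `q i` is a `q`-th power in the
reduced field: the root of the norm is `1 + ϖ ^ i W` and `W` reduces to the root.
-/

set_option autoImplicit false

noncomputable section

open AlgebraicCurve FLTA.BadRed ModularCurve

namespace FLTA.LevelLowering.Removal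

variable {K : Type*} [Field K] {A : ValuationSubring K}
  {k : Type*} [Field k] {π : A →+* k} {q : ℕ} [NeZero q]
  {F : Type*} [Field F] [Algebra K F] {F' : Type*} [Field F'] [Algebra K F']
  {Fk : Type*} [Field Fk] [Algebra k Fk] {g gF : ℕ} {B : BadFibre A π q F F' Fk g gF}

variable (B) in
/-- Outside the valuation ring of the reduction, the inverse reduces to zero. -/
theorem red_inv_eq_zero {x : F'} (hx : x ∉ B.R.O) :
    ∃ hx' : x⁻¹ ∈ B.R.O, B.R.red ⟨x⁻¹, hx'⟩ = 0 := by
  refine ⟨(B.R.O.mem_or_inv_mem x).resolve_left hx, ?_⟩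
  by_contra h
  have hker := IsLocalRing.eq_maximalIdeal
    (RingHom.ker_isMaximal_of_surjective B.R.red B.R.red_surjective)
  have hu : IsUnit (⟨x⁻¹, (B.R.O.mem_or_inv_mem x).resolve_left hx⟩ : B.R.O) := by
    by_contra hn
    have hm := (IsLocalRing.mem_maximalIdeal _).mpr hn
    rw [← hker] at hm
    exact h hm
  obtain ⟨v, hv⟩ := hu.exists_right_inv
  have hv' := congrArg (fun t : B.R.O => (t : F')) hv
  simp only [MulMemClass.coe_mul, OneMemClass.coe_one] at hv'
  apply hx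
  rw [← inv_inv x, ← eq_inv_of_mul_eq_one_right hv']
  exact v.2

variable (B) in
/-- Both norms are constants times `q`-th powers. -/
def NormPow (f : F) : Prop :=
  (∃ (c : K) (h : F'), B.normA f = c • h ^ q) ∧ ∃ (c : K) (h : F'), B.normA (B.w f) = c • h ^ q

theorem NormPow.w {f : F} (h : NormPow B f) : NormPow B (B.w f) :=
  ⟨h.2, by rw [B.w_w]; exact h.1⟩

theorem normA_mul (f f' : F) : B.normA (f * f') = B.normA f * B.normA f' := by
  letI := algebraAlong B.a
  exact map_mul (Algebra.norm F') f f'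

theorem normA_pow (f : F) (n : ℕ) : B.normA (f ^ n) = B.normA f ^ n := by
  letI := algebraAlong B.a
  exact map_pow (Algebra.norm F') f n

theorem normA_algebraMap (c : K) :
    B.normA (algebraMap K F c) = algebraMap K F' (c ^ (q + 1)) := by
  letI := algebraAlong B.a
  show Algebra.norm F' (algebraMap K F c) = _
  rw [← B.a.commutes c, show B.a (algebraMap K F' c) = algebraMap F' F (algebraMap K F' c) from rfl,
    Algebra.norm_algebraMap, map_pow]
  congr 1
  exact B.finrank_a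

theorem NormPow.mul {f f' : F} (h : NormPow B f) (h' : NormPow B f') : NormPow B (f * f') := by
  refine ⟨?_, ?_⟩
  · obtain ⟨c, x, hx⟩ := h.1
    obtain ⟨c', x', hx'⟩ := h'.1
    exact ⟨c * c', x * x', by rw [normA_mul, hx, hx', smul_mul_smul_comm, mul_pow]⟩
  · obtain ⟨c, x, hx⟩ := h.2
    obtain ⟨c', x', hx'⟩ := h'.2
    exact ⟨c * c', x * x', by rw [map_mul, normA_mul, hx, hx', smul_mul_smul_comm, mul_pow]⟩

theorem normPow_pow (f : F) : NormPow B (f ^ q) :=
  ⟨⟨1, B.normA f, by rw [one_smul, normA_pow]⟩,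
    ⟨1, B.normA (B.w f), by rw [one_smul, map_pow, normA_pow]⟩⟩

theorem normPow_algebraMap (c : K) : NormPow B (algebraMap K F c) := by
  refine ⟨⟨c ^ (q + 1), 1, ?_⟩, ⟨c ^ (q + 1), 1, ?_⟩⟩ <;>
    simp [normA_algebraMap, Algebra.smul_def]

variable [IsAlgClosed K] [CharZero K] [IsAlgClosed k] [Fact q.Prime] [CharP k q]

omit [IsAlgClosed k] in
/-- **The root from one norm.** -/
theorem exists_root_side {R : RatFrame B} {e : ℕ} {u : A}
    (hqe : (q : K) = R.ϖ ^ e * u) {ζ : Aˣ} (hζ : IsPrimitiveRoot ζ q) {i : ℕ} (hi : 1 ≤ i)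
    (hlt : q * i < e + i) {z : F} {c : A} (hc : π c = 1) {z' : Ser A}
    (hz : emb A (cst c + pw R.toFrame ^ (q * i) * z') = pairHom B z)
    (hN : ∃ (c₀ : K) (h : F'), B.normA z = c₀ • h ^ q) :
    ∃ w : Fk, B.exk w ^ q = red2 π z' 0 := by
  classical
  have hq : q.Prime := Fact.out
  haveI : CharP Fk q := charP_of_injective_algebraMap (algebraMap k Fk).injective q
  haveI : ExpChar Fk q := ExpChar.prime hq
  have he : 1 ≤ e := by
    have := Nat.le_mul_of_pos_left i hq.pos
    omega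
  have hqpw : pw R.toFrame ∣ (q : Ser A) := by
    refine ⟨pw R.toFrame ^ (e - 1) * cst u, ?_⟩
    rw [← mul_assoc, ← pow_succ', Nat.sub_add_cancel he, pw, ← map_pow, ← map_mul,
      ← map_natCast (cst : A →+* Ser A) q]
    exact congrArg cst (Subtype.ext (by push_cast; exact hqe))
  obtain ⟨Y, d, hY, hYe⟩ :=
    exists_norm_congr B R.toFrame hqpw hζ (Nat.mul_pos hq.pos hi) hz
  obtain ⟨c₀, h, hh⟩ := hN
  set N := B.normA z with hNdef
  have hc0 : (c : K) ≠ 0 := fun h0 => by
    rw [show c = 0 from Subtype.ext h0, map_zero] at hc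
    exact zero_ne_one hc
  set ci : A := ⟨(c : K)⁻¹, residue_ne_zero_inv_mem R.π_surjective c.2
    (by rw [hc]; exact one_ne_zero)⟩ with hci
  have hcic : ci * c = 1 := Subtype.ext (inv_mul_cancel₀ hc0)
  have hπci : π ci = 1 := by
    have h1 := congrArg π hcic
    rwa [map_mul, map_one, hc, mul_one] at h1
  have hexa : ∀ a : K, B.ex (B.a (algebraMap K F' a)) = HahnSeries.C a := fun a => by
    rw [B.a.commutes, AlgHom.commutes, algebraMap_laurentSeries_eq_single, ← HahnSeries.C_apply]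
  have hC : ∀ a : A, coeffMap A.subtype (HahnSeries.C a) = HahnSeries.C (a : K) := fun a => by
    rw [HahnSeries.C_apply, HahnSeries.C_apply, coeffMap_single]
    rfl
  have hϖ0 := R.ϖ_ne_zero
  set J := q * i with hJ
  set W1F : F' := algebraMap K F' ((c : K) ^ (q + 1) * R.ϖ ^ J)⁻¹ *
    (N - algebraMap K F' ((c : K) ^ (q + 1))) with hW1F
  set Y1 : LaurentSeries A := HahnSeries.C (ci ^ (q + 1)) *
    (HahnSeries.C (c ^ q) * z' 0 + HahnSeries.C ⟨R.ϖ, R.ϖ_mem_A⟩ * d) with hY1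
  have hW1s : B.ex (B.a W1F) = coeffMap A.subtype Y1 := by
    rw [hW1F, map_mul, map_mul, map_sub, map_sub, hexa, hexa, ← hY, hYe, hY1]
    simp only [map_add, map_mul, map_pow, hC]
    have e1 : (HahnSeries.C ((c : K) ^ (q + 1) * R.ϖ ^ J)⁻¹ : LaurentSeries K) *
        HahnSeries.C R.ϖ ^ J = HahnSeries.C (ci : K) ^ (q + 1) := by
      rw [← map_pow, ← map_pow, ← map_mul]
      refine congrArg _ ?_
      show _ = ((c : K)⁻¹) ^ (q + 1)
      rw [mul_inv, mul_assoc, inv_mul_cancel₀ (pow_ne_zero _ hϖ0), mul_one, inv_pow]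
    rw [pow_succ (HahnSeries.C R.ϖ) J]
    linear_combination (HahnSeries.C (c : K) ^ q * coeffMap A.subtype (z' 0) +
      HahnSeries.C R.ϖ * coeffMap A.subtype d) * e1
  obtain ⟨hW1, hW1r⟩ := B.red_of_int W1F (by rw [hW1s]; exact intSeries_coeffMap Y1)
  have hW1red : B.exk (B.R.red ⟨W1F, hW1⟩) = red2 π z' 0 := by
    rw [hW1r, hW1s, redSeries_coeffMap, hY1]
    have hCπ : ∀ a : A, coeffMap π (HahnSeries.C a) = HahnSeries.C (π a) := fun a => by
      rw [HahnSeries.C_apply, HahnSeries.C_apply, coeffMap_single]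
    rw [map_mul, map_add, map_mul, map_mul, hCπ, hCπ, hCπ, R.π_ϖ, map_pow π, map_pow π, hπci, hc,
      one_pow, one_pow, map_one, map_zero, one_mul, one_mul, zero_mul, add_zero]
    rfl
  set W1 : B.R.O := ⟨W1F, hW1⟩ with hW1def
  let inO : A → B.R.O := fun a => ⟨algebraMap K F' (a : K), B.R.algebraMap_mem a⟩
  set P : B.R.O := inO ⟨R.ϖ, R.ϖ_mem_A⟩ with hPdef
  have hPK : (P : F') = algebraMap K F' R.ϖ := rfl
  have hPne : (P : F') ≠ 0 := (map_ne_zero _).mpr hϖ0
  have hP0 : P ≠ 0 := fun h0 => hPne (congrArg Subtype.val h0)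
  have hPr : B.R.red P = 0 := by
    rw [hPdef]
    show B.R.red ⟨algebraMap K F' _, _⟩ = 0
    rw [B.R.red_algebraMap, R.π_ϖ, map_zero]
  have hqO : (q : B.R.O) = P ^ e * inO u := Subtype.ext (by
    show ((q : B.R.O) : F') = algebraMap K F' R.ϖ ^ e * algebraMap K F' (u : K)
    rw [← map_pow, ← map_mul, ← hqe, map_natCast]
    rfl)
  -- the root of the norm
  obtain ⟨γ, hγ⟩ := IsAlgClosed.exists_pow_nat_eq (c₀ / (c : K) ^ (q + 1)) hq.pos
  set h' : F' := algebraMap K F' γ * h with hh'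
  have hh'q : h' ^ q = ((1 + P ^ J * W1 : B.R.O) : F') := by
    rw [hh', mul_pow, ← map_pow, hγ, AddMemClass.coe_add, OneMemClass.coe_one, MulMemClass.coe_mul,
      SubmonoidClass.coe_pow, hPK, hW1def]
    show _ = 1 + _ * W1F
    rw [hW1F, hh, Algebra.smul_def, map_div₀, map_inv₀, map_mul, map_pow, map_pow]
    have : algebraMap K F' R.ϖ ^ J ≠ 0 := pow_ne_zero _ ((map_ne_zero _).mpr hϖ0)
    have : algebraMap K F' (c : K) ^ (q + 1) ≠ 0 := pow_ne_zero _ ((map_ne_zero _).mpr hc0)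
    field_simp
    ring
  have hX1 : B.R.red (1 + P ^ J * W1) = 1 := by
    rw [map_add, map_one, map_mul, map_pow, hPr, zero_pow (Nat.mul_pos hq.pos hi).ne', zero_mul, add_zero]
  have hh'O : h' ∈ B.R.O := by
    by_contra hn
    obtain ⟨hv, hv0⟩ := red_inv_eq_zero B hn
    have hne : h' ≠ 0 := fun h0 => hn (h0 ▸ zero_mem _)
    have e1 : (⟨h'⁻¹, hv⟩ : B.R.O) ^ q * (1 + P ^ J * W1) = 1 := Subtype.ext (by
      rw [MulMemClass.coe_mul, SubmonoidClass.coe_pow, ← hh'q, ← mul_pow, inv_mul_cancel₀ hne,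
        one_pow]
      rfl)
    have e2 := congrArg B.R.red e1
    rw [map_mul, map_pow, hv0, zero_pow hq.ne_zero, zero_mul, map_one] at e2
    exact zero_ne_one e2
  set η : B.R.O := ⟨h', hh'O⟩ - 1 with hη
  have hηX : (1 + η) ^ q = 1 + P ^ J * W1 := Subtype.ext (by
    rw [hη, add_sub_cancel, SubmonoidClass.coe_pow]
    exact hh'q)
  obtain ⟨r, hr⟩ := dvd_one_add_pow_sub hq η
  have hmain : η ^ q + P ^ e * inO u * η * (1 + η * r) = P ^ J * W1 := by
    rw [← hqO]
    linear_combination hηX - hr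
  have hJlt : P ^ e * P ^ i = P ^ J * P ^ (e + i - J) := by
    rw [← pow_add, ← pow_add]
    congr 1
    omega
  have hred0 : B.R.red (P ^ (e + i - J)) = 0 := by
    rw [map_pow, hPr, zero_pow (by omega)]
  set WF : F' := (η : F') / (P : F') ^ i with hWF
  by_cases hW : WF ∈ B.R.O
  · refine ⟨B.R.red ⟨WF, hW⟩, ?_⟩
    set W : B.R.O := ⟨WF, hW⟩
    have hηW : η = P ^ i * W := Subtype.ext (by
      rw [MulMemClass.coe_mul, SubmonoidClass.coe_pow]
      exact (mul_div_cancel₀ _ (pow_ne_zero _ hPne)).symm)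
    have e1 : P ^ J * (W ^ q + P ^ (e + i - J) * (inO u * W * (1 + η * r))) = P ^ J * W1 := by
      rw [← hmain, mul_add, ← mul_assoc (P ^ J) (P ^ _), ← hJlt, hJ, mul_comm q i, pow_mul,
        ← mul_pow, ← hηW, mul_assoc (P ^ e), mul_assoc (P ^ e)]
      linear_combination P ^ e * inO u * (1 + η * r) * hηW * (-1)
    have e2 := congrArg B.R.red (mul_left_cancel₀ (pow_ne_zero _ hP0) e1)
    rw [map_add, map_mul B.R.red (P ^ _), hred0, zero_mul, add_zero, map_pow] at e2
    rw [← map_pow, e2, hW1red]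
  · exfalso
    obtain ⟨hv, hv0⟩ := red_inv_eq_zero B hW
    set V : B.R.O := ⟨WF⁻¹, hv⟩
    have hηne : (η : F') ≠ 0 := fun h0 => hW (by rw [hWF, h0, zero_div]; exact zero_mem _)
    have hηV : η * V = P ^ i := Subtype.ext (by
      rw [MulMemClass.coe_mul, SubmonoidClass.coe_pow]
      show (η : F') * WF⁻¹ = _
      rw [hWF, inv_div, mul_div_cancel₀ _ hηne])
    have hVq : V ^ q = V * V ^ (q - 1) := by rw [← pow_succ', Nat.sub_add_cancel hq.pos]
    have e1 : P ^ J * (1 + P ^ (e + i - J) * (inO u * V ^ (q - 1) * (1 + η * r))) =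
        P ^ J * (W1 * V ^ q) := by
      rw [mul_add, mul_one, ← mul_assoc (P ^ J) (P ^ _), ← hJlt, ← mul_assoc (P ^ J) W1, ← hmain,
        add_mul, ← mul_pow, hηV, ← pow_mul, mul_comm i q, ← hJ, hVq]
      linear_combination -(P ^ e * inO u * (1 + η * r) * V ^ (q - 1)) * hηV
    have e2 := congrArg B.R.red (mul_left_cancel₀ (pow_ne_zero _ hP0) e1)
    rw [map_add, map_one, map_mul B.R.red (P ^ _), hred0, zero_mul, add_zero, map_mul, map_pow,
      hv0, zero_pow hq.ne_zero, mul_zero] at e2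
    exact one_ne_zero e2

omit [IsAlgClosed k] in
/-- A series whose `q`-th power has no polar part has none. -/
theorem coeff_eq_zero_of_pow {x : LaurentSeries k} (h : ∀ j < (0 : ℤ), (x ^ q).coeff j = 0)
    {j : ℤ} (hj : j < 0) : x.coeff j = 0 := by
  by_contra hne
  have hx : x ≠ 0 := fun h0 => hne (by rw [h0]; rfl)
  have hq : (0 : ℤ) < q := by exact_mod_cast (Fact.out : q.Prime).pos
  have hord : x.order ≤ j := HahnSeries.order_le_of_coeff_ne_zero hne
  have h1 : (x ^ q).order < 0 := by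
    rw [HahnSeries.order_pow, nsmul_eq_mul]
    exact mul_neg_of_pos_of_neg hq (by omega)
  exact mt HahnSeries.coeff_order_eq_zero.mp (pow_ne_zero _ hx) (h _ h1)

/-- **Trivial norms split the level `q i`.** -/
theorem isSplit_of_norm {S : Finset (Place k Fk)} {m₀ : ℕ} (hS : B.IsGluing S m₀)
    (hne : S.Nonempty) {R : RatFrame B} {e : ℕ} {u : A} (hqe : (q : K) = R.ϖ ^ e * u) {ζ : Aˣ}
    (hζ : IsPrimitiveRoot ζ q) {i : ℕ} (hi : 1 ≤ i) (hlt : q * i < e + i) {z w d ε : Ser A}
    (hz : z ∈ secS R) (hz1 : red2 π z = 1) (hw : w ∈ powS A)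
    (h : z * w = 1 + pw R.toFrame ^ (q * i) * d) (hd : red2 π d = red2 π ε ^ q) {zF : F}
    (hzF : pairHom B zF = emb A z) (hN : NormPow B zF) : IsSplit B (red2 π ε) := by
  classical
  have hq : q.Prime := Fact.out
  obtain ⟨c, hc, -, z', hz', hzc, hneg⟩ :=
    exists_cst_add hS hne (Nat.mul_pos hq.pos hi) hz hz1 hw h
  have hswap : emb A (cst c + pw R.toFrame ^ (q * i) * ![z' 1, z' 0]) = pairHom B (B.w zF) := by
    have h0 : ∀ l, B.e l zF = coeffMap A.subtype ((cst c + pw R.toFrame ^ (q * i) * z') l) :=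
      fun l => by rw [← hzc]; exact congrFun hzF l
    refine funext (Fin.forall_fin_two.mpr ⟨?_, ?_⟩)
    · exact (h0 1).symm
    · show _ = B.ex (B.w (B.w zF))
      rw [B.w_w]
      exact (h0 0).symm
  obtain ⟨w0, hw0⟩ :=
    exists_root_side hqe hζ hi hlt hc (z := zF) (by rw [← hzc, hzF]) hN.1
  obtain ⟨w1, hw1⟩ := exists_root_side hqe hζ hi hlt hc hswap hN.w.1
  obtain ⟨p, ⟨m, hm⟩, hp⟩ := exists_inBar hz'
  set wp : Fin 2 → Fk := ![w0, w1] with hwp
  have hwpq : ∀ l, wp l ^ q = p l := fun l => B.exk.toRingHom.injective (by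
    show B.exk (wp l ^ q) = B.exk (p l)
    rw [map_pow, hp l]
    fin_cases l
    · exact hw0
    · exact hw1)
  haveI : ExpChar k q := ExpChar.prime hq
  have hdeg := B.rrk.deg_eq_one
  obtain ⟨hL, hglue⟩ := (hS.mem_iff _ (le_max_right m m₀) p).mp
    (B.secs_mono (le_max_left m m₀) hm)
  have hmemv : ∀ (v : Place k Fk) l, p l ∈ v.toValuationSubring →
      wp l ∈ v.toValuationSubring := by
    intro v l hpl
    rcases eq_or_ne (wp l) 0 with h0 | h0
    · rw [h0]; exact zero_mem _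
    rw [FLTA.Curves.mem_iff_ord_nonneg _ (pow_ne_zero q h0 |> (hwpq l ▸ ·)), ← hwpq,
      FLTA.Curves.ord_pow] at hpl
    exact (FLTA.Curves.mem_iff_ord_nonneg _ h0).mpr
      (nonneg_of_mul_nonneg_right hpl (by exact_mod_cast hq.pos))
  have hbar : B.InBar wp := by
    refine ⟨max m m₀, (hS.mem_iff _ (le_max_right m m₀) wp).mpr ⟨fun l => ?_, fun Q hQ => ?_⟩⟩
    · refine B.mem_single_of_le (fun v hv => hmemv v l (B.mem_regFk_of_mem (hL l) v hv)) fun h0 => ?_
      have h1 := B.neg_le_ord_infk (hL l) (by rw [← hwpq]; exact pow_ne_zero q h0)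
      rw [← hwpq, FLTA.Curves.ord_pow] at h1
      have h2 : (0 : ℤ) < q := by exact_mod_cast hq.pos
      by_contra hlt'
      push Not at hlt'
      nlinarith
    · have hQ1 : Q ≠ B.infk := fun h0 => hS.infk_notMem (h0 ▸ hQ)
      have hQ2 := hS.smul_ne Q hQ
      have e := hglue Q hQ
      rw [← hwpq 0, ← hwpq 1,
        BadFibre.placeVal_pow (hdeg Q) (hmemv Q 0 (B.mem_regFk_of_mem (hL 0) Q hQ1)),
        BadFibre.placeVal_pow (hdeg _) (hmemv _ 1 (B.mem_regFk_of_mem (hL 1) _ hQ2))] at e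
      exact frobenius_inj k q e
  haveI : CharP (LaurentSeries k) q :=
    charP_of_injective_algebraMap (algebraMap k (LaurentSeries k)).injective q
  refine ⟨wp, hbar, fun l j hj => ?_⟩
  refine sub_eq_zero.mp (Eq.trans (HahnSeries.coeff_sub (a := j)).symm ?_)
  refine coeff_eq_zero_of_pow (q := q) (fun j' hj' => ?_) hj
  rw [sub_pow_char, ← map_pow, hwpq, hp, ← Pi.pow_apply, ← hd, HahnSeries.coeff_sub,
    hneg l j' hj', sub_self]

end FLTA.LevelLowering.Removal

end
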