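import Fermat.Agent.LevelLowering.ToricNear
import Fermat.Agent.BadRed.Ordinary.Classes
import Fermat.Agent.BadRed.Ordinary.Separation

/-!
# A representative near at every level is trivial

If the expansions of the function of a representative are a section times a pair of power series
modulo every power of the uniformizer, the class is zero.
-/

set_option autoImplicit false
set_option linter.unusedSectionVars false

noncomputable section

open AlgebraicCurve FLTA.BadRed ModularCurve

namespace FLTA.LevelLowering.Removal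

variable {K : Type*} [Field K] [IsAlgClosed K] [CharZero K] {A : ValuationSubring K}
  {k : Type*} [Field k] [IsAlgClosed k] {π : A →+* k} {q : ℕ} [NeZero q] [Fact q.Prime] [CharP k q]
  {F : Type*} [Field F] [Algebra K F] {F' : Type*} [Field F'] [Algebra K F']
  {Fk : Type*} [Field Fk] [Algebra k Fk] {g gF : ℕ} {B : BadFibre A π q F F' Fk g gF}
  {S : Finset (Place k Fk)} {m₀ : ℕ} {G : Type*} [Group G] [MulSemiringAction G K]

/-- Integers as integers fixed by the trivial group. -/
def toBot (G : Type*) [Group G] [MulSemiringAction G K] :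
    A →+* Ordinary.intFixed A (⊥ : Subgroup G) where
  toFun a := ⟨a, (Ordinary.mem_intFixed_bot A).mpr a.2⟩
  map_one' := rfl
  map_mul' _ _ := rfl
  map_zero' := rfl
  map_add' _ _ := rfl

/-- Pairs of integral series modulo `q ^ M`. -/
def modPair (G : Type*) [Group G] [MulSemiringAction G K] (q M : ℕ) :
    Ser A →+* Ordinary.LPair (Ordinary.TRing A (⊥ : Subgroup G) q M) :=
  Ordinary.mapPair ((Ideal.Quotient.mk _).comp (toBot G))

theorem good_of_emb {x : F} {t : Ser A} (h : emb A t = pairHom B x) :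
    Ordinary.Good B (⊥ : Subgroup G) x :=
  Ordinary.good_bot fun i j => by
    show (B.e i x).coeff j ∈ A
    rw [← pairHom_apply, ← h, emb_coeff]
    exact SetLike.coe_mem _

theorem trunc_of_emb {x : F} {t : Ser A} (h : emb A t = pairHom B x) (M : ℕ) :
    Ordinary.trunc B (⊥ : Subgroup G) M x = modPair G q M t := by
  rw [Ordinary.trunc_eq (good_of_emb h), Ordinary.Good.lift_eq (good_of_emb h)
    (Ordinary.mapPair (toBot G) t) (funext fun l => ?_)]
  · rfl
  · show (emb A t) l = B.pair x l
    rw [h]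
    rfl

variable (hS : B.IsGluing S m₀) (hne : S.Nonempty) (I : Ordinary.InertiaData B G)
  (hA : Ordinary.RankOneAt A q) {R : RatFrame B} {e : ℕ} {u : A}
  (hu : π u ≠ 0) (hqe : (q : K) = R.ϖ ^ e * u)

include hS hne I hA hu hqe in
theorem trivN_of_near (D : Ordinary.SecData B m₀) {x : F} {xs : Ser A}
    (hx : emb A xs = pairHom B x) (hnear : ∀ n, Near R n xs) (M : ℕ) :
    (D.frame (Fact.out : q.Prime).two_le I hS hne).TrivN
      (Ordinary.toTRing A (⊥ : Subgroup G) q M) (Ordinary.trunc B ⊥ M x) := by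
  classical
  obtain ⟨s, p, hs, hs1, hp, hpL, hp1, ε, hε⟩ := hnear (e * M)
  obtain ⟨sF, ⟨-, m, hm⟩, hsF⟩ := mem_secS.mp hs
  set Φ := D.frame (Fact.out : q.Prime).two_le I hS hne
  have hq0 : modPair G q M (pw R.toFrame ^ (e * M)) = 0 := by
    have hu0 : (u : K) ≠ 0 := fun h => hu (by rw [show u = 0 from Subtype.ext h, map_zero])
    set w : A := ⟨(u : K)⁻¹, residue_ne_zero_inv_mem R.π_surjective u.2 hu⟩
    have he : pw R.toFrame ^ (e * M) = cst (((q : A) * w) ^ M) := by
      rw [pw, ← map_pow, pow_mul]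
      refine congrArg cst (congrArg (· ^ M) (Subtype.ext ?_))
      push_cast
      show R.ϖ ^ e = (q : K) * (u : K)⁻¹
      rw [hqe, mul_assoc, mul_inv_cancel₀ hu0, mul_one]
    rw [he]
    refine Ordinary.ext_cf fun γ => ?_
    show Ideal.Quotient.mk _ (toBot G (((cst (((q : A) * w) ^ M) : Ser A) γ.1).coeff γ.2)) = 0
    show Ideal.Quotient.mk _ (toBot G ((HahnSeries.single 0 (((q : A) * w) ^ M)).coeff γ.2)) = 0
    rw [HahnSeries.coeff_single]
    split_ifs
    · refine (Ordinary.mk_eq_zero_iff hA.ne_zero).mpr ⟨(w : K) ^ M, pow_mem w.2 M, ?_⟩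
      show ((((q : A) * w) ^ M : A) : K) = _
      push_cast
      rw [mul_pow]
    · simp
  have hsec : Φ.TrivN (Ordinary.toTRing A (⊥ : Subgroup G) q M) (modPair G q M s) := by
    rw [← trunc_of_emb hsF.symm]
    refine Ordinary.trivN_section _ hS hne I D hA hm (good_of_emb hsF.symm)
      ⟨(good_of_emb (G := G) hsF.symm).int, fun i => ?_⟩
    rw [← pairHom_apply, hsF, redSeries_emb, hs1, Pi.one_apply, map_one, Pi.one_apply]
  have hpow : Φ.TrivN (Ordinary.toTRing A (⊥ : Subgroup G) q M) (modPair G q M p) := by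
    obtain ⟨p', hp'⟩ := pw_dvd_of_red2 R.toFrame (sub_mem hpL (one_mem _))
      (by rw [map_sub, hp1, map_one, sub_self])
    set a := Ideal.Quotient.mk (Ordinary.qIdeal A (⊥ : Subgroup G) q M)
      (toBot G ⟨R.ϖ, R.ϖ_mem_A⟩) with ha
    have hnu : R.ϖ ∈ A.nonunits := by
      by_contra hn
      rw [A.mem_nonunits_iff] at hn
      have hunit : IsUnit (⟨R.ϖ, R.ϖ_mem_A⟩ : A) := (A.valuation_eq_one_iff _).mpr
        (le_antisymm ((A.valuation_le_one_iff _).mpr R.ϖ_mem_A) (not_lt.mp hn))
      exact (hunit.map π).ne_zero R.π_ϖ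
    rw [show modPair G q M p = 1 + modPair G q M (p - 1) by rw [map_sub, map_one, add_sub_cancel]]
    refine Ordinary.Frame.trivN_one_add_noPole (fun γ hγ => ?_)
      (I := Ideal.span (Set.range fun _ : Unit => a))
      (Ordinary.Frame.isNilpotent_span_range fun _ => Ordinary.isNilpotent_mk hA hnu) fun γ => ?_
    · show Ideal.Quotient.mk _ (toBot G (((p - 1 : Ser A) γ.1).coeff γ.2)) = 0
      rw [(sub_mem hp (one_mem (powS A)) : p - 1 ∈ powS A) γ.1 γ.2 hγ, map_zero, map_zero]
    · show Ideal.Quotient.mk _ (toBot G (((p - 1 : Ser A) γ.1).coeff γ.2)) ∈ _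
      rw [hp', pw, coeff_cst_mul, map_mul, map_mul]
      exact Ideal.mul_mem_right _ _ (Ideal.subset_span ⟨(), rfl⟩)
  obtain ⟨t', ht', e'⟩ := (hsec.mul hpow).exists_inv
  have h1 : modPair G q M xs * (modPair G q M s * modPair G q M p) = 1 := by
    have := congrArg (modPair G q M) hε
    rw [map_sub, map_mul, map_mul, map_one, map_mul, hq0, zero_mul, sub_eq_zero, mul_assoc] at this
    exact this
  rw [trunc_of_emb hx, show modPair G q M xs = t' by
    calc modPair G q M xs = modPair G q M xs * ((modPair G q M s * modPair G q M p) * t') := by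
          rw [e', mul_one]
      _ = t' := by rw [← mul_assoc, h1, one_mul]]
  exact ht'

theorem reducesToPow_of_red {q' : ℕ} {G₁ f : F} (hG : G₁ ≠ 0) (h : B.IsRed (G₁ ^ q' * f) 1) :
    B.ReducesToPow q' f := fun i => by
  obtain ⟨c, p, hc, hp, hr⟩ := B.exists_hasRed_smul i hG
  have h1 : B.HasRed i (G₁ ^ q' * f) 1 := by
    refine ⟨G₁ ^ q' * f, 1, h.1 i, by rw [map_one]; exact IntSeries.one, ?_, mul_one _, ?_⟩
    · rw [map_one, redSeries_one]; exact one_ne_zero
    · rw [map_one (B.e i), redSeries_one, mul_one, ← h.2 i, Pi.one_apply]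
  have hpow : ∀ n : ℕ, B.HasRed i ((c • G₁) ^ n) (p ^ n) := fun n => by
    induction n with
    | zero =>
      exact ⟨1, 1, by rw [map_one]; exact IntSeries.one, by rw [map_one]; exact IntSeries.one,
        by rw [map_one, redSeries_one]; exact one_ne_zero, by rw [pow_zero, one_mul],
        by rw [map_one (B.e i), redSeries_one, pow_zero, map_one, one_mul]⟩
    | succ n ih => rw [pow_succ, pow_succ]; exact ih.mul hr
  have h2 := h1.mul ((hpow q').inv (pow_ne_zero _ hp))
  rw [one_mul, ← inv_pow p q'] at h2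
  refine ⟨(c ^ q')⁻¹, p⁻¹, inv_ne_zero (pow_ne_zero _ hc), inv_ne_zero hp, ?_⟩
  convert h2 using 1
  rw [Algebra.smul_def, Algebra.smul_def, mul_pow, map_inv₀, map_pow]
  field_simp

include hS hne I hA hu hqe in
/-- **A representative near at every level is trivial.** -/
theorem eq_zero_of_near (hbound : ∀ a : K, ∃ e : ℕ, (q : K) ^ e * a ∈ A) {y : Pic0 K F}
    (d : Ordinary.RepData B y) {xs : Ser A} (hx : emb A xs = pairHom B d.x)
    (hnear : ∀ n, Near R n xs) : y = 0 := by
  by_contra hy
  obtain ⟨D⟩ := Ordinary.nonempty_secData (Fact.out : q.Prime).two_le hS hne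
  have hG : d.G₁ ≠ 0 := fun h => by
    have h1 := d.red₁.2 0
    rw [h, zero_pow (NeZero.ne q), zero_mul, map_zero, redSeries_zero, Pi.one_apply, map_one] at h1
    exact one_ne_zero h1
  obtain ⟨M, hM⟩ := d.exists_not_trivN _ hS hne I D hA (reducesToPow_of_red hG d.red₁) hbound hy
  exact hM M le_rfl (trivN_of_near hS hne I hA hu hqe D hx hnear M)

end FLTA.LevelLowering.Removal

end
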